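import Fermat.Agent.LT.Lift.HoneGroup

/-!
# The integral group fixes the indices

`honeGroup M e` fixes every index `(dia û, J)`, acts with kernel `± 1`, and a partition of unity
of a stabiliser equal to its image sums to two over it.
-/

set_option autoImplicit false

noncomputable section

open Matrix NumberField CongruenceSubgroup
open scoped MatrixGroups UpperHalfPlane NumberField

namespace Fermat.Agent.LT.Lift

open LiftHecke Asai

variable (M : ℕ) [NeZero M] {e : ℕ}

open Fermat.Agent.LT.Lift.Unitary in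
/-- The conjugate by the frame is integral, with residue the upper left entry. -/
theorem planeConj_reduces {γ : SL(2, ℤ)} (hγ : γ ∈ honeGroup M e) :
    (∀ i j, (glIncl EisField (planeConj M γ)).val i j ∈ integralAdele EisField) ∧
      Unitary.MReduces (honeLevel M e) (glIncl EisField (planeConj M γ)).val
        !![(γ 0 0 : ResL (honeLevel M e)), 0; 0, (γ 0 0 : ResL (honeLevel M e))] := by
  obtain ⟨⟨b', hb⟩, ⟨c', hc⟩, ⟨d', hd⟩⟩ := hγ
  set L := honeLevel M e with hL
  set s : 𝓞 EisField := ⟨3 * planeDelta, isIntegral_three_mul_planeDelta⟩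
  have hs : (s : EisField) = 3 * planeDelta := rfl
  have hM0 : (M : EisField) ≠ 0 := Nat.cast_ne_zero.2 (NeZero.ne M)
  set Mo : Matrix (Fin 2) (Fin 2) (𝓞 EisField) :=
    !![((γ 0 0 : ℤ) : 𝓞 EisField), (L : 𝓞 EisField) * (s * (b' : 𝓞 EisField));
      (L : 𝓞 EisField) * -(s * (c' : 𝓞 EisField)), ((γ 1 1 : ℤ) : 𝓞 EisField)] with hMo
  have hu : ((planeUnit M : EisFieldˣ) : EisField) = (M : EisField) * planeDelta := rfl
  have hval : (glIncl EisField (planeConj M γ)).val = Mo.map oIncl := by
    have e1 : (planeConj M γ).val = Mo.map (algebraMap (𝓞 EisField) EisField) := by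
      rw [planeConj_val, hMo]
      ext i j
      fin_cases i <;> fin_cases j <;>
        simp [-Units.val_inv_eq_inv_val, hs]
      · rw [hu, hb, hL, honeLevel]
        push_cast
        rw [pow_succ]
        ring
      · rw [hc, Units.val_inv_eq_inv_val, hu, hL]
        push_cast
        have hdi : planeDelta⁻¹ = -(3 * planeDelta) :=
          inv_eq_of_mul_eq_one_right (by linear_combination -planeDelta_sq)
        rw [mul_inv, hdi]
        field_simp
    exact Matrix.ext fun i j => congrArg (finIncl EisField) (congrFun (congrFun e1 i) j)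
  refine ⟨fun i j => by rw [hval]; exact oIncl_mem (Mo i j), ?_⟩
  have hmap : Mo.map (resMap L) = !![(γ 0 0 : ResL L), 0; 0, (γ 0 0 : ResL L)] := by
    have hL0 : resMap L (L : 𝓞 EisField) = 0 := (resMap_eq_zero_iff L).2 dvd_rfl
    have hd0 : ((γ 0 0 - γ 1 1 : ℤ) : ResL L) = 0 := by
      rw [hd, ← map_intCast (resMap L), Int.cast_mul, Int.cast_natCast, map_mul, hL0, zero_mul]
    rw [Int.cast_sub, sub_eq_zero] at hd0
    rw [hMo]
    ext i j
    fin_cases i <;> fin_cases j <;> simp [map_intCast, hL0, hd0]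
  rw [hval, ← hmap]
  exact mReduces_map

open Fermat.Agent.LT.Lift.Unitary in
/-- An integral matrix with scalar residue `a` fixes the cosets of diagonal unit ideles. -/
theorem mk_mul_dia_of_reduces {L : ℕ} (hL : 0 < L) {x : GLFin EisField} (hx : Reduction.IntGL x)
    {a : ResL L} (ha : IsUnit a) (hxr : MReduces L x.val !![a, 0; 0, a])
    {w : (FinAdele EisField)ˣ} (hwi : (w : FinAdele EisField) ∈ integralAdele EisField)
    (hwi' : ((w⁻¹ : (FinAdele EisField)ˣ) : FinAdele EisField) ∈ integralAdele EisField) :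
    (QuotientGroup.mk (x * dia w) : GLFin EisField ⧸ (Level.principal EisField L hL).toSubgroup) =
      QuotientGroup.mk (dia w) := by
  obtain ⟨z, hzi, hzi', hz⟩ := exists_unit_idele hL ha
  obtain ⟨r, hr⟩ := exists_reduces hL hwi
  have hwI : Reduction.IntGL (dia w : GLFin EisField) := intGL_dia hwi hwi'
  have hzI : Reduction.IntGL (scalarFin EisField z) := intGL_scalarFin hzi hzi'
  have hdr : MReduces L (dia w : GLFin EisField).val !![r, 0; 0, 1] :=
    mReduces_fin hr reduces_zero reduces_zero reduces_one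
  have hzr : MReduces L (scalarFin EisField z).val !![a, 0; 0, a] := by
    rw [scalarFin_val]; exact mReduces_fin hz reduces_zero reduces_zero hz
  have hPr : MReduces L (dia w * scalarFin EisField z).val !![r * a, 0; 0, a] := by
    have := hdr.mul hzr
    rw [Units.val_mul]
    convert this using 1
    ext i j
    fin_cases i <;> fin_cases j <;> simp [Matrix.mul_apply, Fin.sum_univ_two]
  have hGr : MReduces L (x * dia w).val !![r * a, 0; 0, a] := by
    have := hxr.mul hdr
    rw [Units.val_mul]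
    convert this using 1
    ext i j
    fin_cases i <;> fin_cases j <;> simp [Matrix.mul_apply, Fin.sum_univ_two, mul_comm]
  have hPG := isPrincipal_inv_mul hL (hwI.mul hzI) (hx.mul hwI) hPr hGr
  refine (QuotientGroup.eq.2 (mem_principal_of_isPrincipal hL _ hPG)).symm.trans
    (QuotientGroup.eq.2 ?_)
  rw [_root_.mul_inv_rev, inv_mul_cancel_right]
  exact inv_mem ((Level.principal EisField L hL).scalar_mem z)

omit [NeZero M] in
theorem isUnit_upperLeft {γ : SL(2, ℤ)} (hγ : γ ∈ honeGroup M e) :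
    IsUnit (γ 0 0 : Unitary.ResL (honeLevel M e)) := by
  have hdet : γ 0 0 * γ 1 1 - γ 0 1 * γ 1 0 = 1 := by
    rw [← Matrix.det_fin_two]; exact γ.det_coe
  obtain ⟨c', hc⟩ := hγ.2.1
  refine IsUnit.of_mul_eq_one (γ 1 1 : Unitary.ResL (honeLevel M e)) ?_
  have hL0 : Unitary.resMap (honeLevel M e) (honeLevel M e : 𝓞 EisField) = 0 :=
    (Unitary.resMap_eq_zero_iff _).2 dvd_rfl
  rw [map_natCast] at hL0
  rw [hc] at hdet
  have h := congrArg (fun n : ℤ => (n : Unitary.ResL (honeLevel M e))) hdet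
  simp only [Int.cast_sub, Int.cast_mul, Int.cast_natCast, Nat.cast_mul, Int.cast_one, hL0,
    zero_mul, mul_zero, sub_zero] at h
  exact h

/-- The conjugate preserves the standard form. -/
theorem pullMat_planeConj (γ : SL(2, ℤ)) :
    pullMat (Matrix.GeneralLinearGroup.map eisEmb (planeConj M γ)) (stdForm ℂ) = stdForm ℂ := by
  have hF : pullMat (planeFrame M) (stdForm ℂ) = baseVec := pullMat_planeFrame M
  set g := Matrix.GeneralLinearGroup.map eisEmb (slToGL EisField γ)
  have hconj : Matrix.GeneralLinearGroup.map eisEmb (planeConj M γ) =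
      planeFrame M * g * (planeFrame M)⁻¹ := by
    show Matrix.GeneralLinearGroup.map eisEmb
      (dia (planeUnit M) * slToGL EisField γ * (dia (planeUnit M))⁻¹) = _
    rw [map_mul, map_mul, map_inv]
    rfl
  have hv : g.val = !![((γ 0 0 : ℤ) : ℂ), (γ 0 1 : ℤ); (γ 1 0 : ℤ), (γ 1 1 : ℤ)] := by
    ext i j
    fin_cases i <;> fin_cases j <;> simp [g, slToGL_apply]
  have hdet : ((γ 0 0 : ℤ) : ℂ) * (γ 1 1 : ℤ) - (γ 0 1 : ℤ) * (γ 1 0 : ℤ) = 1 := by
    exact_mod_cast (by rw [← Matrix.det_fin_two]; exact γ.det_coe :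
      γ 0 0 * γ 1 1 - γ 0 1 * γ 1 0 = 1)
  have hd : g.val.det = 1 := by rw [hv, Matrix.det_fin_two_of, hdet]
  have hi : (g.val)⁻¹ = !![((γ 1 1 : ℤ) : ℂ), -(γ 0 1 : ℤ); -(γ 1 0 : ℤ), (γ 0 0 : ℤ)] := by
    rw [Matrix.inv_def, hd, hv, Matrix.adjugate_fin_two_of, Ring.inverse_one, one_smul]
  have hg : pullMat g baseVec = baseVec := by
    rw [pullMat, hd, norm_one, Complex.ofReal_one, one_smul, ← Matrix.conjTranspose_nonsing_inv, hi]
    ext i j
    fin_cases i <;> fin_cases j <;>
      simp [baseVec, Matrix.mul_apply, Fin.sum_univ_two, Matrix.conjTranspose_apply]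
    · ring
    · linear_combination Complex.I * hdet
    · linear_combination -Complex.I * hdet
    · ring
  rw [hconj, pullMat_mul, pullMat_mul, hF, hg]
  conv_lhs => rw [← hF]
  rw [← pullMat_mul, mul_inv_cancel, pullMat_one]

/-- **The group fixes the indices.** -/
theorem honeHom_smul_unitIndex [NeZero (honeLevel M e ^ 2)] (hL : 0 < honeLevel M e)
    {γ : SL(2, ℤ)} (hγ : γ ∈ honeGroup M e) (u : (ZMod (honeLevel M e ^ 2))ˣ) :
    honeHom M γ • unitIndex hL u = unitIndex hL u := by
  obtain ⟨hG, hGr⟩ := planeConj_reduces M hγ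
  obtain ⟨hG', -⟩ := planeConj_reduces M (inv_mem hγ)
  rw [map_inv, map_inv] at hG'
  rw [honeHom_apply, adelicIndex_mk_smul, smul_unitIndex_iff]
  exact ⟨mk_mul_dia_of_reduces hL ⟨hG, hG'⟩ (isUnit_upperLeft M hγ) hGr (hatUnit_mem _ u)
    (hatUnit_inv_mem _ u), pullMat_planeConj M γ⟩

/-- The kernel is `± 1`. -/
theorem honeHom_eq_one_iff (γ : SL(2, ℤ)) : honeHom M γ = 1 ↔ γ = 1 ∨ γ = -1 := by
  constructor
  · intro h
    obtain ⟨a, ha⟩ := (QuotientGroup.eq_one_iff _).mp
      (show (QuotientGroup.mk (planeConj M γ) : PGLIndex EisField) = 1 from h)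
    have hv := congrArg Units.val ha.symm
    rw [planeConj_val, scalarGlobal_val] at hv
    have h01 := congrFun (congrFun hv 0) 1
    have h10 := congrFun (congrFun hv 1) 0
    have h00 := congrFun (congrFun hv 0) 0
    have h11 := congrFun (congrFun hv 1) 1
    simp at h01 h10 h00 h11
    have had : γ 0 0 = γ 1 1 := by exact_mod_cast h00.trans h11.symm
    have hdet : γ 0 0 * γ 1 1 - γ 0 1 * γ 1 0 = 1 := by
      rw [← Matrix.det_fin_two]; exact γ.det_coe
    rw [h01, zero_mul, sub_zero, ← had] at hdet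
    rcases mul_self_eq_one_iff.mp hdet with h1 | h1
    · left
      ext i j
      fin_cases i <;> fin_cases j <;> simp [h01, h10, ← had, h1]
    · right
      ext i j
      fin_cases i <;> fin_cases j <;> simp [h01, h10, ← had, h1]
  · rintro (rfl | rfl)
    · exact map_one _
    · refine (QuotientGroup.eq_one_iff _).mpr ⟨-1, ?_⟩
      refine Units.ext ?_
      rw [scalarGlobal_val, planeConj_val]
      ext i j
      fin_cases i <;> fin_cases j <;> simp

variable (e) in
/-- `honeGroup M e` has finite index. -/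
theorem finiteIndex_honeGroup : (honeGroup M e).FiniteIndex := by
  have : NeZero (3 ^ (2 * e + 3) * (honeLevel M e * M)) :=
    ⟨mul_ne_zero (pow_ne_zero _ three_ne_zero)
      (mul_ne_zero (honeLevel_pos (NeZero.pos M) e).ne' (NeZero.ne M))⟩
  refine Subgroup.finiteIndex_of_le (H := Gamma (3 ^ (2 * e + 3) * (honeLevel M e * M)))
    fun γ hγ => ?_
  obtain ⟨ha, hb, hc, hd⟩ := Gamma_mem.mp hγ
  rw [ZMod.intCast_zmod_eq_zero_iff_dvd, Nat.cast_mul] at hb hc
  refine ⟨(dvd_mul_right _ _).trans hb, (dvd_mul_left _ _).trans hc, ?_⟩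
  have h : ((γ 0 0 - γ 1 1 : ℤ) : ZMod (3 ^ (2 * e + 3) * (honeLevel M e * M))) = 0 := by
    rw [Int.cast_sub, ha, hd, sub_self]
  rw [ZMod.intCast_zmod_eq_zero_iff_dvd] at h
  push_cast at h
  exact ((dvd_mul_right _ _).trans (dvd_mul_left _ _)).trans h

omit [NeZero M] in
theorem neg_one_mem_honeGroup : (-1 : SL(2, ℤ)) ∈ honeGroup M e := by
  simp [mem_honeGroup_iff]

/-- A partition of unity of the stabiliser sums to two over the group. -/
theorem hasSum_honeGroup [NeZero (honeLevel M e ^ 2)] (hL : 0 < honeLevel M e)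
    (u : (ZMod (honeLevel M e ^ 2))ˣ)
    (hs : ∀ g : AdelicG eisFrame.toHermFrame, g • unitIndex hL u = unitIndex hL u →
      ∃ γ ∈ honeGroup M e, honeHom M γ = g)
    {f : MulAction.stabilizer (AdelicG eisFrame.toHermFrame) (unitIndex hL u) → ℝ}
    (hf : HasSum f 1) :
    HasSum (fun γ : honeGroup M e => f ⟨honeHom M γ,
      MulAction.mem_stabilizer_iff.mpr (honeHom_smul_unitIndex M hL γ.2 u)⟩) 2 := by
  set S := MulAction.stabilizer (AdelicG eisFrame.toHermFrame) (unitIndex hL u)
  set ρ : honeGroup M e → S := fun γ => ⟨honeHom M γ,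
    MulAction.mem_stabilizer_iff.mpr (honeHom_smul_unitIndex M hL γ.2 u)⟩
  have hsur : ∀ g : S, ∃ γ : honeGroup M e, ρ γ = g := fun g => by
    obtain ⟨γ, hγ, hg⟩ := hs g (MulAction.mem_stabilizer_iff.mp g.2)
    exact ⟨⟨γ, hγ⟩, Subtype.ext hg⟩
  choose σ hσ using hsur
  have hneg : honeHom M (-1) = 1 := (honeHom_eq_one_iff M _).mpr (Or.inr rfl)
  set n : honeGroup M e := ⟨-1, neg_one_mem_honeGroup M⟩
  have hn : ∀ γ, ρ (n * γ) = ρ γ := fun γ => Subtype.ext (by
    show honeHom M ((-1 : SL(2, ℤ)) * γ) = honeHom M γ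
    rw [map_mul, hneg, one_mul])
  set T : S ⊕ S → honeGroup M e := Sum.elim σ fun g => n * σ g
  have hTρ : ∀ x, ρ (T x) = Sum.elim id id x := by
    rintro (g | g)
    · exact hσ g
    · exact (hn _).trans (hσ g)
  have hne : ∀ γ : honeGroup M e, n * γ ≠ γ := fun γ h => by
    have := congrArg (fun x : honeGroup M e => (x : SL(2, ℤ))) (mul_eq_right.mp h)
    have h00 := congrFun (congrFun (congrArg Subtype.val this) 0) 0
    simp [n] at h00
  have hT : Function.Bijective T := by
    refine ⟨fun x y h => ?_, fun γ => ?_⟩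
    · have := congrArg ρ h
      rw [hTρ, hTρ] at this
      rcases x with g | g <;> rcases y with g' | g' <;> simp only [Sum.elim_inl, Sum.elim_inr, id_eq] at this <;>
        subst this
      · rfl
      · exact absurd h.symm (hne _)
      · exact absurd h (hne _)
      · rfl
    · have hh : honeHom M ((γ : SL(2, ℤ)) * ((σ (ρ γ) : honeGroup M e) : SL(2, ℤ))⁻¹) = 1 := by
        rw [map_mul, map_inv, show honeHom M (σ (ρ γ) : honeGroup M e) = honeHom M γ from
          congrArg Subtype.val (hσ (ρ γ)), mul_inv_cancel]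
      rcases (honeHom_eq_one_iff M _).mp hh with h1 | h1
      · exact ⟨Sum.inl (ρ γ), Subtype.ext (mul_inv_eq_one.mp h1).symm⟩
      · exact ⟨Sum.inr (ρ γ), Subtype.ext (mul_inv_eq_iff_eq_mul.mp h1).symm⟩
  refine (Equiv.ofBijective T hT).hasSum_iff.mp ?_
  rw [show (2 : ℝ) = 1 + 1 by norm_num]
  exact HasSum.sum (hf.congr_fun fun g => congrArg _ (hTρ (Sum.inl g)))
    (hf.congr_fun fun g => congrArg _ (hTρ (Sum.inr g)))

end Fermat.Agent.LT.Lift

end
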