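import Mathlib.Analysis.SpecialFunctions.Trigonometric.DerivHyp
import Mathlib.MeasureTheory.Integral.IntervalIntegral.FundThmCalculus
import Mathlib.MeasureTheory.Integral.IntervalIntegral.Periodic
import Mathlib.MeasureTheory.Integral.Prod
import Mathlib.MeasureTheory.Group.Integral
import Mathlib.MeasureTheory.Measure.Lebesgue.Integral
import Mathlib.Topology.Instances.RealVectorSpace

/-!
# The one-variable core of the theta lift

A weighted functional on functions of one real variable that commutes with the averaging kernels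
`max (cosh ρ - cosh s) 0`, with eigenvalue their mass, is integration against an affine
function.
-/

set_option autoImplicit false

noncomputable section

open MeasureTheory Real Filter Topology Set

namespace Fermat.Agent.LT.Lift

/-- The kernel of a hyperbolic ball, read on the line. -/
def ballKer (ρ s : ℝ) : ℝ := max (cosh ρ - cosh s) 0

theorem ballKer_nonneg (ρ s : ℝ) : 0 ≤ ballKer ρ s := le_max_right _ _

theorem ballKer_neg (ρ s : ℝ) : ballKer ρ (-s) = ballKer ρ s := by simp [ballKer]

/-- The ball kernel is continuous. -/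
theorem continuous_ballKer (ρ : ℝ) : Continuous (ballKer ρ) := by
  unfold ballKer; fun_prop

theorem locallyLipschitz_ballKer (ρ : ℝ) : LocallyLipschitz (ballKer ρ) :=
  ((ContDiff.locallyLipschitz (𝕂 := ℝ) (f := fun s => cosh ρ - cosh s)
    (contDiff_const.sub contDiff_cosh))).max_const 0

/-- The ball kernel vanishes outside `[-ρ, ρ]`. -/
theorem ballKer_eq_zero {ρ s : ℝ} (hρ : 0 ≤ ρ) (h : ρ ≤ |s|) : ballKer ρ s = 0 :=
  max_eq_right (sub_nonpos.mpr (cosh_le_cosh.mpr (by rwa [abs_of_nonneg hρ])))

/-- The ball kernel inside `[-ρ, ρ]`. -/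
theorem ballKer_of_abs_le {ρ s : ℝ} (hρ : 0 ≤ ρ) (h : |s| ≤ ρ) :
    ballKer ρ s = cosh ρ - cosh s :=
  max_eq_left (sub_nonneg.mpr (cosh_le_cosh.mpr (by rwa [abs_of_nonneg hρ])))

theorem hasCompactSupport_ballKer {ρ : ℝ} (hρ : 0 ≤ ρ) : HasCompactSupport (ballKer ρ) :=
  HasCompactSupport.intro (isCompact_Icc (a := -ρ) (b := ρ)) fun s hs =>
    ballKer_eq_zero hρ (by
      by_contra hlt
      exact hs (abs_le.mp (not_le.mp hlt).le))

/-- The mass of the kernel. -/
def ballMass (ρ : ℝ) : ℝ := ∫ s, ballKer ρ s

/-- The average of `h` around `x`. -/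
def ballConv (ρ : ℝ) (h : ℝ → ℝ) (x : ℝ) : ℝ := ∫ s, ballKer ρ s * h (x + s)

theorem integral_ballKer_smul_eq_interval {ρ : ℝ} (hρ : 0 < ρ) (f : ℝ → ℂ) :
    ∫ s, ballKer ρ s • f s = ∫ s in (-ρ)..ρ, (cosh ρ - cosh s) • f s := by
  rw [intervalIntegral.integral_of_le (by linarith),
    ← setIntegral_eq_integral_of_forall_compl_eq_zero (s := Ioc (-ρ) ρ) fun s hs => ?_]
  · refine setIntegral_congr_fun measurableSet_Ioc fun s hs => ?_
    rw [ballKer_of_abs_le hρ.le (abs_le.mpr ⟨hs.1.le, hs.2⟩)]
  · rw [ballKer_eq_zero hρ.le ?_, zero_smul]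
    by_contra hlt
    obtain ⟨h1, h2⟩ := abs_lt.mp (not_le.mp hlt)
    exact hs ⟨h1, h2.le⟩

theorem ballMass_pos {ρ : ℝ} (hρ : 0 < ρ) : 0 < ballMass ρ := by
  refine (continuous_ballKer ρ).integral_pos_of_hasCompactSupport_nonneg_nonzero
    (hasCompactSupport_ballKer hρ.le) (ballKer_nonneg ρ) (x := 0) ?_
  rw [ballKer_of_abs_le hρ.le (by simp [hρ.le]), cosh_zero]
  exact sub_ne_zero.mpr (one_lt_cosh.mpr hρ.ne').ne'

/-- A continuous function with the mean value property for all `ballKer ρ` is affine. -/
theorem affine_of_ball_mean (g : ℝ → ℂ) (hg : Continuous g)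
    (h : ∀ (L ρ : ℝ), 0 < ρ → ∫ s, ballKer ρ s • g (L + s) = ballMass ρ • g L) :
    ∃ A B : ℂ, ∀ L : ℝ, g L = A + L • B := by
  have hmid : ∀ L s : ℝ, g (L + s) + g (L - s) = 2 * g L := by
    intro L
    set D : ℝ → ℂ := fun s => g (L + s) - g L with hD
    have hDc : Continuous D := by fun_prop
    have hDe : Continuous fun s : ℝ => (cosh s) • D s := by fun_prop
    -- the primitives
    set P : ℝ → ℂ := fun ρ => ∫ s in (-ρ)..ρ, D s with hP
    set Q : ℝ → ℂ := fun ρ => ∫ s in (-ρ)..ρ, (cosh s) • D s with hQ
    have hderiv : ∀ (F : ℝ → ℂ), Continuous F → ∀ ρ : ℝ,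
        HasDerivAt (fun ρ => ∫ s in (-ρ)..ρ, F s) (F ρ + F (-ρ)) ρ := by
      intro F hF ρ
      have e : (fun ρ => ∫ s in (-ρ)..ρ, F s)
          = fun ρ => (∫ s in (0:ℝ)..ρ, F s) - ∫ s in (0:ℝ)..(-ρ), F s := funext fun ρ =>
        (intervalIntegral.integral_interval_sub_left (hF.intervalIntegrable _ _)
          (hF.intervalIntegrable _ _)).symm
      rw [e]
      have h1 := (hF.integral_hasStrictDerivAt 0 ρ).hasDerivAt
      have h2 := ((hF.integral_hasStrictDerivAt 0 (-ρ)).hasDerivAt).scomp ρ (hasDerivAt_neg ρ)
      have := h1.sub h2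
      rw [show F ρ + F (-ρ) = F ρ - (-1 : ℝ) • F (-ρ) by simp]
      exact this
    have hzero : ∀ ρ : ℝ, 0 < ρ → cosh ρ • P ρ - Q ρ = 0 := by
      intro ρ hρ
      have hint : Integrable (fun s => ballKer ρ s • g (L + s)) := by
        refine Continuous.integrable_of_hasCompactSupport
          ((continuous_ballKer ρ).smul (by fun_prop)) ?_
        exact (hasCompactSupport_ballKer hρ.le).smul_right
      have hint' : Integrable (fun s => ballKer ρ s • g L) :=
        Continuous.integrable_of_hasCompactSupport ((continuous_ballKer ρ).smul continuous_const)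
          (hasCompactSupport_ballKer hρ.le).smul_right
      have h0 : ∫ s, ballKer ρ s • D s = 0 := by
        simp only [hD, smul_sub]
        rw [integral_sub hint hint', h L ρ hρ, integral_smul_const, ballMass, sub_self]
      rw [integral_ballKer_smul_eq_interval hρ] at h0
      simp only [sub_smul] at h0
      rw [intervalIntegral.integral_sub
        ((show Continuous fun s : ℝ => cosh ρ • D s by fun_prop).intervalIntegrable _ _)
        (hDe.intervalIntegrable _ _), intervalIntegral.integral_smul] at h0
      exact h0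
    have hP0 : ∀ ρ : ℝ, 0 < ρ → P ρ = 0 := by
      intro ρ hρ
      have hd : HasDerivAt (fun t => cosh t • P t - Q t) (sinh ρ • P ρ) ρ := by
        have := ((hasDerivAt_cosh ρ).smul (hderiv D hDc ρ)).sub (hderiv _ hDe ρ)
        refine this.congr_deriv ?_
        simp only [cosh_neg, hP]
        module
      have hd0 : HasDerivAt (fun t => cosh t • P t - Q t) 0 ρ :=
        (hasDerivAt_const ρ (0 : ℂ)).congr_of_eventuallyEq
          (eventuallyEq_of_mem (Ioi_mem_nhds hρ) hzero)
      exact (smul_eq_zero.mp (hd.unique hd0)).resolve_left (sinh_pos_iff.mpr hρ).ne'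
    have hpos : ∀ s : ℝ, 0 < s → D s + D (-s) = 0 := fun s hs =>
      (hderiv D hDc s).unique ((hasDerivAt_const s (0 : ℂ)).congr_of_eventuallyEq
        (eventuallyEq_of_mem (Ioi_mem_nhds hs) hP0))
    intro s
    rcases lt_trichotomy s 0 with hs | rfl | hs
    · have := hpos (-s) (neg_pos.mpr hs)
      simp only [hD, neg_neg, ← sub_eq_add_neg] at this
      linear_combination this
    · simp; ring
    · have := hpos s hs
      simp only [hD, ← sub_eq_add_neg] at this
      linear_combination this
  set e : ℝ → ℂ := fun x => g x - g 0 with he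
  have hadd : ∀ x y, e (x + y) = e x + e y := by
    intro x y
    have h1 := hmid ((x + y) / 2) ((x - y) / 2)
    have h2 := hmid ((x + y) / 2) ((x + y) / 2)
    rw [show (x + y) / 2 + (x - y) / 2 = x by ring, show (x + y) / 2 - (x - y) / 2 = y by ring] at h1
    rw [show (x + y) / 2 + (x + y) / 2 = x + y by ring, sub_self] at h2
    simp only [he]
    linear_combination h2 - h1
  refine ⟨g 0, e 1, fun L => ?_⟩
  have hlin := map_real_smul (AddMonoidHom.mk' e hadd) (hg.sub continuous_const) L 1
  rw [smul_eq_mul, mul_one] at hlin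
  simp only [AddMonoidHom.mk'_apply] at hlin
  rw [← hlin]
  simp [he]

section Functional

variable {Z : Type*} [MeasurableSpace Z]

/-- The functional `h ↦ ∫ w · (h ∘ r)`. -/
def lineFun (ν : Measure Z) (w : Z → ℂ) (r : Z → ℝ) (h : ℝ → ℝ) : ℂ := ∫ z, h (r z) • w z ∂ν

/-- Test functions: all, or (`odd = true`) the odd ones. -/
def Admissible (odd : Bool) (h : ℝ → ℝ) : Prop := odd = true → ∀ x, h (-x) = -h x

/-- `|h|`, made odd when `odd = true`. -/
def absPart (odd : Bool) (h : ℝ → ℝ) (x : ℝ) : ℝ :=
  if odd then (if 0 ≤ x then |h x| else -|h x|) else |h x|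

/-- The functional commutes with all ball averages, on absolutely convergent data. -/
def BallEigen (odd : Bool) (ν : Measure Z) (w : Z → ℂ) (r : Z → ℝ) : Prop :=
  ∀ ρ : ℝ, 0 < ρ → ∀ h : ℝ → ℝ, LocallyLipschitz h → Admissible odd h →
    Integrable (fun z => h (r z) • w z) ν →
    Integrable (fun z => |ballConv ρ (absPart odd h) (r z)| * ‖w z‖) ν →
      lineFun ν w r (ballConv ρ h) = ballMass ρ • lineFun ν w r h

theorem ballConv_translate (ρ x : ℝ) (h : ℝ → ℝ) :
    ballConv ρ h x = ∫ t, ballKer ρ (x - t) * h t := by
  rw [ballConv, ← integral_add_right_eq_self (fun t => ballKer ρ (x - t) * h t) x]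
  congr 1
  funext s
  rw [sub_add_cancel_right, ballKer_neg, add_comm]

theorem continuous_ballConv {ρ : ℝ} (hρ : 0 ≤ ρ) {h : ℝ → ℝ} (hh : Continuous h) :
    Continuous (ballConv ρ h) := by
  unfold ballConv
  refine continuous_parametric_integral_of_continuous (μ := (volume : Measure ℝ))
    (f := fun x s => ballKer ρ s * h (x + s)) ?_ (isCompact_Icc (a := -ρ) (b := ρ))
    |>.congr fun x => ?_
  · have := continuous_ballKer ρ
    fun_prop
  · refine setIntegral_eq_integral_of_forall_compl_eq_zero fun s hs => ?_
    rw [ballKer_eq_zero hρ ?_, zero_mul]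
    by_contra hlt
    exact hs (abs_le.mp (not_le.mp hlt).le)

/-- The weight allowed at the origin: `1`, or `min |x| 1` for odd test functions. -/
def originWeight (odd : Bool) (x : ℝ) : ℝ := if odd then min |x| 1 else 1

/-- The weight at the origin is nonnegative. -/
theorem originWeight_nonneg (odd : Bool) (x : ℝ) : 0 ≤ originWeight odd x := by
  cases odd <;> simp [originWeight]

/-- The normalised kernel at `L`, symmetrised for odd test functions. -/
def symKer (odd : Bool) (L x : ℝ) : ℝ :=
  (ballMass 1)⁻¹ * (ballKer 1 (x - L) - if odd then ballKer 1 (x + L) else 0)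

theorem admissible_symKer (odd : Bool) (L : ℝ) : Admissible odd (symKer odd L) := by
  rintro rfl x
  simp only [symKer, if_true]
  rw [← ballKer_neg 1 (-x - L), ← ballKer_neg 1 (-x + L), show -(-x - L) = x + L by ring,
    show -(-x + L) = x - L by ring]
  ring

theorem continuous_symKer (odd : Bool) : Continuous (fun p : ℝ × ℝ => symKer odd p.1 p.2) := by
  have := continuous_ballKer 1
  cases odd <;> simp only [symKer, if_true, Bool.false_eq_true, if_false] <;> fun_prop

theorem continuous_symKer_right (odd : Bool) (L : ℝ) : Continuous (symKer odd L) := by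
  have := continuous_ballKer 1
  unfold symKer
  cases odd <;> simp only [if_true, Bool.false_eq_true, if_false] <;> fun_prop

theorem continuous_symKer_left (odd : Bool) (x : ℝ) : Continuous fun L => symKer odd L x := by
  have := continuous_ballKer 1
  cases odd <;> simp only [symKer, if_true, Bool.false_eq_true, if_false] <;> fun_prop

theorem locallyLipschitz_symKer (odd : Bool) (L : ℝ) : LocallyLipschitz (symKer odd L) := by
  have hk := locallyLipschitz_ballKer 1
  have hs : ContDiff ℝ 1 fun x : ℝ => x - L := contDiff_id.sub contDiff_const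
  have ha : ContDiff ℝ 1 fun x : ℝ => x + L := contDiff_id.add contDiff_const
  have hm : ContDiff ℝ 1 fun p : ℝ × ℝ => (ballMass 1)⁻¹ * (p.1 - p.2) :=
    contDiff_const.mul (contDiff_fst.sub contDiff_snd)
  cases odd
  · exact hm.locallyLipschitz.comp ((hk.comp hs.locallyLipschitz).prodMk (LocallyLipschitz.const 0))
  · exact hm.locallyLipschitz.comp
      ((hk.comp hs.locallyLipschitz).prodMk (hk.comp ha.locallyLipschitz))

theorem symKer_eq_zero (odd : Bool) {L x : ℝ} (hx : |L| + 1 < |x|) : symKer odd L x = 0 := by
  have h1 := abs_sub_abs_le_abs_sub x L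
  have h2 : |x| - |L| ≤ |x + L| := by simpa using abs_sub_abs_le_abs_sub x (-L)
  rw [symKer, ballKer_eq_zero zero_le_one (by linarith : (1 : ℝ) ≤ |x - L|),
    ballKer_eq_zero zero_le_one (by linarith : (1 : ℝ) ≤ |x + L|)]
  simp

attribute [local irreducible] symKer ballMass

theorem lipschitz_ballKer {ρ : ℝ} (hρ : 0 ≤ ρ) (x y : ℝ) :
    |ballKer ρ x - ballKer ρ y| ≤ sinh ρ * |x - y| := by
  have key : ∀ t : ℝ, ballKer ρ t = cosh ρ - cosh (min |t| ρ) := by
    intro t
    rcases le_total |t| ρ with h | h
    · rw [ballKer_of_abs_le hρ h, min_eq_left h, cosh_abs]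
    · rw [ballKer_eq_zero hρ h, min_eq_right h, sub_self]
  have hlip : ∀ u ∈ Icc (0 : ℝ) ρ, ∀ v ∈ Icc (0 : ℝ) ρ, |cosh u - cosh v| ≤ sinh ρ * |u - v| := by
    intro u hu v hv
    have := (convex_Icc (0 : ℝ) ρ).norm_image_sub_le_of_norm_deriv_le (f := cosh) (C := sinh ρ)
      (fun t _ => (hasDerivAt_cosh t).differentiableAt) (fun t ht => by
        rw [Real.deriv_cosh, Real.norm_eq_abs, abs_of_nonneg (sinh_nonneg_iff.mpr ht.1)]
        exact sinh_le_sinh.mpr ht.2) hv hu
    simpa [Real.norm_eq_abs] using this
  rw [key, key]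
  calc |cosh ρ - cosh (min |x| ρ) - (cosh ρ - cosh (min |y| ρ))|
      = |cosh (min |y| ρ) - cosh (min |x| ρ)| := by ring_nf
    _ ≤ sinh ρ * |min |y| ρ - min |x| ρ| :=
        hlip _ ⟨le_min (abs_nonneg _) hρ, min_le_right _ _⟩ _
          ⟨le_min (abs_nonneg _) hρ, min_le_right _ _⟩
    _ ≤ sinh ρ * |x - y| := by
        refine mul_le_mul_of_nonneg_left ?_ (sinh_nonneg_iff.mpr hρ)
        refine (abs_min_sub_min_le_max _ _ _ _).trans ?_
        rw [sub_self, abs_zero, max_eq_left (abs_nonneg _), abs_sub_comm x y]
        exact abs_abs_sub_abs_le_abs_sub y x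

theorem exists_bound_symKer (odd : Bool) :
    ∃ C : ℝ, 0 ≤ C ∧ ∀ L x, |symKer odd L x| ≤ C * originWeight odd x := by
  have hb : ∀ t, |ballKer 1 t| ≤ cosh 1 := fun t => by
    rw [abs_of_nonneg (ballKer_nonneg _ _)]
    exact max_le (by linarith [cosh_pos t]) (cosh_pos 1).le
  have hm := (inv_pos.mpr (ballMass_pos one_pos)).le
  refine ⟨(ballMass 1)⁻¹ * (2 * cosh 1 + 2 * sinh 1), mul_nonneg hm (by
    linarith [cosh_pos 1, sinh_pos_iff.mpr (one_pos (α := ℝ))]), fun L x => ?_⟩
  rw [symKer, abs_mul, abs_of_nonneg hm, mul_assoc]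
  refine mul_le_mul_of_nonneg_left ?_ hm
  have h1 := hb (x - L)
  have h2 := hb (x + L)
  have hs : 0 < sinh 1 := sinh_pos_iff.mpr one_pos
  cases odd
  · simp only [originWeight, Bool.false_eq_true, if_false, sub_zero, mul_one]
    linarith [cosh_pos 1]
  · simp only [originWeight, if_true]
    rcases le_total |x| 1 with hx | hx
    · rw [min_eq_left hx]
      have h3 := lipschitz_ballKer zero_le_one (x - L) (-(x + L))
      rw [ballKer_neg, show x - L - -(x + L) = 2 * x by ring, abs_mul, abs_two] at h3
      nlinarith [abs_nonneg x, cosh_pos 1]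
    · rw [min_eq_right hx, mul_one]
      refine (abs_sub _ _).trans ?_
      linarith

/-- Odd test functions vanish at the origin. -/
theorem Admissible.zero_eq {h : ℝ → ℝ} (hh : Admissible true h) : h 0 = 0 := by
  have := hh rfl 0
  rw [neg_zero] at this
  linarith

theorem abs_absPart (odd : Bool) (h : ℝ → ℝ) (x : ℝ) : |absPart odd h x| = |h x| := by
  unfold absPart
  split_ifs <;> simp

theorem admissible_absPart {odd : Bool} {h : ℝ → ℝ} (hh : Admissible odd h) :
    Admissible odd (absPart odd h) := by
  rintro rfl x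
  simp only [absPart, if_true, hh rfl x, abs_neg]
  rcases lt_trichotomy x 0 with hx | rfl | hx
  · rw [if_pos (by linarith), if_neg (by linarith), neg_neg]
  · simp [hh.zero_eq]
  · rw [if_neg (by linarith), if_pos hx.le]

/-- The absolute value of a test function, made odd if required, is continuous. -/
theorem continuous_absPart {odd : Bool} {h : ℝ → ℝ} (hc : Continuous h) (hh : Admissible odd h) :
    Continuous (absPart odd h) := by
  cases odd
  · exact hc.abs.congr fun x => (by simp [absPart])
  · refine Continuous.congr (f := fun x => if 0 ≤ x then |h x| else -|h x|) ?_ fun x => (by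
      simp [absPart])
    refine Continuous.if_le hc.abs hc.abs.neg continuous_const continuous_id fun x hx => ?_
    subst hx
    simp [hh.zero_eq]

theorem hasCompactSupport_ballKer_sub {ρ : ℝ} (hρ : 0 ≤ ρ) (x : ℝ) :
    HasCompactSupport fun t => ballKer ρ (x - t) :=
  (hasCompactSupport_ballKer hρ).comp_homeomorph (Homeomorph.subLeft x)

theorem integrable_ballKer_sub_mul {ρ : ℝ} (hρ : 0 ≤ ρ) (x : ℝ) {h : ℝ → ℝ} (hc : Continuous h) :
    Integrable fun t => ballKer ρ (x - t) * h t :=
  Continuous.integrable_of_hasCompactSupport (by have := continuous_ballKer ρ; fun_prop)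
    (hasCompactSupport_ballKer_sub hρ x).mul_right

theorem integral_ballKer_add_mul {ρ : ℝ} (x : ℝ) {h : ℝ → ℝ} (hodd : Admissible true h) :
    ∫ t, ballKer ρ (x + t) * h t = -ballConv ρ h x := by
  rw [← integral_neg_eq_self, ballConv_translate, ← integral_neg]
  congr 1
  funext t
  rw [hodd rfl t, mul_neg]
  rfl

theorem integrable_ballKer_add_mul {ρ : ℝ} (hρ : 0 ≤ ρ) (x : ℝ) {h : ℝ → ℝ} (hc : Continuous h) :
    Integrable fun t => ballKer ρ (x + t) * h t :=
  Continuous.integrable_of_hasCompactSupport (by have := continuous_ballKer ρ; fun_prop)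
    ((hasCompactSupport_ballKer hρ).comp_homeomorph (Homeomorph.addLeft x)).mul_right

/-- The factor between the symmetrised kernel and the average. -/
def symFactor (odd : Bool) : ℝ := if odd then 2 else 1

theorem integral_symKer_mul {odd : Bool} (x : ℝ) {h : ℝ → ℝ} (hc : Continuous h)
    (hh : Admissible odd h) :
    ∫ t, symKer odd t x * h t = symFactor odd * (ballMass 1)⁻¹ * ballConv 1 h x := by
  have h1 := integrable_ballKer_sub_mul zero_le_one x hc
  have h2 := integrable_ballKer_add_mul zero_le_one x hc
  cases odd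
  · simp only [symKer, Bool.false_eq_true, if_false, sub_zero, symFactor, one_mul,
      ballConv_translate 1 x h, mul_assoc, integral_const_mul]
  · simp only [symKer, if_true, symFactor, mul_assoc, sub_mul, integral_const_mul]
    rw [integral_sub h1 h2, integral_ballKer_add_mul x hh, ← ballConv_translate]
    ring

theorem integrable_symKer_mul (odd : Bool) (x : ℝ) {h : ℝ → ℝ} (hc : Continuous h) :
    Integrable fun t => symKer odd t x * h t := by
  have h1 := integrable_ballKer_sub_mul zero_le_one x hc
  have h2 := integrable_ballKer_add_mul zero_le_one x hc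
  cases odd
  · simpa only [symKer, Bool.false_eq_true, if_false, sub_zero, mul_assoc] using
      h1.const_mul (ballMass 1)⁻¹
  · simpa only [symKer, if_true, mul_assoc, sub_mul, Pi.sub_apply] using
      (h1.sub h2).const_mul (ballMass 1)⁻¹

theorem integral_abs_symKer_mul_le {odd : Bool} {C : ℝ} (hC0 : 0 ≤ C)
    (hC : ∀ L x, |symKer odd L x| ≤ C * originWeight odd x) {h H : ℝ → ℝ}
    (hh : Admissible odd h) (hH : ∀ x s, |s| ≤ 1 → |h (x + s)| ≤ H x) (x : ℝ) :
    ∫ t, |symKer odd t x * h t| ≤ 4 * C * (originWeight odd x * H x) := by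
  have hw0 := originWeight_nonneg odd x
  have hH0 : 0 ≤ H x := (abs_nonneg _).trans (hH x 0 (by simp))
  set D := C * originWeight odd x * H x with hD
  have hD0 : 0 ≤ D := by positivity
  set I₁ := Icc (x - 1) (x + 1)
  set I₂ := Icc (-x - 1) (-x + 1)
  have hb : ∀ t, |symKer odd t x * h t| ≤ I₁.indicator (fun _ => D) t + I₂.indicator (fun _ => D) t := by
    intro t
    have i1 : 0 ≤ I₁.indicator (fun _ => D) t := indicator_nonneg (fun _ _ => hD0) t
    have i2 : 0 ≤ I₂.indicator (fun _ => D) t := indicator_nonneg (fun _ _ => hD0) t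
    by_cases hz : symKer odd t x = 0
    · rw [hz, zero_mul, abs_zero]; linarith
    · have hht : ∀ y, y = t ∨ (odd = true ∧ y = -t) → |y - x| < 1 → |h t| ≤ H x := by
        intro y hy hlt
        have := hH x (y - x) hlt.le
        rw [add_sub_cancel] at this
        rcases hy with rfl | ⟨ho, rfl⟩
        · exact this
        · rwa [hh ho, abs_neg] at this
      have hbd : |h t| ≤ H x → |symKer odd t x * h t| ≤ D := fun h' => by
        rw [abs_mul]
        exact mul_le_mul (hC t x) h' (abs_nonneg _) (by positivity)
      by_cases h1 : |t - x| < 1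
      · rw [indicator_of_mem (s := I₁) (mem_Icc.mpr (by constructor <;> linarith [abs_lt.mp h1]))]
        linarith [hbd (hht t (Or.inl rfl) h1)]
      · cases odd
        · exact absurd (by
            rw [symKer, ballKer_eq_zero zero_le_one
              (by rw [abs_sub_comm]; exact not_lt.mp h1 : (1 : ℝ) ≤ |x - t|)]
            simp) hz
        · by_cases h2 : |-t - x| < 1
          · rw [indicator_of_mem (s := I₂) (mem_Icc.mpr (by constructor <;> linarith [abs_lt.mp h2]))]
            linarith [hbd (hht (-t) (Or.inr ⟨rfl, rfl⟩) h2)]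
          · exact absurd (by
              rw [symKer, ballKer_eq_zero zero_le_one
                  (by rw [abs_sub_comm]; exact not_lt.mp h1 : (1 : ℝ) ≤ |x - t|),
                ballKer_eq_zero zero_le_one
                  (by rw [show x + t = -(-t - x) by ring, abs_neg]; exact not_lt.mp h2 :
                    (1 : ℝ) ≤ |x + t|)]
              simp) hz
  have hi : ∀ I : Set ℝ, IsCompact I → Integrable (I.indicator fun _ => D) := fun I hI =>
    (integrable_indicator_iff hI.measurableSet).mpr (integrableOn_const hI.measure_ne_top)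
  refine (integral_mono_of_nonneg (Eventually.of_forall fun t => abs_nonneg _)
    ((hi I₁ isCompact_Icc).add (hi I₂ isCompact_Icc)) (Eventually.of_forall hb)).trans (le_of_eq ?_)
  rw [integral_add' (hi I₁ isCompact_Icc) (hi I₂ isCompact_Icc), integral_indicator_const _ measurableSet_Icc,
    integral_indicator_const _ measurableSet_Icc, Real.volume_real_Icc_of_le (by linarith),
    Real.volume_real_Icc_of_le (by linarith), smul_eq_mul, smul_eq_mul, hD]
  ring

/-- Averages of odd functions vanish linearly at the origin. -/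
theorem exists_abs_ballConv_le (odd : Bool) {ρ : ℝ} (hρ : 0 ≤ ρ) {h : ℝ → ℝ} (hc : Continuous h)
    (hcs : HasCompactSupport h) (hh : Admissible odd h) :
    ∃ D, ∀ x, |ballConv ρ h x| ≤ D * originWeight odd x := by
  have hi : Integrable h volume := hc.integrable_of_hasCompactSupport hcs
  have hk : ∀ t, |ballKer ρ t| ≤ cosh ρ := fun t => by
    rw [abs_of_nonneg (ballKer_nonneg _ _)]
    exact max_le (by linarith [cosh_pos t]) (cosh_pos ρ).le
  set N := ∫ t, |h t| with hN
  have hN0 : 0 ≤ N := integral_nonneg fun t => abs_nonneg _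
  have hbd : ∀ x, |ballConv ρ h x| ≤ cosh ρ * N := by
    intro x
    rw [ballConv_translate, hN, ← integral_const_mul]
    refine (abs_integral_le_integral_abs).trans (integral_mono_of_nonneg
      (Eventually.of_forall fun t => abs_nonneg _) (hi.abs.const_mul _)
      (Eventually.of_forall fun t => ?_))
    simp only [abs_mul]
    exact mul_le_mul_of_nonneg_right (hk _) (abs_nonneg _)
  have hs : 0 ≤ sinh ρ := sinh_nonneg_iff.mpr hρ
  refine ⟨(cosh ρ + sinh ρ) * N, fun x => ?_⟩
  cases odd
  · simp only [originWeight, Bool.false_eq_true, if_false, mul_one]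
    nlinarith [hbd x]
  · simp only [originWeight, if_true]
    rcases le_total |x| 1 with hx | hx
    · rw [min_eq_left hx]
      have h1 := integrable_ballKer_sub_mul hρ x hc
      have h2 := integrable_ballKer_add_mul hρ x hc
      have e : 2 * ballConv ρ h x = ∫ t, (ballKer ρ (x - t) - ballKer ρ (x + t)) * h t := by
        simp only [sub_mul]
        rw [integral_sub h1 h2, integral_ballKer_add_mul x hh, ← ballConv_translate]
        ring
      have h3 : |2 * ballConv ρ h x| ≤ 2 * sinh ρ * |x| * N := by
        rw [e, hN, ← integral_const_mul]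
        refine (abs_integral_le_integral_abs).trans (integral_mono_of_nonneg
          (Eventually.of_forall fun t => abs_nonneg _) (hi.abs.const_mul _)
          (Eventually.of_forall fun t => ?_))
        simp only [abs_mul]
        refine mul_le_mul_of_nonneg_right ?_ (abs_nonneg _)
        have := lipschitz_ballKer hρ (x - t) (-(x + t))
        rw [ballKer_neg, show x - t - -(x + t) = 2 * x by ring, abs_mul, abs_two] at this
        linarith
      rw [abs_mul, abs_two] at h3
      nlinarith [cosh_pos ρ, mul_nonneg (cosh_pos ρ).le (mul_nonneg hN0 (abs_nonneg x))]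
    · rw [min_eq_right hx, mul_one]
      nlinarith [hbd x]

/-- Swapping a weighted integral with an integral on the line. -/
theorem integral_smul_swap {ν : Measure Z} [SFinite ν] {w : Z → ℂ}
    (hw : AEStronglyMeasurable w ν) {K : Z → ℝ → ℝ} (hK : Measurable (Function.uncurry K))
    (hs : ∀ z, Integrable (K z)) (hint : Integrable (fun z => (∫ t, |K z t|) * ‖w z‖) ν) :
    ∫ z, (∫ t, K z t) • w z ∂ν = ∫ t, ∫ z, K z t • w z ∂ν := by
  have hm : AEStronglyMeasurable (fun p : Z × ℝ => K p.1 p.2) (ν.prod (volume : Measure ℝ)) :=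
    hK.aestronglyMeasurable
  have hpm : AEStronglyMeasurable (fun p : Z × ℝ => K p.1 p.2 • w p.1)
      (ν.prod (volume : Measure ℝ)) := hm.smul hw.comp_fst
  have hp : Integrable (fun p : Z × ℝ => K p.1 p.2 • w p.1) (ν.prod (volume : Measure ℝ)) := by
    refine (integrable_prod_iff hpm).mpr ⟨Eventually.of_forall fun z => (hs z).smul_const (w z), ?_⟩
    refine hint.congr (Eventually.of_forall fun z => ?_)
    simp only [norm_smul, Real.norm_eq_abs, integral_mul_const]
  simp only [← integral_smul_const]
  exact integral_integral_swap (f := fun z t => K z t • w z) hp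

theorem integrable_smul_of_small {odd : Bool} {ν : Measure Z} {w : Z → ℂ} {r : Z → ℝ}
    (hw : AEStronglyMeasurable w ν) (hr : Measurable r)
    (hloc : ∀ R : ℝ,
      Integrable ({z | |r z| ≤ R}.indicator fun z => originWeight odd (r z) • w z) ν)
    {F : ℝ → ℝ} (hF : Continuous F) (R D : ℝ) (hR : ∀ x, R < |x| → F x = 0)
    (hD : ∀ x, |F x| ≤ D * originWeight odd x) : Integrable (fun z => F (r z) • w z) ν := by
  refine ((hloc R).norm.const_mul D).mono' ((hF.measurable.comp hr).aestronglyMeasurable.smul hw)
    (Eventually.of_forall fun z => ?_)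
  by_cases hz : |r z| ≤ R
  · rw [indicator_of_mem (s := {z | |r z| ≤ R}) hz, norm_smul, norm_smul, ← mul_assoc,
      Real.norm_eq_abs, Real.norm_eq_abs, abs_of_nonneg (originWeight_nonneg _ _)]
    exact mul_le_mul_of_nonneg_right (hD _) (norm_nonneg _)
  · rw [hR _ (not_le.mp hz), zero_smul, norm_zero,
      indicator_of_notMem (s := {z | |r z| ≤ R}) hz, norm_zero, mul_zero]

theorem integrable_symKer_smul {odd : Bool} {ν : Measure Z} {w : Z → ℂ} {r : Z → ℝ}
    (hw : AEStronglyMeasurable w ν) (hr : Measurable r)
    (hloc : ∀ R : ℝ,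
      Integrable ({z | |r z| ≤ R}.indicator fun z => originWeight odd (r z) • w z) ν) (L : ℝ) :
    Integrable (fun z => symKer odd L (r z) • w z) ν := by
  obtain ⟨C, -, hC⟩ := exists_bound_symKer odd
  exact integrable_smul_of_small (F := symKer odd L) hw hr hloc (continuous_symKer_right odd L)
    (|L| + 1) C (fun x hx => symKer_eq_zero odd hx) (hC L)

omit [MeasurableSpace Z] in
theorem norm_symKer_smul_le {odd : Bool} {C : ℝ} (hC0 : 0 ≤ C)
    (hC : ∀ L x, |symKer odd L x| ≤ C * originWeight odd x) (w : Z → ℂ) (r : Z → ℝ) {L L₀ : ℝ}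
    (hL : |L - L₀| < 1) (z : Z) :
    ‖symKer odd L (r z) • w z‖
      ≤ C * ‖{z | |r z| ≤ |L₀| + 2}.indicator (fun z => originWeight odd (r z) • w z) z‖ := by
  by_cases hz : |r z| ≤ |L₀| + 2
  · rw [indicator_of_mem (s := {z | |r z| ≤ |L₀| + 2}) hz, norm_smul, norm_smul, ← mul_assoc,
      Real.norm_eq_abs, Real.norm_eq_abs, abs_of_nonneg (originWeight_nonneg _ _)]
    exact mul_le_mul_of_nonneg_right (hC L _) (norm_nonneg _)
  · have : |L| + 1 < |r z| := by
      have := abs_sub_abs_le_abs_sub L L₀
      linarith [not_le.mp hz]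
    rw [symKer_eq_zero odd this, zero_smul, norm_zero]
    exact mul_nonneg hC0 (norm_nonneg _)

theorem continuous_lineFun_symKer {odd : Bool} {ν : Measure Z} {w : Z → ℂ} {r : Z → ℝ}
    (hw : AEStronglyMeasurable w ν) (hr : Measurable r)
    (hloc : ∀ R : ℝ,
      Integrable ({z | |r z| ≤ R}.indicator fun z => originWeight odd (r z) • w z) ν) :
    Continuous fun L => lineFun ν w r (symKer odd L) := by
  obtain ⟨C, hC0, hC⟩ := exists_bound_symKer odd
  simp only [lineFun]
  refine continuous_iff_continuousAt.mpr fun L₀ => ?_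
  refine continuousAt_of_dominated (F := fun L z => symKer odd L (r z) • w z)
    (bound := fun z =>
      C * ‖{z | |r z| ≤ |L₀| + 2}.indicator (fun z => originWeight odd (r z) • w z) z‖)
    (Eventually.of_forall fun L => (integrable_symKer_smul hw hr hloc L).1) ?_
    ((hloc _).norm.const_mul C)
    (Eventually.of_forall fun z =>
      ((continuous_symKer_left odd (r z)).smul continuous_const).continuousAt)
  filter_upwards [Metric.ball_mem_nhds L₀ one_pos] with L hL
  rw [Metric.mem_ball, Real.dist_eq] at hL
  exact Eventually.of_forall (norm_symKer_smul_le hC0 hC w r hL)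

theorem integral_ballKer_mul_symKer (odd : Bool) {ρ : ℝ} (hρ : 0 < ρ) (L x : ℝ) :
    ∫ s, ballKer ρ s * symKer odd (L + s) x = ballConv ρ (symKer odd L) x := by
  have hρc := continuous_ballKer ρ
  simp only [ballConv]
  set F : ℝ → ℝ := fun s => ballKer ρ s * ballKer 1 (x - (L + s)) with hF
  have hFi : Integrable F :=
    Continuous.integrable_of_hasCompactSupport (by have := continuous_ballKer 1; fun_prop)
      (hasCompactSupport_ballKer hρ.le).mul_right
  cases odd
  · simp only [symKer, Bool.false_eq_true, if_false, sub_zero]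
    rw [← integral_neg_eq_self]
    congr 1
    funext s
    rw [ballKer_neg]
    congr 3
    ring
  · simp only [symKer, if_true]
    have h2 : Integrable (fun s => ballKer ρ s * ballKer 1 (x + (L + s))) :=
      Continuous.integrable_of_hasCompactSupport (by have := continuous_ballKer 1; fun_prop)
        (hasCompactSupport_ballKer hρ.le).mul_right
    calc ∫ s, ballKer ρ s * ((ballMass 1)⁻¹ * (ballKer 1 (x - (L + s)) - ballKer 1 (x + (L + s))))
        = (ballMass 1)⁻¹ * ((∫ s, ballKer ρ s * ballKer 1 (x - (L + s)))
            - ∫ s, ballKer ρ s * ballKer 1 (x + (L + s))) := by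
          rw [← integral_sub hFi h2, ← integral_const_mul]
          congr 1; funext s; ring
      _ = (ballMass 1)⁻¹ * ((∫ s, ballKer ρ s * ballKer 1 (x + s - L))
            - ∫ s, ballKer ρ s * ballKer 1 (x + s + L)) := by
          congr 2
          · rw [← integral_neg_eq_self]
            congr 1; funext s; rw [ballKer_neg]; congr 2; ring
          · congr 1; funext s; congr 2; ring
      _ = _ := by
          rw [← integral_sub, ← integral_const_mul]
          · congr 1; funext s; ring
          all_goals
            exact Continuous.integrable_of_hasCompactSupport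
              (by have := continuous_ballKer 1; fun_prop)
              (hasCompactSupport_ballKer hρ.le).mul_right

/-- The functional at the symmetrised kernels has the mean value property. -/
theorem ball_mean_lineFun_symKer {odd : Bool} {ν : Measure Z} [SFinite ν] {w : Z → ℂ}
    {r : Z → ℝ} (hw : AEStronglyMeasurable w ν) (hr : Measurable r)
    (hloc : ∀ R : ℝ,
      Integrable ({z | |r z| ≤ R}.indicator fun z => originWeight odd (r z) • w z) ν)
    (heig : BallEigen odd ν w r) (L ρ : ℝ) (hρ : 0 < ρ) :
    ∫ s, ballKer ρ s • lineFun ν w r (symKer odd (L + s))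
      = ballMass ρ • lineFun ν w r (symKer odd L) := by
  obtain ⟨C, hC0, hC⟩ := exists_bound_symKer odd
  have hk := continuous_symKer odd
  set g : ℝ → ℂ := fun L => lineFun ν w r (symKer odd L) with hg
  have hcs := fun F hF => integrable_smul_of_small (F := F) hw hr hloc hF
  have hgint : Integrable (fun z => symKer odd L (r z) • w z) ν :=
    hcs _ (hk.comp (continuous_const.prodMk continuous_id)) (|L| + 1) C
      (fun x hx => symKer_eq_zero odd hx) (hC L)
  show ∫ s, ballKer ρ s • g (L + s) = ballMass ρ • g L
  have hρc := continuous_ballKer ρ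
  have hconv := integral_ballKer_mul_symKer odd hρ L
  have habs : Continuous fun x => |symKer odd L x| :=
    (hk.comp (continuous_const.prodMk continuous_id)).abs
  -- absolute convergence
  have hslice : ∀ x, Integrable fun s => ballKer ρ s * symKer odd (L + s) x := fun x =>
    Continuous.integrable_of_hasCompactSupport
      (hρc.mul (hk.comp ((continuous_const.add continuous_id).prodMk continuous_const)))
      (hasCompactSupport_ballKer hρ.le).mul_right
  have hD : ∀ x, ∫ s, |ballKer ρ s * symKer odd (L + s) x|
      ≤ C * ballMass ρ * originWeight odd x := by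
    intro x
    rw [ballMass, mul_assoc, mul_comm (∫ s, ballKer ρ s), ← mul_assoc, ← integral_const_mul]
    refine integral_mono_of_nonneg (Eventually.of_forall fun s => abs_nonneg _)
      (((continuous_ballKer ρ).integrable_of_hasCompactSupport
        (hasCompactSupport_ballKer hρ.le)).const_mul _) (Eventually.of_forall fun s => ?_)
    simp only [abs_mul, abs_of_nonneg (ballKer_nonneg ρ s)]
    rw [mul_comm]
    exact mul_le_mul_of_nonneg_right (hC _ x) (ballKer_nonneg ρ s)
  have hzero : ∀ x, |L| + 1 + ρ < |x| → ∀ s, ballKer ρ s * symKer odd (L + s) x = 0 := by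
    intro x hx s
    rcases le_or_gt ρ |s| with hs | hs
    · rw [ballKer_eq_zero hρ.le hs, zero_mul]
    · rw [symKer_eq_zero odd (by linarith [abs_add_le L s]), mul_zero]
  have hcabs : Continuous fun x => ∫ s, |ballKer ρ s * symKer odd (L + s) x| := by
    refine (continuous_parametric_integral_of_continuous (μ := (volume : Measure ℝ))
      (f := fun x s => |ballKer ρ s * symKer odd (L + s) x|) ?_
      (isCompact_Icc (a := -ρ) (b := ρ))).congr fun x => ?_
    · exact ((hρc.comp continuous_snd).mul (hk.comp
        ((continuous_const.add continuous_snd).prodMk continuous_fst))).abs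
    · refine setIntegral_eq_integral_of_forall_compl_eq_zero fun s hs => ?_
      rw [ballKer_eq_zero hρ.le ?_, zero_mul, abs_zero]
      by_contra hlt
      exact hs (abs_le.mp (not_le.mp hlt).le)
  have hint1 : Integrable
      (fun z => (∫ s, |ballKer ρ s * symKer odd (L + s) (r z)|) * ‖w z‖) ν := by
    refine (hcs _ hcabs (|L| + 1 + ρ) (C * ballMass ρ)
      (fun x hx => by simp [hzero x hx]) fun x => ?_).norm.congr (Eventually.of_forall fun z => ?_)
    · rw [abs_of_nonneg (integral_nonneg fun s => abs_nonneg _)]
      exact hD x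
    · simp only [norm_smul, Real.norm_eq_abs]
      rw [abs_of_nonneg (integral_nonneg fun s => abs_nonneg _)]
  have hLc : Continuous (symKer odd L) := hk.comp (continuous_const.prodMk continuous_id)
  set G := absPart odd (symKer odd L) with hG
  have hGc : Continuous G := continuous_absPart hLc (admissible_symKer odd L)
  have hGcs : HasCompactSupport G :=
    HasCompactSupport.intro (isCompact_Icc (a := -(|L| + 1)) (b := |L| + 1)) fun x hx => by
      have : |L| + 1 < |x| := not_le.mp fun h' => hx (abs_le.mp h')
      rw [← abs_eq_zero, hG, abs_absPart, symKer_eq_zero odd this, abs_zero]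
  obtain ⟨D, hDb⟩ := exists_abs_ballConv_le odd hρ.le hGc hGcs
    (admissible_absPart (admissible_symKer odd L))
  have hint2 : Integrable (fun z => |ballConv ρ G (r z)| * ‖w z‖) ν := by
    refine (hcs _ (continuous_ballConv hρ.le hGc).abs (|L| + 1 + ρ) D (fun x hx => ?_) fun x => by
      rw [abs_abs]; exact hDb x).norm.congr (Eventually.of_forall fun z => ?_)
    · rw [abs_eq_zero, ballConv]
      refine integral_eq_zero_of_ae (Eventually.of_forall fun s => ?_)
      rcases le_or_gt ρ |s| with hs | hs
      · simp [ballKer_eq_zero hρ.le hs]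
      · have h1 : |L| + 1 < |x + s| := by
          have := abs_sub_abs_le_abs_sub x (-s)
          rw [sub_neg_eq_add, abs_neg] at this
          linarith
        have : G (x + s) = 0 := by
          rw [← abs_eq_zero, hG, abs_absPart, symKer_eq_zero odd h1, abs_zero]
        simp [this]
    · simp only [norm_smul, Real.norm_eq_abs, abs_abs]
  have key := heig ρ hρ _ (locallyLipschitz_symKer odd L) (admissible_symKer odd L) hgint hint2
  rw [show g L = lineFun ν w r (symKer odd L) from rfl, ← key, lineFun]
  simp only [← hconv]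
  rw [integral_smul_swap hw ?_ (fun z => hslice (r z)) hint1]
  · congr 1
    funext s
    rw [hg]
    simp only [lineFun, mul_smul]
    rw [integral_smul]
  · exact (hρc.measurable.comp measurable_snd).mul (hk.measurable.comp
      (((measurable_const.add measurable_snd)).prodMk (hr.comp measurable_fst)))

/-- The functional is integration against an affine function. -/
theorem exists_affine_repr (odd : Bool) (ν : Measure Z) [SFinite ν] (w : Z → ℂ) (r : Z → ℝ)
    (hw : AEStronglyMeasurable w ν) (hr : Measurable r)
    (hloc : ∀ R : ℝ,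
      Integrable ({z | |r z| ≤ R}.indicator fun z => originWeight odd (r z) • w z) ν)
    (heig : BallEigen odd ν w r) :
    ∃ A B : ℂ, ∀ h H : ℝ → ℝ, LocallyLipschitz h → Admissible odd h →
      Integrable (fun z => h (r z) • w z) ν →
      (∀ x s, |s| ≤ 1 → |h (x + s)| ≤ H x) →
      Integrable (fun z => originWeight odd (r z) * H (r z) * ‖w z‖) ν →
        lineFun ν w r h = ∫ L, h L • (A + L • B) := by
  have hmass : ballMass 1 ≠ 0 := (ballMass_pos one_pos).ne'
  obtain ⟨C, hC0, hC⟩ := exists_bound_symKer odd
  have hk := continuous_symKer odd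
  set g : ℝ → ℂ := fun L => lineFun ν w r (symKer odd L) with hg
  obtain ⟨A, B, hAB⟩ := affine_of_ball_mean g
    (continuous_lineFun_symKer hw hr hloc) (ball_mean_lineFun_symKer hw hr hloc heig)
  have hm0 := ballMass_pos one_pos
  have hκ : 0 < symFactor odd := by cases odd <;> simp [symFactor]
  refine ⟨(symFactor odd)⁻¹ • A, (symFactor odd)⁻¹ • B, fun h H hhl hh h1 hH h2 => ?_⟩
  have hc : Continuous h := hhl.continuous
  have hbound : ∀ x, |ballConv 1 (absPart odd h) x|
      ≤ ballMass 1 / symFactor odd * (4 * C * (originWeight odd x * H x)) := by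
    intro x
    have e := integral_symKer_mul x (continuous_absPart hc hh) (admissible_absPart hh)
    have : |∫ t, symKer odd t x * absPart odd h t| ≤ 4 * C * (originWeight odd x * H x) :=
      (abs_integral_le_integral_abs).trans
        (integral_abs_symKer_mul_le hC0 hC (admissible_absPart hh)
          (fun x s hs => by rw [abs_absPart]; exact hH x s hs) x)
    rw [e, abs_mul, abs_of_pos (mul_pos hκ (inv_pos.mpr hm0))] at this
    calc |ballConv 1 (absPart odd h) x|
        = ballMass 1 / symFactor odd * (symFactor odd * (ballMass 1)⁻¹ * |ballConv 1 (absPart odd h) x|) := by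
          field_simp
      _ ≤ _ := mul_le_mul_of_nonneg_left this (div_nonneg hm0.le hκ.le)
  have hint2 : Integrable (fun z => |ballConv 1 (absPart odd h) (r z)| * ‖w z‖) ν := by
    refine (h2.const_mul (ballMass 1 / symFactor odd * (4 * C))).mono'
      (((continuous_ballConv zero_le_one (continuous_absPart hc hh)).abs.measurable.comp
        hr).aestronglyMeasurable.mul hw.norm) (Eventually.of_forall fun z => ?_)
    rw [Real.norm_eq_abs, abs_mul, abs_abs, abs_norm]
    refine (mul_le_mul_of_nonneg_right (hbound _) (norm_nonneg _)).trans (le_of_eq ?_)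
    ring
  have key := heig 1 one_pos h hhl hh h1 hint2
  have hcm : Continuous fun p : ℝ × ℝ => symKer odd p.2 p.1 * h p.2 :=
    (hk.comp (continuous_snd.prodMk continuous_fst)).mul (hc.comp continuous_snd)
  have hint1 : Integrable (fun z => (∫ t, |symKer odd t (r z) * h t|) * ‖w z‖) ν := by
    refine (h2.const_mul (4 * C)).mono' ?_ (Eventually.of_forall fun z => ?_)
    · exact ((hcm.abs.stronglyMeasurable.integral_prod_right' (ν := volume)).measurable.comp
        hr).aestronglyMeasurable.mul hw.norm
    · rw [Real.norm_eq_abs, abs_mul, abs_norm,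
        abs_of_nonneg (integral_nonneg fun t => abs_nonneg _)]
      refine (mul_le_mul_of_nonneg_right (integral_abs_symKer_mul_le hC0 hC hh hH _)
        (norm_nonneg _)).trans (le_of_eq ?_)
      ring
  have e1 : symFactor odd • lineFun ν w r h = ∫ t, h t • g t := by
    have e2 := integral_smul_swap hw (K := fun z t => symKer odd t (r z) * h t)
      (hcm.measurable.comp ((hr.comp measurable_fst).prodMk measurable_snd))
      (fun z => integrable_symKer_mul odd _ hc) hint1
    simp only [integral_symKer_mul _ hc hh, mul_smul] at e2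
    rw [integral_smul, integral_smul,
      show (∫ z, ballConv 1 h (r z) • w z ∂ν) = lineFun ν w r (ballConv 1 h) from rfl, key,
      inv_smul_smul₀ hmass] at e2
    rw [e2]
    congr 1
    funext t
    rw [hg]
    simp only [lineFun]
    rw [← integral_smul]
    congr 1
    funext z
    rw [smul_comm]
  rw [show lineFun ν w r h = (symFactor odd)⁻¹ • (symFactor odd • lineFun ν w r h) from
    (inv_smul_smul₀ hκ.ne' _).symm, e1, ← integral_smul]
  congr 1
  funext t
  rw [hAB]
  module

end Functional

end Fermat.Agent.LT.Lift
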