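import Fermat.Agent.LT.Hyperbolic
import Fermat.Agent.LT.Lift.LineLemma
import Mathlib.Analysis.Matrix.Spectrum
import Mathlib.Analysis.SpecialFunctions.Arcosh
import Mathlib.LinearAlgebra.UnitaryGroup
import Mathlib.MeasureTheory.Integral.IntervalIntegral.IntegrationByParts

/-!
# Ball averages of functions of `m(X, ·)`

Integrals over hyperbolic balls of functions of `m(X, Q) = tr (Q⁻¹ X) / 2` are averages on the line
against `ballKer`.
-/

set_option autoImplicit false

noncomputable section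

open MeasureTheory Real Filter Topology Set
open scoped ENNReal Matrix

namespace Fermat.Agent.LT.Lift

/-- `M(s) = α eˢ + β e⁻ˢ`. -/
def prof (α β s : ℝ) : ℝ := α * exp s + β * exp (-s)

/-- `M'(s) = α eˢ - β e⁻ˢ`. -/
def prof' (α β s : ℝ) : ℝ := α * exp s - β * exp (-s)

theorem prof_add (α β r t : ℝ) :
    prof α β (r + t) = prof α β r * cosh t + prof' α β r * sinh t := by
  simp only [prof, prof', cosh_eq, sinh_eq, neg_add, exp_add]
  ring

theorem prof_sub (α β r t : ℝ) :
    prof α β (r - t) = prof α β r * cosh t - prof' α β r * sinh t := by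
  rw [sub_eq_add_neg, prof_add, cosh_neg, sinh_neg]
  ring

/-- The profile is continuous. -/
theorem continuous_prof (α β : ℝ) : Continuous (prof α β) := by unfold prof; fun_prop

theorem prof'_sq (α β s : ℝ) : prof' α β s ^ 2 = prof α β s ^ 2 + -(4 * (α * β)) := by
  have : exp s * exp (-s) = 1 := by rw [← exp_add, add_neg_cancel, exp_zero]
  simp only [prof, prof']
  linear_combination (-4 * α * β) * this

/-- The substitution `x = M s`. -/
def IsProfilePair (α β : ℝ) (f h : ℝ → ℝ) : Prop :=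
  ∀ s₁ s₂, ∫ x in (prof α β s₁)..(prof α β s₂), f x = ∫ s in s₁..s₂, h s

/-- The inner integral along a circle of latitude. -/
theorem mul_integral_latitude {α β : ℝ} {f h : ℝ → ℝ} (hp : IsProfilePair α β f h) (r t : ℝ) :
    prof' α β r * ∫ u in (-sinh t)..(sinh t), f (prof α β r * cosh t + prof' α β r * u)
      = ∫ s in (r - t)..(r + t), h s := by
  rw [← hp, ← smul_eq_mul, intervalIntegral.smul_integral_comp_add_mul, prof_add, prof_sub]
  congr 1; ring

/-- Averaging over latitudes is the kernel `ballKer`. -/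
theorem integral_sinh_mul_window {h : ℝ → ℝ} (hh : Continuous h) (r : ℝ) {ρ : ℝ} (hρ : 0 ≤ ρ) :
    ∫ t in (0 : ℝ)..ρ, sinh t * ∫ s in (r - t)..(r + t), h s = ballConv ρ h r := by
  rcases eq_or_lt_of_le hρ with rfl | hρ'
  · rw [intervalIntegral.integral_same]
    refine (integral_eq_zero_of_ae (Eventually.of_forall fun s => ?_)).symm
    simp [ballKer_eq_zero le_rfl (abs_nonneg s)]
  set H : ℝ → ℝ := fun s => h (r + s) with hH
  have hHc : Continuous H := by fun_prop
  have hHe : Continuous fun s => cosh s * H s := by fun_prop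
  have hwin : ∀ t, ∫ s in (r - t)..(r + t), h s = ∫ s in (-t)..t, H s := fun t => by
    simp only [hH]
    rw [intervalIntegral.integral_comp_add_left, ← sub_eq_add_neg]
  set P : ℝ → ℝ := fun t => ∫ s in (-t)..t, H s with hP
  set Q : ℝ → ℝ := fun t => ∫ s in (-t)..t, cosh s * H s with hQ
  have hderiv : ∀ (F : ℝ → ℝ), Continuous F → ∀ t : ℝ,
      HasDerivAt (fun t => ∫ s in (-t)..t, F s) (F t + F (-t)) t := by
    intro F hF t
    have e : (fun t => ∫ s in (-t)..t, F s)
        = fun t => (∫ s in (0:ℝ)..t, F s) - ∫ s in (0:ℝ)..(-t), F s := funext fun t =>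
      (intervalIntegral.integral_interval_sub_left (hF.intervalIntegrable _ _)
        (hF.intervalIntegrable _ _)).symm
    rw [e]
    have h1 := (hF.integral_hasStrictDerivAt 0 t).hasDerivAt
    have h2 := ((hF.integral_hasStrictDerivAt 0 (-t)).hasDerivAt).comp t (hasDerivAt_neg t)
    refine (h1.sub h2).congr_deriv ?_
    ring
  have hd : ∀ t ∈ uIcc 0 ρ, HasDerivAt (fun t => cosh t * P t - Q t) (sinh t * P t) t := by
    intro t _
    refine (((hasDerivAt_cosh t).mul (hderiv H hHc t)).sub (hderiv _ hHe t)).congr_deriv ?_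
    simp only [hP, cosh_neg]
    ring
  have hPc : Continuous P := continuous_iff_continuousAt.mpr fun t => (hderiv H hHc t).continuousAt
  simp only [hwin]
  rw [intervalIntegral.integral_eq_sub_of_hasDerivAt hd
    ((continuous_sinh.mul hPc).intervalIntegrable _ _)]
  simp only [hP, hQ, neg_zero, intervalIntegral.integral_same, mul_zero, sub_self, sub_zero]
  rw [← intervalIntegral.integral_const_mul, ← intervalIntegral.integral_sub
    ((show Continuous fun s => cosh ρ * H s by fun_prop).intervalIntegrable _ _)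
    (hHe.intervalIntegrable _ _), ballConv, intervalIntegral.integral_of_le (by linarith),
    ← setIntegral_eq_integral_of_forall_compl_eq_zero (s := Ioc (-ρ) ρ)
      (f := fun s => ballKer ρ s * h (r + s)) fun s hs => ?_]
  · refine setIntegral_congr_fun measurableSet_Ioc fun s hs => ?_
    rw [ballKer_of_abs_le hρ (abs_le.mpr ⟨hs.1.le, hs.2⟩)]
    ring
  · rw [ballKer_eq_zero hρ ?_, zero_mul]
    by_contra hlt
    obtain ⟨h1, h2⟩ := abs_lt.mp (not_le.mp hlt)
    exact hs ⟨h1, h2.le⟩

/-! ### The hyperbolic side -/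

/-- `m(X, Q) = tr (Q⁻¹ X) / 2`. -/
def mTrace (X : Matrix (Fin 2) (Fin 2) ℂ) (Q : H3) : ℝ := ((Q.mat⁻¹ * X).trace).re / 2

/-- The quadratic form `- det`. -/
def nForm (X : Matrix (Fin 2) (Fin 2) ℂ) : ℝ := -X.det.re

theorem inv_mat (Q : H3) : Q.mat⁻¹ = !![Q.mat 1 1, -Q.mat 0 1; -Q.mat 1 0, Q.mat 0 0] := by
  rw [Matrix.inv_def, Q.det_eq, Ring.inverse_one, one_smul, Matrix.adjugate_fin_two]

/-- The trace in terms of the entries. -/
theorem mTrace_eq (X : Matrix (Fin 2) (Fin 2) ℂ) (Q : H3) :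
    mTrace X Q = (Q.mat 1 1 * X 0 0 - Q.mat 0 1 * X 1 0 - Q.mat 1 0 * X 0 1
      + Q.mat 0 0 * X 1 1).re / 2 := by
  rw [mTrace, inv_mat, Matrix.trace_fin_two]
  simp [Matrix.mul_apply, Fin.sum_univ_two]
  ring

/-- The cosh distance is the trace against the matrix of a point. -/
theorem cdist_eq_mTrace (P Q : H3) : H3.cdist P Q = mTrace Q.mat P := rfl

/-- The entries of a point are continuous. -/
theorem continuous_entry (i j : Fin 2) : Continuous fun Q : H3 => Q.mat i j :=
  (continuous_apply j).comp ((continuous_apply i).comp continuous_induced_dom)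

/-- The trace is continuous in the point. -/
theorem continuous_mTrace (X : Matrix (Fin 2) (Fin 2) ℂ) : Continuous (mTrace X) := by
  have := continuous_entry
  rw [show mTrace X = _ from funext (mTrace_eq X)]
  fun_prop

/-- The cosh distance is continuous. -/
theorem continuous_cdist (P : H3) : Continuous (H3.cdist P) := by
  have := continuous_entry
  rw [show H3.cdist P = fun Q => (P.mat 1 1 * Q.mat 0 0 - P.mat 0 1 * Q.mat 1 0
    - P.mat 1 0 * Q.mat 0 1 + P.mat 0 0 * Q.mat 1 1).re / 2 from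
      funext fun Q => by rw [cdist_eq_mTrace, mTrace_eq]]
  fun_prop

/-- `((Q₀₀ + Q₁₁)/2, (Q₀₀ - Q₁₁)/2)`. -/
def axisCoord (Q : H3) : ℝ × ℝ :=
  (((Q.mat 0 0).re + (Q.mat 1 1).re) / 2, ((Q.mat 0 0).re - (Q.mat 1 1).re) / 2)

theorem continuous_axisCoord : Continuous axisCoord := by
  have := continuous_entry
  unfold axisCoord
  fun_prop

/-- The image of `axisCoord`. -/
def axisRegion : Set (ℝ × ℝ) := {p | 1 ≤ p.1 ∧ p.2 ^ 2 ≤ p.1 ^ 2 - 1}

/-- The part of `axisRegion` coming from the ball of radius `ρ`. -/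
def axisSlice (ρ : ℝ) : Set (ℝ × ℝ) := {p | 1 ≤ p.1 ∧ p.2 ^ 2 ≤ p.1 ^ 2 - 1 ∧ p.1 ≤ cosh ρ}

theorem measurableSet_axisSlice (ρ : ℝ) : MeasurableSet (axisSlice ρ) :=
  IsClosed.measurableSet <| by
    simp only [axisSlice]
    exact (isClosed_le continuous_const continuous_fst).inter
      ((isClosed_le (f := fun p : ℝ × ℝ => p.2 ^ 2) (g := fun p : ℝ × ℝ => p.1 ^ 2 - 1) (by fun_prop)
        (by fun_prop)).inter (isClosed_le continuous_fst continuous_const))

/-- The slice of a ball lies in a rectangle. -/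
theorem axisSlice_subset (ρ : ℝ) :
    axisSlice ρ ⊆ Icc 1 (cosh ρ) ×ˢ Icc (-cosh ρ) (cosh ρ) := by
  rintro ⟨a, b⟩ ⟨h1, h2, h3⟩
  refine ⟨⟨h1, h3⟩, abs_le.mp ?_⟩
  refine abs_le_of_sq_le_sq ?_ (cosh_pos ρ).le
  simp only at h1 h2 h3
  nlinarith

variable [MeasurableSpace H3] [BorelSpace H3]

/-- The measure on `H3` is invariant and projects to `c` times Lebesgue measure on the axis. -/
structure IsH3Measure (μ : Measure H3) (c : ℝ≥0∞) : Prop where
  invariant : ∀ g : GL (Fin 2) ℂ, MeasurePreserving (fun Q : H3 => g • Q) μ μ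
  transitive : ∀ P : H3, ∃ g : GL (Fin 2) ℂ, g • H3.origin = P
  axis : μ.map axisCoord = c • (volume : Measure (ℝ × ℝ)).restrict axisRegion
  ne_top : c ≠ ∞

/-- `|det g| g⁻¹ X g⁻ᴴ`, so that `m(X, g • Q) = m(pullMat g X, Q)`. -/
def pullMat (g : GL (Fin 2) ℂ) (X : Matrix (Fin 2) (Fin 2) ℂ) : Matrix (Fin 2) (Fin 2) ℂ :=
  (‖(g : Matrix (Fin 2) (Fin 2) ℂ).det‖ : ℂ) •
    (((g : Matrix (Fin 2) (Fin 2) ℂ))⁻¹ * X * ((g : Matrix (Fin 2) (Fin 2) ℂ)ᴴ)⁻¹)

omit [MeasurableSpace H3] [BorelSpace H3] in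
/-- `m(X, g • Q) = m(pullMat g X, Q)`. -/
theorem mTrace_smul (g : GL (Fin 2) ℂ) (X : Matrix (Fin 2) (Fin 2) ℂ) (Q : H3) :
    mTrace X (g • Q) = mTrace (pullMat g X) Q := by
  set G := (g : Matrix (Fin 2) (Fin 2) ℂ) with hG
  have hd := H3.norm_det_pos g
  have hGu : IsUnit G.det := (Matrix.isUnit_iff_isUnit_det _).mp g.isUnit
  have hc : (‖G.det‖ : ℂ) ≠ 0 := Complex.ofReal_ne_zero.mpr hd.ne'
  have hGs : IsUnit Gᴴ.det := by rw [Matrix.det_conjTranspose]; exact hGu.star
  have hinv : (((‖G.det‖⁻¹ : ℝ) : ℂ) • (G * Q.mat * Gᴴ))⁻¹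
      = (‖G.det‖ : ℂ) • (Gᴴ⁻¹ * Q.mat⁻¹ * G⁻¹) := by
    refine Matrix.inv_eq_left_inv ?_
    rw [Matrix.smul_mul, Matrix.mul_smul, smul_smul, Complex.ofReal_inv, mul_inv_cancel₀ hc,
      one_smul]
    calc Gᴴ⁻¹ * Q.mat⁻¹ * G⁻¹ * (G * Q.mat * Gᴴ)
        = Gᴴ⁻¹ * (Q.mat⁻¹ * ((G⁻¹ * G) * Q.mat)) * Gᴴ := by simp only [Matrix.mul_assoc]
      _ = 1 := by
        rw [Matrix.nonsing_inv_mul _ hGu, one_mul,
          Matrix.nonsing_inv_mul _ (by rw [Q.det_eq]; exact isUnit_one), mul_one,
          Matrix.nonsing_inv_mul _ hGs]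
  rw [mTrace, mTrace, H3.smul_mat, pullMat, ← hG, hinv, Matrix.smul_mul, Matrix.mul_smul]
  congr 2
  rw [Matrix.trace_smul, Matrix.trace_smul]
  congr 1
  rw [Matrix.mul_assoc, Matrix.mul_assoc, Matrix.trace_mul_comm]
  simp only [Matrix.mul_assoc]

omit [MeasurableSpace H3] [BorelSpace H3] in
/-- `pullMat` preserves the quadratic form. -/
theorem nForm_pullMat (g : GL (Fin 2) ℂ) (X : Matrix (Fin 2) (Fin 2) ℂ) :
    nForm (pullMat g X) = nForm X := by
  set G := (g : Matrix (Fin 2) (Fin 2) ℂ) with hG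
  have hd := H3.norm_det_pos g
  rw [nForm, nForm, pullMat, ← hG, Matrix.det_smul, Matrix.det_mul, Matrix.det_mul,
    Matrix.det_nonsing_inv, Matrix.det_nonsing_inv, Matrix.det_conjTranspose,
    Ring.inverse_eq_inv', Fintype.card_fin]
  have key : (‖G.det‖ : ℂ) ^ 2 * (G.det⁻¹ * X.det * (star G.det)⁻¹) = X.det := by
    rw [← Complex.mul_conj', Complex.star_def]
    have h0 : G.det ≠ 0 := ((Matrix.isUnit_iff_isUnit_det _).mp g.isUnit).ne_zero
    have h1 : (starRingEnd ℂ) G.det ≠ 0 := by simpa using h0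
    field_simp
  rw [key]

omit [MeasurableSpace H3] [BorelSpace H3] in
/-- Pulling back preserves Hermitian matrices. -/
theorem isHermitian_pullMat (g : GL (Fin 2) ℂ) {X : Matrix (Fin 2) (Fin 2) ℂ}
    (hX : X.IsHermitian) : (pullMat g X).IsHermitian := by
  unfold pullMat Matrix.IsHermitian
  rw [Matrix.conjTranspose_smul, Matrix.conjTranspose_mul, Matrix.conjTranspose_mul, hX.eq,
    Matrix.conjTranspose_nonsing_inv, Matrix.conjTranspose_nonsing_inv,
    Matrix.conjTranspose_conjTranspose, Matrix.mul_assoc]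
  simp

omit [MeasurableSpace H3] [BorelSpace H3] in
/-- A Hermitian matrix is diagonalised by a matrix fixing the origin. -/
theorem exists_unitary_axis {Y : Matrix (Fin 2) (Fin 2) ℂ} (hY : Y.IsHermitian) :
    ∃ (u : GL (Fin 2) ℂ) (a c : ℝ), u • H3.origin = H3.origin ∧
      (pullMat u Y).det.re = a * c ∧
      ∀ Q : H3, mTrace (pullMat u Y) Q = (a * (Q.mat 1 1).re + c * (Q.mat 0 0).re) / 2 := by
  set V := hY.eigenvectorUnitary with hV
  set U := (V : Matrix (Fin 2) (Fin 2) ℂ) with hU
  have h1 : star U * U = 1 := Matrix.UnitaryGroup.star_mul_self V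
  have h2 : U * star U = 1 := Matrix.mem_unitaryGroup_iff.mp V.2
  let u : GL (Fin 2) ℂ := ⟨U, star U, h2, h1⟩
  have hn : ‖U.det‖ = 1 := by
    have := congrArg (fun M : Matrix (Fin 2) (Fin 2) ℂ => ‖M.det‖) h1
    simp only [Matrix.det_mul, Matrix.star_eq_conjTranspose, Matrix.det_conjTranspose, norm_mul,
      norm_star, Matrix.det_one, norm_one] at this
    nlinarith [norm_nonneg U.det]
  have hD : pullMat u Y = Matrix.diagonal fun i => (hY.eigenvalues i : ℂ) := by
    show (‖U.det‖ : ℂ) • (U⁻¹ * Y * (Uᴴ)⁻¹) = _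
    rw [hn, Complex.ofReal_one, one_smul, Matrix.inv_eq_left_inv h1,
      Matrix.inv_eq_left_inv (show U * Uᴴ = 1 by rwa [← Matrix.star_eq_conjTranspose])]
    conv_lhs => rw [hY.spectral_theorem, Unitary.conjStarAlgAut_apply, ← hV, ← hU]
    rw [← Matrix.mul_assoc, ← Matrix.mul_assoc, h1, one_mul, Matrix.mul_assoc, h1, mul_one]
    rfl
  refine ⟨u, hY.eigenvalues 0, hY.eigenvalues 1, ?_, ?_, fun Q => ?_⟩
  · apply H3.ext
    rw [H3.smul_mat]
    show ((‖U.det‖⁻¹ : ℝ) : ℂ) • (U * 1 * Uᴴ) = 1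
    rw [hn, inv_one, Complex.ofReal_one, one_smul, mul_one, ← Matrix.star_eq_conjTranspose, h2]
  · rw [hD, Matrix.det_diagonal, Fin.prod_univ_two]
    simp
  · rw [hD, mTrace_eq]
    simp
    ring

variable {μ : Measure H3} {c : ℝ≥0∞}

/-- Ball integrals of a function of `m(X, ·)` as integrals over the axis slice. -/
theorem setIntegral_ball_eq (hμ : IsH3Measure μ c) {X : Matrix (Fin 2) (Fin 2) ℂ}
    (hX : X.IsHermitian) (P : H3) {f : ℝ → ℝ} (hf : Measurable f) (ρ : ℝ) :
    ∃ δ : ℝ, δ ^ 2 = mTrace X P ^ 2 + nForm X ∧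
      (∫ Q in {Q | H3.cdist P Q ≤ cosh ρ}, f (mTrace X Q) ∂μ
        = c.toReal * ∫ p in axisSlice ρ, f (mTrace X P * p.1 + δ * p.2)) ∧
      (IntegrableOn (fun p : ℝ × ℝ => f (mTrace X P * p.1 + δ * p.2)) (axisSlice ρ) →
        IntegrableOn (fun Q => f (mTrace X Q)) {Q | H3.cdist P Q ≤ cosh ρ} μ) := by
  obtain ⟨g, hg⟩ := hμ.transitive P
  obtain ⟨u, a, c', hu, hdet, hdiag⟩ := exists_unitary_axis (isHermitian_pullMat g hX)
  set e := g * u with he
  have heP : e • H3.origin = P := by rw [he, mul_smul, hu, hg]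
  have hm : ∀ Q, mTrace X (e • Q) = (a * (Q.mat 1 1).re + c' * (Q.mat 0 0).re) / 2 := fun Q => by
    rw [he, mul_smul, mTrace_smul, mTrace_smul, hdiag]
  have hmP : mTrace X P = (a + c') / 2 := by
    rw [← heP, hm]; simp [H3.origin]
  have hn : nForm X = -(a * c') := by
    have h0 : nForm (pullMat u (pullMat g X)) = nForm X := by rw [nForm_pullMat, nForm_pullMat]
    rw [← h0, nForm, hdet]
  have hcoord : ∀ Q : H3, mTrace X (e • Q)
      = mTrace X P * (axisCoord Q).1 + ((c' - a) / 2) * (axisCoord Q).2 := fun Q => by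
    rw [hm, hmP, axisCoord]; ring
  have hball : ∀ Q : H3, H3.cdist P (e • Q) = (axisCoord Q).1 := fun Q => by
    conv_lhs => rw [← heP, H3.cdist_smul, cdist_eq_mTrace, mTrace_eq]
    simp [H3.origin, axisCoord]
  refine ⟨(c' - a) / 2, by rw [hmP, hn]; ring, ?_, ?_⟩
  all_goals
    have hemb : MeasurableEmbedding fun Q : H3 => e • Q :=
      (⟨⟨fun Q => e • Q, fun Q => e⁻¹ • Q, fun Q => inv_smul_smul e Q,
        fun Q => smul_inv_smul e Q⟩, (hμ.invariant e).measurable,
        (hμ.invariant e⁻¹).measurable⟩ : H3 ≃ᵐ H3).measurableEmbedding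
    have hS : MeasurableSet {p : ℝ × ℝ | p.1 ≤ cosh ρ} :=
      measurableSet_le measurable_fst measurable_const
    have hpre : (fun Q : H3 => e • Q) ⁻¹' {Q | H3.cdist P Q ≤ cosh ρ}
        = axisCoord ⁻¹' {p | p.1 ≤ cosh ρ} := by
      ext Q; simp [hball]
    have hres : (μ.map axisCoord).restrict {p | p.1 ≤ cosh ρ}
        = c • (volume : Measure (ℝ × ℝ)).restrict (axisSlice ρ) := by
      rw [hμ.axis, Measure.restrict_smul, Measure.restrict_restrict hS]
      congr 2
      ext p
      simp only [axisRegion, axisSlice, mem_inter_iff, mem_ofPred_eq]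
      tauto
    have hF : Measurable fun p : ℝ × ℝ => f (mTrace X P * p.1 + (c' - a) / 2 * p.2) :=
      hf.comp (by fun_prop)
  · rw [← (hμ.invariant e).setIntegral_preimage_emb hemb, hpre]
    simp only [hcoord]
    rw [← setIntegral_map (g := axisCoord) hS hF.aestronglyMeasurable
      continuous_axisCoord.measurable.aemeasurable, hres, integral_smul_measure, smul_eq_mul]
  · intro hint
    rw [← (hμ.invariant e).integrableOn_comp_preimage hemb, hpre]
    simp only [Function.comp_def, hcoord]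
    have := hint.smul_measure hμ.ne_top
    rw [← hres, Measure.restrict_map continuous_axisCoord.measurable hS,
      integrable_map_measure hF.aestronglyMeasurable
        continuous_axisCoord.measurable.aemeasurable] at this
    exact this

omit [MeasurableSpace H3] [BorelSpace H3] in
/-- A linear function of the axis coordinates takes values on the profile curve. -/
theorem mem_prof_image {α β r δ : ℝ} (hδ : δ = prof' α β r ∨ δ = -prof' α β r) {ρ : ℝ} (hρ : 0 ≤ ρ)
    {p : ℝ × ℝ} (hp : p ∈ axisSlice ρ) :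
    prof α β r * p.1 + δ * p.2 ∈ prof α β '' Icc (r - ρ) (r + ρ) := by
  obtain ⟨h1, h2, h3⟩ := hp
  set t := arcosh p.1 with ht
  have ht0 : 0 ≤ t := arcosh_nonneg h1
  have htρ : t ≤ ρ := by
    rw [← arcosh_cosh hρ]
    exact (arcosh_le_arcosh (by linarith) (cosh_pos ρ)).mpr h3
  have hsh : |p.2| ≤ sinh t := by
    rw [sinh_arcosh h1]
    exact Real.abs_le_sqrt h2
  have hmem : prof α β r * p.1 + δ * p.2 ∈ uIcc (prof α β (r - t)) (prof α β (r + t)) := by
    rw [prof_add, prof_sub, cosh_arcosh h1, mem_uIcc]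
    obtain ⟨l1, l2⟩ := abs_le.mp hsh
    rcases le_total 0 (prof' α β r) with hs | hs <;> rcases hδ with rfl | rfl
    · left; constructor <;> nlinarith
    · left; constructor <;> nlinarith
    · right; constructor <;> nlinarith
    · right; constructor <;> nlinarith
  obtain ⟨x, hx, he⟩ := intermediate_value_uIcc (continuous_prof α β).continuousOn hmem
  rw [uIcc_of_le (by linarith)] at hx
  exact ⟨x, ⟨by linarith [hx.1], by linarith [hx.2]⟩, he⟩

/-- Averaging `f (m(X, ·))` over a ball is averaging `h` on the line with `ballKer`. -/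
theorem setIntegral_ball_profile (hμ : IsH3Measure μ c) {X : Matrix (Fin 2) (Fin 2) ℂ}
    (hX : X.IsHermitian) (P : H3) {α β r : ℝ} (hr : prof α β r = mTrace X P)
    (hn : nForm X = -(4 * (α * β))) {f h : ℝ → ℝ} (hf : Measurable f) (hh : Continuous h)
    (hp : IsProfilePair α β f h) {ρ : ℝ} (hρ : 0 ≤ ρ) {C : ℝ}
    (hC : ∀ s ∈ Icc (r - ρ) (r + ρ), |f (prof α β s)| ≤ C) :
    IntegrableOn (fun Q => f (mTrace X Q)) {Q | H3.cdist P Q ≤ cosh ρ} μ ∧
      prof' α β r * ∫ Q in {Q | H3.cdist P Q ≤ cosh ρ}, f (mTrace X Q) ∂μ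
        = c.toReal * ballConv ρ h r := by
  obtain ⟨δ, hδ2, hint, hintg⟩ := setIntegral_ball_eq hμ hX P hf ρ
  rw [← hr] at hint hintg hδ2
  rw [hn] at hδ2
  have hδ : δ = prof' α β r ∨ δ = -prof' α β r :=
    sq_eq_sq_iff_eq_or_eq_neg.mp (hδ2.trans (prof'_sq α β r).symm)
  set F : ℝ × ℝ → ℝ := fun p => f (prof α β r * p.1 + δ * p.2) with hF
  have hFm : Measurable F := hf.comp (by fun_prop)
  have hfin : volume (axisSlice ρ) < ∞ :=
    (measure_mono (axisSlice_subset ρ)).trans_lt (isCompact_Icc.prod isCompact_Icc).measure_lt_top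
  have hFi : IntegrableOn F (axisSlice ρ) := by
    refine IntegrableOn.of_bound hfin hFm.aestronglyMeasurable C ?_
    filter_upwards [ae_restrict_mem (measurableSet_axisSlice ρ)] with p hp'
    obtain ⟨s, hs, he⟩ := mem_prof_image hδ hρ hp'
    rw [Real.norm_eq_abs, hF]
    simp only
    rw [← he]
    exact hC s hs
  refine ⟨hintg hFi, ?_⟩
  rw [hint, mul_left_comm]
  congr 1
  set W : ℝ → ℝ := fun q => ∫ s in (r - arcosh q)..(r + arcosh q), h s with hW
  have hinner : ∀ q, prof' α β r * ∫ u, (axisSlice ρ).indicator F (q, u)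
      = (Icc 1 (cosh ρ)).indicator W q := by
    intro q
    by_cases hq : q ∈ Icc 1 (cosh ρ)
    · rw [indicator_of_mem hq]
      have hs0 : 0 ≤ sinh (arcosh q) := sinh_nonneg_iff.mpr (arcosh_nonneg hq.1)
      have hset : ∀ u, (axisSlice ρ).indicator F (q, u)
          = (Icc (-sinh (arcosh q)) (sinh (arcosh q))).indicator (fun u => F (q, u)) u := by
        intro u
        have hiff : (q, u) ∈ axisSlice ρ ↔ u ∈ Icc (-sinh (arcosh q)) (sinh (arcosh q)) := by
          rw [sinh_arcosh hq.1]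
          simp only [axisSlice, mem_ofPred_eq, hq.1, hq.2, true_and, and_true, mem_Icc]
          rw [← abs_le, ← sq_abs u, ← Real.le_sqrt (abs_nonneg u) (by nlinarith [hq.1])]
        by_cases hu : (q, u) ∈ axisSlice ρ
        · rw [indicator_of_mem hu, indicator_of_mem (hiff.mp hu)]
        · rw [indicator_of_notMem hu, indicator_of_notMem (fun h => hu (hiff.mpr h))]
      simp only [hset]
      rw [integral_indicator measurableSet_Icc, integral_Icc_eq_integral_Ioc,
        ← intervalIntegral.integral_of_le (by linarith)]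
      simp only [hW]
      rw [← mul_integral_latitude hp r (arcosh q), cosh_arcosh hq.1]
      rcases hδ with rfl | rfl
      · rfl
      · congr 1
        have hflip := intervalIntegral.integral_comp_neg (a := -sinh (arcosh q))
          (b := sinh (arcosh q)) (fun u => f (prof α β r * q + prof' α β r * u))
        rw [neg_neg] at hflip
        rw [← hflip]
        refine intervalIntegral.integral_congr fun u _ => ?_
        simp [hF]
    · rw [indicator_of_notMem hq]
      have : ∀ u, (axisSlice ρ).indicator F (q, u) = 0 := fun u =>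
        indicator_of_notMem (fun hm => hq ⟨hm.1, hm.2.2⟩) _
      simp [this]
  show prof' α β r * ∫ p in axisSlice ρ, F p = _
  rw [← integral_indicator (measurableSet_axisSlice ρ), Measure.volume_eq_prod, integral_prod _ ?_,
    ← integral_const_mul]
  · simp only [hinner]
    rw [integral_indicator measurableSet_Icc, integral_Icc_eq_integral_Ioc,
      ← intervalIntegral.integral_of_le (one_le_cosh ρ)]
    have hWc : ContinuousOn W (cosh '' uIcc 0 ρ) := by
      have hsub : cosh '' uIcc 0 ρ ⊆ Ici 1 := by rintro _ ⟨t, -, rfl⟩; exact one_le_cosh t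
      have hA : ContinuousOn arcosh (cosh '' uIcc 0 ρ) := continuousOn_arcosh.mono hsub
      have hP : Continuous fun x : ℝ => ∫ s in (0 : ℝ)..x, h s :=
        intervalIntegral.continuous_primitive (fun a b => hh.intervalIntegrable a b) 0
      have e : W = fun q => (∫ s in (0 : ℝ)..(r + arcosh q), h s)
          - ∫ s in (0 : ℝ)..(r - arcosh q), h s := funext fun q =>
        (intervalIntegral.integral_interval_sub_left (hh.intervalIntegrable _ _)
          (hh.intervalIntegrable _ _)).symm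
      rw [e]
      exact (hP.comp_continuousOn (continuousOn_const.add hA)).sub
        (hP.comp_continuousOn (continuousOn_const.sub hA))
    rw [← integral_sinh_mul_window hh r hρ]
    have key := intervalIntegral.integral_comp_mul_deriv' (a := 0) (b := ρ) (f := cosh) (f' := sinh)
      (g := W) (fun t _ => hasDerivAt_cosh t) continuous_sinh.continuousOn hWc
    rw [cosh_zero] at key
    rw [← key]
    refine intervalIntegral.integral_congr fun t ht => ?_
    rw [uIcc_of_le hρ] at ht
    simp only [Function.comp_apply, hW, arcosh_cosh ht.1]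
    ring
  · rw [← Measure.volume_eq_prod]
    exact (integrable_indicator_iff (measurableSet_axisSlice ρ)).mpr hFi

end Fermat.Agent.LT.Lift
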