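import Mathlib.MeasureTheory.Integral.Lebesgue.Countable
import Mathlib.MeasureTheory.Integral.DominatedConvergence
import Mathlib.MeasureTheory.Group.Action

/-!
# Integrals over a quotient

Integrals of invariant functions written with a partition of unity do not depend on the
partition.
-/

set_option autoImplicit false

noncomputable section

open MeasureTheory
open scoped ENNReal

namespace Fermat.Agent.LT.Lift

variable {G T : Type*} [Group G] [Countable G] [MulAction G T] [MeasurableSpace T]

omit [Countable G] in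
/-- A measure preserving action acts by measurable embeddings. -/
theorem measurableEmbedding_smul' {ν : Measure T}
    (hν : ∀ g : G, MeasurePreserving (fun t => g • t) ν ν) (g : G) :
    MeasurableEmbedding (fun t : T => g • t) :=
  (⟨⟨fun t => g • t, fun t => g⁻¹ • t, fun t => inv_smul_smul g t, fun t => smul_inv_smul g t⟩,
    (hν g).measurable, (hν g⁻¹).measurable⟩ : T ≃ᵐ T).measurableEmbedding

/-- Exchange of two partitions of unity in a lower integral of an invariant function. -/
theorem lintegral_partition_swap {ν : Measure T}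
    (hν : ∀ g : G, MeasurePreserving (fun t => g • t) ν ν) (a b : T → ℝ≥0∞) (A : T → ℝ≥0∞)
    (ha : Measurable a) (hb : Measurable b) (hA : AEMeasurable A ν)
    (hinv : ∀ (g : G) (t : T), A (g • t) = A t)
    (hsa : ∀ t, ∑' g : G, a (g • t) = 1) (hsb : ∀ t, ∑' g : G, b (g • t) = 1) :
    ∫⁻ t, a t * A t ∂ν = ∫⁻ t, b t * A t ∂ν := by
  have hmeas : ∀ g : G, AEMeasurable (fun t => a t * b (g • t) * A t) ν := fun g =>
    ((ha.mul (hb.comp (hν g).measurable)).aemeasurable).mul hA
  have hmeas' : ∀ g : G, AEMeasurable (fun t => a (g • t) * b t * A t) ν := fun g =>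
    (((ha.comp (hν g).measurable).mul hb).aemeasurable).mul hA
  calc ∫⁻ t, a t * A t ∂ν = ∫⁻ t, ∑' g : G, a t * b (g • t) * A t ∂ν := by
        refine lintegral_congr fun t => ?_
        rw [ENNReal.tsum_mul_right, ENNReal.tsum_mul_left, hsb, mul_one]
    _ = ∑' g : G, ∫⁻ t, a t * b (g • t) * A t ∂ν := lintegral_tsum hmeas
    _ = ∑' g : G, ∫⁻ t, a (g⁻¹ • t) * b t * A t ∂ν := by
        refine tsum_congr fun g => ?_
        rw [← (hν g⁻¹).lintegral_comp_emb (measurableEmbedding_smul' hν g⁻¹)
          (fun t => a t * b (g • t) * A t)]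
        refine lintegral_congr fun t => ?_
        simp [hinv]
    _ = ∑' g : G, ∫⁻ t, a (g • t) * b t * A t ∂ν :=
        (Equiv.inv G).tsum_eq fun g => ∫⁻ t, a (g • t) * b t * A t ∂ν
    _ = ∫⁻ t, ∑' g : G, a (g • t) * b t * A t ∂ν := (lintegral_tsum hmeas').symm
    _ = ∫⁻ t, b t * A t ∂ν := by
        refine lintegral_congr fun t => ?_
        rw [ENNReal.tsum_mul_right, ENNReal.tsum_mul_right, hsa, one_mul]

/-- A nonnegative function whose translates sum to one. -/
def IsPartition (G : Type*) [Group G] [MulAction G T] (a : T → ℝ) : Prop :=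
  (∀ t, 0 ≤ a t) ∧ ∀ t, HasSum (fun g : G => a (g • t)) 1

omit [Countable G] [MeasurableSpace T] in
/-- The translates of a partition sum to one in `ℝ≥0∞`. -/
theorem IsPartition.tsum_ofReal {a : T → ℝ} (h : IsPartition G a) (t : T) :
    ∑' g : G, ENNReal.ofReal (a (g • t)) = 1 := by
  rw [← ENNReal.ofReal_tsum_of_nonneg (fun g => h.1 _) (h.2 t).summable, (h.2 t).tsum_eq,
    ENNReal.ofReal_one]

/-- Integrability against one partition gives integrability against another. -/
theorem integrable_partition_swap {ν : Measure T}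
    (hν : ∀ g : G, MeasurePreserving (fun t => g • t) ν ν) {a b : T → ℝ} {A : T → ℂ}
    (ha : Measurable a) (hb : Measurable b) (hA : AEStronglyMeasurable A ν)
    (hpa : IsPartition G a) (hpb : IsPartition G b) (hinv : ∀ (g : G) (t : T), A (g • t) = A t)
    (h : Integrable (fun t => a t • A t) ν) : Integrable (fun t => b t • A t) ν := by
  refine ⟨hb.aestronglyMeasurable.smul hA, ?_⟩
  have key := lintegral_partition_swap hν (fun t => ENNReal.ofReal (a t))
    (fun t => ENNReal.ofReal (b t)) (fun t => ‖A t‖ₑ) ha.ennreal_ofReal hb.ennreal_ofReal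
    hA.enorm (fun g t => by rw [hinv]) hpa.tsum_ofReal hpb.tsum_ofReal
  have h2 := h.2
  simp only [hasFiniteIntegral_iff_enorm, enorm_smul, Real.enorm_of_nonneg (hpa.1 _),
    Real.enorm_of_nonneg (hpb.1 _)] at h2 ⊢
  rwa [← key]

/-- The integral of an invariant function does not depend on the partition of unity. -/
theorem integral_partition_swap {ν : Measure T}
    (hν : ∀ g : G, MeasurePreserving (fun t => g • t) ν ν) {a b : T → ℝ} {A : T → ℂ}
    (ha : Measurable a) (hb : Measurable b) (hA : AEStronglyMeasurable A ν)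
    (hpa : IsPartition G a) (hpb : IsPartition G b) (hinv : ∀ (g : G) (t : T), A (g • t) = A t)
    (h : Integrable (fun t => a t • A t) ν) :
    ∫ t, a t • A t ∂ν = ∫ t, b t • A t ∂ν := by
  have hb' := integrable_partition_swap hν ha hb hA hpa hpb hinv h
  set F : G → T → ℂ := fun g t => (a t * b (g • t)) • A t with hF
  set F' : G → T → ℂ := fun g t => (a (g • t) * b t) • A t with hF'
  have hFm : ∀ g, AEStronglyMeasurable (F g) ν := fun g =>
    (ha.mul (hb.comp (hν g).measurable)).aestronglyMeasurable.smul hA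
  have hF'm : ∀ g, AEStronglyMeasurable (F' g) ν := fun g =>
    ((ha.comp (hν g).measurable).mul hb).aestronglyMeasurable.smul hA
  have hfin : ∑' g, ∫⁻ t, ‖F g t‖ₑ ∂ν ≠ ∞ := by
    rw [← lintegral_tsum fun g => (hFm g).enorm]
    refine ne_top_of_le_ne_top h.2.ne (le_of_eq (lintegral_congr fun t => ?_))
    simp only [hF, enorm_smul, enorm_mul, Real.enorm_of_nonneg (hpa.1 _),
      Real.enorm_of_nonneg (hpb.1 _), mul_assoc]
    rw [ENNReal.tsum_mul_left, ENNReal.tsum_mul_right, hpb.tsum_ofReal, one_mul]
  have hfin' : ∑' g, ∫⁻ t, ‖F' g t‖ₑ ∂ν ≠ ∞ := by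
    rw [← lintegral_tsum fun g => (hF'm g).enorm]
    refine ne_top_of_le_ne_top hb'.2.ne (le_of_eq (lintegral_congr fun t => ?_))
    simp only [hF', enorm_smul, enorm_mul, Real.enorm_of_nonneg (hpa.1 _),
      Real.enorm_of_nonneg (hpb.1 _), mul_assoc]
    rw [ENNReal.tsum_mul_right, hpa.tsum_ofReal, one_mul]
  calc ∫ t, a t • A t ∂ν = ∫ t, ∑' g, F g t ∂ν := by
        refine integral_congr_ae (Filter.Eventually.of_forall fun t => ?_)
        simp only [hF, mul_smul]
        rw [tsum_const_smul'' _, ((hpb.2 t).smul_const (A t)).tsum_eq, one_smul]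
    _ = ∑' g, ∫ t, F g t ∂ν := integral_tsum hFm hfin
    _ = ∑' g, ∫ t, F' g⁻¹ t ∂ν := by
        refine tsum_congr fun g => ?_
        rw [← (hν g⁻¹).integral_comp (measurableEmbedding_smul' hν g⁻¹) (F g)]
        refine integral_congr_ae (Filter.Eventually.of_forall fun t => ?_)
        simp [hF, hF', hinv]
    _ = ∑' g, ∫ t, F' g t ∂ν := (Equiv.inv G).tsum_eq fun g => ∫ t, F' g t ∂ν
    _ = ∫ t, ∑' g, F' g t ∂ν := (integral_tsum hF'm hfin').symm
    _ = ∫ t, b t • A t ∂ν := by
        refine integral_congr_ae (Filter.Eventually.of_forall fun t => ?_)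
        simp only [hF']
        rw [(((hpa.2 t).mul_right (b t)).smul_const (A t)).tsum_eq, one_mul]

end Fermat.Agent.LT.Lift
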