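import Fermat.Agent.LT.LiftHecke.Theta
import Fermat.Agent.LT.LiftHecke.Adjoint
import Fermat.Agent.LT.Lift.Radial

/-!
# The action of `PGL₂(K)` on the indices of the lift

`PGL₂(K)` acts on hyperbolic space, and compatibly on pairs of a finite coset and a normalised
Hermitian matrix.
-/

set_option autoImplicit false

noncomputable section

open Matrix
open scoped Classical

namespace Fermat.Agent.LT.Lift

/-- `pullMat` is a right action. -/
theorem pullMat_mul (g h : GL (Fin 2) ℂ) (X : Matrix (Fin 2) (Fin 2) ℂ) :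
    pullMat (g * h) X = pullMat h (pullMat g X) := by
  simp only [pullMat, Units.val_mul, Matrix.mul_inv_rev, Matrix.conjTranspose_mul,
    Matrix.det_mul, norm_mul, Matrix.mul_smul, Matrix.smul_mul, smul_smul, Matrix.mul_assoc]
  push_cast
  ring_nf

/-- The identity fixes every matrix. -/
theorem pullMat_one (X : Matrix (Fin 2) (Fin 2) ℂ) : pullMat 1 X = X := by simp [pullMat]

/-- Pulling back along an invertible matrix is injective. -/
theorem pullMat_injective (g : GL (Fin 2) ℂ) : Function.Injective (pullMat g) := fun X Y h => by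
  have := congrArg (pullMat g⁻¹) h
  rwa [← pullMat_mul, ← pullMat_mul, mul_inv_cancel, pullMat_one, pullMat_one] at this

/-- Nonzero scalar multiples of a matrix pull back alike. -/
theorem pullMat_of_smul {a : ℂ} (ha : a ≠ 0) {g g' : GL (Fin 2) ℂ}
    (h : (g' : Matrix (Fin 2) (Fin 2) ℂ) = a • (g : Matrix (Fin 2) (Fin 2) ℂ))
    (X : Matrix (Fin 2) (Fin 2) ℂ) : pullMat g' X = pullMat g X := by
  have hu : IsUnit (g : Matrix (Fin 2) (Fin 2) ℂ).det :=
    (Matrix.isUnit_iff_isUnit_det _).mp g.isUnit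
  have hu' : IsUnit ((g : Matrix (Fin 2) (Fin 2) ℂ)ᴴ).det := by
    rw [Matrix.det_conjTranspose]; exact hu.star
  have hi : ∀ {b : ℂ} {M : Matrix (Fin 2) (Fin 2) ℂ}, b ≠ 0 → IsUnit M.det →
      (b • M)⁻¹ = b⁻¹ • M⁻¹ := fun {b M} hb hM => Matrix.inv_eq_left_inv (by
        rw [Matrix.smul_mul, Matrix.mul_smul, smul_smul, inv_mul_cancel₀ hb, one_smul,
          Matrix.nonsing_inv_mul _ hM])
  have hn : (‖a‖ : ℂ) ≠ 0 := Complex.ofReal_ne_zero.mpr (norm_ne_zero_iff.mpr ha)
  rw [pullMat, pullMat, h, Matrix.conjTranspose_smul, hi ha hu, hi (star_ne_zero.mpr ha) hu',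
    Matrix.det_smul, Fintype.card_fin, norm_mul, norm_pow]
  simp only [Matrix.smul_mul, Matrix.mul_smul, smul_smul]
  congr 1
  push_cast
  rw [show (‖(a : ℂ)‖ : ℂ) ^ 2 = a * star a by rw [Complex.star_def, Complex.mul_conj']]
  have ha' : star a ≠ 0 := star_ne_zero.mpr ha
  field_simp

open LiftHecke

variable {K : Type*} [Field K]

/-- A Hermitian matrix is determined by its normalised vector. -/
theorem normVec_injective (Fr : HermFrame K) {c : ℚ} (hc : 0 < c) :
    Function.Injective (Fr.normVec c) := fun X Y h => by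
  have hs : (((√(c : ℝ))⁻¹ : ℝ) : ℂ) ≠ 0 :=
    Complex.ofReal_ne_zero.mpr (inv_ne_zero (Real.sqrt_pos.mpr (by exact_mod_cast hc)).ne')
  refine Subtype.ext (Matrix.ext fun i j => Fr.e.injective ?_)
  have := congrFun (congrFun h i) j
  simp only [HermFrame.normVec, Matrix.smul_apply, Matrix.map_apply, smul_eq_mul] at this
  exact mul_left_cancel₀ hs this

variable [NumberField K]

/-- `PGL₂ K`, acting through the embedding of the frame. -/
@[nolint unusedArguments]
def AdelicG (_Fr : HermFrame K) : Type _ := PGLIndex K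

variable {Fr : HermFrame K}

instance : Group (AdelicG Fr) := inferInstanceAs (Group (PGLIndex K))

instance : Countable (AdelicG Fr) := inferInstanceAs (Countable (PGLIndex K))

/-- The image of a matrix in `AdelicG`. -/
def AdelicG.mk (γ : GL (Fin 2) K) : AdelicG Fr := (QuotientGroup.mk γ : PGLIndex K)

omit [NumberField K] in
/-- Every class of the acting group has a matrix over `K`. -/
theorem AdelicG.exists_mk (c : AdelicG Fr) : ∃ γ : GL (Fin 2) K, AdelicG.mk γ = c :=
  QuotientGroup.mk_surjective (s := (scalarGlobal K).range) c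

omit [NumberField K] in
/-- The class map is multiplicative. -/
theorem AdelicG.mk_mul (γ δ : GL (Fin 2) K) :
    (AdelicG.mk γ * AdelicG.mk δ : AdelicG Fr) = AdelicG.mk (γ * δ) := rfl

omit [NumberField K] in
theorem exists_map_eq_smul {γ δ : GL (Fin 2) K}
    (h : QuotientGroup.leftRel (scalarGlobal K).range γ δ) :
    ∃ a : ℂ, a ≠ 0 ∧ ((Matrix.GeneralLinearGroup.map Fr.e δ : GL (Fin 2) ℂ) :
        Matrix (Fin 2) (Fin 2) ℂ) =
      a • ((Matrix.GeneralLinearGroup.map Fr.e γ : GL (Fin 2) ℂ) : Matrix (Fin 2) (Fin 2) ℂ) := by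
  obtain ⟨b, hb⟩ := QuotientGroup.leftRel_apply.mp h
  have hd : δ = scalarGlobal K b * γ := by
    rw [scalarGlobal_comm, hb, mul_inv_cancel_left]
  refine ⟨Fr.e b, fun h0 => b.ne_zero (Fr.e.injective (by simp at h0)), ?_⟩
  rw [hd]
  ext i j
  simp [scalarGlobal, Matrix.mul_apply, Fin.sum_univ_two]
  fin_cases i <;> fin_cases j <;> simp

/-- `AdelicG` on hyperbolic space. -/
instance adelicPointAction : MulAction (AdelicG Fr) H3 where
  smul c P := Quotient.liftOn' (c : PGLIndex K)
    (fun γ : GL (Fin 2) K => Matrix.GeneralLinearGroup.map Fr.e γ • P) fun γ δ h => by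
      obtain ⟨a, ha, he⟩ := exists_map_eq_smul (Fr := Fr) h
      exact (H3.scalar_smul a ha _ _ he P).symm
  one_smul P := by
    rw [show (1 : AdelicG Fr) = AdelicG.mk 1 from rfl]
    show Matrix.GeneralLinearGroup.map Fr.e (1 : GL (Fin 2) K) • P = P
    rw [map_one, one_smul]
  mul_smul c d P := by
    obtain ⟨γ, rfl⟩ := AdelicG.exists_mk c
    obtain ⟨δ, rfl⟩ := AdelicG.exists_mk d
    rw [AdelicG.mk_mul]
    show Matrix.GeneralLinearGroup.map Fr.e (γ * δ) • P = _
    rw [map_mul, mul_smul]
    rfl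

omit [NumberField K] in
/-- A class acts on `H3` through the embedding of `K`. -/
theorem adelicPoint_mk_smul (γ : GL (Fin 2) K) (P : H3) :
    (AdelicG.mk γ : AdelicG Fr) • P = Matrix.GeneralLinearGroup.map Fr.e γ • P := rfl

variable {U : Level K} {C : NormScale Fr U}

/-- The indices of the lift. -/
@[nolint unusedArguments]
def AdelicJ (_C : NormScale Fr U) : Type _ := (GLFin K ⧸ U.toSubgroup) × Fr.Herm

/-- The coset of an index. -/
def AdelicJ.coset (j : AdelicJ C) : GLFin K ⧸ U.toSubgroup := (show _ × Fr.Herm from j).1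

/-- The matrix of an index. -/
def AdelicJ.mat (j : AdelicJ C) : Fr.Herm := (show (GLFin K ⧸ U.toSubgroup) × _ from j).2

/-- The index of a coset and a matrix. -/
def AdelicJ.of (b : GLFin K ⧸ U.toSubgroup) (X : Fr.Herm) : AdelicJ C :=
  (show (GLFin K ⧸ U.toSubgroup) × Fr.Herm from (b, X))

/-- The normalised vector. -/
def AdelicJ.vec (j : AdelicJ C) : Matrix (Fin 2) (Fin 2) ℂ :=
  Fr.normVec (C.c j.coset.out) j.mat

/-- An index is determined by its coset and its vector. -/
theorem AdelicJ.ext' {i j : AdelicJ C} (h1 : i.coset = j.coset) (h2 : i.vec = j.vec) : i = j :=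
  Prod.ext h1 (normVec_injective Fr (C.pos _) (by
    rw [AdelicJ.vec, AdelicJ.vec, h1] at h2; exact h2))

/-- The element of the level between the representatives. -/
def levelPart (γ : GL (Fin 2) K) (b : GLFin K ⧸ U.toSubgroup) : GLFin K :=
  (glIncl K γ • b).out⁻¹ * (glIncl K γ * b.out)

theorem levelPart_mem (γ : GL (Fin 2) K) (b : GLFin K ⧸ U.toSubgroup) :
    levelPart γ b ∈ U.toSubgroup := by
  refine QuotientGroup.eq.mp ?_
  rw [QuotientGroup.out_eq', ← QuotientGroup.out_eq' (glIncl K γ • b)]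
  conv_lhs => rw [QuotientGroup.out_eq', ← QuotientGroup.out_eq' b]
  rfl

variable (C) in
/-- The rational square root of the scale of `levelPart`. -/
def levelRoot (γ : GL (Fin 2) K) (b : GLFin K ⧸ U.toSubgroup) : ℚ :=
  (C.sq_rat _ (levelPart_mem γ b)).choose

theorem levelRoot_spec (γ : GL (Fin 2) K) (b : GLFin K ⧸ U.toSubgroup) :
    0 < levelRoot C γ b ∧ C.c (levelPart γ b) = levelRoot C γ b ^ 2 :=
  (C.sq_rat _ (levelPart_mem γ b)).choose_spec

/-- Transport of an index. -/
def transport (γ : GL (Fin 2) K) (j : AdelicJ C) : AdelicJ C :=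
  AdelicJ.of (glIncl K γ • j.coset)
    (Fr.ratEquiv (levelRoot C γ j.coset)⁻¹
      (inv_ne_zero (levelRoot_spec γ j.coset).1.ne') (Fr.hermEquiv γ j.mat))

theorem out_mul_levelPart (γ : GL (Fin 2) K) (b : GLFin K ⧸ U.toSubgroup) :
    (glIncl K γ • b).out * levelPart γ b = glIncl K γ * b.out := by
  rw [levelPart, mul_inv_cancel_left]

/-- The normalised vector of a transported index. -/
theorem pullMat_vec_transport (γ : GL (Fin 2) K) (j : AdelicJ C) :
    pullMat (Matrix.GeneralLinearGroup.map Fr.e γ) (transport γ j).vec = j.vec := by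
  obtain ⟨hr, hc⟩ := levelRoot_spec (C := C) γ j.coset
  show pullMat _ (Fr.normVec (C.c (glIncl K γ • j.coset).out) (Fr.ratEquiv _ _ _)) = _
  rw [← HermFrame.normVec_mul_sq Fr _ _ hr, ← hc, ← map_mul, out_mul_levelPart,
    ThetaWeight.normVec_hermEquiv]
  rfl

omit [NumberField K] in
/-- The argument of the weight is unchanged by transporting a vector. -/
theorem arg_hermEquiv (γ : GL (Fin 2) K) (g : GLFin K) (X : Fr.Herm) :
    ThetaWeight.arg (Fr := Fr) (glIncl K γ * g) (Fr.hermEquiv γ X) =
      ThetaWeight.arg g X := by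
  have hm : (Fr.hermEquiv γ X).1.map (finIncl K) =
      hermAct (finMap Fr.σ).toRingHom (glIncl K γ).val (X.1.map (finIncl K)) := by
    show (hermAct Fr.σ γ.val X.1).map (finIncl K) = _
    rw [hermAct, hermAct, Matrix.map_mul, Matrix.map_mul]
    rfl
  rw [ThetaWeight.arg, ThetaWeight.arg, hm, ← hermAct_mul, ← Units.val_mul]
  congr 2
  group

/-- The weight is invariant under transport. -/
theorem weight_transport (W : ThetaWeight Fr C) (γ : GL (Fin 2) K) (j : AdelicJ C) :
    W.Φ (ThetaWeight.arg (transport γ j).coset.out (transport γ j).mat) =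
      W.Φ (ThetaWeight.arg j.coset.out j.mat) := by
  obtain ⟨hr, hc⟩ := levelRoot_spec (C := C) γ j.coset
  show W.Φ (ThetaWeight.arg (glIncl K γ • j.coset).out (Fr.ratEquiv _ _ _)) = _
  rw [ThetaWeight.arg_ratEquiv, ← W.level _ (levelPart_mem γ j.coset) _ hr hc,
    ← ThetaWeight.arg_mul, out_mul_levelPart, arg_hermEquiv]

theorem transport_eq_of_rel {γ δ : GL (Fin 2) K}
    (h : QuotientGroup.leftRel (scalarGlobal K).range γ δ) (j : AdelicJ C) :
    transport γ j = transport δ j := by
  refine AdelicJ.ext' ?_ (pullMat_injective (Matrix.GeneralLinearGroup.map Fr.e γ) ?_)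
  · exact glIncl_smul_eq_of_mk_eq (Quotient.sound' h) j.coset
  · obtain ⟨a, ha, he⟩ := exists_map_eq_smul (Fr := Fr) h
    rw [pullMat_vec_transport, ← pullMat_of_smul ha he, pullMat_vec_transport]

/-- `AdelicG` on the indices. -/
instance adelicIndexAction : MulAction (AdelicG Fr) (AdelicJ C) where
  smul c j := Quotient.liftOn' (c : PGLIndex K) (fun γ => transport γ j)
    fun _ _ h => transport_eq_of_rel h j
  one_smul j := by
    show transport 1 j = j
    refine AdelicJ.ext' ?_ (pullMat_injective (Matrix.GeneralLinearGroup.map Fr.e 1) ?_)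
    · show glIncl K 1 • j.coset = j.coset
      rw [map_one, one_smul]
    · rw [pullMat_vec_transport, map_one, pullMat_one]
  mul_smul c d j := by
    obtain ⟨γ, rfl⟩ := AdelicG.exists_mk c
    obtain ⟨δ, rfl⟩ := AdelicG.exists_mk d
    rw [AdelicG.mk_mul]
    show transport (γ * δ) j = transport γ (transport δ j)
    refine AdelicJ.ext' ?_ (pullMat_injective (Matrix.GeneralLinearGroup.map Fr.e (γ * δ)) ?_)
    · show glIncl K (γ * δ) • j.coset = glIncl K γ • glIncl K δ • j.coset
      rw [map_mul, mul_smul]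
    · rw [pullMat_vec_transport, map_mul, pullMat_mul, pullMat_vec_transport,
        pullMat_vec_transport]

/-- A class acts on the indices by transport. -/
theorem adelicIndex_mk_smul (γ : GL (Fin 2) K) (j : AdelicJ C) :
    (AdelicG.mk γ : AdelicG Fr) • j = transport γ j := rfl

end Fermat.Agent.LT.Lift

end
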