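import Fermat.Agent.LT.H3.Measure
import Fermat.Agent.LT.Lift.Radial
import Fermat.Agent.LT.Lift.AdelicAction
import Mathlib.Analysis.Complex.UpperHalfPlane.Measure
import Mathlib.Analysis.SpecialFunctions.Arsinh
import Mathlib.Analysis.SpecialFunctions.Trigonometric.DerivHyp
import Mathlib.MeasureTheory.Measure.Lebesgue.Complex

/-!
# Normal coordinates around a plane

Coordinates of hyperbolic three-space around the plane `Im z = 0`, and the volume in them.
-/

set_option autoImplicit false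

noncomputable section

open MeasureTheory Real Set
open scoped ENNReal UpperHalfPlane Matrix

namespace Fermat.Agent.LT.Lift

/-- The vector whose plane is `Im z = 0`. -/
def baseVec : Matrix (Fin 2) (Fin 2) ℂ := !![0, Complex.I; -Complex.I, 0]

/-- The point of the plane. -/
def planePoint (p : ℍ) : H3 := H3.pt (p.re : ℂ) p.im

/-- The point at signed distance `s` from the point `p` of the plane, along the normal. -/
def planeMap (p : ℍ) (s : ℝ) : H3 := H3.pt ⟨p.re, p.im * tanh s⟩ (p.im / cosh s)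

/-- At height zero the coordinates give the plane. -/
theorem planeMap_zero (p : ℍ) : planeMap p 0 = planePoint p := by
  rw [planeMap, planePoint, tanh_zero, mul_zero, cosh_zero, div_one]
  rfl

theorem mTrace_baseVec_pt (z : ℂ) {t : ℝ} (ht : 0 < t) :
    mTrace baseVec (H3.pt z t) = -(z.im / t) := by
  rw [mTrace_eq, H3.mat_pt z ht]
  simp [baseVec, Complex.div_ofReal_re, Complex.div_ofReal_im]
  ring

/-- The trace of the base vector is `-sinh` of the height. -/
theorem mTrace_baseVec_planeMap (p : ℍ) (s : ℝ) : mTrace baseVec (planeMap p s) = -sinh s := by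
  rw [planeMap, mTrace_baseVec_pt _ (div_pos p.im_pos (cosh_pos s)), tanh_eq_sinh_div_cosh]
  have := (cosh_pos s).ne'
  have := p.im_pos.ne'
  field_simp

/-- Along the normal the matrix changes linearly. -/
theorem mat_planeMap (p : ℍ) (s : ℝ) :
    (cosh s : ℂ) • (planePoint p).mat = (planeMap p s).mat + (-sinh s : ℂ) • baseVec := by
  have hc := cosh_pos s
  have hy := p.im_pos
  rw [planePoint, planeMap, H3.mat_pt _ hy, H3.mat_pt _ (div_pos hy hc), tanh_eq_sinh_div_cosh]
  have hsq : (cosh s : ℂ) ^ 2 = (sinh s : ℂ) ^ 2 + 1 := by exact_mod_cast cosh_sq s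
  have hcC : (cosh s : ℂ) ≠ 0 := Complex.ofReal_ne_zero.mpr hc.ne'
  have hyC : (p.im : ℂ) ≠ 0 := Complex.ofReal_ne_zero.mpr hy.ne'
  ext i j
  fin_cases i <;> fin_cases j <;>
    simp [baseVec, Complex.mk_eq_add_mul_I, Complex.normSq_apply,
      -Complex.ofReal_cosh, -Complex.ofReal_sinh] <;>
    field_simp
  all_goals
    first
      | ring1
      | linear_combination (p.im : ℂ) ^ 2 * hsq

/-- The foot of the perpendicular on the plane. -/
def planeFoot (P : H3) : ℍ :=
  ⟨⟨(H3.zc P).re, √((H3.zc P).im ^ 2 + H3.tc P ^ 2)⟩,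
    Real.sqrt_pos.mpr (by have := H3.tc_pos P; positivity)⟩

/-- The signed distance to the plane. -/
def planeDist (P : H3) : ℝ := arsinh ((H3.zc P).im / H3.tc P)

/-- A point from its foot and signed distance. -/
theorem planeMap_foot_dist (P : H3) : planeMap (planeFoot P) (planeDist P) = P := by
  conv_rhs => rw [← H3.pt_coord P]
  set y := (H3.zc P).im
  set t := H3.tc P
  have ht : 0 < t := H3.tc_pos P
  have hr : 0 < √(y ^ 2 + t ^ 2) := Real.sqrt_pos.mpr (by positivity)
  have hc : √(1 + (y / t) ^ 2) = √(y ^ 2 + t ^ 2) / t := by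
    rw [eq_div_iff ht.ne']
    conv_lhs => rw [← Real.sqrt_sq ht.le, ← Real.sqrt_mul (by positivity)]
    congr 1
    rw [Real.sqrt_sq ht.le]
    field_simp
    ring
  have h1 : cosh (planeDist P) = √(y ^ 2 + t ^ 2) / t := by
    rw [planeDist, cosh_arsinh, hc]
  have h2 : sinh (planeDist P) = y / t := sinh_arsinh _
  rw [planeMap, tanh_eq_sinh_div_cosh, h1, h2]
  show H3.pt ⟨(H3.zc P).re, √(y ^ 2 + t ^ 2) * _⟩ (√(y ^ 2 + t ^ 2) / _) = _
  congr 1
  · refine Complex.ext rfl ?_
    show √(y ^ 2 + t ^ 2) * _ = y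
    field_simp
  · field_simp

/-- The foot of a point in normal coordinates. -/
theorem planeFoot_planeMap (p : ℍ) (s : ℝ) : planeFoot (planeMap p s) = p := by
  have hc := cosh_pos s
  have ht := div_pos p.im_pos hc
  ext1
  refine Complex.ext ?_ ?_
  · show (H3.zc (planeMap p s)).re = p.re
    rw [planeMap, H3.zc_pt _ ht]
  · show √((H3.zc (planeMap p s)).im ^ 2 + H3.tc (planeMap p s) ^ 2) = p.im
    rw [planeMap, H3.zc_pt _ ht, H3.tc_pt _ ht, tanh_eq_sinh_div_cosh,
      show (p.im * (sinh s / cosh s)) ^ 2 + (p.im / cosh s) ^ 2 =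
        p.im ^ 2 * ((sinh s ^ 2 + 1) / cosh s ^ 2) by ring, ← cosh_sq, div_self (by positivity),
      mul_one, Real.sqrt_sq p.im_pos.le]

/-- The embedding of the plane is continuous. -/
theorem continuous_planePoint : Continuous planePoint := by
  have h : Continuous fun p : ℍ => ((p.re : ℂ), p.im) :=
    (Complex.continuous_ofReal.comp UpperHalfPlane.continuous_re).prodMk UpperHalfPlane.continuous_im
  exact H3.continuousOn_pt.comp_continuous h fun p => p.im_pos

/-- The foot map is measurable. -/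
theorem measurable_planeFoot : Measurable planeFoot := by
  rw [UpperHalfPlane.measurableEmbedding_coe.measurable_comp_iff.symm]
  have h : Continuous fun P : H3 =>
      ((H3.zc P).re : ℂ) + (√((H3.zc P).im ^ 2 + H3.tc P ^ 2) : ℝ) * Complex.I := by
    have h1 : Continuous fun P : H3 => (H3.zc P).re := Complex.continuous_re.comp H3.continuous_zc
    have h2 : Continuous fun P : H3 => √((H3.zc P).im ^ 2 + H3.tc P ^ 2) :=
      Real.continuous_sqrt.comp
        (((Complex.continuous_im.comp H3.continuous_zc).pow 2).add (H3.continuous_tc.pow 2))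
    exact (Complex.continuous_ofReal.comp h1).add
      ((Complex.continuous_ofReal.comp h2).mul continuous_const)
  convert h.measurable using 1
  funext P
  apply Complex.ext <;> simp [planeFoot]

/-- The normal coordinates are continuous. -/
theorem continuous_planeMap : Continuous fun q : ℍ × ℝ => planeMap q.1 q.2 := by
  have hc : Continuous fun q : ℍ × ℝ => cosh q.2 := continuous_cosh.comp continuous_snd
  have hs : Continuous fun q : ℍ × ℝ => sinh q.2 := continuous_sinh.comp continuous_snd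
  have hne : ∀ q : ℍ × ℝ, cosh q.2 ≠ 0 := fun q => (cosh_pos _).ne'
  have ht : Continuous fun q : ℍ × ℝ => tanh q.2 := by
    simp only [tanh_eq_sinh_div_cosh]; exact hs.div hc hne
  have h : Continuous fun q : ℍ × ℝ =>
      ((⟨q.1.re, q.1.im * tanh q.2⟩ : ℂ), q.1.im / cosh q.2) := by
    refine Continuous.prodMk ?_ ((UpperHalfPlane.continuous_im.comp continuous_fst).div hc hne)
    have e : (fun q : ℍ × ℝ => (⟨q.1.re, q.1.im * tanh q.2⟩ : ℂ)) =
        fun q => (q.1.re : ℂ) + ((q.1.im * tanh q.2 : ℝ) : ℂ) * Complex.I :=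
      funext fun q => Complex.ext (by simp [-Complex.ofReal_tanh]) (by simp [-Complex.ofReal_tanh])
    rw [e]
    exact (Complex.continuous_ofReal.comp (UpperHalfPlane.continuous_re.comp continuous_fst)).add
      ((Complex.continuous_ofReal.comp
        ((UpperHalfPlane.continuous_im.comp continuous_fst).mul ht)).mul continuous_const)
  exact H3.continuousOn_pt.comp_continuous h fun q => div_pos q.1.im_pos (cosh_pos _)

/-- `(r, s) ↦ (r tanh s, r / cosh s)`. -/
def normalT (q : ℝ × ℝ) : ℝ × ℝ := (q.1 * (sinh q.2 / cosh q.2), q.1 / cosh q.2)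

theorem exists_hasFDerivAt_normalT {q : ℝ × ℝ} (hr : 0 < q.1) :
    ∃ A : (ℝ × ℝ) →L[ℝ] (ℝ × ℝ), HasFDerivAt normalT A q ∧ |A.det| = q.1 / cosh q.2 := by
  set fs := ContinuousLinearMap.fst ℝ ℝ ℝ
  set sn := ContinuousLinearMap.snd ℝ ℝ ℝ
  have hc := (cosh_pos q.2).ne'
  set a := sinh q.2 / cosh q.2
  set b := (cosh q.2)⁻¹
  set a' := (cosh q.2 * cosh q.2 - sinh q.2 * sinh q.2) / cosh q.2 ^ 2
  set b' := -sinh q.2 / cosh q.2 ^ 2
  have ha : HasDerivAt (fun s => sinh s / cosh s) a' q.2 :=
    (hasDerivAt_sinh q.2).div (hasDerivAt_cosh q.2) hc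
  have hb : HasDerivAt (fun s => (cosh s)⁻¹) b' q.2 := (hasDerivAt_cosh q.2).inv hc
  refine ⟨(a • fs + (q.1 * a') • sn).prod (b • fs + (q.1 * b') • sn), ?_, ?_⟩
  · refine HasFDerivAt.prodMk ?_ ?_
    · refine ((hasFDerivAt_fst (𝕜 := ℝ) (p := q)).mul
        (ha.comp_hasFDerivAt q (hasFDerivAt_snd (𝕜 := ℝ) (p := q)))).congr_fderiv ?_
      simp only [fs, sn, smul_smul, Function.comp_apply]
      exact add_comm _ _
    · refine (((hasFDerivAt_fst (𝕜 := ℝ) (p := q)).mul
        (hb.comp_hasFDerivAt q (hasFDerivAt_snd (𝕜 := ℝ) (p := q)))).congr_fderiv ?_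
        ).congr_of_eventuallyEq (Filter.Eventually.of_forall fun x => div_eq_mul_inv _ _)
      simp only [fs, sn, smul_smul, Function.comp_apply]
      exact add_comm _ _
  · show |LinearMap.det _| = _
    rw [← LinearMap.det_toMatrix (Module.Basis.finTwoProd ℝ), Matrix.det_fin_two,
      LinearMap.toMatrix_apply, LinearMap.toMatrix_apply, LinearMap.toMatrix_apply,
      LinearMap.toMatrix_apply]
    simp [fs, sn]
    have : a * (q.1 * b') - q.1 * a' * b = -(q.1 / cosh q.2) := by
      simp only [a, b, a', b', ← sq]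
      field_simp
      rw [← sub_eq_zero]
      have := cosh_sq q.2
      ring_nf
    rw [this, abs_neg, abs_of_pos (div_pos hr (cosh_pos _))]

theorem normalT_image : normalT '' {q : ℝ × ℝ | 0 < q.1} = {w | 0 < w.2} := by
  ext ⟨y, t⟩
  constructor
  · rintro ⟨q, hq, e⟩
    rw [← e]
    exact div_pos hq (cosh_pos _)
  · intro ht
    have ht' : (0 : ℝ) < t := ht
    have hc : cosh (arsinh (y / t)) = √(1 + (y / t) ^ 2) := cosh_arsinh _
    have hpos : 0 < √(1 + (y / t) ^ 2) := Real.sqrt_pos.mpr (by positivity)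
    refine ⟨(t * √(1 + (y / t) ^ 2), arsinh (y / t)), mul_pos ht' hpos, ?_⟩
    rw [normalT, sinh_arsinh, hc]
    refine Prod.ext ?_ ?_ <;> field_simp

theorem injOn_normalT : InjOn normalT {q : ℝ × ℝ | 0 < q.1} := by
  rintro ⟨r, s⟩ hr ⟨r', s'⟩ hr' h
  simp only [normalT, Prod.mk.injEq] at h
  obtain ⟨h1, h2⟩ := h
  have hs : sinh s = sinh s' := by
    have hpos : (0 : ℝ) < r / cosh s := div_pos hr (cosh_pos _)
    have e : r * (sinh s / cosh s) = r / cosh s * sinh s := by ring
    have e' : r' * (sinh s' / cosh s') = r' / cosh s' * sinh s' := by ring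
    rw [e, e', ← h2] at h1
    exact mul_left_cancel₀ hpos.ne' h1
  have hs' : s = s' := sinh_injective hs
  subst hs'
  rw [div_left_inj' (cosh_pos s).ne'] at h2
  rw [h2]

theorem lintegral_normalT {f : ℝ × ℝ → ℝ≥0∞} :
    ∫⁻ w in {w : ℝ × ℝ | 0 < w.2}, f w =
      ∫⁻ q in {q : ℝ × ℝ | 0 < q.1}, ENNReal.ofReal (q.1 / cosh q.2) * f (normalT q) := by
  classical
  let T' : ℝ × ℝ → (ℝ × ℝ) →L[ℝ] (ℝ × ℝ) := fun q =>
    if h : 0 < q.1 then (exists_hasFDerivAt_normalT h).choose else 0
  have hD : MeasurableSet {q : ℝ × ℝ | 0 < q.1} :=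
    measurableSet_lt measurable_const measurable_fst
  have h1 : ∀ q ∈ {q : ℝ × ℝ | 0 < q.1}, HasFDerivWithinAt normalT (T' q) {q | 0 < q.1} q := by
    intro q hq
    simp only [T', dif_pos (show 0 < q.1 from hq)]
    exact (exists_hasFDerivAt_normalT hq).choose_spec.1.hasFDerivWithinAt
  rw [← normalT_image, lintegral_image_eq_lintegral_abs_det_fderiv_mul _ hD h1 injOn_normalT]
  refine setLIntegral_congr_fun hD fun q hq => ?_
  simp only [T', dif_pos (show 0 < q.1 from hq)]
  rw [(exists_hasFDerivAt_normalT hq).choose_spec.2]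

theorem lintegral_upperHalfPlane {f : ℍ → ℝ≥0∞} (hf : Measurable f) :
    ∫⁻ p, f p = ∫⁻ z in {z : ℂ | 0 < z.im},
      ENNReal.ofReal ((z.im ^ 2)⁻¹) * f (UpperHalfPlane.ofComplex z) := by
  have hr : Set.range UpperHalfPlane.coe = {z : ℂ | 0 < z.im} := by
    ext z
    exact ⟨fun ⟨p, hp⟩ => hp ▸ p.im_pos, fun hz => ⟨⟨z, hz⟩, rfl⟩⟩
  have hmp : MeasurePreserving UpperHalfPlane.coe (volume.comap UpperHalfPlane.coe)
      (volume.restrict (Set.range UpperHalfPlane.coe)) :=
    ⟨UpperHalfPlane.measurable_coe,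
      by rw [UpperHalfPlane.measurableEmbedding_coe.map_comap]⟩
  have hdens : Measurable fun z : ℍ =>
      (((1 / NNReal.mk z.im z.im_pos.le : NNReal) ^ 2 : NNReal) : ℝ≥0∞) := by
    refine measurable_coe_nnreal_ennreal.comp ((Measurable.div measurable_const ?_).pow_const 2)
    exact UpperHalfPlane.continuous_im.measurable.subtype_mk
  rw [UpperHalfPlane.volume_def, lintegral_withDensity_eq_lintegral_mul _ hdens hf, ← hr,
    ← hmp.lintegral_comp_emb UpperHalfPlane.measurableEmbedding_coe]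
  refine lintegral_congr fun p => ?_
  simp only [Pi.mul_apply, UpperHalfPlane.ofComplex_apply, UpperHalfPlane.coe_im]
  congr 1
  rw [ENNReal.ofReal, ENNReal.coe_inj]
  refine NNReal.eq ?_
  push_cast
  rw [Real.coe_toNNReal _ (by positivity), one_div, inv_pow]

/-- **Normal coordinates.** -/
theorem lintegral_planeMap {f : H3 → ℝ≥0∞} (hf : Measurable f) :
    ∫⁻ P, f P ∂H3.vol = ∫⁻ s, ENNReal.ofReal (cosh s ^ 2) * ∫⁻ p, f (planeMap p s) := by
  set F : ℂ × ℝ → ℝ≥0∞ := fun q => H3.density q * f (H3.pt q.1 q.2) with hF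
  have hFm : Measurable F := H3.measurable_density.mul (hf.comp H3.measurable_pt)
  let e : ℂ × ℝ ≃ᵐ ℝ × (ℝ × ℝ) :=
    (Complex.measurableEquivRealProd.prodCongr (MeasurableEquiv.refl ℝ)).trans
      MeasurableEquiv.prodAssoc
  have he : MeasurePreserving e volume volume :=
    (measurePreserving_prodAssoc (volume : Measure ℝ) (volume : Measure ℝ) (volume : Measure ℝ)).comp
      (Complex.volume_preserving_equiv_real_prod.prod (MeasurePreserving.id volume))
  have hU : MeasurableSet H3.upper := H3.measurableSet_upper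
  set g : ℝ × ℝ × ℝ → ℝ≥0∞ :=
    fun w => {w : ℝ × ℝ | 0 < w.2}.indicator (fun v => F (⟨w.1, v.1⟩, v.2)) w.2 with hg
  have hS : MeasurableSet {w : ℝ × ℝ | 0 < w.2} := measurableSet_lt measurable_const measurable_snd
  have hD : MeasurableSet {q : ℝ × ℝ | 0 < q.1} := measurableSet_lt measurable_const measurable_fst
  have hmk : Measurable fun w : ℝ × ℝ => (⟨w.1, w.2⟩ : ℂ) :=
    Complex.measurableEquivRealProd.symm.measurable
  have hgm : Measurable g := by
    have : Measurable fun w : ℝ × ℝ × ℝ => F (⟨w.1, w.2.1⟩, w.2.2) :=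
      hFm.comp ((hmk.comp (measurable_fst.prodMk (measurable_fst.comp measurable_snd))).prodMk
        (measurable_snd.comp measurable_snd))
    exact this.indicator (hS.preimage measurable_snd)
  set h : ℝ × ℝ × ℝ → ℝ≥0∞ := fun u => {q : ℝ × ℝ | 0 < q.1}.indicator
    (fun q => ENNReal.ofReal (q.1 / cosh q.2) * F (⟨u.1, (normalT q).1⟩, (normalT q).2)) u.2
    with hh
  have hN : Measurable normalT := by unfold normalT; fun_prop
  have hhm : Measurable h := by
    have hn : Measurable fun u : ℝ × ℝ × ℝ => normalT u.2 := hN.comp measurable_snd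
    have : Measurable fun u : ℝ × ℝ × ℝ =>
        ENNReal.ofReal (u.2.1 / cosh u.2.2) * F (⟨u.1, (normalT u.2).1⟩, (normalT u.2).2) :=
      (Measurable.ennreal_ofReal (by fun_prop)).mul
        (hFm.comp ((hmk.comp (measurable_fst.prodMk hn.fst)).prodMk hn.snd))
    exact this.indicator (hD.preimage measurable_snd)
  rw [H3.lintegral_vol hf, ← lintegral_indicator hU,
    show (fun q => H3.upper.indicator (fun p => H3.density p * f (H3.pt p.1 p.2)) q) = fun q => g (e q)
      from funext fun q => by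
        by_cases hq : q ∈ H3.upper
        · rw [indicator_of_mem hq, hg]
          show _ = {w : ℝ × ℝ | 0 < w.2}.indicator _ (q.1.im, q.2)
          rw [indicator_of_mem (show (q.1.im, q.2) ∈ {w : ℝ × ℝ | 0 < w.2} from hq)]
          rfl
        · rw [indicator_of_notMem hq, hg]
          show _ = {w : ℝ × ℝ | 0 < w.2}.indicator _ (q.1.im, q.2)
          rw [indicator_of_notMem (show (q.1.im, q.2) ∉ {w : ℝ × ℝ | 0 < w.2} from hq)],
    he.lintegral_comp hgm, Measure.volume_eq_prod, lintegral_prod g hgm.aemeasurable]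
  have hinner : ∀ x : ℝ, ∫⁻ w : ℝ × ℝ, g (x, w) = ∫⁻ q : ℝ × ℝ, h (x, q) := fun x => by
    simp only [hg, hh]
    rw [lintegral_indicator hS, lintegral_normalT, ← lintegral_indicator hD]
  rw [lintegral_congr hinner]
  -- the other side
  let e' : ℂ ≃ᵐ ℝ × ℝ := Complex.measurableEquivRealProd
  have he' : MeasurePreserving e' volume volume := Complex.volume_preserving_equiv_real_prod
  have hrhs : ∀ s : ℝ, ENNReal.ofReal (cosh s ^ 2) * ∫⁻ p, f (planeMap p s) =
      ∫⁻ w : ℝ × ℝ, h (w.1, (w.2, s)) := by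
    intro s
    have hcomp : ∫⁻ z : ℂ, h ((e' z).1, ((e' z).2, s)) = ∫⁻ w : ℝ × ℝ, h (w.1, (w.2, s)) :=
      he'.lintegral_comp (hhm.comp (measurable_fst.prodMk
        (measurable_snd.prodMk measurable_const)))
    have hp : Measurable fun p : ℍ => f (planeMap p s) :=
      hf.comp (continuous_planeMap.comp (continuous_id.prodMk continuous_const)).measurable
    rw [lintegral_upperHalfPlane hp, ← lintegral_const_mul' _ _ ENNReal.ofReal_ne_top,
      ← lintegral_indicator (measurableSet_lt measurable_const Complex.measurable_im),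
      ← hcomp]
    refine lintegral_congr fun z => ?_
    by_cases hz : 0 < z.im
    · rw [indicator_of_mem (show z ∈ {z : ℂ | 0 < z.im} from hz), hh]
      show _ = {q : ℝ × ℝ | 0 < q.1}.indicator _ (z.im, s)
      rw [indicator_of_mem (show (z.im, s) ∈ {q : ℝ × ℝ | 0 < q.1} from hz), hF,
        UpperHalfPlane.ofComplex_apply_of_im_pos hz]
      simp only [normalT, H3.density, planeMap, tanh_eq_sinh_div_cosh]
      rw [← mul_assoc, ← mul_assoc, ← ENNReal.ofReal_mul (sq_nonneg _),
        ← ENNReal.ofReal_mul (div_nonneg hz.le (cosh_pos s).le)]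
      congr 2
      · have := (cosh_pos s).ne'
        field_simp
    · rw [indicator_of_notMem (show z ∉ {z : ℂ | 0 < z.im} from hz), hh]
      show _ = {q : ℝ × ℝ | 0 < q.1}.indicator _ (z.im, s)
      rw [indicator_of_notMem (show (z.im, s) ∉ {q : ℝ × ℝ | 0 < q.1} from hz)]
  rw [lintegral_congr hrhs]
  have hsw : ∫⁻ s : ℝ, ∫⁻ w : ℝ × ℝ, h (w.1, (w.2, s)) = ∫⁻ x : ℝ, ∫⁻ q : ℝ × ℝ, h (x, q) := by
    have hm2 : Measurable fun u : (ℝ × ℝ) × ℝ => h (u.1.1, (u.1.2, u.2)) :=
      hhm.comp ((measurable_fst.comp measurable_fst).prodMk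
        ((measurable_snd.comp measurable_fst).prodMk measurable_snd))
    calc ∫⁻ s : ℝ, ∫⁻ w : ℝ × ℝ, h (w.1, (w.2, s))
        = ∫⁻ u : (ℝ × ℝ) × ℝ, h (u.1.1, (u.1.2, u.2)) ∂((volume : Measure (ℝ × ℝ)).prod volume) :=
          (lintegral_prod_symm (fun u : (ℝ × ℝ) × ℝ => h (u.1.1, (u.1.2, u.2)))
            hm2.aemeasurable).symm
      _ = ∫⁻ u : ℝ × ℝ × ℝ, h u ∂((volume : Measure ℝ).prod (volume : Measure (ℝ × ℝ))) := by
          rw [Measure.volume_eq_prod, ← (measurePreserving_prodAssoc (volume : Measure ℝ)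
            (volume : Measure ℝ) (volume : Measure ℝ)).lintegral_comp hhm]
          rfl
      _ = _ := lintegral_prod h hhm.aemeasurable
  rw [hsw]

/-- A matrix fixing the vector commutes with the projection to the plane. -/
theorem planePoint_planeFoot_smul (g : GL (Fin 2) ℂ) (hg : pullMat g baseVec = baseVec) (P : H3) :
    planePoint (planeFoot (g • P)) = g • planePoint (planeFoot P) := by
  have key : ∀ Q : H3, (cosh (planeDist Q) : ℂ) • (planePoint (planeFoot Q)).mat =
      Q.mat + ((mTrace baseVec Q : ℝ) : ℂ) • baseVec := fun Q => by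
    conv_rhs => rw [← planeMap_foot_dist Q, mTrace_baseVec_planeMap]
    rw [mat_planeMap]
    push_cast
    rfl
  have hm : mTrace baseVec (g • P) = mTrace baseVec P := by rw [mTrace_smul, hg]
  have hcd : cosh (planeDist (g • P)) = cosh (planeDist P) := by
    have hs : ∀ Q : H3, sinh (planeDist Q) = -mTrace baseVec Q := fun Q => by
      conv_rhs => rw [← planeMap_foot_dist Q, mTrace_baseVec_planeMap, neg_neg]
    have : planeDist (g • P) = planeDist P := sinh_injective (by rw [hs, hs, hm])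
    rw [this]
  set G := (g : Matrix (Fin 2) (Fin 2) ℂ) with hG
  have hd := H3.norm_det_pos g
  have hdC : (‖G.det‖ : ℂ) ≠ 0 := Complex.ofReal_ne_zero.mpr hd.ne'
  have hGu : IsUnit G.det := (Matrix.isUnit_iff_isUnit_det _).mp g.isUnit
  have hGs : IsUnit Gᴴ.det := by rw [Matrix.det_conjTranspose]; exact hGu.star
  have hbase : ((‖G.det‖⁻¹ : ℝ) : ℂ) • (G * baseVec * Gᴴ) = baseVec := by
    conv_lhs => rw [← hg, pullMat, ← hG]
    rw [Matrix.mul_smul, Matrix.smul_mul, smul_smul, Complex.ofReal_inv, inv_mul_cancel₀ hdC,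
      one_smul, Matrix.mul_assoc, Matrix.mul_assoc, Matrix.nonsing_inv_mul _ hGs, mul_one,
      Matrix.mul_nonsing_inv_cancel_left _ _ hGu]
  refine H3.ext ?_
  have hc : (cosh (planeDist P) : ℂ) ≠ 0 := Complex.ofReal_ne_zero.mpr (cosh_pos _).ne'
  refine smul_right_injective _ hc ?_
  calc (cosh (planeDist P) : ℂ) • (planePoint (planeFoot (g • P))).mat
      = (g • P).mat + ((mTrace baseVec P : ℝ) : ℂ) • baseVec := by rw [← hcd, key, hm]
    _ = ((‖G.det‖⁻¹ : ℝ) : ℂ) •
          (G * (P.mat + ((mTrace baseVec P : ℝ) : ℂ) • baseVec) * Gᴴ) := by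
        rw [H3.smul_mat, ← hG, Matrix.mul_add, Matrix.add_mul, smul_add, Matrix.mul_smul,
          Matrix.smul_mul, smul_comm ((‖G.det‖⁻¹ : ℝ) : ℂ) ((mTrace baseVec P : ℝ) : ℂ), hbase]
    _ = (cosh (planeDist P) : ℂ) • (g • planePoint (planeFoot P)).mat := by
        rw [← key, H3.smul_mat, ← hG, Matrix.mul_smul, Matrix.smul_mul, smul_comm]

end Fermat.Agent.LT.Lift

end
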