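import Fermat.Agent.LT.Lift.Radial
import Mathlib.Analysis.SpecialFunctions.Arsinh
import Mathlib.MeasureTheory.Integral.DivergenceTheorem
import Mathlib.Topology.Algebra.MetricSpace.Lipschitz

/-!
# Changes of variable on the line

The three substitutions `m = M(s) = α eˢ + β e⁻ˢ` of the theta lift, one for each sign of the
norm.
-/

set_option autoImplicit false

noncomputable section

open MeasureTheory Real Filter Topology Set

namespace Fermat.Agent.LT.Lift

/-- A profile `M = prof α β` with a left inverse `R`. If `odd`, then `M` is even and `R` inverts it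
on the half line `s ≥ 0`. The lift only meets values `x = fold m`, where `fold` is `|·|` unless the
norm is positive. -/
structure Branch (n : ℝ) where
  /-- Whether the test functions are odd. -/
  odd : Bool
  /-- The coefficient of `eˢ`. -/
  α : ℝ
  /-- The coefficient of `e⁻ˢ`. -/
  β : ℝ
  /-- The left inverse. -/
  R : ℝ → ℝ
  /-- The folding of the sign of `m`. -/
  fold : ℝ → ℝ
  n_eq : n = -(4 * (α * β))
  measurable_R : Measurable R
  measurable_fold : Measurable fold
  exists_sign : ∀ x, ∃ σ : ℝ, (σ = 1 ∨ σ = -1) ∧ σ * x = fold x ∧ ∀ y, fold (σ * y) = fold y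
  fold_prof : ∀ s, fold (prof α β s) = prof α β s
  prof_R : ∀ x, 0 ≤ x ^ 2 + n → (n = 0 → x ≠ 0) → prof α β (R (fold x)) = fold x
  R_prof : ∀ s, R (prof α β s) = if odd then |s| else s
  prof'_ne_zero : ∀ s, (odd = true → s ≠ 0) → prof' α β s ≠ 0
  prof'_sign : ∀ s, (if odd then 0 ≤ s else True) → 0 ≤ prof' α β s
  prof'_neg : odd = true → ∀ s, prof' α β (-s) = -prof' α β s
  continuousAt_R : ∀ s, (odd = true → s ≠ 0) → ContinuousAt R (prof α β s)
  bound : ∀ h : ℝ → ℝ, LocallyLipschitz h → Admissible odd h → ∀ a b : ℝ,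
    ∃ C, ∀ s ∈ Icc a b, |h s| ≤ C * |prof' α β s|

variable {n : ℝ}

/-- The function of `m` attached to a test function of `s`. -/
def Branch.lift (B : Branch n) (h : ℝ → ℝ) (x : ℝ) : ℝ := h (B.R x) / prof' B.α B.β (B.R x)

/-- The lift of a continuous test function is measurable. -/
theorem Branch.measurable_lift (B : Branch n) {h : ℝ → ℝ} (hh : Continuous h) :
    Measurable (B.lift h) :=
  (hh.measurable.comp B.measurable_R).div
    ((show Continuous (prof' B.α B.β) by unfold prof'; fun_prop).measurable.comp B.measurable_R)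

theorem Branch.lift_prof_mul (B : Branch n) {h : ℝ → ℝ} (hh : Admissible B.odd h) (s : ℝ) :
    B.lift h (prof B.α B.β s) * prof' B.α B.β s = h s := by
  rw [Branch.lift, B.R_prof]
  cases hodd : B.odd
  · simp only [Bool.false_eq_true, if_false]
    exact div_mul_cancel₀ _ (B.prof'_ne_zero s (by simp [hodd]))
  · simp only [if_true]
    rw [hodd] at hh
    rcases lt_trichotomy s 0 with hs | rfl | hs
    · have h0 := B.prof'_ne_zero (-s) fun _ => by linarith
      rw [B.prof'_neg hodd, neg_ne_zero] at h0
      rw [abs_of_neg hs, hh rfl, B.prof'_neg hodd, neg_div_neg_eq, div_mul_cancel₀ _ h0]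
    · simp [hh.zero_eq]
    · rw [abs_of_pos hs]
      exact div_mul_cancel₀ _ (B.prof'_ne_zero s fun _ => hs.ne')

theorem Branch.abs_lift_prof_mul (B : Branch n) {h : ℝ → ℝ} (hh : Admissible B.odd h) (s : ℝ) :
    |B.lift h (prof B.α B.β s)| * prof' B.α B.β s = absPart B.odd h s := by
  have e := congrArg abs (B.lift_prof_mul hh s)
  rw [abs_mul] at e
  cases hodd : B.odd
  · have hs : 0 ≤ prof' B.α B.β s := B.prof'_sign s (by simp [hodd])
    rw [abs_of_nonneg hs] at e
    simp [absPart, e]
  · simp only [absPart, if_true]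
    by_cases hs : 0 ≤ s
    · have hs' : 0 ≤ prof' B.α B.β s := B.prof'_sign s (by simp [hodd, hs])
      rw [abs_of_nonneg hs'] at e
      simp [hs, e]
    · have hs' : 0 ≤ prof' B.α B.β (-s) := B.prof'_sign (-s) (by simp [hodd]; linarith)
      rw [B.prof'_neg hodd] at hs'
      rw [abs_of_nonpos (show prof' B.α B.β s ≤ 0 by linarith)] at e
      simp only [hs, if_false]
      linarith

/-- Lifted test functions are bounded along the profile on compact intervals. -/
theorem Branch.exists_bound_lift (B : Branch n) {h : ℝ → ℝ} (hl : LocallyLipschitz h)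
    (hh : Admissible B.odd h) (a b : ℝ) :
    ∃ C, ∀ s ∈ Icc a b, |B.lift h (prof B.α B.β s)| ≤ C := by
  obtain ⟨C, hC⟩ := B.bound h hl hh a b
  refine ⟨|C|, fun s hs => ?_⟩
  have e := congrArg abs (B.lift_prof_mul hh s)
  rw [abs_mul] at e
  rcases eq_or_ne (prof' B.α B.β s) 0 with h0 | h0
  · have : B.lift h (prof B.α B.β s) = 0 := by
      rw [Branch.lift, B.R_prof]
      cases hodd : B.odd
      · simp [h0]
      · have hs0 : s = 0 := by
          by_contra hne
          exact B.prof'_ne_zero s (fun _ => hne) h0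
        simp [hs0 ▸ h0, hs0]
    simp [this]
  · have hp := abs_pos.mpr h0
    refine le_of_mul_le_mul_right ?_ hp
    rw [e]
    exact (hC s hs).trans (mul_le_mul_of_nonneg_right (le_abs_self C) hp.le)

/-- Substitution, when the identity of the integrands holds pointwise, the function is bounded on
the curve and continuous at all but one of its points. -/
theorem isProfilePair_of_pointwise {α β : ℝ} {f h : ℝ → ℝ} (hf : Measurable f) (hh : Continuous h)
    (hfh : ∀ s, f (prof α β s) * prof' α β s = h s)
    (hb : ∀ a b, ∃ C, ∀ s ∈ Icc a b, |f (prof α β s)| ≤ C)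
    (hcont : ∀ s, s ≠ 0 → ContinuousAt f (prof α β s)) : IsProfilePair α β f h := by
  intro s₁ s₂
  obtain ⟨C, hC⟩ := hb (min s₁ s₂) (max s₁ s₂)
  -- values between two points of the curve lie on it
  have himg : ∀ s ∈ uIcc s₁ s₂, ∀ t ∈ uIcc s₁ s₂, ∀ x ∈ uIcc (prof α β s) (prof α β t), |f x| ≤ C := by
    intro s hs t ht x hx
    obtain ⟨u, hu, rfl⟩ := intermediate_value_uIcc (continuous_prof α β).continuousOn hx
    exact hC u (uIcc_subset_uIcc hs ht hu)
  have hint : ∀ s ∈ uIcc s₁ s₂, ∀ t ∈ uIcc s₁ s₂,
      IntervalIntegrable f volume (prof α β s) (prof α β t) := by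
    intro s hs t ht
    rw [intervalIntegrable_iff']
    refine IntegrableOn.of_bound measure_Icc_lt_top hf.aestronglyMeasurable C ?_
    filter_upwards [ae_restrict_mem measurableSet_uIcc] with x hx
    exact himg s hs t ht x hx
  set F : ℝ → ℝ := fun t => ∫ x in (prof α β s₁)..(prof α β t), f x with hF
  have hFc : ContinuousOn F (uIcc s₁ s₂) := by
    intro t ht
    have hlim : Tendsto (fun u => C * |prof α β u - prof α β t|) (𝓝[uIcc s₁ s₂] t) (𝓝 0) := by
      have : Continuous fun u => C * |prof α β u - prof α β t| := by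
        have := continuous_prof α β
        fun_prop
      simpa using (this.tendsto' t 0 (by simp)).mono_left nhdsWithin_le_nhds
    rw [ContinuousWithinAt, tendsto_iff_norm_sub_tendsto_zero]
    refine squeeze_zero' (Eventually.of_forall fun u => norm_nonneg _) ?_ hlim
    filter_upwards [self_mem_nhdsWithin] with u hu
    simp only [hF]
    rw [intervalIntegral.integral_interval_sub_left (hint _ left_mem_uIcc _ hu)
      (hint _ left_mem_uIcc _ ht)]
    exact intervalIntegral.norm_integral_le_of_norm_le_const fun x hx =>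
      himg _ ht _ hu x (uIoc_subset_uIcc hx)
  have hd : ∀ t ∈ Ioo (min s₁ s₂) (max s₁ s₂) \ {0}, HasDerivAt F (h t) t := by
    rintro t ⟨ht, ht0⟩
    have ht' : t ∈ uIcc s₁ s₂ := Ioo_subset_Icc_self ht
    have h1 := intervalIntegral.integral_hasDerivAt_right (hint _ left_mem_uIcc _ ht')
      hf.stronglyMeasurable.stronglyMeasurableAtFilter (hcont t ht0)
    have h2 : HasDerivAt (prof α β) (prof' α β t) t := by
      have := (((hasDerivAt_exp t).const_mul α).add
        (((hasDerivAt_neg t).exp).const_mul β))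
      refine this.congr_deriv ?_
      simp [prof', sub_eq_add_neg]
    exact (h1.comp t h2).congr_deriv (hfh t)
  rw [MeasureTheory.integral_eq_of_hasDerivAt_off_countable F h (countable_singleton 0) hFc hd
    (hh.intervalIntegrable _ _)]
  simp [hF]

/-- A branch gives profile pairs for a test function and its absolute value. -/
theorem Branch.isProfilePair (B : Branch n) {h : ℝ → ℝ} (hl : LocallyLipschitz h)
    (hh : Admissible B.odd h) :
    IsProfilePair B.α B.β (B.lift h) h ∧
      IsProfilePair B.α B.β (fun x => |B.lift h x|) (absPart B.odd h) := by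
  have hc := hl.continuous
  have hcont : ∀ s, s ≠ 0 → ContinuousAt (B.lift h) (prof B.α B.β s) := by
    intro s hs
    have hR : ContinuousAt B.R (prof B.α B.β s) := B.continuousAt_R s fun _ => hs
    have hp : Continuous (prof' B.α B.β) := by unfold prof'; fun_prop
    refine ContinuousAt.div (hc.continuousAt.comp hR) (hp.continuousAt.comp hR) ?_
    simp only [B.R_prof]
    cases hodd : B.odd
    · exact B.prof'_ne_zero s fun _ => hs
    · exact B.prof'_ne_zero |s| fun _ => abs_ne_zero.mpr hs
  refine ⟨isProfilePair_of_pointwise (B.measurable_lift hc) hc (B.lift_prof_mul hh)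
    (B.exists_bound_lift hl hh) hcont, ?_⟩
  refine isProfilePair_of_pointwise (measurable_norm.comp (B.measurable_lift hc)) (continuous_absPart hc hh)
    (B.abs_lift_prof_mul hh) (fun a b => ?_) fun s hs => (hcont s hs).abs
  simpa only [abs_abs] using B.exists_bound_lift hl hh a b

/-! ### The branches -/

theorem exists_bound_of_pos {h g : ℝ → ℝ} (hh : Continuous h) (hg : Continuous g)
    (h0 : ∀ s, g s ≠ 0) (a b : ℝ) : ∃ C, ∀ s ∈ Icc a b, |h s| ≤ C * |g s| := by
  obtain ⟨C, hC⟩ := (isCompact_Icc (a := a) (b := b)).exists_bound_of_continuousOn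
    (hh.div hg h0).continuousOn
  refine ⟨C, fun s hs => ?_⟩
  have := hC s hs
  rwa [Pi.div_apply, Real.norm_eq_abs, abs_div, div_le_iff₀ (abs_pos.mpr (h0 s))] at this

theorem exists_bound_abs {h : ℝ → ℝ} (hl : LocallyLipschitz h) (h0 : h 0 = 0) (a b : ℝ) :
    ∃ C, 0 ≤ C ∧ ∀ s ∈ Icc a b, |h s| ≤ C * |s| := by
  obtain ⟨K, hK⟩ := hl.locallyLipschitzOn.exists_lipschitzOnWith_of_compact
    (isCompact_Icc (a := min a 0) (b := max b 0))
  refine ⟨K, K.2, fun s hs => ?_⟩
  have := hK.dist_le_mul s ⟨(min_le_left _ _).trans hs.1, hs.2.trans (le_max_left _ _)⟩ 0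
    ⟨min_le_right _ _, le_max_right _ _⟩
  simpa [Real.dist_eq, h0] using this

theorem prof_pos_branch (ν s : ℝ) :
    prof (ν / 2) (-(ν / 2)) s = ν * sinh s ∧ prof' (ν / 2) (-(ν / 2)) s = ν * cosh s := by
  simp only [prof, prof', sinh_eq, cosh_eq]
  constructor <;> ring

theorem prof_neg_branch (ν s : ℝ) :
    prof (ν / 2) (ν / 2) s = ν * cosh s ∧ prof' (ν / 2) (ν / 2) s = ν * sinh s := by
  simp only [prof, prof', sinh_eq, cosh_eq]
  constructor <;> ring

/-- The profile with `α = 1`, `β = 0` is the exponential. -/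
theorem prof_zero_branch (s : ℝ) : prof 1 0 s = exp s ∧ prof' 1 0 s = exp s := by
  simp [prof, prof']

/-- The branch for a positive norm. -/
def branchPos {n : ℝ} (hn : 0 < n) : Branch n where
  odd := false
  α := √n / 2
  β := -(√n / 2)
  R x := arsinh (x / √n)
  fold := id
  n_eq := by have := Real.mul_self_sqrt hn.le; nlinarith
  measurable_R := (continuous_arsinh.comp (continuous_id.div_const _)).measurable
  measurable_fold := measurable_id
  exists_sign x := ⟨1, Or.inl rfl, one_mul x, fun y => by rw [one_mul]⟩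
  fold_prof _ := rfl
  prof_R x _ _ := by
    rw [(prof_pos_branch _ _).1, sinh_arsinh, id]
    field_simp [(Real.sqrt_pos.mpr hn).ne']
  R_prof s := by
    simp only [Bool.false_eq_true, if_false, (prof_pos_branch _ _).1]
    rw [mul_div_cancel_left₀ _ (Real.sqrt_pos.mpr hn).ne', arsinh_sinh]
  prof'_ne_zero s _ := by
    rw [(prof_pos_branch _ _).2]
    exact (mul_pos (Real.sqrt_pos.mpr hn) (cosh_pos s)).ne'
  prof'_sign s _ := by
    rw [(prof_pos_branch _ _).2]
    exact (mul_pos (Real.sqrt_pos.mpr hn) (cosh_pos s)).le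
  prof'_neg h := absurd h Bool.false_ne_true
  continuousAt_R _ _ := (continuous_arsinh.comp (continuous_id.div_const _)).continuousAt
  bound h hl _ := exists_bound_of_pos hl.continuous (by unfold prof'; fun_prop) fun s => by
    rw [(prof_pos_branch _ _).2]
    exact (mul_pos (Real.sqrt_pos.mpr hn) (cosh_pos s)).ne'

/-- The branch for norm zero. -/
def branchZero : Branch 0 where
  odd := false
  α := 1
  β := 0
  R := log
  fold x := |x|
  n_eq := by simp
  measurable_R := measurable_log
  measurable_fold := measurable_norm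
  exists_sign x := by
    rcases le_total 0 x with h | h
    · exact ⟨1, Or.inl rfl, by rw [one_mul, abs_of_nonneg h], fun y => by rw [one_mul]⟩
    · exact ⟨-1, Or.inr rfl, by rw [neg_one_mul, abs_of_nonpos h], fun y => by simp⟩
  fold_prof s := by rw [(prof_zero_branch s).1, abs_of_pos (exp_pos s)]
  prof_R x _ hx := by rw [(prof_zero_branch _).1, exp_log (abs_pos.mpr (hx rfl))]
  R_prof s := by simp [(prof_zero_branch s).1]
  prof'_ne_zero s _ := by rw [(prof_zero_branch s).2]; exact (exp_pos s).ne'
  prof'_sign s _ := by rw [(prof_zero_branch s).2]; exact (exp_pos s).le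
  prof'_neg h := absurd h Bool.false_ne_true
  continuousAt_R s _ := continuousAt_log (by rw [(prof_zero_branch s).1]; exact (exp_pos s).ne')
  bound h hl _ := exists_bound_of_pos hl.continuous (by unfold prof'; fun_prop) fun s => by
    rw [(prof_zero_branch s).2]; exact (exp_pos s).ne'

/-- The branch for a negative norm. -/
def branchNeg {n : ℝ} (hn : n < 0) : Branch n where
  odd := true
  α := √(-n) / 2
  β := √(-n) / 2
  R x := arcosh (max (x / √(-n)) 1)
  fold x := |x|
  n_eq := by have := Real.mul_self_sqrt (neg_nonneg.mpr hn.le); nlinarith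
  measurable_R := (continuousOn_arcosh.comp_continuous (by fun_prop)
    fun x => mem_Ici.mpr (le_max_right _ _)).measurable
  measurable_fold := measurable_norm
  exists_sign x := by
    rcases le_total 0 x with h | h
    · exact ⟨1, Or.inl rfl, by rw [one_mul, abs_of_nonneg h], fun y => by rw [one_mul]⟩
    · exact ⟨-1, Or.inr rfl, by rw [neg_one_mul, abs_of_nonpos h], fun y => by simp⟩
  fold_prof s := by
    rw [(prof_neg_branch _ _).1]
    exact abs_of_nonneg (mul_nonneg (Real.sqrt_nonneg _) (cosh_pos s).le)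
  prof_R x hx _ := by
    have hp := Real.sqrt_pos.mpr (neg_pos.mpr hn)
    have h1 : 1 ≤ |x| / √(-n) := by
      rw [le_div_iff₀ hp, one_mul, ← Real.sqrt_sq_eq_abs]
      exact Real.sqrt_le_sqrt (by linarith)
    rw [(prof_neg_branch _ _).1, max_eq_left h1, cosh_arcosh h1]
    field_simp
  R_prof s := by
    have hp := Real.sqrt_pos.mpr (neg_pos.mpr hn)
    simp only [if_true, (prof_neg_branch _ _).1]
    rw [mul_div_cancel_left₀ _ hp.ne', max_eq_left (one_le_cosh s), ← cosh_abs,
      arcosh_cosh (abs_nonneg s)]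
  prof'_ne_zero s hs := by
    rw [(prof_neg_branch _ _).2]
    exact mul_ne_zero (Real.sqrt_pos.mpr (neg_pos.mpr hn)).ne' (sinh_ne_zero.mpr (hs rfl))
  prof'_sign s hs := by
    rw [(prof_neg_branch _ _).2]
    exact mul_nonneg (Real.sqrt_nonneg _) (sinh_nonneg_iff.mpr hs)
  prof'_neg _ s := by simp only [(prof_neg_branch _ _).2, sinh_neg, mul_neg]
  continuousAt_R _ _ := (continuousOn_arcosh.comp_continuous (by fun_prop)
    fun x => mem_Ici.mpr (le_max_right _ _)).continuousAt
  bound h hl hh a b := by
    have hp := Real.sqrt_pos.mpr (neg_pos.mpr hn)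
    obtain ⟨C, hC0, hC⟩ := exists_bound_abs hl hh.zero_eq a b
    refine ⟨C / √(-n), fun s hs => (hC s hs).trans ?_⟩
    rw [(prof_neg_branch _ _).2, abs_mul, abs_of_pos hp, ← mul_assoc, div_mul_cancel₀ _ hp.ne',
      abs_sinh]
    exact mul_le_mul_of_nonneg_left (self_le_sinh_iff.mpr (abs_nonneg s)) hC0

end Fermat.Agent.LT.Lift
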