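import Fermat.Agent.LT.Lift.Adjoint
import Fermat.Agent.LT.Lift.Branch

/-!
# The weight of the lift on the line

Read on the line through the branches, the weight of a theta lift commutes with the averages
against `ballKer`.
-/

set_option autoImplicit false

noncomputable section

open MeasureTheory Real Filter Topology Set
open scoped ENNReal Matrix ComplexOrder

namespace Fermat.Agent.LT.Lift

/-- The trace is homogeneous in real scalars. -/
theorem mTrace_smul_mat (σ : ℝ) (X : Matrix (Fin 2) (Fin 2) ℂ) (Q : H3) :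
    mTrace ((σ : ℂ) • X) Q = σ * mTrace X Q := by
  simp only [mTrace, Matrix.mul_smul, Matrix.trace_smul, smul_eq_mul, Complex.re_ofReal_mul]
  ring

/-- The norm is homogeneous of degree two in real scalars. -/
theorem nForm_smul_mat (σ : ℝ) (X : Matrix (Fin 2) (Fin 2) ℂ) :
    nForm ((σ : ℂ) • X) = σ ^ 2 * nForm X := by
  simp only [nForm, Matrix.det_smul, Fintype.card_fin, ← Complex.ofReal_pow, Complex.re_ofReal_mul]
  ring

theorem isHermitian_smul_mat (σ : ℝ) {X : Matrix (Fin 2) (Fin 2) ℂ} (hX : X.IsHermitian) :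
    ((σ : ℂ) • X).IsHermitian := by
  unfold Matrix.IsHermitian
  rw [Matrix.conjTranspose_smul, hX.eq, Complex.star_def, Complex.conj_ofReal]

/-- A nonzero isotropic vector is seen by every point. -/
theorem mTrace_ne_zero {X : Matrix (Fin 2) (Fin 2) ℂ} (hX : X.IsHermitian) (hn : nForm X = 0)
    (h0 : X ≠ 0) (P : H3) : mTrace X P ≠ 0 := by
  intro hm
  have hx : ∀ i j, X j i = star (X i j) := fun i j => (hX.apply j i).symm
  have hp : ∀ i j, P.mat j i = star (P.mat i j) := fun i j => (P.posDef.isHermitian.apply j i).symm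
  have hre : ∀ i, (X i i).im = 0 := fun i => by
    have := congrArg Complex.im (hx i i); simp at this; linarith
  have hre' : ∀ i, (P.mat i i).im = 0 := fun i => by
    have := congrArg Complex.im (hp i i); simp at this; linarith
  have hpos : ∀ i, 0 < (P.mat i i).re := fun i => (Complex.pos_iff.mp P.posDef.diag_pos).1
  have hdet := congrArg Complex.re P.det_eq
  rw [Matrix.det_fin_two, hp 0 1] at hdet
  rw [nForm, Matrix.det_fin_two, hx 0 1] at hn
  rw [mTrace_eq, hp 0 1, hx 0 1] at hm
  simp [Complex.mul_re, hre, hre'] at hdet hn hm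
  set a := (X 0 0).re
  set d := (X 1 1).re
  set p := (P.mat 0 0).re
  set r := (P.mat 1 1).re
  set u := (X 0 1).re
  set v := (X 0 1).im
  set s := (P.mat 0 1).re
  set t := (P.mat 0 1).im
  have hzero : u ^ 2 + v ^ 2 = 0 := by
    have hsum : r * a + p * d = 2 * (s * u + t * v) := by linarith
    have h1 : 4 * (p * r) * (a * d) ≤ (r * a + p * d) ^ 2 := by nlinarith [sq_nonneg (r * a - p * d)]
    rw [hsum, show p * r = 1 + (s * s + t * t) by linarith,
      show a * d = u * u + v * v by linarith] at h1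
    nlinarith [sq_nonneg (s * v - t * u), sq_nonneg u, sq_nonneg v]
  have hu : u = 0 := by nlinarith [sq_nonneg u, sq_nonneg v]
  have hv : v = 0 := by nlinarith [sq_nonneg u, sq_nonneg v]
  have had : a * d = 0 := by rw [hu, hv] at hn; linarith
  rw [hu, hv] at hm
  have ha : a = 0 ∧ d = 0 := by
    rcases mul_eq_zero.mp had with h | h
    · rw [h] at hm; exact ⟨h, (mul_eq_zero.mp (by linarith : p * d = 0)).resolve_left (hpos 0).ne'⟩
    · rw [h] at hm; exact ⟨(mul_eq_zero.mp (by linarith : r * a = 0)).resolve_left (hpos 1).ne', h⟩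
  refine h0 ?_
  ext i j
  fin_cases i <;> fin_cases j <;> simp [Complex.ext_iff, hre, hx 0 1] <;>
    simp [a, d, u, v] at ha hu hv ⊢ <;> tauto

variable [MeasurableSpace H3] [BorelSpace H3]
variable {G J : Type*} [Group G] [Countable G] [MulAction G J] [MulAction G H3]
  [Countable J] [MeasurableSpace J] [MeasurableSingletonClass J]
  {μ : Measure H3} [SigmaFinite μ] {c : ℝ≥0∞}

omit [SigmaFinite μ] in
/-- The majorant `mTrace² + nForm` is nonnegative on Hermitian matrices. -/
theorem mTrace_sq_add_nForm_nonneg (hμ : IsH3Measure μ c) {X : Matrix (Fin 2) (Fin 2) ℂ}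
    (hX : X.IsHermitian) (P : H3) : 0 ≤ mTrace X P ^ 2 + nForm X := by
  obtain ⟨δ, hδ, -, -⟩ := setIntegral_ball_eq hμ hX P (f := fun _ => (0 : ℝ)) measurable_const 0
  rw [← hδ]
  exact sq_nonneg δ

omit [SigmaFinite μ] in
/-- Level sets of `m(X, ·)` are null. -/
theorem measure_mTrace_eq (hμ : IsH3Measure μ c) {X : Matrix (Fin 2) (Fin 2) ℂ}
    (hX : X.IsHermitian) (hX0 : X ≠ 0) (K : ℝ) : μ {Q | mTrace X Q = K} = 0 := by
  set S := {Q : H3 | mTrace X Q = K} with hS
  have hSm : MeasurableSet S := (continuous_mTrace X).measurable (measurableSet_singleton K)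
  have hball : ∀ ρ : ℝ, μ ({Q | H3.cdist H3.origin Q ≤ cosh ρ} ∩ S) = 0 := by
    intro ρ
    have hf : Measurable (({K} : Set ℝ).indicator fun _ => (1 : ℝ)) :=
      measurable_const.indicator (measurableSet_singleton K)
    obtain ⟨δ, hδ, hint, hintg⟩ := setIntegral_ball_eq hμ hX H3.origin hf ρ
    set m := mTrace X H3.origin
    have hnd : ¬(m = 0 ∧ δ = 0) := by
      rintro ⟨hm, hd⟩
      rw [hm, hd] at hδ
      exact mTrace_ne_zero hX (by linarith) hX0 H3.origin hm
    have hline : ∀ᵐ p : ℝ × ℝ, m * p.1 + δ * p.2 ≠ K := by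
      have hset : MeasurableSet {p : ℝ × ℝ | m * p.1 + δ * p.2 ≠ K} :=
        (measurableSet_eq_fun (show Measurable fun p : ℝ × ℝ => m * p.1 + δ * p.2 by fun_prop)
          measurable_const).compl
      rw [Measure.volume_eq_prod, Measure.ae_prod_iff_ae_ae hset]
      rcases eq_or_ne δ 0 with hd | hd
      · have hm : m ≠ 0 := fun h => hnd ⟨h, hd⟩
        filter_upwards [Measure.ae_ne volume (K / m)] with q hq
        refine Eventually.of_forall fun u => ?_
        rw [hd, zero_mul, add_zero]
        intro he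
        exact hq (by rw [← he]; field_simp)
      · refine Eventually.of_forall fun q => ?_
        filter_upwards [Measure.ae_ne volume ((K - m * q) / δ)] with u hu he
        exact hu (by rw [← he]; field_simp; ring)
    have hz : (fun p : ℝ × ℝ => ({K} : Set ℝ).indicator (fun _ => (1 : ℝ)) (m * p.1 + δ * p.2))
        =ᵐ[volume.restrict (axisSlice ρ)] 0 := by
      filter_upwards [ae_restrict_of_ae hline] with p hp
      simp [hp]
    have h1 := hintg ((integrable_congr hz).mpr (integrable_zero _ _ _))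
    rw [integral_congr_ae hz] at hint
    simp only [Pi.zero_apply, integral_zero, mul_zero] at hint
    have h2 := (setIntegral_eq_zero_iff_of_nonneg_ae (Eventually.of_forall fun Q =>
      indicator_nonneg (fun _ _ => zero_le_one) _) h1).mp hint
    have h3 : μ.restrict {Q | H3.cdist H3.origin Q ≤ cosh ρ} S = 0 := by
      refine measure_mono_null (fun Q hQ => ?_) (ae_iff.mp h2)
      have : mTrace X Q = K := hQ
      simp [this]
    rwa [Measure.restrict_apply hSm, inter_comm] at h3
  refine measure_mono_null (fun Q hQ => ?_) (measure_iUnion_null fun N : ℕ => hball (N : ℝ))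
  obtain ⟨N, hN⟩ := exists_nat_ge (H3.cdist H3.origin Q)
  refine mem_iUnion.mpr ⟨N, ?_, hQ⟩
  exact hN.trans ((self_le_sinh_iff.mpr (Nat.cast_nonneg N)).trans (sinh_lt_cosh N).le)

namespace LiftData

variable {n : ℝ}

/-- The indices of norm `n`, the zero vector excepted. -/
def condSet (D : LiftData G J μ c) (n : ℝ) : Set (J × H3) :=
  {z | nForm (D.X z.1) = n ∧ D.X z.1 ≠ 0}

/-- The pairing of the lift with `f (m)` on the vectors of norm `n`. -/
def pairing (D : LiftData G J μ c) (n : ℝ) (f : ℝ → ℝ) : ℂ :=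
  ∫ z, (D.condSet n).indicator
    (fun z => (D.ω z.1 z.2 * f (mTrace (D.X z.1) z.2)) • D.ψ z.1 z.2) z ∂jointMeasure J μ

/-- The variable `s` with `M(s) = fold m`. -/
def lineVar (D : LiftData G J μ c) (B : Branch n) (z : J × H3) : ℝ :=
  B.R (B.fold (mTrace (D.X z.1) z.2))

/-- The weight `ω ψ / M'(s)`. -/
def lineWeight (D : LiftData G J μ c) (B : Branch n) : J × H3 → ℂ :=
  (D.condSet n).indicator fun z =>
    (D.ω z.1 z.2 / prof' B.α B.β (D.lineVar B z)) • D.ψ z.1 z.2

omit [BorelSpace H3] [Countable G] [SigmaFinite μ] in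
/-- The vectors of a given norm form a measurable set. -/
theorem measurableSet_condSet (D : LiftData G J μ c) (n : ℝ) : MeasurableSet (D.condSet n) :=
  (MeasurableSet.of_discrete (s := {j | nForm (D.X j) = n ∧ D.X j ≠ 0})).preimage measurable_fst

omit [Countable G] [SigmaFinite μ] in
/-- The variable on the line is measurable. -/
theorem measurable_lineVar (D : LiftData G J μ c) (B : Branch n) : Measurable (D.lineVar B) :=
  B.measurable_R.comp (B.measurable_fold.comp D.measurable_mTrace)

omit [Countable G] [SigmaFinite μ] in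
/-- The weight on the line is measurable. -/
theorem measurable_lineWeight (D : LiftData G J μ c) (B : Branch n) :
    Measurable (D.lineWeight B) :=
  ((D.measurable_part.div ((show Continuous (prof' B.α B.β) by unfold prof'; fun_prop).measurable.comp
    (D.measurable_lineVar B))).smul D.measurable_weight).indicator (D.measurableSet_condSet n)

omit [Countable G] [Countable J] [MeasurableSpace J] [MeasurableSingletonClass J]
  [SigmaFinite μ] [BorelSpace H3] in
/-- The action preserves the nonzero vectors. -/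
theorem smul_ne_zero_iff (D : LiftData G J μ c) (g : G) (j : J) :
    D.X (g • j) ≠ 0 ↔ D.X j ≠ 0 := by
  rcases eq_or_ne (nForm (D.X j)) 0 with hn | hn
  · constructor <;> intro h h'
    · have := mTrace_ne_zero (D.hermitian _) (by rw [D.nForm_smul, hn]) h (g • H3.origin)
      rw [D.mTrace_smul, h'] at this
      simp [mTrace] at this
    · have := mTrace_ne_zero (D.hermitian _) hn h H3.origin
      rw [← D.mTrace_smul g, h'] at this
      simp [mTrace] at this
  · exact iff_of_true (fun h => hn (by rw [← D.nForm_smul g, h]; simp [nForm]))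
      fun h => hn (by rw [h]; simp [nForm])

omit [BorelSpace H3] [Countable G] [Countable J] [MeasurableSingletonClass J] [SigmaFinite μ] in
theorem lineFun_eq_pairing (D : LiftData G J μ c) (B : Branch n) (h : ℝ → ℝ) :
    lineFun (jointMeasure J μ) (D.lineWeight B) (D.lineVar B) h
      = D.pairing n fun x => B.lift h (B.fold x) := by
  unfold lineFun pairing
  congr 1
  funext z
  by_cases hz : z ∈ D.condSet n
  · rw [lineWeight, indicator_of_mem hz, indicator_of_mem hz, smul_smul]
    congr 1
    simp only [lineVar, Branch.lift]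
    ring
  · rw [lineWeight, indicator_of_notMem hz, indicator_of_notMem hz, smul_zero]

omit [Countable G] [Countable J] [MeasurableSpace J] [MeasurableSingletonClass J] [SigmaFinite μ] in
/-- The values of `ball_adjoint`, on vectors of norm `n`. -/
theorem ball_values (hμ : IsH3Measure μ c) (D : LiftData G J μ c) (B : Branch n) {h : ℝ → ℝ}
    (hl : LocallyLipschitz h) (hh : Admissible B.odd h) {ρ : ℝ} (hρ : 0 ≤ ρ) {z : J × H3}
    (hz : z ∈ D.condSet n) :
    IntegrableOn (fun Q => B.lift h (B.fold (mTrace (D.X z.1) Q)))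
        {Q | H3.cdist z.2 Q ≤ cosh ρ} μ ∧
      prof' B.α B.β (D.lineVar B z) *
          ∫ Q in {Q | H3.cdist z.2 Q ≤ cosh ρ}, B.lift h (B.fold (mTrace (D.X z.1) Q)) ∂μ
        = c.toReal * ballConv ρ h (D.lineVar B z) ∧
      prof' B.α B.β (D.lineVar B z) *
          ∫ Q in {Q | H3.cdist z.2 Q ≤ cosh ρ}, |B.lift h (B.fold (mTrace (D.X z.1) Q))| ∂μ
        = c.toReal * ballConv ρ (absPart B.odd h) (D.lineVar B z) := by
  obtain ⟨hn, hX0⟩ := hz
  set X := D.X z.1
  set P := z.2
  obtain ⟨σ, hσ1, hσx, hσy⟩ := B.exists_sign (mTrace X P)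
  have hσ2 : σ ^ 2 = 1 := by rcases hσ1 with rfl | rfl <;> norm_num
  set r := D.lineVar B z
  have hr : prof B.α B.β r = mTrace ((σ : ℂ) • X) P := by
    rw [mTrace_smul_mat, hσx]
    refine B.prof_R _ ?_ fun h0 => mTrace_ne_zero (D.hermitian _) (by rw [hn, h0]) hX0 P
    rw [← hn]
    exact mTrace_sq_add_nForm_nonneg hμ (D.hermitian _) P
  have hn' : nForm ((σ : ℂ) • X) = -(4 * (B.α * B.β)) := by
    rw [nForm_smul_mat, hσ2, one_mul, hn]
    exact B.n_eq
  have hXh := isHermitian_smul_mat σ (D.hermitian z.1)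
  have hpair : ∀ f k : ℝ → ℝ, IsProfilePair B.α B.β f k →
      IsProfilePair B.α B.β (fun x => f (B.fold x)) k := fun f k hp s₁ s₂ => by
    rw [← hp s₁ s₂]
    refine intervalIntegral.integral_congr fun x hx => ?_
    obtain ⟨u, -, rfl⟩ := intermediate_value_uIcc (continuous_prof B.α B.β).continuousOn hx
    simp only [B.fold_prof]
  obtain ⟨C, hC⟩ := B.exists_bound_lift hl hh (r - ρ) (r + ρ)
  obtain ⟨p1, p2⟩ := B.isProfilePair hl hh
  have hlm := (B.measurable_lift hl.continuous).comp B.measurable_fold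
  obtain ⟨i1, e1⟩ := setIntegral_ball_profile hμ hXh P hr hn'
    (f := fun x => B.lift h (B.fold x)) hlm hl.continuous (hpair _ _ p1) hρ (C := C)
    (fun s hs => by simpa only [B.fold_prof] using hC s hs)
  obtain ⟨-, e2⟩ := setIntegral_ball_profile hμ hXh P hr hn'
    (f := fun x => |B.lift h (B.fold x)|) (measurable_norm.comp hlm)
    (continuous_absPart hl.continuous hh) (hpair (fun x => |B.lift h x|) _ p2) hρ (C := C)
    (fun s hs => by simpa only [abs_abs, B.fold_prof] using hC s hs)
  simp only [mTrace_smul_mat, hσy] at i1 e1 e2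
  exact ⟨i1, e1, e2⟩

omit [Countable G] in
/-- The derivative of the profile is almost everywhere nonzero on the vectors of norm `n`. -/
theorem ae_prof'_ne_zero (hμ : IsH3Measure μ c) (D : LiftData G J μ c) (B : Branch n) :
    ∀ᵐ z ∂jointMeasure J μ, z ∈ D.condSet n → prof' B.α B.β (D.lineVar B z) ≠ 0 := by
  have hm : Measurable fun z => prof' B.α B.β (D.lineVar B z) :=
    (show Continuous (prof' B.α B.β) by unfold prof'; fun_prop).measurable.comp
      (D.measurable_lineVar B)
  have hset : MeasurableSet {z | z ∈ D.condSet n → prof' B.α B.β (D.lineVar B z) ≠ 0} := by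
    simp only [imp_iff_not_or, ofPred_or]
    exact (D.measurableSet_condSet n).compl.union
      (measurableSet_eq_fun hm measurable_const).compl
  rw [Measure.ae_prod_iff_ae_ae hset]
  refine Eventually.of_forall fun j => ?_
  by_cases hX : D.X j = 0
  · exact Eventually.of_forall fun Q hz => absurd hX hz.2
  set K := prof B.α B.β 0
  have h1 := measure_mTrace_eq hμ (D.hermitian j) hX K
  have h2 := measure_mTrace_eq hμ (D.hermitian j) hX (-K)
  filter_upwards [measure_eq_zero_iff_ae_notMem.mp h1, measure_eq_zero_iff_ae_notMem.mp h2]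
    with Q hQ1 hQ2 hz h0
  have hs : D.lineVar B (j, Q) = 0 := by
    by_contra hne
    exact B.prof'_ne_zero _ (fun _ => hne) h0
  obtain ⟨hn, hX0⟩ := hz
  have e := B.prof_R (mTrace (D.X j) Q)
    (by rw [← hn]; exact mTrace_sq_add_nForm_nonneg hμ (D.hermitian _) Q)
    fun h0' => mTrace_ne_zero (D.hermitian _) (hn.trans h0') hX0 Q
  rw [show B.R (B.fold (mTrace (D.X j) Q)) = 0 from hs] at e
  obtain ⟨σ, hσ1, hσx, -⟩ := B.exists_sign (mTrace (D.X j) Q)
  rw [← e] at hσx
  rcases hσ1 with rfl | rfl
  · exact hQ1 (by simpa using hσx)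
  · exact hQ2 (show mTrace (D.X j) Q = -K by linarith)

/-- The weight commutes with the averages. -/
theorem ballEigen_lineWeight (hμ : IsH3Measure μ c) (hc : c ≠ 0) (D : LiftData G J μ c)
    (B : Branch n) :
    BallEigen B.odd (jointMeasure J μ) (D.lineWeight B) (D.lineVar B) := by
  intro ρ hρ h hl hh _ hint
  have hc' : c.toReal ≠ 0 := (ENNReal.toReal_pos hc hμ.ne_top).ne'
  set F : J → H3 → ℝ := fun j Q =>
    (D.condSet n).indicator (fun z => B.lift h (B.fold (mTrace (D.X z.1) z.2))) (j, Q) with hF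
  have hiff : ∀ (g : G) j P, (g • j, g • P) ∈ D.condSet n ↔ (j, P) ∈ D.condSet n := fun g j P =>
    and_congr (by rw [D.nForm_smul]) (D.smul_ne_zero_iff g j)
  have hmem : ∀ j P Q, (j, Q) ∈ D.condSet n ↔ (j, P) ∈ D.condSet n := fun j P Q => Iff.rfl
  have hFv : ∀ j P Q, (j, P) ∈ D.condSet n → F j Q = B.lift h (B.fold (mTrace (D.X j) Q)) :=
    fun j P Q hz => indicator_of_mem (s := D.condSet n) ((hmem j P Q).mpr hz) _
  have hF0 : ∀ j P Q, (j, P) ∉ D.condSet n → F j Q = 0 :=
    fun j P Q hz => indicator_of_notMem (s := D.condSet n) (fun h' => hz ((hmem j P Q).mp h')) _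
  have key := ball_adjoint D hρ (F := F) (fun j => ?_) (fun g j P => ?_) (fun j P => ?_) ?_
  · have e1 : (fun z : J × H3 =>
        (D.ω z.1 z.2 * ∫ Q in {Q | H3.cdist z.2 Q ≤ cosh ρ}, F z.1 Q ∂μ) • D.ψ z.1 z.2)
        =ᵐ[jointMeasure J μ]
          fun z => c.toReal • (ballConv ρ h (D.lineVar B z) • D.lineWeight B z) := by
      filter_upwards [D.ae_prof'_ne_zero hμ B] with z hne
      by_cases hz : z ∈ D.condSet n
      · simp only [hFv z.1 z.2 _ hz, lineWeight, indicator_of_mem hz, smul_smul]
        congr 1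
        obtain ⟨-, he, -⟩ := D.ball_values hμ B hl hh hρ.le hz
        field_simp [hne hz]
        linear_combination D.ω z.1 z.2 * he
      · simp [hF0 z.1 z.2 _ hz, lineWeight, indicator_of_notMem hz]
    rw [integral_congr_ae e1, integral_smul, mul_smul] at key
    have e2 : (∫ z : J × H3, (D.ω z.1 z.2 * F z.1 z.2) • D.ψ z.1 z.2 ∂jointMeasure J μ)
        = lineFun (jointMeasure J μ) (D.lineWeight B) (D.lineVar B) h := by
      rw [D.lineFun_eq_pairing B h, pairing]
      congr 1
      funext z
      by_cases hz : z ∈ D.condSet n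
      · rw [indicator_of_mem hz, hFv z.1 z.2 _ hz]
      · rw [indicator_of_notMem hz, hF0 z.1 z.2 _ hz, mul_zero, zero_smul]
    rw [e2] at key
    exact smul_right_injective ℂ hc' key
  · exact ((B.measurable_lift hl.continuous).comp
      (B.measurable_fold.comp D.measurable_mTrace) |>.indicator (D.measurableSet_condSet n)).comp
        measurable_prodMk_left
  · by_cases hz : (j, P) ∈ D.condSet n
    · rw [hFv _ _ _ hz, hFv _ _ _ ((hiff g j P).mpr hz), D.mTrace_smul]
    · rw [hF0 _ _ _ hz, hF0 _ _ _ (mt (hiff g j P).mp hz)]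
  · by_cases hz : (j, P) ∈ D.condSet n
    · rw [show F j = fun Q => B.lift h (B.fold (mTrace (D.X j) Q)) from
        funext fun Q => hFv j P Q hz]
      exact (D.ball_values hμ B hl hh hρ.le hz).1
    · rw [show F j = 0 from funext fun Q => hF0 j P Q hz]
      exact integrableOn_zero
  · refine (hint.const_mul c.toReal).congr ?_
    filter_upwards [D.ae_prof'_ne_zero hμ B] with z hne
    by_cases hz : z ∈ D.condSet n
    · simp only [hFv z.1 z.2 _ hz, lineWeight, indicator_of_mem hz, norm_smul, Real.norm_eq_abs]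
      obtain ⟨-, -, he⟩ := D.ball_values hμ B hl hh hρ.le hz
      have he' := congrArg abs he
      rw [abs_mul, abs_mul, abs_of_nonneg ENNReal.toReal_nonneg,
        abs_of_nonneg (setIntegral_nonneg (measurableSet_ball _ _) fun Q _ => abs_nonneg _)] at he'
      have hp : |prof' B.α B.β (D.lineVar B z)| ≠ 0 := abs_ne_zero.mpr (hne hz)
      rw [abs_div, abs_of_nonneg (D.ω_nonneg _ _)]
      field_simp
      linear_combination (-(D.ω z.1 z.2 * ‖D.ψ z.1 z.2‖)) * he'
    · simp [hF0 z.1 z.2 _ hz, lineWeight, indicator_of_notMem hz]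

end LiftData

end Fermat.Agent.LT.Lift
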