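import Fermat.Agent.LT.Asai.Period
import Fermat.Agent.LT.Translate.Cusp
import Fermat.Agent.LT.Translate.Hecke
import Fermat.Agent.LT.Lift.PlaneCoord
import Fermat.Agent.LT.LiftHecke.EisInt

/-!
# Translation of a test vector to the level of the lift

On the plane the translate of a test vector to level `M 3^(2e+2)` takes the summands of the unit
sum as values, and it has the same Hecke eigenvalues.
-/

set_option autoImplicit false

noncomputable section

open Matrix NumberField
open scoped UpperHalfPlane

namespace Fermat.Agent.LT.Lift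

open Asai Places LiftHecke Translate

/-- Conjugation by a matrix with denominator `d`, as is its inverse, carries principal elements of
level `L` to level `N` when `N d² ∣ L`. -/
theorem isPrincipal_conj_of_denominator {F : Type*} [Field F] [NumberField F] {N L d : ℕ}
    {g x : GLFin F} (hd : ∀ i j, (d : FinAdele F) * g.val i j ∈ integralAdele F)
    (hd' : ∀ i j, (d : FinAdele F) * (g⁻¹).val i j ∈ integralAdele F) (hdvd : N * (d * d) ∣ L)
    (hx : IsPrincipal F L x) : IsPrincipal F N (g⁻¹ * x * g) := by
  have key : ∀ y : GLFin F, IsPrincipal F L y → ∀ i j, ∃ c ∈ integralAdele F,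
      (g⁻¹ * y * g).val i j =
        (1 : Matrix (Fin 2) (Fin 2) (FinAdele F)) i j + (N : FinAdele F) * c := by
    intro y hy i j
    have hy' : IsPrincipal F (N * (d * d)) y := hy.of_dvd hdvd
    choose b hb hby using hy'.left
    have hval : y.val = 1 + ((N * (d * d) : ℕ) : FinAdele F) • Matrix.of b := by
      ext k l
      rw [hby, Matrix.add_apply, Matrix.smul_apply, smul_eq_mul]
      rfl
    refine ⟨((((d : FinAdele F) • (g⁻¹).val) * Matrix.of b) * ((d : FinAdele F) • g.val)) i j,
      ?_, ?_⟩
    · rw [Matrix.mul_apply]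
      refine sum_mem fun l _ => mul_mem ?_ (by simpa using hd l j)
      rw [Matrix.mul_apply]
      refine sum_mem fun q _ => mul_mem ?_ (hb q l)
      simpa [Matrix.smul_apply] using hd' i q
    · rw [Units.val_mul, Units.val_mul, hval, Matrix.mul_add, Matrix.add_mul, Matrix.mul_one,
        ← Units.val_mul, inv_mul_cancel, Units.val_one, Matrix.add_apply]
      congr 1
      simp only [Matrix.mul_apply, Matrix.smul_apply, Fin.sum_univ_two, smul_eq_mul]
      push_cast
      ring
  intro i j
  obtain ⟨c, hc, ec⟩ := key x hx i j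
  obtain ⟨c', hc', ec'⟩ := key x⁻¹ hx.inv i j
  exact ⟨c, hc, c', hc', ec, by rw [← ec', show (g⁻¹ * x * g)⁻¹ = g⁻¹ * x⁻¹ * g by group]⟩

/-- A matrix with denominator `d`, as is its inverse, carries the level `L` into the level `N`
when `N d² ∣ L`. -/
theorem conjugates_of_denominator {F : Type*} [Field F] [NumberField F] {N L d : ℕ} (hN : 0 < N)
    (hL : 0 < L) {g : GLFin F} (hd : ∀ i j, (d : FinAdele F) * g.val i j ∈ integralAdele F)
    (hd' : ∀ i j, (d : FinAdele F) * (g⁻¹).val i j ∈ integralAdele F) (hdvd : N * (d * d) ∣ L) :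
    Conjugates (Level.principal F L hL) (Level.principal F N hN) g := by
  rintro _ ⟨a, x, hx, rfl⟩
  refine ⟨a, g⁻¹ * x * g, isPrincipal_conj_of_denominator hd hd' hdvd hx, ?_⟩
  rw [← mul_assoc g⁻¹ (scalarFin F a) x, ← scalarFin_comm a g⁻¹]
  simp only [mul_assoc]

/-- Principal matrices lie in the principal level. -/
theorem mem_principal_of_isPrincipal {F : Type*} [Field F] [NumberField F] {N : ℕ} (hN : 0 < N)
    (k : GLFin F) (hk : IsPrincipal F N k) : k ∈ (Level.principal F N hN).toSubgroup :=
  ⟨1, k, hk, by rw [map_one, one_mul]⟩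

/-- The level of the lift. -/
def honeLevel (M e : ℕ) : ℕ := M * 3 ^ (2 * e + 2)

/-- The level of the lift is positive. -/
theorem honeLevel_pos {M : ℕ} (hM : 0 < M) (e : ℕ) : 0 < honeLevel M e := by
  unfold honeLevel; positivity

theorem dvd_honeLevel (M e : ℕ) : M ∣ honeLevel M e := dvd_mul_right _ _

/-- The level of the lift is divisible by `3`. -/
theorem three_dvd_honeLevel (M e : ℕ) : 3 ∣ honeLevel M e :=
  dvd_mul_of_dvd_right (dvd_pow_self 3 (by omega)) M

theorem sq_dvd_honeLevel_sq (M e : ℕ) : (3 ^ e * M) ^ 2 ∣ honeLevel M e ^ 2 := by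
  refine pow_dvd_pow_of_dvd ?_ 2
  rw [honeLevel, mul_comm]
  exact mul_dvd_mul_left M (pow_dvd_pow 3 (by omega))

/-- `± δ`, with negative imaginary part at the embedding. -/
def planeDelta : EisField := if (eisEmb eisDelta).im < 0 then eisDelta else -eisDelta

/-- `planeDelta` is `δ` up to sign. -/
theorem planeDelta_eq_or : planeDelta = eisDelta ∨ planeDelta = -eisDelta := by
  unfold planeDelta; split_ifs <;> simp

/-- The square of `planeDelta` is `-1/3`. -/
theorem planeDelta_sq : 3 * planeDelta ^ 2 = -1 := by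
  have h : eisDelta * eisSqrt = 1 := inv_mul_cancel₀ eisSqrt_ne_zero
  have h2 : planeDelta ^ 2 = eisDelta ^ 2 := by
    rcases planeDelta_eq_or with e | e <;> rw [e]
    ring
  rw [h2]
  linear_combination eisDelta ^ 2 * eisSqrt_sq - (eisDelta * eisSqrt + 1) * h

theorem planeDelta_ne_zero : planeDelta ≠ 0 := fun h => by
  have := planeDelta_sq
  rw [h] at this
  norm_num at this

/-- Three times `planeDelta` is integral. -/
theorem isIntegral_three_mul_planeDelta : IsIntegral ℤ (3 * planeDelta) := by
  have h : 3 * eisDelta = -eisSqrt := by rw [eisDelta_eq]; push_cast; ring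
  have hs : IsIntegral ℤ eisSqrt := eisSqrtInt.isIntegral_coe
  rcases planeDelta_eq_or with e | e <;> rw [e]
  · rw [h]; exact hs.neg
  · rw [mul_neg, h, neg_neg]; exact hs

theorem eisEmb_planeDelta : eisEmb planeDelta = -((√3)⁻¹ : ℝ) * Complex.I := by
  set z := eisEmb planeDelta with hz
  have h : 3 * z ^ 2 = -1 := by
    have := congrArg eisEmb planeDelta_sq
    simpa only [map_mul, map_pow, map_ofNat, map_neg, map_one] using this
  have h1 := congrArg Complex.re h
  have h2 := congrArg Complex.im h
  simp [pow_two] at h1 h2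
  have hre : z.re = 0 := by
    rcases mul_eq_zero.mp (show z.re * z.im = 0 by linarith) with h0 | h0
    · exact h0
    · rw [h0] at h1; nlinarith [mul_self_nonneg z.re]
  have him : z.im ^ 2 = (√3)⁻¹ ^ 2 := by
    rw [inv_pow, Real.sq_sqrt (by norm_num), hre] at *
    field_simp
    nlinarith
  have hneg : z.im < 0 := by
    have hne : z.im ≠ 0 := fun h0 => by rw [h0, hre] at h1; norm_num at h1
    rw [hz, planeDelta]
    split_ifs with hlt
    · exact hlt
    · rw [map_neg, Complex.neg_im, neg_lt_zero]
      refine lt_of_le_of_ne (not_lt.mp hlt) fun h0 => hne ?_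
      rw [hz, planeDelta, if_neg hlt, map_neg, Complex.neg_im, ← h0, neg_zero]
  have him' : z.im = -(√3)⁻¹ := by
    rcases eq_or_eq_neg_of_sq_eq_sq _ _ him with h' | h'
    · exact absurd (h' ▸ hneg) (not_lt.mpr (inv_nonneg.mpr (Real.sqrt_nonneg 3)))
    · exact h'
  refine Complex.ext (by simp [hre]) ?_
  rw [him', Complex.mul_im]
  simp only [Complex.neg_re, Complex.neg_im, Complex.ofReal_re, Complex.ofReal_im, Complex.I_re,
    Complex.I_im]
  ring

/-- The frame `M δ'` of the plane. -/
def planeUnit (M : ℕ) [NeZero M] : EisFieldˣ :=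
  Units.mk0 ((M : EisField) * planeDelta)
    (mul_ne_zero (Nat.cast_ne_zero.mpr (NeZero.ne M)) planeDelta_ne_zero)

/-- The frame in `GL₂(ℂ)`. -/
def planeFrame (M : ℕ) [NeZero M] : GL (Fin 2) ℂ :=
  Matrix.GeneralLinearGroup.map eisEmb (dia (planeUnit M))

/-- The frame moves the standard form to the base vector. -/
theorem pullMat_planeFrame (M : ℕ) [NeZero M] :
    pullMat (planeFrame M) !![0, 1; 1, 0] = baseVec := by
  have hval : (planeFrame M : Matrix (Fin 2) (Fin 2) ℂ) =
      !![eisEmb (planeUnit M : EisField), 0; 0, 1] := by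
    ext i j
    fin_cases i <;> fin_cases j <;> simp [planeFrame, dia]
  set a := eisEmb (planeUnit M : EisField) with ha
  have ha' : a = -(((M : ℝ) * (√3)⁻¹ : ℝ) : ℂ) * Complex.I := by
    rw [ha, planeUnit, Units.val_mk0, map_mul, map_natCast, eisEmb_planeDelta]
    push_cast
    ring
  have hr : 0 < (M : ℝ) * (√3)⁻¹ :=
    mul_pos (Nat.cast_pos.mpr (NeZero.pos M)) (inv_pos.mpr (Real.sqrt_pos.mpr (by norm_num)))
  generalize (M : ℝ) * (√3)⁻¹ = r at ha' hr
  have hne : a ≠ 0 := by
    rw [ha']
    exact mul_ne_zero (neg_ne_zero.mpr (Complex.ofReal_ne_zero.mpr hr.ne')) Complex.I_ne_zero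
  have hinv : (planeFrame M : Matrix (Fin 2) (Fin 2) ℂ)⁻¹ = !![a⁻¹, 0; 0, 1] :=
    Matrix.inv_eq_left_inv (by
      rw [hval]; ext i j; fin_cases i <;> fin_cases j <;> simp [hne])
  have hinv' : ((planeFrame M : Matrix (Fin 2) (Fin 2) ℂ)ᴴ)⁻¹ = !![(star a)⁻¹, 0; 0, 1] :=
    Matrix.inv_eq_left_inv (by
      rw [hval]
      ext i j; fin_cases i <;> fin_cases j <;>
        simp [Matrix.mul_apply, Fin.sum_univ_two, Matrix.conjTranspose_apply, hne])
  have hrC : (r : ℂ) ≠ 0 := Complex.ofReal_ne_zero.mpr hr.ne'
  rw [pullMat, hinv, hinv', hval]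
  ext i j
  fin_cases i <;> fin_cases j <;>
    simp [Matrix.det_fin_two, baseVec, ha'] <;> field_simp <;> simp [hr.le]

variable {M : ℕ} [NeZero M] (t : (FinAdele EisField)ˣ) (e j : ℕ)

/-- The translating element. -/
def honeShift : GLFin EisField :=
  dia (Units.map (finIncl EisField).toMonoidHom (planeUnit M)) * unip (shiftAt (3 ^ e * M) j) * dia t

variable {t e j}

section

variable (hbad : ∀ v : FinPlace EisField, (M : 𝓞 EisField) ∈ v.asIdeal →
    toPlace v ((M : FinAdele EisField) * (t : FinAdele EisField)) = 1)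
  (hgood : ∀ v : FinPlace EisField, (M : 𝓞 EisField) ∉ v.asIdeal →
    toPlace v (t : FinAdele EisField) = 1)

include hbad hgood

theorem natCast_mul_mem_integralUnits :
    (M : FinAdele EisField) * (t : FinAdele EisField) ∈ integralAdele EisField ∧
      ∃ s ∈ integralAdele EisField, (M : FinAdele EisField) * (t : FinAdele EisField) * s = 1 := by
  have hM : IsUnit (M : FinAdele EisField) := Places.isUnit_natCast M (NeZero.pos M)
  obtain ⟨h1, h2⟩ := (mem_integralUnits_iff (x := hM.unit * t)).mpr fun v => by
    rw [Units.val_mul, IsUnit.unit_spec]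
    by_cases hv : (M : 𝓞 EisField) ∈ v.asIdeal
    · rw [placeVal, hbad v hv, map_one]
    · rw [placeVal_mul, placeVal_natCast, placeVal, hgood v hv, map_one, mul_one,
        valuation_eq_exp_placeExp v (NeZero.pos M),
        (placeExp_eq_zero_iff v (NeZero.pos M)).mpr hv]
      simp
  refine ⟨h1, _, h2, ?_⟩
  exact Units.mul_inv (hM.unit * t)

/-- The translating element and its inverse have denominator `3 ^ (e + 1)`. -/
theorem honeShift_denominator :
    (∀ i k, ((3 ^ (e + 1) : ℕ) : FinAdele EisField) * (honeShift (M := M) t e j : GLFin EisField).val i k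
      ∈ integralAdele EisField) ∧
    ∀ i k, ((3 ^ (e + 1) : ℕ) : FinAdele EisField) *
      ((honeShift (M := M) t e j : GLFin EisField)⁻¹).val i k ∈ integralAdele EisField := by
  obtain ⟨hT, s, hs, hTs⟩ := natCast_mul_mem_integralUnits hbad hgood
  set D : FinAdele EisField := finIncl EisField (planeUnit M : EisField)
  set D' : FinAdele EisField := finIncl EisField ((planeUnit M : EisField)⁻¹)
  set x := shiftAt (3 ^ e * M) j
  set T : FinAdele EisField := (t : FinAdele EisField)
  set T' : FinAdele EisField := ((t⁻¹ : (FinAdele EisField)ˣ) : FinAdele EisField)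
  have hT' : T' = (M : FinAdele EisField) * s := by
    calc T' = T' * ((M : FinAdele EisField) * T * s) := by rw [hTs, mul_one]
      _ = (T' * T) * ((M : FinAdele EisField) * s) := by ring
      _ = _ := by rw [Units.inv_mul, one_mul]
  have hint : ∀ z : EisField, IsIntegral ℤ z → finIncl EisField z ∈ integralAdele EisField :=
    fun z hz => Reduction.finIncl_mem_of_isIntegral ⟨z, hz⟩
  have hu : (planeUnit M : EisField) = (M : EisField) * planeDelta := rfl
  have hD : (3 : FinAdele EisField) * D =
      (M : FinAdele EisField) * finIncl EisField (3 * planeDelta) := by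
    simp only [D, hu, map_mul, map_natCast, map_ofNat]; ring
  have hD' : (M : FinAdele EisField) * D' = -finIncl EisField (3 * planeDelta) := by
    have hp := planeDelta_ne_zero
    have e0 : (M : EisField) * ((M : EisField) * planeDelta)⁻¹ = -(3 * planeDelta) := by
      have hm : (M : EisField) ≠ 0 := Nat.cast_ne_zero.mpr (NeZero.ne M)
      field_simp
      linear_combination planeDelta_sq
    have := congrArg (finIncl EisField) e0
    simp only [map_mul, map_neg, map_natCast] at this
    simpa only [D', hu] using this.trans (by simp only [map_mul])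
  have hx : ((3 ^ e * M : ℕ) : FinAdele EisField) * x ∈ integralAdele EisField :=
    natCast_mul_shiftAt_mem (Nat.mul_pos (pow_pos three_pos e) (NeZero.pos M)) j
  have hP : finIncl EisField (3 * planeDelta) ∈ integralAdele EisField :=
    hint _ isIntegral_three_mul_planeDelta
  have h3e : ((3 ^ e : ℕ) : FinAdele EisField) ∈ integralAdele EisField := natCast_mem _ _
  have hval : (honeShift (M := M) t e j : GLFin EisField).val = !![D * T, D * x; 0, 1] := by
    ext a b
    fin_cases a <;> fin_cases b <;>
      simp [honeShift, dia, unip, Matrix.mul_apply, Fin.sum_univ_two, D, T, x]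
  have hinv : ((honeShift (M := M) t e j : GLFin EisField)⁻¹).val = !![T' * D', -(T' * x); 0, 1] := by
    rw [Matrix.coe_units_inv]
    refine Matrix.inv_eq_left_inv ?_
    rw [hval]
    have h1 : D' * D = 1 := by
      simp only [D, D']
      rw [← map_mul, inv_mul_cancel₀ (planeUnit M).ne_zero, map_one]
    have h2 : T' * T = 1 := Units.inv_mul t
    ext a b
    fin_cases a <;> fin_cases b <;> simp [Matrix.mul_apply, Fin.sum_univ_two]
    · linear_combination T' * T * h1 + h2
    · linear_combination T' * x * h1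
  refine ⟨fun i k => ?_, fun i k => ?_⟩
  · rw [hval]
    fin_cases i <;> fin_cases k <;> push_cast <;> simp only [Matrix.of_apply,
      Matrix.cons_val', Matrix.cons_val_zero, Matrix.cons_val_one,
      Matrix.cons_val_fin_one, pow_succ, mul_zero, mul_one]
    · rw [show (3 : FinAdele EisField) ^ e * 3 * (D * T) = (3 : FinAdele EisField) ^ e *
          (finIncl EisField (3 * planeDelta) * ((M : FinAdele EisField) * T)) by
        linear_combination (3 : FinAdele EisField) ^ e * T * hD]
      exact mul_mem (by simpa using h3e) (mul_mem hP hT)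
    · rw [show (3 : FinAdele EisField) ^ e * 3 * (D * x) = finIncl EisField (3 * planeDelta) *
          (((3 ^ e * M : ℕ) : FinAdele EisField) * x) by
        push_cast; linear_combination (3 : FinAdele EisField) ^ e * x * hD]
      exact mul_mem hP hx
    · exact zero_mem _
    · exact mul_mem (by simpa using h3e) (by simp)
  · rw [hinv, hT']
    fin_cases i <;> fin_cases k <;> push_cast <;> simp only [Matrix.of_apply,
      Matrix.cons_val', Matrix.cons_val_zero, Matrix.cons_val_one,
      Matrix.cons_val_fin_one, pow_succ, mul_zero, mul_one]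
    · rw [show (3 : FinAdele EisField) ^ e * 3 * ((M : FinAdele EisField) * s * D') =
          (3 : FinAdele EisField) ^ e * 3 * (-finIncl EisField (3 * planeDelta) * s) by
        linear_combination (3 : FinAdele EisField) ^ e * 3 * s * hD']
      exact mul_mem (mul_mem (by simpa using h3e) (by simp))
        (mul_mem (neg_mem hP) hs)
    · rw [show (3 : FinAdele EisField) ^ e * 3 * -((M : FinAdele EisField) * s * x) =
          -((3 : FinAdele EisField) * s * (((3 ^ e * M : ℕ) : FinAdele EisField) * x)) by
        push_cast; ring]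
      exact neg_mem (mul_mem (mul_mem (by simp) hs) hx)
    · exact zero_mem _
    · exact mul_mem (by simpa using h3e) (by simp)

/-- The translating element carries the level of the lift into the level of the test vector. -/
theorem conjugates_honeShift :
    Conjugates (Level.principal EisField (honeLevel M e) (honeLevel_pos (NeZero.pos M) e))
      (Level.principal EisField M (NeZero.pos M)) (honeShift (M := M) t e j) :=
  conjugates_of_denominator _ _ (honeShift_denominator hbad hgood).1
    (honeShift_denominator hbad hgood).2 (dvd_of_eq (by rw [honeLevel, ← pow_add]; congr 2; ring))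

theorem glPlace_honeShift_mem (v : FinPlace EisField)
    (hv : (honeLevel M e : 𝓞 EisField) ∉ v.asIdeal) :
    glPlace v (honeShift (M := M) t e j : GLFin EisField) ∈ intGroup v := by
  obtain ⟨h1, h2⟩ := honeShift_denominator (j := j) (e := e) hbad hgood
  have h3 : ((3 ^ (e + 1) : ℕ) : 𝓞 EisField) ∉ v.asIdeal := fun h => hv (by
    rw [honeLevel, Nat.cast_mul]
    refine Ideal.mul_mem_left _ _ ?_
    rw [show 2 * e + 2 = (e + 1) + (e + 1) by ring, pow_add, Nat.cast_mul]
    exact Ideal.mul_mem_left _ _ h)
  have key : ∀ x : FinAdele EisField,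
      ((3 ^ (e + 1) : ℕ) : FinAdele EisField) * x ∈ integralAdele EisField →
        placeVal v x ≤ 1 := fun x hx => by
    have h := placeVal_le_one v hx
    rwa [placeVal_mul, placeVal_natCast, valuation_eq_exp_placeExp v (pow_pos three_pos _),
      (placeExp_eq_zero_iff v (pow_pos three_pos _)).mpr h3, show (WithZero.exp (-((0 : ℕ) : ℤ))) = 1
        by simp, one_mul] at h
  refine mem_intGroup_of_inv (fun a b => key _ (h1 a b)) fun a b => ?_
  rw [← map_inv]
  exact key _ (h2 a b)

end

variable (φ : Y (Level.principal EisField M (NeZero.pos M)) → ℂ)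

/-- The point of the plane as a point over the infinite place. -/
theorem planePt_eq (τ : ℍ) : planePt EisField τ = fun _ => planePoint τ := rfl

/-- Two unit ideles congruent modulo `R` give the same shifted coset. -/
theorem dia_unip_smul_congr {F : Type*} [Field F] [NumberField F] {U : Level F} {N R : ℕ}
    {c : GLFin F ⧸ U.toSubgroup} (hfix : ∀ g : GLFin F, IsFixing N g → g • c = c) (hNR : N ∣ R)
    {a b : (FinAdele F)ˣ} (ha : (a : FinAdele F) ∈ integralAdele F)
    (ha' : ((a⁻¹ : (FinAdele F)ˣ) : FinAdele F) ∈ integralAdele F)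
    (hb : (b : FinAdele F) ∈ integralAdele F)
    (hb' : ((b⁻¹ : (FinAdele F)ˣ) : FinAdele F) ∈ integralAdele F)
    (hab : CongMod R ((a : FinAdele F) - (b : FinAdele F))) {x : FinAdele F}
    (hx : (R : FinAdele F) * x ∈ integralAdele F) :
    (dia a * unip x) • c = (dia b * unip x) • c := by
  obtain ⟨w, rfl⟩ : ∃ w, a = b * w := ⟨b⁻¹ * a, (mul_inv_cancel_left b a).symm⟩
  have hw : (w : FinAdele F) ∈ integralAdele F := by
    simpa [← mul_assoc] using mul_mem hb' ha
  have hw' : ((w⁻¹ : (FinAdele F)ˣ) : FinAdele F) ∈ integralAdele F := by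
    simpa [mul_assoc] using mul_mem ha' hb
  have hcong : CongMod R ((w : FinAdele F) - 1) := by
    simpa [mul_sub, ← mul_assoc] using hab.mul_left hb'
  obtain ⟨z, hz, hwz⟩ := id hcong
  have hwx : ((w : FinAdele F) - 1) * x ∈ integralAdele F := by
    rw [hwz, show (R : FinAdele F) * z * x = z * ((R : FinAdele F) * x) by ring]
    exact mul_mem hz hx
  set y := ((w⁻¹ : (FinAdele F)ˣ) : FinAdele F) * (((w : FinAdele F) - 1) * x)
  have hsplit : dia (b * w) * unip x = dia b * unip x * (dia w * unip y) := by
    rw [Whittaker.dia_mul]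
    ext i k
    fin_cases i <;> fin_cases k <;>
      simp [dia, unip, Matrix.mul_apply, Fin.sum_univ_two, y, -Units.val_mul]
    ring
  rw [hsplit, mul_smul, mul_smul (dia w : GLFin F), hfix _ (isFixing_unip (mul_mem hw' hwx)),
    hfix _ (isFixing_dia hw hw' (hcong.of_dvd hNR))]

/-- Moving the frame into the coset. -/
theorem frame_dia_eq (a : (FinAdele EisField)ˣ) (t : (FinAdele EisField)ˣ) (e j : ℕ) (τ : ℍ) :
    ((fun _ => planeFrame M • planePoint τ,
      (QuotientGroup.mk (dia a * honeShift (M := M) t e j) :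
        GLFin EisField ⧸ (Level.principal EisField M (NeZero.pos M)).toSubgroup)) :
      Y (Level.principal EisField M (NeZero.pos M))) =
    (dia (planeUnit M) : GL (Fin 2) EisField) •
      ((planePt EisField τ, (dia a * unip (shiftAt (3 ^ e * M) j)) •
        (QuotientGroup.mk (dia t) : GLFin EisField ⧸ (Level.principal EisField M (NeZero.pos M)).toSubgroup)) :
        Y (Level.principal EisField M (NeZero.pos M))) := by
  refine Prod.ext (funext fun w => ?_) ?_
  · rw [smul_fst, glEmb, eisEmb_eq]
    rfl
  · rw [smul_snd, Whittaker.glIncl_dia, MulAction.Quotient.smul_mk, MulAction.Quotient.smul_mk,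
      smul_eq_mul, smul_eq_mul]
    refine congrArg QuotientGroup.mk ?_
    rw [honeShift]
    simp only [← mul_assoc]
    rw [← Whittaker.dia_mul, mul_comm a, Whittaker.dia_mul]

/-- The translate on the plane at `dia û`. -/
theorem translate_planeFrame {t : (FinAdele EisField)ˣ} {e j : ℕ}
    (hbad : ∀ v : FinPlace EisField, (M : 𝓞 EisField) ∈ v.asIdeal →
      toPlace v ((M : FinAdele EisField) * (t : FinAdele EisField)) = 1)
    (hgood : ∀ v : FinPlace EisField, (M : 𝓞 EisField) ∉ v.asIdeal →
      toPlace v (t : FinAdele EisField) = 1)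
    (hφ : IsAutomorphic φ) [NeZero ((3 ^ e * M) ^ 2)] [NeZero (honeLevel M e ^ 2)]
    (u : (ZMod (honeLevel M e ^ 2))ˣ) (τ : ℍ) :
    translate (conjugates_honeShift (e := e) (j := j) hbad hgood) φ
      (fun _ => planeFrame M • planePoint τ,
        QuotientGroup.mk (dia (hatUnit EisField (honeLevel M e ^ 2) u))) =
      φ (planePt EisField τ, shiftCoset ((3 ^ e * M) ^ 2)
        (QuotientGroup.mk (dia t) : GLFin EisField ⧸ (Level.principal EisField M (NeZero.pos M)).toSubgroup)
        (ZMod.unitsMap (sq_dvd_honeLevel_sq M e) u) (shiftAt (3 ^ e * M) j)) := by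
  rw [translate_mk, frame_dia_eq, hφ, shiftCoset]
  refine congrArg (fun c => φ (planePt EisField τ, c)) ?_
  have hd := sq_dvd_honeLevel_sq M e
  refine dia_unip_smul_congr (N := M)
    (fun g hg => fixed_dia (N := M) (NeZero.pos M) (NeZero.pos M) dvd_rfl hbad hgood g hg)
    ((dvd_mul_left M (3 ^ e)).trans (dvd_pow_self _ two_ne_zero)) (hatUnit_mem _ u)
    (hatUnit_inv_mem _ u) (hatUnit_mem _ _) (hatUnit_inv_mem _ _) ?_ ?_
  · have h := ((congMod_hatUnit (F := EisField) (honeLevel M e ^ 2) u
      (a := ((u : ZMod (honeLevel M e ^ 2)).val : ℤ))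
      (by rw [Int.cast_natCast, ZMod.natCast_zmod_val])).of_dvd hd).sub
      (congMod_hatUnit (F := EisField) ((3 ^ e * M) ^ 2) (ZMod.unitsMap hd u)
        (a := ((u : ZMod (honeLevel M e ^ 2)).val : ℤ))
        (by rw [Int.cast_natCast, ← ZMod.cast_eq_val]; rfl))
    rwa [sub_sub_sub_cancel_right] at h
  · rw [sq, Nat.cast_mul, mul_assoc]
    exact mul_mem (natCast_mem _ _)
      (natCast_mul_shiftAt_mem (Nat.mul_pos (pow_pos three_pos e) (NeZero.pos M)) j)

/-- The sum of the translates over the units modulo `L²` is a multiple of the unit sum. -/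
theorem sum_translate_planeFrame {t : (FinAdele EisField)ˣ} {e j : ℕ}
    (hbad : ∀ v : FinPlace EisField, (M : 𝓞 EisField) ∈ v.asIdeal →
      toPlace v ((M : FinAdele EisField) * (t : FinAdele EisField)) = 1)
    (hgood : ∀ v : FinPlace EisField, (M : 𝓞 EisField) ∉ v.asIdeal →
      toPlace v (t : FinAdele EisField) = 1)
    (hφ : IsAutomorphic φ) [NeZero ((3 ^ e * M) ^ 2)] [NeZero (honeLevel M e ^ 2)] :
    ∃ k : ℕ, 0 < k ∧ ∀ τ : ℍ, ∑ u : (ZMod (honeLevel M e ^ 2))ˣ,
      translate (conjugates_honeShift (e := e) (j := j) hbad hgood) φ (fun _ => planeFrame M • planePoint τ,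
        QuotientGroup.mk (dia (hatUnit EisField (honeLevel M e ^ 2) u))) =
      (k : ℂ) * unitSum φ
        (QuotientGroup.mk (dia t) : GLFin EisField ⧸ (Level.principal EisField M (NeZero.pos M)).toSubgroup)
        (3 ^ e * M) j τ := by
  classical
  set π := ZMod.unitsMap (sq_dvd_honeLevel_sq M e)
  refine ⟨Fintype.card π.ker, Fintype.card_pos, fun τ => ?_⟩
  simp only [translate_planeFrame φ hbad hgood hφ, unitSum, Finset.mul_sum]
  have hcard : ∀ v, (Finset.univ.filter fun u => π u = v).card = Fintype.card π.ker := fun v => by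
    obtain ⟨u₀, hu₀⟩ := ZMod.unitsMap_surjective (sq_dvd_honeLevel_sq M e) v
    rw [← Fintype.card_subtype]
    refine Fintype.card_congr ((Equiv.mulRight u₀⁻¹).subtypeEquiv fun u => ?_)
    rw [MonoidHom.mem_ker, Equiv.coe_mulRight, map_mul, map_inv, mul_inv_eq_one]
    exact ⟨fun h => h.trans hu₀.symm, fun h => h.trans hu₀⟩
  rw [← Finset.sum_fiberwise Finset.univ π]
  refine Finset.sum_congr rfl fun v _ => ?_
  rw [Finset.sum_congr rfl (g := fun _ => φ (planePt EisField τ, shiftCoset ((3 ^ e * M) ^ 2) _ v
      (shiftAt (3 ^ e * M) j))) fun u hu => by rw [(Finset.mem_filter.mp hu).2],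
    Finset.sum_const, hcard, nsmul_eq_mul]

/-- The translate is a spherical cusp form. -/
theorem isSphericalCuspForm_honeForm {t : (FinAdele EisField)ˣ} {e j : ℕ}
    (hbad : ∀ v : FinPlace EisField, (M : 𝓞 EisField) ∈ v.asIdeal →
      toPlace v ((M : FinAdele EisField) * (t : FinAdele EisField)) = 1)
    (hgood : ∀ v : FinPlace EisField, (M : 𝓞 EisField) ∉ v.asIdeal →
      toPlace v (t : FinAdele EisField) = 1)
    (hφ : IsSphericalCuspForm φ) :
    IsSphericalCuspForm (translate (conjugates_honeShift (e := e) (j := j) hbad hgood) φ) :=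
  isSphericalCuspForm_translate _ hφ

/-- The translate has the same Hecke eigenvalues. -/
theorem isHeckeEigenSystem_honeForm {t : (FinAdele EisField)ˣ} {e j : ℕ}
    (hbad : ∀ v : FinPlace EisField, (M : 𝓞 EisField) ∈ v.asIdeal →
      toPlace v ((M : FinAdele EisField) * (t : FinAdele EisField)) = 1)
    (hgood : ∀ v : FinPlace EisField, (M : 𝓞 EisField) ∉ v.asIdeal →
      toPlace v (t : FinAdele EisField) = 1)
    {lam : Ideal (𝓞 EisField) → ℂ} (hsys : IsHeckeEigenSystem M φ lam) :
    IsHeckeEigenSystem (honeLevel M e)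
      (translate (conjugates_honeShift (e := e) (j := j) hbad hgood) φ) lam :=
  isHeckeEigenSystem_translate _ (NeZero.pos M) (honeLevel_pos (NeZero.pos M) e) (dvd_honeLevel M e)
    (mem_principal_of_isPrincipal _) (mem_principal_of_isPrincipal _)
    (glPlace_honeShift_mem (e := e) (j := j) hbad hgood) hsys

end Fermat.Agent.LT.Lift

end
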