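import Fermat.Agent.LT.Lift.Nice
import Mathlib.Analysis.Analytic.Uniqueness
import Mathlib.NumberTheory.ModularForms.Basic
import Mathlib.NumberTheory.ModularForms.Cusps
import Mathlib.NumberTheory.ModularForms.CongruenceSubgroups

/-!
# Holomorphy of weight one invariant functions

A weight one `Γ₁(N)`-invariant function with nice translates is a holomorphic cusp form: the
pairing of its image under `ξ` with itself vanishes by Stokes.
-/

set_option autoImplicit false

noncomputable section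

open Filter Topology Set Complex CongruenceSubgroup UpperHalfPlane
open scoped MatrixGroups ModularForm ComplexConjugate

namespace Fermat.Agent.LT.Lift

/-- A function on the upper half plane, extended to `ℂ`. -/
def extFun (f : ℍ → ℂ) (z : ℂ) : ℂ := f (ofComplex z)

/-- The extension agrees with the function on the upper half plane. -/
theorem extFun_of_im_pos (f : ℍ → ℂ) {z : ℂ} (hz : 0 < z.im) : extFun f z = f ⟨z, hz⟩ := by
  rw [extFun, ofComplex_apply_of_im_pos hz]

theorem extFun_slash_S (f : ℍ → ℂ) {z : ℂ} (hz : 0 < z.im) :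
    extFun (f ∣[(1 : ℤ)] ModularGroup.S) z = invertFun (extFun f) z := by
  rw [invertFun, extFun_of_im_pos _ hz, extFun_of_im_pos _ (im_neg_inv hz),
    ModularForm.SL_slash_apply, mul_comm]
  congr 1
  · have e : denom (ModularGroup.S : SL(2, ℤ)) (⟨z, hz⟩ : ℍ) = z := by
      show (((ModularGroup.S 1 0 : ℤ) : ℝ) : ℂ) * z + (((ModularGroup.S 1 1 : ℤ) : ℝ) : ℂ) = z
      simp [ModularGroup.S]
    rw [e, zpow_neg_one]
  · congr 1
    rw [modular_S_smul]
    ext1
    show (-z)⁻¹ = -z⁻¹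
    exact inv_neg

theorem extFun_slash_T (f : ℍ → ℂ) {z : ℂ} (hz : 0 < z.im) :
    extFun (f ∣[(1 : ℤ)] ModularGroup.T) z = extFun f (z + 1) := by
  rw [extFun_of_im_pos _ hz, extFun_of_im_pos _ (show 0 < (z + 1).im by simpa using hz),
    ModularForm.SL_slash_apply]
  have e : denom (ModularGroup.T : SL(2, ℤ)) (⟨z, hz⟩ : ℍ) = 1 := by
    show (((ModularGroup.T 1 0 : ℤ) : ℝ) : ℂ) * z + (((ModularGroup.T 1 1 : ℤ) : ℝ) : ℂ) = 1
    simp [ModularGroup.T]
  rw [e, one_zpow, mul_one, modular_T_smul]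
  congr 1
  ext1
  simp [add_comm]

theorem isPreconnected_upperSet : IsPreconnected upperSet :=
  (convex_halfSpace_im_gt 0).isPreconnected

variable (N : ℕ) [NeZero N]

/-- Right cosets of `Γ₁(N)` are the inverses of left cosets. -/
def cosetRep (c : SL(2, ℤ) ⧸ Gamma1 N) : SL(2, ℤ) := (Quotient.out c)⁻¹

omit [NeZero N] in
theorem slash_cosetRep {h : ℍ → ℂ} (hinv : ∀ γ ∈ Gamma1 N, h ∣[(1 : ℤ)] γ = h)
    (δ : SL(2, ℤ)) :
    h ∣[(1 : ℤ)] δ = h ∣[(1 : ℤ)] cosetRep N (QuotientGroup.mk δ⁻¹) := by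
  obtain ⟨γ, hγ⟩ := QuotientGroup.mk_out_eq_mul (Gamma1 N) δ⁻¹
  rw [cosetRep, hγ, mul_inv_rev, inv_inv, SlashAction.slash_mul,
    hinv _ ((Gamma1 N).inv_mem γ.2)]

/-- The `ξ`-images of all translates of a nice invariant function vanish. -/
theorem xiFun_extFun_eq_zero {h : ℍ → ℂ} (hinv : ∀ γ ∈ Gamma1 N, h ∣[(1 : ℤ)] γ = h)
    (hnice : ∀ δ : SL(2, ℤ), IsNice (extFun (h ∣[(1 : ℤ)] δ))) (δ : SL(2, ℤ))
    {z : ℂ} (hz : 0 < z.im) : xiFun (extFun (h ∣[(1 : ℤ)] δ)) z = 0 := by
  have : Fintype (SL(2, ℤ) ⧸ Gamma1 N) := Fintype.ofFinite _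
  set E : SL(2, ℤ) ⧸ Gamma1 N → ℂ → ℂ := fun c => extFun (h ∣[(1 : ℤ)] cosetRep N c) with hE
  have hEn : ∀ c, IsNice (E c) := fun c => hnice _
  have hperm : ∀ (γ : SL(2, ℤ)) c,
      h ∣[(1 : ℤ)] (cosetRep N c * γ) = h ∣[(1 : ℤ)] cosetRep N (γ⁻¹ • c) := fun γ c => by
    rw [slash_cosetRep N hinv (cosetRep N c * γ)]
    congr 2
    conv_rhs => rw [← Quotient.out_eq' c]
    simp only [cosetRep, mul_inv_rev, inv_inv]
    rfl
  have hSE : ∀ c, EqOn (E ((ModularGroup.S)⁻¹ • c)) (invertFun (E c)) upperSet := fun c w hw => by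
    simp only [hE]
    rw [← hperm, SlashAction.slash_mul, extFun_slash_S _ hw]
  have hTE : ∀ c, EqOn (E ((ModularGroup.T)⁻¹ • c)) (fun w => E c (w + 1)) upperSet :=
    fun c w hw => by
      simp only [hE]
      rw [← hperm, SlashAction.slash_mul, extFun_slash_T _ hw]
  set F : ℂ → ℂ := fun w => ∑ c, E c w * xiFun (E c) w with hF
  have hGd : ∀ c {w : ℂ}, 0 < w.im → DifferentiableAt ℂ (xiFun (E c)) w := fun c w hw =>
    ((hEn c).2.1 w hw).differentiableAt (isOpen_upperHalf.mem_nhds hw)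
  have hF1 : ContDiffOn ℝ 1 F upperSet := ContDiffOn.sum fun c _ => (hEn c).1.mul
    (((hEn c).2.1.contDiffOn (n := 1) isOpen_upperHalf).restrict_scalars ℝ)
  have hper : ∀ w : ℂ, 0 < w.im → F (w + 1) = F w := by
    intro w hw
    have hw1 : 0 < (w + 1).im := by simpa using hw
    simp only [hF]
    conv_rhs => rw [← Equiv.sum_comp (MulAction.toPerm (ModularGroup.T)⁻¹)]
    refine Finset.sum_congr rfl fun c _ => ?_
    simp only [MulAction.toPerm_apply]
    rw [xiFun_congr (hTE c) hw, xiFun_translate (hEn c).1 hw, hTE c hw]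
  have hS : ∀ w : ℂ, 0 < w.im → F (-w⁻¹) = w ^ 2 * F w := by
    intro w hw
    have hw0 : w ≠ 0 := fun h => by simp [h] at hw
    simp only [hF, Finset.mul_sum]
    conv_rhs => rw [← Equiv.sum_comp (MulAction.toPerm (ModularGroup.S)⁻¹)]
    refine Finset.sum_congr rfl fun c _ => ?_
    simp only [MulAction.toPerm_apply]
    rw [xiFun_congr (hSE c) hw, xiFun_invertFun (hEn c).1 hw, hSE c hw, invertFun, invertFun]
    field_simp
  have hdecay : ∀ ε : ℝ, 0 < ε → ∃ Y : ℝ, ∀ w : ℂ, Y ≤ w.im → |w.re| ≤ 1 / 2 → ‖F w‖ ≤ ε := by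
    intro ε hε
    choose C δ hδ hC using fun c => (hEn c).2.2
    have hlim : Tendsto (fun y : ℝ => ∑ c, C c * C c / δ c * Real.exp (-(δ c * y))) atTop (𝓝 0) := by
      rw [show (0 : ℝ) = ∑ _c : SL(2, ℤ) ⧸ Gamma1 N, (0 : ℝ) by simp]
      refine tendsto_finsetSum _ fun c _ => ?_
      simpa using (Real.tendsto_exp_neg_atTop_nhds_zero.comp
        (tendsto_id.const_mul_atTop (hδ c))).const_mul (C c * C c / δ c)
    obtain ⟨Y, hY⟩ := eventually_atTop.mp
      ((hlim.eventually (ge_mem_nhds hε)).and (eventually_ge_atTop 1))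
    refine ⟨Y, fun w hw _ => le_trans ?_ (hY w.im hw).1⟩
    have hw1 := (hY w.im hw).2
    rw [hF]
    refine (norm_sum_le _ _).trans (Finset.sum_le_sum fun c _ => ?_)
    obtain ⟨h1, h2⟩ := hC c w hw1
    have hC0 : 0 ≤ C c := nonneg_of_mul_nonneg_left ((norm_nonneg _).trans h1) (Real.exp_pos _)
    rw [norm_mul, xiFun, norm_mul, norm_conj, Complex.norm_real, Real.norm_eq_abs,
      abs_of_pos (one_pos.trans_le hw1)]
    have hy : w.im * Real.exp (-(δ c * w.im)) ≤ 1 / δ c := by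
      rw [Real.exp_neg, ← div_eq_mul_inv, div_le_div_iff₀ (Real.exp_pos _) (hδ c), one_mul]
      nlinarith [Real.add_one_le_exp (δ c * w.im)]
    calc ‖E c w‖ * (w.im * ‖dbar (E c) w‖)
        ≤ (C c * Real.exp (-(δ c * w.im))) * (w.im * (C c * Real.exp (-(δ c * w.im)))) :=
          mul_le_mul h1 (mul_le_mul_of_nonneg_left h2 (by linarith)) (by positivity)
            (mul_nonneg hC0 (Real.exp_pos _).le)
      _ = C c * C c * Real.exp (-(δ c * w.im)) * (w.im * Real.exp (-(δ c * w.im))) := by ring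
      _ ≤ C c * C c * Real.exp (-(δ c * w.im)) * (1 / δ c) :=
          mul_le_mul_of_nonneg_left hy (by positivity)
      _ = _ := by ring
  have hdF : ∀ w : ℂ, 0 < w.im →
      dbar F w = ((∑ c, normSq (xiFun (E c) w) / w.im : ℝ) : ℂ) := by
    intro w hw
    have hdE := fun c => differentiableAt_of_contDiffOn (hEn c).1 hw
    rw [hF, dbar_sum _ fun c _ =>
      (show DifferentiableAt ℝ (fun u => E c u * xiFun (E c) u) w from
        (hdE c).mul ((hGd c hw).restrictScalars ℝ)), Complex.ofReal_sum]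
    refine Finset.sum_congr rfl fun c _ => ?_
    rw [dbar_mul (hdE c) ((hGd c hw).restrictScalars ℝ), dbar_eq_zero (hGd c hw), mul_zero,
      add_zero, ofReal_div, normSq_eq_conj_mul_self, xiFun, map_mul, conj_conj, conj_ofReal]
    field_simp [ofReal_ne_zero.mpr hw.ne']
  have hpos : ∀ w : ℂ, 0 < w.im → 0 ≤ (dbar F w).re ∧ (dbar F w).im = 0 := fun w hw => by
    rw [hdF w hw, ofReal_re, ofReal_im]
    exact ⟨Finset.sum_nonneg fun c _ => div_nonneg (normSq_nonneg _) hw.le, rfl⟩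
  have hfd : ∀ c {w : ℂ}, |w.re| ≤ 1 / 2 → 1 ≤ ‖w‖ → 0 < w.im → xiFun (E c) w = 0 := by
    intro c w h1 h2 h3
    have h0 := dbar_eq_zero_of_invariant F hF1 hper hS hdecay hpos h1 h2 h3
    rw [hdF w h3, ofReal_eq_zero, Finset.sum_eq_zero_iff_of_nonneg
      fun c _ => div_nonneg (normSq_nonneg _) h3.le] at h0
    have := h0 c (Finset.mem_univ c)
    rw [div_eq_zero_iff, normSq_eq_zero] at this
    exact this.resolve_right h3.ne'
  -- identity theorem
  have hall : ∀ c, EqOn (xiFun (E c)) 0 upperSet := fun c => by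
    refine AnalyticOnNhd.eqOn_zero_of_preconnected_of_eventuallyEq_zero
      ((hEn c).2.1.analyticOnNhd isOpen_upperHalf) isPreconnected_upperSet
      (z₀ := 2 * Complex.I) (by simp) ?_
    have hU : {w : ℂ | |w.re| < 1 / 2 ∧ 1 < w.im} ∈ 𝓝 (2 * Complex.I) :=
      ((isOpen_lt (Complex.continuous_re.abs) continuous_const).inter
        (isOpen_lt continuous_const Complex.continuous_im)).mem_nhds ⟨by simp, by simp⟩
    filter_upwards [hU] with w hw
    refine hfd c hw.1.le ?_ (one_pos.trans hw.2)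
    exact (hw.2.le.trans (le_abs_self _)).trans (abs_im_le_norm w)
  rw [show h ∣[(1 : ℤ)] δ = h ∣[(1 : ℤ)] cosetRep N (QuotientGroup.mk δ⁻¹) from
    slash_cosetRep N hinv δ]
  exact hall _ hz

/-- Every translate of a nice invariant function is holomorphic. -/
theorem mdifferentiable_slash {h : ℍ → ℂ} (hinv : ∀ γ ∈ Gamma1 N, h ∣[(1 : ℤ)] γ = h)
    (hnice : ∀ δ : SL(2, ℤ), IsNice (extFun (h ∣[(1 : ℤ)] δ))) (δ : SL(2, ℤ)) :
    DifferentiableOn ℂ (extFun (h ∣[(1 : ℤ)] δ)) upperSet := fun z hz => by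
  refine (differentiableAt_of_dbar (differentiableAt_of_contDiffOn (hnice δ).1 hz) ?_).differentiableWithinAt
  have h0 := xiFun_extFun_eq_zero N hinv hnice δ hz
  rw [xiFun, mul_eq_zero, map_eq_zero] at h0
  exact h0.resolve_left (ofReal_ne_zero.mpr (ne_of_gt hz))

/-- **The lift is a cusp form.** -/
theorem exists_cuspForm_of_isNice {h : ℍ → ℂ} (hinv : ∀ γ ∈ Gamma1 N, h ∣[(1 : ℤ)] γ = h)
    (hnice : ∀ δ : SL(2, ℤ), IsNice (extFun (h ∣[(1 : ℤ)] δ))) :
    ∃ f : CuspForm (Gamma1 N) 1, ⇑f = h := by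
  have hdiff := mdifferentiable_slash N hinv hnice
  refine ⟨
    { toFun := h
      slash_action_eq' := fun g hg => by
        obtain ⟨γ, hγ, rfl⟩ := Subgroup.mem_map.mp hg
        exact hinv γ hγ
      holo' := by
        rw [UpperHalfPlane.mdifferentiable_iff]
        have := hdiff 1
        rw [SlashAction.slash_one] at this
        exact this
      zero_at_cusps' := fun {x} hx => by
        rw [Subgroup.IsArithmetic.isCusp_iff_isCusp_SL2Z] at hx
        rw [OnePoint.isZeroAt_iff_forall_SL2Z hx]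
        intro δ _
        obtain ⟨-, -, C, κ, hκ, hC⟩ := hnice δ
        refine isZeroAtImInfty_iff.mpr fun ε hε => ?_
        have hlim : Tendsto (fun y : ℝ => C * Real.exp (-(κ * y))) atTop (𝓝 0) := by
          simpa using (Real.tendsto_exp_neg_atTop_nhds_zero.comp
            (tendsto_id.const_mul_atTop hκ)).const_mul C
        obtain ⟨Y, hY⟩ := eventually_atTop.mp
          ((hlim.eventually (ge_mem_nhds hε)).and (eventually_ge_atTop 1))
        refine ⟨Y, fun τ hτ => ?_⟩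
        have := (hC (τ : ℂ) (hY _ hτ).2).1
        rw [extFun_of_im_pos _ τ.im_pos] at this
        exact this.trans (hY _ hτ).1 }, rfl⟩

end Fermat.Agent.LT.Lift
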