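import Fermat.Agent.LT.Lift.Adelic
import Fermat.Agent.LT.Lift.Holomorphy
import Fermat.Agent.LT.Final.Twist
import Fermat.Prelude.Def_FLTPrelim_Modularity
import Mathlib.NumberTheory.ModularForms.QExpansion

/-!
# The lift as a cusp form

A good weight with `χ₋₃`-equivariant theta functions lifts to a cusp form of weight one with
character `χ₋₃`, whose Fourier coefficients are the coefficients of the lift.
-/

set_option autoImplicit false

noncomputable section

open MeasureTheory Matrix Filter CongruenceSubgroup UpperHalfPlane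
open scoped Classical MatrixGroups ModularForm
open NumberField (InfinitePlace)

namespace Fermat.Agent.LT.Lift

open LiftHecke
open Final (IsChiInvariant chiInt slash_eq_of_mem_Gamma1)

variable {K : Type*} [Field K] [NumberField K] {Fr : HermFrame K} {U : Level K}
  {C : NormScale Fr U} [Unique (InfinitePlace K)] {W : ThetaWeight Fr C}
  {π : PartitionOfUnity U} {φ : Y U → ℂ}

/-- The theta function of weight one at a point of `Y`. -/
def thetaFun (W : ThetaWeight Fr C) (y : Y U) (τ : ℍ) : ℂ := sqrtIm τ * thetaY W τ y

/-- The lift as a function on the upper half plane. -/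
def liftFn (W : ThetaWeight Fr C) (π : PartitionOfUnity U) (φ : Y U → ℂ) (τ : ℍ) : ℂ :=
  quotIntegral π fun y => φ y * thetaFun W y τ

/-- Integrality of the norms on the support. -/
def HasSupportDenominator (W : ThetaWeight Fr C) (d : ℕ) : Prop :=
  0 < d ∧ ∀ g X, W.Φ (ThetaWeight.arg g X) ≠ 0 →
    ∃ k : ℤ, nForm (Fr.normVec (C.c g) X) = (k : ℝ) / d

/-- A weight whose lift converges. -/
structure IsGoodWeight (W : ThetaWeight Fr C) (π : PartitionOfUnity U) (φ : Y U → ℂ) : Prop where
  bound : ThetaBound W π
  null : NullBound W π φ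
  denom : ∃ d, HasSupportDenominator W d

/-- What the theta functions of a weight must satisfy for the lift to be a form on `Γ₁(N)`. -/
structure LiftFormInput (W : ThetaWeight Fr C) (π : PartitionOfUnity U) (φ : Y U → ℂ) (N : ℕ) :
    Prop where
  good : IsGoodWeight W π φ
  integral : HasSupportDenominator W 1
  chi : ∀ γ ∈ Gamma0 N, ∀ y, thetaFun W y ∣[(1 : ℤ)] γ = (chiInt (γ 1 1) : ℂ) • thetaFun W y
  nice : ∀ δ : SL(2, ℤ), IsNice (extFun (liftFn W π φ ∣[(1 : ℤ)] δ))

/-- The function on the upper half plane is the lift of the adelic data. -/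
theorem liftFn_eq_lift (h : AdelicInput W π φ) (hT : ThetaBound W π) (τ : ℍ) :
    liftFn W π φ τ = (adelicData h).lift τ := by
  rw [lift_eq_quotIntegral h hT τ.im_pos, liftFn, quotIntegral, quotIntegral,
    ← integral_const_mul]
  refine integral_congr_ae (Eventually.of_forall fun y => ?_)
  simp only [thetaFun, Complex.real_smul]
  ring

/-- A support denominator of the weight is a norm denominator of the adelic data. -/
theorem hasNormDenominator_adelicData (h : AdelicInput W π φ) {d : ℕ}
    (hd : HasSupportDenominator W d) : (adelicData h).HasNormDenominator d := by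
  refine ⟨hd.1, fun j => ?_⟩
  rw [adelicData_X]
  split_ifs with h0
  · exact ⟨0, by simp [nForm]⟩
  · exact hd.2 _ _ h0

theorem integrable_mul_thetaFun (h : AdelicInput W π φ) (hT : ThetaBound W π) (τ : ℍ) :
    Integrable (fun y => π.weight y • (φ y * thetaFun W y τ)) (yVol U) := by
  refine ((integrable_mul_thetaY h hT τ.im_pos).const_mul (sqrtIm τ)).congr
    (Eventually.of_forall fun y => ?_)
  simp only [thetaFun, Complex.real_smul]
  ring

/-- An expansion of the slashed theta functions expands the slashed lift. -/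
theorem liftFn_slash {n : ℕ} (a : Fin n → ℂ) (V : Fin n → ThetaWeight Fr C) (δ : SL(2, ℤ))
    (h : AdelicInput W π φ) (hV : ∀ i, ThetaBound (V i) π)
    (he : ∀ y, thetaFun W y ∣[(1 : ℤ)] δ = ∑ i, a i • thetaFun (V i) y) :
    liftFn W π φ ∣[(1 : ℤ)] δ = fun τ => ∑ i, a i * liftFn (V i) π φ τ := by
  funext τ
  rw [ModularForm.SL_slash_apply, liftFn, quotIntegral, ← integral_mul_const]
  simp only [liftFn, quotIntegral, ← integral_const_mul]
  rw [← integral_finsetSum _ fun i _ =>
    (integrable_mul_thetaFun (W := V i) ⟨h.embedding, h.cusp, h.measurable_weight⟩ (hV i)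
      τ).const_mul (a i)]
  refine integral_congr_ae (Eventually.of_forall fun y => ?_)
  have e := congrFun (he y) τ
  simp only [ModularForm.SL_slash_apply, Finset.sum_apply, Pi.smul_apply, smul_eq_mul] at e
  simp only [Complex.real_smul]
  rw [show ∑ i, a i * ((π.weight y : ℂ) * (φ y * thetaFun (V i) y τ)) =
      (π.weight y : ℂ) * φ y * ∑ i, a i * thetaFun (V i) y τ from by
    rw [Finset.mul_sum]; exact Finset.sum_congr rfl fun i _ => by ring, ← e]
  ring

/-- **The lift is a cusp form of weight one with character, with the coefficients of the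
pairings.** -/
theorem exists_liftForm {N : ℕ} [NeZero N] (h3 : 3 ∣ N) (h : AdelicInput W π φ)
    (hin : LiftFormInput W π φ N) :
    ∃ f : CuspForm (Gamma1 N) 1, ⇑f = liftFn W π φ ∧ IsChiInvariant N f ∧
      ∀ n : ℕ, 0 < n → ModularFormClass.qCoeff f n = (adelicData h).coeff n 1 := by
  have hchi : IsChiInvariant N (liftFn W π φ) := fun γ hγ => by
    have he : ∀ y, thetaFun W y ∣[(1 : ℤ)] γ =
        ∑ _i : Fin 1, (chiInt (γ 1 1) : ℂ) • thetaFun W y := fun y => by
      simp [hin.chi γ hγ y]
    rw [liftFn_slash (fun _ => (chiInt (γ 1 1) : ℂ)) (fun _ => W) γ h (fun _ => hin.good.bound) he]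
    funext τ
    simp
  obtain ⟨f, hf⟩ := exists_cuspForm_of_isNice N
    (fun γ hγ => slash_eq_of_mem_Gamma1 hchi h3 hγ) hin.nice
  refine ⟨f, hf, hf ▸ hchi, fun n hn => ?_⟩
  have h1 : (1 : ℝ) ∈ (Gamma1 N : Subgroup (GL (Fin 2) ℝ)).strictPeriods := by simp
  rw [ModularFormClass.qCoeff, ModularFormClass.qExpansion_coeff_eq_intervalIntegral f
      one_pos h1 n (t := 1) one_pos,
    ← (adelicData h).integral_lift_mul_exp isH3Measure_vol (by simp [Real.pi_pos])
      (convergesAll_adelicData h hin.good.bound) (hasNormDenominator_adelicData h hin.integral)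
      hn one_pos]
  simp only [Complex.ofReal_one, div_one, one_mul]
  refine intervalIntegral.integral_congr fun u _ => ?_
  simp only [hf, liftFn_eq_lift h hin.good.bound]
  congr 1
  rw [Function.Periodic.qParam, ← Complex.exp_nat_mul, one_div, ← Complex.exp_neg]
  congr 1
  push_cast
  ring

end Fermat.Agent.LT.Lift

end
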