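import Fermat.Agent.LT.Lift.Concrete
import Fermat.Agent.LT.LiftHecke.Weight

/-!
# The lifted form of the standard weight

The standard weight is bounded and split at the good split primes, so its lift is a lifted form
as soon as the slashes are nice and the first coefficient is nonzero.
-/

set_option autoImplicit false

noncomputable section

open MeasureTheory Matrix CongruenceSubgroup UpperHalfPlane
open scoped NumberField MatrixGroups ModularForm

namespace Fermat.Agent.LT.Lift

open LiftHecke

/-- The standard weight is bounded with integral support. -/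
theorem isBoundedWeight_stdWeight {L : ℕ} (hL : 0 < L) : IsBoundedWeight (stdWeight L hL) :=
  ⟨⟨1, fun Y => by rw [stdWeight_Φ]; exact norm_stdPhi_le Y⟩, 1, one_pos, fun Y hY i j => by
    rw [Nat.cast_one, one_mul]
    exact (inClass_of_stdPhi_ne_zero hY).isHermInt.integral i j⟩

/-- **The lifted form of the standard weight at level `L`**: a form of level `N`. -/
theorem hasLiftedForm_std {L : ℕ} (hL : 0 < L) {N : ℕ} (hN : 0 < N) (h3 : 3 ∣ N)
    (hcube : ∀ q : ℕ, q.Prime → q ≠ 3 → ¬ q ^ 3 ∣ N)
    (hLN : ∀ p : ℕ, p.Prime → p ∣ L → p ∣ 3 * N)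
    {π : PartitionOfUnity (Level.principal EisField L hL)}
    {φ : Y (Level.principal EisField L hL) → ℂ} {lam : Ideal (𝓞 EisField) → ℂ}
    (hπ : IsLiftPartition π) (hφ : IsSphericalCuspForm φ) (hsys : IsHeckeEigenSystem L φ lam)
    (hchi : ∀ γ ∈ Gamma0 N, ∀ y, thetaFun (stdWeight L hL) y ∣[(1 : ℤ)] γ =
      (Final.chiInt (γ 1 1) : ℂ) • thetaFun (stdWeight L hL) y)
    (hnice : ∀ δ : SL(2, ℤ), IsNice (extFun (liftFn (stdWeight L hL) π φ ∣[(1 : ℤ)] δ)))
    (hone : (adelicData (adelicInput_eis (W := stdWeight L hL) hπ hφ)).coeff 1 1 ≠ 0) :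
    HasLiftedForm lam :=
  hasLiftedForm_of hL hN h3 hcube hLN hπ hφ hsys
    (liftFormInput_eis hπ hφ (isBoundedWeight_stdWeight hL) (hasSupportDenominator_stdWeight hL)
      hchi hnice)
    (fun _ _ hpL R => R.isSplitFor_stdWeight hL hpL) hone

end Fermat.Agent.LT.Lift

end
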