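import Fermat.Agent.LT.Lift.Reduce
import Fermat.Agent.LT.Lift.StdInstance
import Fermat.Agent.LT.Lift.HoneTranslate
import Fermat.Agent.LT.LiftTheta.Chi

/-!
# The lift step from two statements on the standard weight

If the slashes of the lifts with the standard weight are nice and the first coefficient of the
lift of a translated test vector with nonzero period does not vanish, then `LiftStep` holds.
-/

set_option autoImplicit false

noncomputable section

open MeasureTheory Matrix CongruenceSubgroup UpperHalfPlane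
open scoped NumberField MatrixGroups ModularForm

namespace Fermat.Agent.LT.Lift

open LiftHecke Asai Places

/-- The slash conditions for the standard weight at every level divisible by three. -/
def StdNice : Prop :=
  ∀ (L : ℕ) (hL : 0 < L), 3 ∣ L → ∀ (π : PartitionOfUnity (Level.principal EisField L hL))
    (φ : Y (Level.principal EisField L hL) → ℂ), IsLiftPartition π → IsSphericalCuspForm φ →
      ∀ δ : SL(2, ℤ), IsNice (extFun (liftFn (stdWeight L hL) π φ ∣[(1 : ℤ)] δ))

/-- The first coefficient of the lift of a translated test vector with a nonzero period. -/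
def HoneOfPeriod : Prop :=
  ∀ (N : ℕ) (lam : Ideal (𝓞 EisField) → ℂ) (M : ℕ) (hM : 0 < M)
    (φ : Y (Level.principal EisField M hM) → ℂ) (t : (FinAdele EisField)ˣ) (e j : ℕ),
    haveI : NeZero M := ⟨hM.ne'⟩
    ∀ (htv : IsTestVector N ∅ lam hM φ t e), j < 3 ^ e * M →
      period ((3 ^ e * M) ^ 2) (unitSum φ
        ((dia t : GLFin EisField) : GLFin EisField ⧸ (Level.principal EisField M hM).toSubgroup)
        (3 ^ e * M) j) ≠ 0 →
      ∀ (π : PartitionOfUnity
          (Level.principal EisField (honeLevel M e) (honeLevel_pos (NeZero.pos M) e)))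
        (hπ : IsLiftPartition π),
        (adelicData (adelicInput_eis (W := stdWeight (honeLevel M e) (honeLevel_pos (NeZero.pos M) e)) hπ
          (isSphericalCuspForm_honeForm (e := e) (j := j) φ htv.toPlace_bad htv.toPlace_good
            htv.cusp))).coeff 1 1 ≠ 0

theorem not_cube_dvd_level {M e q : ℕ} (hq : q.Prime) (hq3 : q ≠ 3) (hM : ¬ q ^ 2 ∣ M) :
    ¬ q ^ 3 ∣ 3 * honeLevel M e ^ 2 := by
  intro h
  have hco : Nat.Coprime q 3 := (Nat.coprime_primes hq Nat.prime_three).mpr hq3
  have h' : q ^ 3 ∣ M ^ 2 := by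
    rw [honeLevel, mul_pow, ← pow_mul, mul_left_comm, ← pow_succ'] at h
    exact (hco.pow 3 _).dvd_of_dvd_mul_right h
  obtain ⟨m, rfl⟩ := hq.dvd_of_dvd_pow ((dvd_pow_self q three_ne_zero).trans h')
  rw [mul_pow, pow_succ, Nat.mul_dvd_mul_iff_left (pow_pos hq.pos 2)] at h'
  exact hM (by rw [sq]; exact mul_dvd_mul_left q (hq.dvd_of_dvd_pow h'))

/-- **The lift step from the slash conditions and the first coefficient.** -/
theorem liftStep_of_inputs (hnice : StdNice) (hone : HoneOfPeriod) : LiftStep := by
  refine liftStep_of_period fun N lam M hM φ t e j htv hj hper => ?_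
  have : NeZero M := ⟨hM.ne'⟩
  have hL := honeLevel_pos (NeZero.pos M) e
  have : NeZero (honeLevel M e) := ⟨hL.ne'⟩
  obtain ⟨π, hπ⟩ := exists_liftPartition (Level.principal EisField (honeLevel M e) hL)
  have hφ := isSphericalCuspForm_honeForm (e := e) (j := j) φ htv.toPlace_bad htv.toPlace_good
    htv.cusp
  exact hasLiftedForm_std hL (N := 3 * honeLevel M e ^ 2) (by positivity) (dvd_mul_right 3 _)
    (fun q hq hq3 => not_cube_dvd_level hq hq3 (htv.sq_not_dvd q hq hq3))
    (fun p _ hd => dvd_mul_of_dvd_right (dvd_mul_of_dvd_right (dvd_pow hd two_ne_zero) 3) 3)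
    hπ hφ (isHeckeEigenSystem_honeForm φ htv.toPlace_bad htv.toPlace_good htv.eigen)
    (LiftTheta.chi_stdWeight hL)
    (hnice _ hL (three_dvd_honeLevel M e) π _ hπ hφ)
    (hone N lam M hM φ t e j htv hj hper π hπ)

end Fermat.Agent.LT.Lift

end
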