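import Fermat.Agent.LT.Lift.HoneBridge
import Fermat.Agent.LT.Lift.FinalInputs

/-!
# The first coefficient of the lift of a translated test vector

A nonzero period of a test vector gives a nonzero first coefficient at the level of the lift, as
soon as the stabilisers of the indices are given by `honeGroup`.
-/

set_option autoImplicit false

noncomputable section

open MeasureTheory Matrix NumberField CongruenceSubgroup
open scoped MatrixGroups UpperHalfPlane

namespace Fermat.Agent.LT.Lift

open LiftHecke Asai Places Translate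

/-- What is needed of the stabilisers of the indices at the level of the lift. -/
structure HoneStabilisers (M e : ℕ) [NeZero M] [NeZero (honeLevel M e ^ 2)] : Prop where
  finiteIndex : (honeGroup M e).FiniteIndex
  mem : ∀ u : (ZMod (honeLevel M e ^ 2))ˣ, ∀ γ ∈ honeGroup M e,
    honeHom M γ • unitIndex (honeLevel_pos (NeZero.pos M) e) u =
      unitIndex (honeLevel_pos (NeZero.pos M) e) u
  hasSum : ∀ (u : (ZMod (honeLevel M e ^ 2))ˣ)
    (f : MulAction.stabilizer (AdelicG eisFrame.toHermFrame)
      (unitIndex (honeLevel_pos (NeZero.pos M) e) u) → ℝ), HasSum f 1 →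
    HasSum (fun γ : honeGroup M e =>
      f ⟨honeHom M (γ : SL(2, ℤ)), MulAction.mem_stabilizer_iff.mpr (mem u γ γ.2)⟩) 2

/-- **The coefficient from a nonzero period, given the stabilisers.** -/
theorem honeOfPeriod_of_stabilisers
    (hS : ∀ (M e : ℕ) [NeZero M] [NeZero (honeLevel M e ^ 2)], 3 ∣ M → HoneStabilisers M e) :
    HoneOfPeriod := by
  intro N lam M hM φ t e j
  have : NeZero M := ⟨hM.ne'⟩
  intro htv hj hper π hπ
  have : NeZero (honeLevel M e ^ 2) := ⟨pow_ne_zero 2 (honeLevel_pos (NeZero.pos M) e).ne'⟩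
  obtain ⟨hfi, hmem, hsum⟩ := hS M e htv.three_dvd
  have := hfi
  set φ0 := translate (conjugates_honeShift (e := e) (j := j) htv.toPlace_bad htv.toPlace_good) φ
    with hφ0
  obtain ⟨k, hk, hks⟩ := sum_translate_planeFrame φ (e := e) (j := j) htv.toPlace_bad
    htv.toPlace_good htv.cusp.cuspEigen.automorphic
  have hks' : ∀ τ : ℍ, ∑ u : (ZMod (honeLevel M e ^ 2))ˣ, φ0 (fun _ => planeFrame M • planePoint τ,
      QuotientGroup.mk (dia (hatUnit EisField (honeLevel M e ^ 2) u))) =
      (k : ℂ) * unitSum φ ((dia t : GLFin EisField) :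
        GLFin EisField ⧸ (Level.principal EisField M hM).toSubgroup) (3 ^ e * M) j τ := hks
  refine coeff_ne_zero_of_plane (R := (3 ^ e * M) ^ 2) (honeLevel_pos (NeZero.pos M) e)
    (three_dvd_honeLevel M e) hπ (isSphericalCuspForm_honeForm (e := e) (j := j) φ htv.toPlace_bad
      htv.toPlace_good htv.cusp) (honeGroup_le_Gamma0 M e) hmem (fun u P => ?_) (fun γ hγ τ => ?_) ?_
  · exact hsum u (fun g => stabWeight (adelicData (adelicInput_eis
      (W := stdWeight (honeLevel M e) (honeLevel_pos (NeZero.pos M) e)) hπ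
      (isSphericalCuspForm_honeForm (e := e) (j := j) φ htv.toPlace_bad htv.toPlace_good
        htv.cusp))) (unitIndex (honeLevel_pos (NeZero.pos M) e) u)
      ((g : AdelicG eisFrame.toHermFrame) • P)) (hasSum_stabWeight _ _ P)
  · rw [hks', hks']
    congr 1
    exact unitSum_invariant htv.cusp.cuspEigen.automorphic
      (Nat.mul_pos (pow_pos three_pos e) hM) (dvd_mul_left M (3 ^ e))
      (fun g hg => fixed_dia hM hM dvd_rfl htv.toPlace_bad htv.toPlace_good g hg) j γ hγ τ
  · obtain ⟨B, hB⟩ := htv.cusp.cuspEigen.bounded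
    rw [show (fun τ : ℍ => ∑ u : (ZMod (honeLevel M e ^ 2))ˣ,
        φ0 (fun _ => planeFrame M • planePoint τ,
          QuotientGroup.mk (dia (hatUnit EisField (honeLevel M e ^ 2) u)))) =
      fun τ => (k : ℂ) * unitSum φ ((dia t : GLFin EisField) :
        GLFin EisField ⧸ (Level.principal EisField M hM).toSubgroup) (3 ^ e * M) j τ from
      funext hks', period_const_mul (measurable_unitSum htv.cusp.cuspEigen _ _ j)
        (B := ∑ _u : (ZMod ((3 ^ e * M) ^ 2))ˣ, B)
        (fun τ => (norm_sum_le _ _).trans (Finset.sum_le_sum fun _ _ => hB _))]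
    exact mul_ne_zero (Nat.cast_ne_zero.mpr hk.ne') hper

end Fermat.Agent.LT.Lift

end
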