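import Fermat.Agent.LT.Lift.EisUnitaryCore
import Fermat.Agent.LT.Places.LocalGL
import Fermat.Agent.LT.Setup.Level

/-!
# Isometries of the standard Hermitian form act transitively on the class modulo `L`

If `k ∈ GL₂(Ô)` moves the standard form into the class `Ẑˣ J + L Herm(Ô)`, then an exact isometry
times `k` is a diagonal element `(û 0; 0 1)` up to scalars and the principal level `L`.
-/

set_option autoImplicit false

noncomputable section

open Matrix NumberField
open scoped NumberField

namespace Fermat.Agent.LT.Lift.Unitary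

open LiftHecke
open Asai (CongMod)
open Reduction (IntGL finIncl_mem_of_isIntegral)
open Places

local notation "Af" => FinAdele EisField

variable {L : ℕ}

/-- The finite adele of an algebraic integer. -/
def oIncl : 𝓞 EisField →+* Af := (finIncl EisField).comp (algebraMap (𝓞 EisField) EisField)

/-- The adele of an algebraic integer is its diagonal image. -/
theorem oIncl_apply (o : 𝓞 EisField) : oIncl o = finIncl EisField (o : EisField) := rfl

/-- The adele of an algebraic integer is integral. -/
theorem oIncl_mem (o : 𝓞 EisField) : oIncl o ∈ integralAdele EisField :=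
  finIncl_mem_of_isIntegral o

/-- `x` reduces to `r` modulo `L`. -/
def Reduces (L : ℕ) (x : Af) (r : ResL L) : Prop :=
  ∃ o : 𝓞 EisField, CongMod L (x - oIncl o) ∧ resMap L o = r

theorem Reduces.mem {x : Af} {r : ResL L} (h : Reduces L x r) :
    x ∈ integralAdele EisField := by
  obtain ⟨o, ho, -⟩ := h
  simpa using add_mem ho.integral (oIncl_mem o)

/-- Every integral adele has a reduction modulo `L`. -/
theorem exists_reduces (hL : 0 < L) {x : Af} (hx : x ∈ integralAdele EisField) :
    ∃ r, Reduces L x r := by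
  obtain ⟨o, y, hy, rfl⟩ := Reduction.exists_integer_add L hL hx
  exact ⟨_, o, ⟨y, hy, by rw [oIncl_apply, add_sub_cancel_left]⟩, rfl⟩

theorem congMod_zero : CongMod L (0 : Af) := ⟨0, zero_mem _, by simp⟩

theorem reduces_oIncl (o : 𝓞 EisField) : Reduces L (oIncl o) (resMap L o) :=
  ⟨o, by rw [sub_self]; exact congMod_zero, rfl⟩

/-- The reduction modulo `L` is unique. -/
theorem Reduces.unique (hL : 0 < L) {x : Af} {r s : ResL L} (h : Reduces L x r)
    (h' : Reduces L x s) : r = s := by
  obtain ⟨o, ho, rfl⟩ := h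
  obtain ⟨o', ho', rfl⟩ := h'
  obtain ⟨a, ha, he⟩ := ho'.sub ho
  rw [sub_sub_sub_cancel_left, ← map_sub, oIncl_apply] at he
  have hL0 : (L : EisField) ≠ 0 := Nat.cast_ne_zero.2 hL.ne'
  have hdiv : finIncl EisField (((o - o' : 𝓞 EisField) : EisField) / (L : EisField)) = a := by
    rw [div_eq_mul_inv, map_mul, he, mul_right_comm, ← map_natCast (finIncl EisField), ← map_mul,
      mul_inv_cancel₀ hL0, map_one, one_mul]
  obtain ⟨b, hb⟩ := Reduction.exists_integer_of_finIncl_mem (hdiv ▸ ha)
  rw [← sub_eq_zero, ← map_sub, resMap_eq_zero_iff]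
  refine ⟨b, RingOfIntegers.coe_injective ?_⟩
  rw [map_mul, map_natCast]
  show ((o - o' : 𝓞 EisField) : EisField) = (L : EisField) * (b : EisField)
  rw [hb, mul_div_cancel₀ _ hL0]

/-- Reduction respects sums. -/
theorem Reduces.add {x y : Af} {r s : ResL L} (h : Reduces L x r) (h' : Reduces L y s) :
    Reduces L (x + y) (r + s) := by
  obtain ⟨o, ho, rfl⟩ := h
  obtain ⟨o', ho', rfl⟩ := h'
  refine ⟨o + o', ?_, map_add _ _ _⟩
  rw [map_add, add_sub_add_comm]
  exact ho.add ho'

/-- Reduction respects products. -/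
theorem Reduces.mul {x y : Af} {r s : ResL L} (h : Reduces L x r) (h' : Reduces L y s) :
    Reduces L (x * y) (r * s) := by
  have hy := h'.mem
  obtain ⟨o, ho, rfl⟩ := h
  obtain ⟨o', ho', rfl⟩ := h'
  refine ⟨o * o', ?_, map_mul _ _ _⟩
  rw [map_mul, show x * y - oIncl o * oIncl o' =
    (x - oIncl o) * y + oIncl o * (y - oIncl o') by ring]
  exact (ho.mul_right hy).add (ho'.mul_left (oIncl_mem o))

theorem Reduces.conj {x : Af} {r : ResL L} (h : Reduces L x r) :
    Reduces L (adConj x) (resConj L r) := by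
  obtain ⟨o, ⟨a, ha, he⟩, rfl⟩ := h
  refine ⟨intConj o, ⟨adConj a, adConj_mem ha, ?_⟩, rfl⟩
  rw [oIncl_apply, coe_intConj, ← adConj_finIncl, ← map_sub, ← oIncl_apply, he, map_mul,
    map_natCast]

/-- One reduces to one. -/
theorem reduces_one : Reduces L (1 : Af) (1 : ResL L) := by
  simpa using reduces_oIncl (L := L) 1

/-- Zero reduces to zero. -/
theorem reduces_zero : Reduces L (0 : Af) (0 : ResL L) := by
  simpa using reduces_oIncl (L := L) 0

theorem reduces_intCast (m : ℤ) : Reduces L (m : Af) (m : ResL L) := by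
  simpa using reduces_oIncl (L := L) (m : 𝓞 EisField)

/-- Multiples of `L` reduce to zero. -/
theorem reduces_natCast_mul {a : Af} (ha : a ∈ integralAdele EisField) :
    Reduces L ((L : Af) * a) (0 : ResL L) :=
  ⟨0, by rw [map_zero, sub_zero]; exact ⟨a, ha, rfl⟩, map_zero _⟩

/-- Entrywise reduction. -/
def MReduces (L : ℕ) (G : Matrix (Fin 2) (Fin 2) Af) (A : Matrix (Fin 2) (Fin 2) (ResL L)) :
    Prop :=
  ∀ i j, Reduces L (G i j) (A i j)

theorem exists_mReduces (hL : 0 < L) {G : Matrix (Fin 2) (Fin 2) Af}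
    (hG : ∀ i j, G i j ∈ integralAdele EisField) : ∃ A, MReduces L G A := by
  choose A hA using fun i j => exists_reduces hL (hG i j)
  exact ⟨Matrix.of A, hA⟩

/-- Reduction of matrices respects products. -/
theorem MReduces.mul {G H : Matrix (Fin 2) (Fin 2) Af} {A B : Matrix (Fin 2) (Fin 2) (ResL L)}
    (hG : MReduces L G A) (hH : MReduces L H B) : MReduces L (G * H) (A * B) := fun i j => by
  simp only [Matrix.mul_apply, Fin.sum_univ_two]
  exact ((hG i 0).mul (hH 0 j)).add ((hG i 1).mul (hH 1 j))

theorem MReduces.adj {G : Matrix (Fin 2) (Fin 2) Af} {A : Matrix (Fin 2) (Fin 2) (ResL L)}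
    (hG : MReduces L G A) : MReduces L (adjMat adConj G) (adjMat (resConj L) A) :=
  fun i j => (hG j i).conj

/-- The identity matrix reduces to the identity. -/
theorem mReduces_one : MReduces L (1 : Matrix (Fin 2) (Fin 2) Af) 1 := fun i j => by
  rw [Matrix.one_apply, Matrix.one_apply]
  split
  exacts [reduces_one, reduces_zero]

/-- A matrix reduces entry by entry. -/
theorem mReduces_fin {a b c d : Af} {a' b' c' d' : ResL L} (ha : Reduces L a a')
    (hb : Reduces L b b') (hc : Reduces L c c') (hd : Reduces L d d') :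
    MReduces L !![a, b; c, d] !![a', b'; c', d'] := fun i j => by
  fin_cases i <;> fin_cases j <;> assumption

theorem mReduces_stdForm : MReduces L (stdForm Af) (stdForm (ResL L)) :=
  mReduces_fin reduces_zero reduces_one reduces_one reduces_zero

/-- The reduction of a matrix is unique. -/
theorem MReduces.unique (hL : 0 < L) {G : Matrix (Fin 2) (Fin 2) Af}
    {A B : Matrix (Fin 2) (Fin 2) (ResL L)} (h : MReduces L G A) (h' : MReduces L G B) : A = B :=
  Matrix.ext fun i j => (h i j).unique hL (h' i j)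

/-- An element congruent to `1` is principal. -/
theorem isPrincipal_of_mReduces {D : GLFin EisField} (h : MReduces L D.val 1)
    (h' : MReduces L (D⁻¹).val 1) : IsPrincipal EisField L D := by
  intro i j
  have key : ∀ {G : Matrix (Fin 2) (Fin 2) Af}, MReduces L G 1 →
      ∃ a ∈ integralAdele EisField,
        G i j = (1 : Matrix (Fin 2) (Fin 2) Af) i j + (L : Af) * a := by
    intro G hG
    obtain ⟨o, ho, ho'⟩ := hG i j
    obtain ⟨o₁, ho₁, ho₁'⟩ := mReduces_one (L := L) i j
    obtain ⟨t, ht⟩ := (resMap_eq_zero_iff L).1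
      (show resMap L (o - o₁) = 0 by rw [map_sub, ho', ho₁', sub_self])
    obtain ⟨a, ha, he⟩ := ho.sub ho₁
    refine ⟨a + oIncl t, add_mem ha (oIncl_mem t), ?_⟩
    have hto : oIncl o - oIncl o₁ = (L : Af) * oIncl t := by
      rw [← map_sub, ht, map_mul, map_natCast]
    linear_combination he + hto
  obtain ⟨a, ha, ea⟩ := key h
  obtain ⟨b, hb, eb⟩ := key h'
  exact ⟨a, ha, b, hb, ea, eb⟩

/-- An integral global matrix reduces to its image modulo `L`. -/
theorem mReduces_map {Mo : Matrix (Fin 2) (Fin 2) (𝓞 EisField)} :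
    MReduces L (Mo.map oIncl) (Mo.map (resMap L)) := fun i j => reduces_oIncl (Mo i j)

/-- A unit idele with a given unit residue. -/
theorem exists_unit_idele (hL : 0 < L) {y : ResL L} (hy : IsUnit y) :
    ∃ z : (FinAdele EisField)ˣ, (z : Af) ∈ integralAdele EisField ∧
      ((z⁻¹ : (FinAdele EisField)ˣ) : Af) ∈ integralAdele EisField ∧ Reduces L (z : Af) y := by
  classical
  obtain ⟨w, hw⟩ := hy.exists_left_inv
  obtain ⟨o, rfl⟩ := resMap_surjective L y
  obtain ⟨o', rfl⟩ := resMap_surjective L w
  rw [← map_mul, ← map_one (resMap L), ← sub_eq_zero, ← map_sub, resMap_eq_zero_iff] at hw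
  obtain ⟨t, ht⟩ := hw
  -- at the places dividing `L` the element `o` is a unit
  have hunit : ∀ v : FinPlace EisField, placeVal v (L : Af) < 1 → placeVal v (oIncl o) = 1 := by
    intro v hv
    refine le_antisymm (placeVal_le_one v (oIncl_mem o)) (not_lt.1 fun hlt => ?_)
    have h1 : (1 : Af) = oIncl o' * oIncl o - (L : Af) * oIncl t := by
      rw [← map_mul, ← map_natCast oIncl, ← map_mul, ← map_sub, ← ht, sub_sub_cancel, map_one]
    have h2 := placeVal_sub_le v (oIncl o' * oIncl o) ((L : Af) * oIncl t)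
    rw [← h1, placeVal_one, placeVal_mul, placeVal_mul] at h2
    exact not_le.2 (max_lt (mul_lt_one_of_nonneg_of_lt_one_right (placeVal_le_one v (oIncl_mem o'))
      zero_le hlt) (mul_lt_one_of_nonneg_of_lt_one_left zero_le hv
        (placeVal_le_one v (oIncl_mem t)))) h2
  set c : ∀ v : FinPlace EisField, v.adicCompletion EisField :=
    fun v => if placeVal v (L : Af) < 1 then toPlace v (oIncl o) else 1 with hc
  have hval : ∀ v, Valued.v (c v) = 1 := fun v => by
    rw [hc]
    dsimp only
    split_ifs with h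
    exacts [hunit v h, map_one _]
  have hfin : {v | 1 < Valued.v (c v)}.Finite :=
    Set.Finite.subset Set.finite_empty fun v hv => (lt_irrefl _ (lt_of_lt_of_eq hv (hval v))).elim
  set z₀ := adeleOf c hfin with hz₀
  have hz : ∀ v, placeVal v z₀ = 1 := fun v => by rw [placeVal, hz₀, toPlace_adeleOf, hval]
  have hu : IsUnit z₀ := isUnit_of_placeVal
    (fun v h0 => by simpa [placeVal, h0] using hz v)
    (Set.Finite.subset Set.finite_empty fun v hv => (hv (hz v)).elim)
  obtain ⟨z, hz'⟩ := hu
  obtain ⟨hzi, hzi'⟩ := mem_integralUnits_iff.2 (fun v => by rw [hz']; exact hz v)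
  refine ⟨z, hzi, hzi', o, ?_, rfl⟩
  obtain ⟨a, ha, he⟩ := (exists_eq_add_mul_iff hL (x := (z : Af)) (oIncl_mem o)).2 fun v => by
    rw [← placeVal_natCast]
    by_cases h : placeVal v (L : Af) < 1
    · have : toPlace v ((z : Af) - oIncl o) = 0 := by
        rw [map_sub, hz', hz₀, toPlace_adeleOf, hc]
        simp [h]
      rw [placeVal, this, map_zero]
      exact zero_le
    · exact (placeVal_le_one v (sub_mem hzi (oIncl_mem o))).trans (not_lt.1 h)
  exact ⟨a, ha, by rw [he, add_sub_cancel_left]⟩

/-- The residue of `GL₂(Ô)` elements sending the standard form into its class is a similitude. -/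
theorem exists_isSimil (hL : 0 < L) {k : GLFin EisField} (hk : IntGL k)
    (h : InClass L (hermAct adConj (k⁻¹).val (stdForm Af))) :
    ∃ (A : Matrix (Fin 2) (Fin 2) (ResL L)) (mu : ℤ),
      MReduces L k.val A ∧ IsCoprime mu (L : ℤ) ∧ IsSimil L mu A := by
  obtain ⟨A, hA⟩ := exists_mReduces hL hk.1
  obtain ⟨w, hw, Z, hZ, e⟩ := h
  obtain ⟨w', hw'⟩ := hw.exists_left_inv
  obtain ⟨m, q, hm⟩ := Reduction.exists_int_add_mul L hL w
  obtain ⟨m', q', hm'⟩ := Reduction.exists_int_add_mul L hL w'
  have hι : ∀ {v q : Zhat} {m : ℤ}, v = (m : Zhat) + (L : Zhat) * q →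
      Reduces L (QuadFrame.zhatIncl (K := EisField) v) (m : ResL L) := by
    rintro v q m rfl
    rw [map_add, map_mul, map_intCast, map_natCast]
    simpa using (reduces_intCast (L := L) m).add (reduces_natCast_mul (zhatIncl_mem q))
  have hmm : (m' : ResL L) * (m : ResL L) = 1 :=
    ((hι hm').mul (hι hm)).unique hL (by rw [← map_mul, hw', map_one]; exact reduces_one)
  refine ⟨A, m', hA, ?_, ?_⟩
  · exact isCoprime_of_intCast_mul_eq_one (by rw [mul_comm]; exact hmm)
  have hX : MReduces L (hermAct adConj k.val (stdForm Af))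
      (hermAct (resConj L) A (stdForm (ResL L))) := (hA.mul mReduces_stdForm).mul hA.adj
  have e' := congrArg (hermAct adConj k.val) e
  rw [← hermAct_mul, ← Units.val_mul, mul_inv_cancel, Units.val_one, hermAct_one, hermAct_add,
    hermAct_smul, hermAct_smul] at e'
  have hR : MReduces L (stdForm Af)
      ((m : ResL L) • hermAct (resConj L) A (stdForm (ResL L))) := by
    rw [e']
    intro i j
    have := ((hι hm).mul (hX i j)).add
      (reduces_natCast_mul (L := L) ((hZ.hermAct hk.1).integral i j))
    simpa using this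
  show _ = _
  conv_rhs => rw [mReduces_stdForm.unique hL hR, smul_smul, hmm, one_smul]

/-- An exact isometry makes the residue of an element moving the standard form into its class
diagonal. -/
theorem exists_glIncl_mul_eq_diag (hL : 0 < L) (h3 : 3 ∣ L) {k : GLFin EisField} (hk : IntGL k)
    (h : InClass L (hermAct adConj (k⁻¹).val (stdForm Af))) :
    ∃ Γ : GL (Fin 2) EisField, hermAct eisConj Γ.val (stdForm EisField) = stdForm EisField ∧
      ∃ (u : ℤ) (y : ResL L), IsCoprime u (L : ℤ) ∧ IsUnit y ∧
        IntGL (glIncl EisField Γ * k) ∧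
        MReduces L (glIncl EisField Γ * k).val !![(u : ResL L) * y, 0; 0, y] := by
  obtain ⟨A, mu, hA, hmu, hsim⟩ := exists_isSimil hL hk h
  obtain ⟨M, ⟨Γ, Mo, eΓ, hΓi, hΓ, rfl⟩, u, y, hu, hy, hMA⟩ := exists_diagonal hL hmu hsim h3
  have hval : (glIncl EisField Γ).val = Mo.map oIncl :=
    Matrix.ext fun i j => congrArg (finIncl EisField) (congrFun (congrFun eΓ i) j)
  have hG : IntGL (glIncl EisField Γ) := by
    refine ⟨fun i j => by rw [hval]; exact oIncl_mem (Mo i j), fun i j => ?_⟩
    rw [← map_inv]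
    exact finIncl_mem_of_isIntegral (⟨(Γ⁻¹).val i j, hΓi i j⟩ : 𝓞 EisField)
  refine ⟨Γ, hΓ, u, y, hu, hy, hG.mul hk, ?_⟩
  rw [Units.val_mul, hval, ← hMA]
  exact mReduces_map.mul hA

/-- A scalar matrix written out. -/
theorem scalarFin_val (z : (FinAdele EisField)ˣ) :
    (scalarFin EisField z).val = !![(z : Af), 0; 0, (z : Af)] := by
  ext i j
  fin_cases i <;> fin_cases j <;> simp [scalarFin]

/-- The scalar of an integral unit is integral invertible. -/
theorem intGL_scalarFin {z : (FinAdele EisField)ˣ} (hz : (z : Af) ∈ integralAdele EisField)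
    (hz' : ((z⁻¹ : (FinAdele EisField)ˣ) : Af) ∈ integralAdele EisField) :
    IntGL (scalarFin EisField z) := by
  refine ⟨fun i j => ?_, fun i j => ?_⟩
  · rw [scalarFin_val]; fin_cases i <;> fin_cases j <;> simp [hz, zero_mem]
  · rw [← map_inv, scalarFin_val]; fin_cases i <;> fin_cases j <;> simp [hz', zero_mem]

/-- Two integral elements with the same residue differ by one congruent to `1`. -/
theorem mReduces_inv_mul (hL : 0 < L) {P G : GLFin EisField} (hP : IntGL P)
    {C : Matrix (Fin 2) (Fin 2) (ResL L)} (hC : MReduces L P.val C) (hC' : MReduces L G.val C) :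
    MReduces L (P⁻¹ * G).val 1 := by
  obtain ⟨Q, hQ⟩ := exists_mReduces hL hP.2
  have hQC : Q * C = 1 := (hQ.mul hC).unique hL
    (by rw [← Units.val_mul, inv_mul_cancel, Units.val_one]; exact mReduces_one)
  rw [Units.val_mul, ← hQC]
  exact hQ.mul hC'

/-- Two integral elements with the same residue differ by a principal element. -/
theorem isPrincipal_inv_mul (hL : 0 < L) {P G : GLFin EisField} (hP : IntGL P) (hG : IntGL G)
    {C : Matrix (Fin 2) (Fin 2) (ResL L)} (hC : MReduces L P.val C) (hC' : MReduces L G.val C) :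
    IsPrincipal EisField L (P⁻¹ * G) :=
  isPrincipal_of_mReduces (mReduces_inv_mul hL hP hC hC')
    (by rw [_root_.mul_inv_rev, inv_inv]; exact mReduces_inv_mul hL hG hC' hC)

end Fermat.Agent.LT.Lift.Unitary

namespace Fermat.Agent.LT.Lift

open Fermat.Agent.LT.Lift.Unitary

/-- **Transitivity of the isometry group on the class modulo `L`.** -/
theorem exists_unitary_mk_eq_dia {L : ℕ} [NeZero (L ^ 2)] (hL : 0 < L) (h3 : 3 ∣ L)
    {k : GLFin EisField} (hk : Reduction.IntGL k)
    (h : LiftHecke.InClass L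
      (LiftHecke.hermAct LiftHecke.adConj (k⁻¹).val (LiftHecke.stdForm (FinAdele EisField)))) :
    ∃ Γ : GL (Fin 2) EisField,
      LiftHecke.hermAct LiftHecke.eisConj Γ.val (LiftHecke.stdForm EisField) =
        LiftHecke.stdForm EisField ∧
      ∃ u : (ZMod (L ^ 2))ˣ,
        (QuotientGroup.mk (glIncl EisField Γ * k) :
            GLFin EisField ⧸ (Level.principal EisField L hL).toSubgroup) =
          QuotientGroup.mk (dia (Asai.hatUnit EisField (L ^ 2) u)) := by
  obtain ⟨Γ, hΓ, u, y, hu, hy, hGi, hG⟩ := exists_glIncl_mul_eq_diag hL h3 hk h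
  obtain ⟨z, hzi, hzi', hz⟩ := exists_unit_idele hL hy
  obtain ⟨a, b, hab⟩ : IsCoprime u ((L ^ 2 : ℕ) : ℤ) := by push_cast; exact hu.pow_right
  have hua : (u : ZMod (L ^ 2)) * (a : ZMod (L ^ 2)) = 1 := by
    have := congrArg (Int.cast : ℤ → ZMod (L ^ 2)) hab
    push_cast at this
    rw [← Nat.cast_pow, ZMod.natCast_self, mul_zero, add_zero] at this
    rw [mul_comm, this]
  set U : (ZMod (L ^ 2))ˣ := Units.mkOfMulEqOne _ _ hua
  set e := Asai.hatUnit EisField (L ^ 2) U
  have he : Reduces L (e : FinAdele EisField) (u : ResL L) :=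
    ⟨(u : 𝓞 EisField), by
      rw [map_intCast]
      exact (Asai.congMod_hatUnit (F := EisField) (L ^ 2) U (a := u)
        (Units.val_mkOfMulEqOne hua)).of_dvd (dvd_pow_self L two_ne_zero), map_intCast _ _⟩
  refine ⟨Γ, hΓ, U, ?_⟩
  set G := glIncl EisField Γ * k
  set P := scalarFin EisField z * dia e with hP
  have hPi : Reduction.IntGL P := by
    refine Reduction.IntGL.mul (intGL_scalarFin hzi hzi') ⟨fun i j => ?_, fun i j => ?_⟩
    · fin_cases i <;> fin_cases j <;>
        simp [dia, e, Asai.hatUnit_mem, zero_mem, one_mem]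
    · fin_cases i <;> fin_cases j <;>
        simp [dia, e, Asai.hatUnit_inv_mem, zero_mem, one_mem]
  have hPr : MReduces L P.val !![(u : ResL L) * y, 0; 0, y] := by
    have h1 : MReduces L (scalarFin EisField z).val !![y, 0; 0, y] := by
      rw [scalarFin_val]
      exact mReduces_fin hz reduces_zero reduces_zero hz
    have h2 : MReduces L (dia e).val !![(u : ResL L), 0; 0, 1] :=
      mReduces_fin he reduces_zero reduces_zero reduces_one
    have := h1.mul h2
    rw [hP, Units.val_mul]
    convert this using 1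
    ext i j
    fin_cases i <;> fin_cases j <;> simp [Matrix.mul_apply, Fin.sum_univ_two, mul_comm]
  have hD : IsPrincipal EisField L (P⁻¹ * G) := isPrincipal_inv_mul hL hPi hGi hPr hG
  refine (QuotientGroup.eq.2 ?_).symm
  refine ⟨z, P⁻¹ * G, hD, ?_⟩
  rw [hP, _root_.mul_inv_rev, ← map_inv, mul_assoc, ← mul_assoc (scalarFin EisField z),
    scalarFin_comm z (dia e)⁻¹, mul_assoc, ← mul_assoc (scalarFin EisField z), ← map_mul,
    mul_inv_cancel, map_one, one_mul]

end Fermat.Agent.LT.Lift

end
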