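import Fermat.Agent.LT.Lift.HoneGroup
import Fermat.Agent.LT.Lift.EisUnitary

/-!
# The stabiliser of an index

The stabiliser of an index `(dia û, J)` consists of the conjugates of `honeGroup` by the frame of
the plane.
-/

set_option autoImplicit false

noncomputable section

open Matrix NumberField
open scoped MatrixGroups

namespace Fermat.Agent.LT.Lift.Stab

open LiftHecke
open Fermat.Agent.LT.Lift.Unitary
open Asai (eisZeta eisZeta_sq eisSqrt eisDelta)
open Reduction (IntGL)

local notation "Af" => FinAdele EisField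
local notation "OE" => 𝓞 EisField

variable {L : ℕ}

theorem coe_mul' (x y : OE) : ((x * y : OE) : EisField) = (x : EisField) * y := map_mul _ _ _

theorem coe_zero' : ((0 : OE) : EisField) = 0 := map_zero _

theorem coe_one' : ((1 : OE) : EisField) = 1 := map_one _

theorem coe_intCast' (n : ℤ) : ((n : OE) : EisField) = (n : EisField) :=
  map_intCast (algebraMap OE EisField) n

theorem mReduces_of_isPrincipal {k : GLFin EisField} (hk : IsPrincipal EisField L k) :
    MReduces L k.val 1 := fun i j => by
  obtain ⟨a, ha, b, -, e, -⟩ := hk i j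
  rw [e]
  simpa using (mReduces_one (L := L) i j).add (reduces_natCast_mul ha)

/-- Integral invertible matrices normalise the principal congruence subgroup. -/
theorem isPrincipal_conj {d k : GLFin EisField} (hd : IntGL d) (hk : IsPrincipal EisField L k) :
    IsPrincipal EisField L (d * k * d⁻¹) := by
  simpa using isPrincipal_conj_of_denominator (d := 1) (g := d⁻¹)
    (fun i j => by simpa using hd.2 i j) (fun i j => by simpa using hd.1 i j) (by simp) hk

/-- A global matrix which is a scalar times an integral one is a scalar times an integral one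
globally. -/
theorem exists_scaled {γ : GL (Fin 2) EisField} {a : (FinAdele EisField)ˣ} {k : GLFin EisField}
    (hk : IntGL k) (h : glIncl EisField γ = scalarFin EisField a * k) :
    ∃ (q : EisFieldˣ) (T T' : Matrix (Fin 2) (Fin 2) OE) (β : (FinAdele EisField)ˣ),
      (scalarGlobal EisField q * γ).val = T.map (algebraMap OE EisField) ∧ T * T' = 1 ∧
      (β : Af) ∈ integralAdele EisField ∧
      glIncl EisField (scalarGlobal EisField q * γ) = scalarFin EisField β * k := by
  classical
  obtain ⟨M, hM, hMγ⟩ := Reduction.exists_denominator (F := EisField)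
    (fun p : Fin 2 × Fin 2 => finIncl EisField (γ.val p.1 p.2))
  choose o ho using fun p : Fin 2 × Fin 2 => Reduction.exists_integer_of_finIncl_mem
    (a := (M : EisField) * γ.val p.1 p.2) (by simpa using hMγ p)
  have hpid : IsPrincipalIdealRing OE := IsCyclotomicExtension.Rat.three_pid EisField
  obtain ⟨c, hc⟩ : ∃ c : OE, Ideal.span (Set.range o) = Ideal.span {c} :=
    (hpid.principal (Ideal.span (Set.range o))).principal
  have hoc : ∀ p, c ∣ o p := fun p =>
    Ideal.mem_span_singleton.1 (hc ▸ Ideal.subset_span ⟨p, rfl⟩)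
  obtain ⟨lam, hlam⟩ := (Ideal.mem_span_range_iff_exists_fun).1
    (hc ▸ Ideal.mem_span_singleton_self c : c ∈ Ideal.span (Set.range o))
  choose t ht using hoc
  have hc0 : (c : EisField) ≠ 0 := fun hc0 => by
    have hz : ∀ i j, γ.val i j = 0 := fun i j => by
      have := ho (i, j)
      rw [ht, coe_mul', hc0, zero_mul] at this
      exact (mul_eq_zero.1 this.symm).resolve_left (Nat.cast_ne_zero.2 hM.ne')
    have := Matrix.GeneralLinearGroup.det_ne_zero γ
    simp [Matrix.det_fin_two, hz] at this
  have hM0 : (M : EisField) ≠ 0 := Nat.cast_ne_zero.2 hM.ne'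
  set q : EisFieldˣ := Units.mk0 ((M : EisField) / (c : EisField)) (div_ne_zero hM0 hc0)
  set β := Units.map (finIncl EisField).toMonoidHom q * a with hβ
  have hval : ∀ i j, (scalarGlobal EisField q * γ).val i j = (t (i, j) : EisField) := fun i j => by
    have h1 := ho (i, j)
    rw [ht, coe_mul'] at h1
    rw [Units.val_mul, scalarGlobal_val, Matrix.smul_mul, one_mul, Matrix.smul_apply, smul_eq_mul,
      Units.val_mk0, div_mul_eq_mul_div, ← h1]
    field_simp
  have hincl : glIncl EisField (scalarGlobal EisField q * γ) = scalarFin EisField β * k := by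
    rw [map_mul, glIncl_scalarGlobal, h, hβ, map_mul, mul_assoc]
  have hentry : ∀ i j, oIncl (t (i, j)) = (β : Af) * k.val i j := fun i j => by
    have h0 : (glIncl EisField (scalarGlobal EisField q * γ)).val =
        (scalarFin EisField β).val * k.val := by rw [hincl]; rfl
    have := congrFun (congrFun h0 i) j
    rw [oIncl_apply, ← hval]
    refine this.trans ?_
    rw [scalarFin_val]
    fin_cases i <;> simp [Matrix.mul_apply, Fin.sum_univ_two]
  have hβi : (β : Af) ∈ integralAdele EisField := by
    have e : (β : Af) = oIncl (t (0, 0)) * (k⁻¹).val 0 0 + oIncl (t (0, 1)) * (k⁻¹).val 1 0 := by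
      have h1 := congrFun (congrFun (show k.val * (k⁻¹).val = 1 by
        rw [← Units.val_mul, mul_inv_cancel, Units.val_one]) 0) 0
      rw [Matrix.mul_apply, Fin.sum_univ_two, Matrix.one_apply_eq] at h1
      rw [hentry, hentry]
      linear_combination -(β : Af) * h1
    rw [e]
    exact add_mem (mul_mem (oIncl_mem _) (hk.2 0 0)) (mul_mem (oIncl_mem _) (hk.2 1 0))
  have hβi' : ((β⁻¹ : (FinAdele EisField)ˣ) : Af) ∈ integralAdele EisField := by
    have h1 : ∑ p, lam p * t p = 1 := by
      have hc' : c ≠ 0 := fun h0 => hc0 (by rw [h0, coe_zero'])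
      refine mul_left_cancel₀ hc' ?_
      rw [mul_one, Finset.mul_sum]
      refine Eq.trans (Finset.sum_congr rfl fun p _ => ?_) hlam
      rw [ht]
      ring
    have h2 : (β : Af) * ∑ p : Fin 2 × Fin 2, oIncl (lam p) * k.val p.1 p.2 = 1 := by
      rw [Finset.mul_sum, ← map_one oIncl, ← h1, map_sum]
      refine Finset.sum_congr rfl fun p _ => ?_
      rw [map_mul, hentry p.1 p.2]
      ring
    rw [Units.inv_eq_of_mul_eq_one_right h2]
    exact sum_mem fun p _ => mul_mem (oIncl_mem _) (hk.1 _ _)
  have hinv : IntGL (scalarFin EisField β * k) := (intGL_scalarFin hβi hβi').mul hk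
  choose t' ht' using fun i j => Reduction.exists_integer_of_finIncl_mem
    (a := ((scalarGlobal EisField q * γ)⁻¹).val i j) (by
      have := hinv.2 i j
      rw [← hincl, ← map_inv] at this
      exact this)
  refine ⟨q, Matrix.of fun i j => t (i, j), Matrix.of t', β, Matrix.ext hval, ?_, hβi, hincl⟩
  refine Matrix.map_injective RingOfIntegers.coe_injective ?_
  show (_ : Matrix (Fin 2) (Fin 2) OE).map (algebraMap OE EisField) =
    (1 : Matrix (Fin 2) (Fin 2) OE).map (algebraMap OE EisField)
  rw [Matrix.map_mul, Matrix.map_one _ (map_zero _) (map_one _),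
    show (Matrix.of fun i j => t (i, j)).map (algebraMap OE EisField) =
      (scalarGlobal EisField q * γ).val from (Matrix.ext hval).symm,
    show (Matrix.of t').map (algebraMap OE EisField) = ((scalarGlobal EisField q * γ)⁻¹).val from
      Matrix.ext ht', ← Units.val_mul, mul_inv_cancel, Units.val_one]

/-- A unit of norm one which is a square modulo `√-3` is a cube root of unity. -/
theorem cube_eq_one {D s : OE} (hD : D * intConj D = 1)
    (hs : ((3 : ℕ) : OE) ∣ D - s * s) : D ^ 3 = 1 := by
  obtain ⟨x, y, hxy⟩ := exists_eq_add_mul_zeta D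
  obtain ⟨p, r, hpr⟩ := exists_eq_add_mul_zeta s
  have hn : x ^ 2 - x * y + y ^ 2 = 1 := by
    have h := congrArg (fun z : OE => (z : EisField)) hD
    simp only [map_mul, map_one, coe_intConj, hxy, map_add, map_mul, map_intCast,
      eisConj_zeta'] at h
    have h' : ((x ^ 2 - x * y + y ^ 2 : ℤ) : EisField) = ((1 : ℤ) : EisField) := by
      push_cast
      linear_combination h + (y : EisField) ^ 2 * eisZeta_sq
    exact_mod_cast h'
  have hmod : (3 : ℤ) ∣ x + y - (p + r) * (p + r) := by
    obtain ⟨o, ho⟩ := hs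
    obtain ⟨u, v, huv⟩ := exists_eq_add_mul_zeta o
    have h := congrArg (fun z : OE => (z : EisField)) ho
    simp only [map_sub, map_mul, map_natCast, hxy, hpr, huv] at h
    have h2 := congrArg eisConj h
    simp only [map_add, map_sub, map_mul, map_intCast, map_natCast, eisConj_zeta'] at h2
    -- compare the two coordinates
    have hv : ((y - 2 * p * r + r ^ 2 : ℤ) : EisField) * (2 * eisZeta + 1) =
        ((3 * v : ℤ) : EisField) * (2 * eisZeta + 1) := by
      push_cast at h h2 ⊢
      linear_combination h - h2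
    have hne : (2 * eisZeta + 1 : EisField) ≠ 0 := Asai.eisSqrt_ne_zero
    have hv' : y - 2 * p * r + r ^ 2 = 3 * v := by exact_mod_cast mul_right_cancel₀ hne hv
    have hu : ((x - p ^ 2 + r ^ 2 : ℤ) : EisField) = ((3 * u : ℤ) : EisField) := by
      have hv'' : ((y - 2 * p * r + r ^ 2 : ℤ) : EisField) = ((3 * v : ℤ) : EisField) := by
        rw [hv']
      push_cast at h hv'' ⊢
      linear_combination h - eisZeta * hv'' + (r : EisField) ^ 2 * eisZeta_sq
    have hu' : x - p ^ 2 + r ^ 2 = 3 * u := by exact_mod_cast hu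
    exact ⟨u + v - r ^ 2, by linear_combination hu' + hv'⟩
  have hx : -1 ≤ x ∧ x ≤ 1 := by constructor <;> nlinarith [sq_nonneg (2 * y - x), sq_nonneg x]
  have hy : -1 ≤ y ∧ y ≤ 1 := by constructor <;> nlinarith [sq_nonneg (2 * x - y), sq_nonneg y]
  have hsq : ∀ m n : ℤ, n % 3 = 2 → ¬ (3 : ℤ) ∣ n - m * m := fun m n hn h => by
    obtain ⟨c, rfl⟩ : ∃ c : ℤ, n = 3 * c + 2 := ⟨n / 3, by omega⟩
    replace h : (3 : ℤ) ∣ -1 - m * m := by
      obtain ⟨j, hj⟩ := h
      exact ⟨j - c - 1, by linear_combination hj⟩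
    have h' := (ZMod.intCast_zmod_eq_zero_iff_dvd _ 3).2 h
    push_cast at h'
    revert h'
    generalize (m : ZMod 3) = z
    revert z
    decide
  refine RingOfIntegers.ext ?_
  rw [coe_one', pow_succ, pow_two, coe_mul', coe_mul', hxy]
  obtain ⟨hx1, hx2⟩ := hx
  obtain ⟨hy1, hy2⟩ := hy
  interval_cases x <;> interval_cases y <;> first
    | omega
    | (refine absurd hmod (hsq (p + r) _ ?_); norm_num; done)
    | (push_cast; linear_combination (eisZeta - 1) * eisZeta_sq)
    | (push_cast; linear_combination (-eisZeta - 2) * eisZeta_sq)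
    | (push_cast; ring)

/-- An element of trace zero is a multiple of `√-3`. -/
theorem exists_eq_int_sqrt {x : OE} (h : intConj x = -x) :
    ∃ B : ℤ, x = (B : OE) * eisSqrtInt := by
  obtain ⟨u, v, huv⟩ := exists_eq_add_mul_zeta x
  have h' := congrArg (fun z : OE => (z : EisField)) h
  simp only [coe_intConj, map_neg, huv, map_add, map_mul, map_intCast, eisConj_zeta'] at h'
  have hv : ((v : ℤ) : EisField) = ((2 * u : ℤ) : EisField) := by
    push_cast
    linear_combination -h'
  refine ⟨u, RingOfIntegers.ext ?_⟩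
  rw [coe_mul', coe_intCast', huv, hv]
  show _ = (u : EisField) * eisSqrt
  rw [eisSqrt]; push_cast; ring

theorem dvd_of_dvd_mul_sqrt {B : ℤ} (h : (L : OE) ∣ (B : OE) * eisSqrtInt) : (L : ℤ) ∣ B := by
  obtain ⟨o, ho⟩ := h
  obtain ⟨u, v, huv⟩ := exists_eq_add_mul_zeta o
  have h' := congrArg (fun z : OE => (z : EisField)) ho
  simp only [map_mul, map_natCast, map_intCast, huv] at h'
  have h'' : (B : EisField) * eisSqrt = (L : EisField) * ((u : EisField) + v * eisZeta) := h'
  have hc := congrArg eisConj h''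
  simp only [map_add, map_mul, map_intCast, map_natCast, eisConj_zeta', eisConj_sqrt] at hc
  have h2 : ((2 * B : ℤ) : EisField) * eisSqrt = ((L * v : ℤ) : EisField) * eisSqrt := by
    conv_rhs => rw [eisSqrt]
    push_cast
    linear_combination h'' - hc
  have h3 : 2 * B = (L : ℤ) * v := by exact_mod_cast mul_right_cancel₀ Asai.eisSqrt_ne_zero h2
  have h4 : ((B : ℤ) : EisField) = ((L * u : ℤ) : EisField) := by
    have h3' : ((2 * B : ℤ) : EisField) = ((L * v : ℤ) : EisField) := by rw [h3]
    rw [eisSqrt] at h''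
    push_cast at h3' ⊢
    linear_combination h'' - eisZeta * h3'
  exact ⟨u, by exact_mod_cast h4⟩

/-- The isometry normal form: an integral isometry of determinant one is real on the diagonal and
imaginary off it. -/
theorem intConj_entries {T : Matrix (Fin 2) (Fin 2) OE} (hdet : T.det = 1)
    (hT : hermAct intConj T (stdForm OE) = stdForm OE) :
    intConj (T 0 0) = T 0 0 ∧ intConj (T 1 1) = T 1 1 ∧ intConj (T 0 1) = -T 0 1 ∧
      intConj (T 1 0) = -T 1 0 := by
  have e : ∀ i j, hermAct intConj T (stdForm OE) i j = stdForm OE i j := fun i j => by rw [hT]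
  have e00 := e 0 0
  have e01 := e 0 1
  have e10 := e 1 0
  have e11 := e 1 1
  simp [hermAct, stdForm, Matrix.mul_apply, Fin.sum_univ_two] at e00 e01 e10 e11
  rw [Matrix.det_fin_two] at hdet
  have hd := congrArg intConj hdet
  rw [map_sub, map_mul, map_mul, map_one] at hd
  set a := T 0 0
  set b := T 0 1
  set c := T 1 0
  set d := T 1 1
  refine ⟨?_, ?_, ?_, ?_⟩
  · linear_combination -(intConj a) * e01 + a * hd + intConj c * e00
  · linear_combination -(intConj d) * e10 + d * hd + intConj b * e11
  · linear_combination -(intConj b) * e01 + intConj d * e00 - b * hd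
  · linear_combination -(intConj c) * e10 + intConj a * e11 - c * hd

/-- The real scale of a matrix fixing `J` up to its determinant. -/
theorem exists_form {γ : GL (Fin 2) EisField} {T T' : Matrix (Fin 2) (Fin 2) OE}
    (hγ : γ.val = T.map (algebraMap OE EisField)) (hTT : T * T' = 1)
    (hp : pullMat (Matrix.GeneralLinearGroup.map eisEmb γ) (stdForm ℂ) = stdForm ℂ) :
    hermAct intConj T (stdForm OE) = stdForm OE := by
  set g : Matrix (Fin 2) (Fin 2) ℂ := (Matrix.GeneralLinearGroup.map eisEmb γ).val with hg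
  have hgv : g = γ.val.map eisEmb := rfl
  have hu : IsUnit g.det := (Matrix.isUnit_iff_isUnit_det _).1 (Units.isUnit _)
  have hu' : IsUnit (gᴴ).det := by rw [Matrix.det_conjTranspose]; exact hu.star
  have h1 : g * stdForm ℂ * gᴴ = (‖g.det‖ : ℂ) • stdForm ℂ := by
    conv_lhs => rw [← hp]
    rw [pullMat, ← hg, Matrix.mul_smul, Matrix.smul_mul]
    congr 1
    rw [Matrix.mul_assoc, Matrix.mul_assoc (g⁻¹ * stdForm ℂ), Matrix.nonsing_inv_mul _ hu',
      Matrix.mul_one, ← Matrix.mul_assoc, Matrix.mul_nonsing_inv _ hu, Matrix.one_mul]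
  -- the same identity in the ring of integers
  set X := hermAct intConj T (stdForm OE) with hX
  have hXmap : X.map (fun z => eisEmb (z : EisField)) = g * stdForm ℂ * gᴴ := by
    rw [hX, hgv, hγ]
    ext i j
    fin_cases i <;> fin_cases j <;>
      simp [hermAct, stdForm, Matrix.mul_apply, Fin.sum_univ_two, coe_intConj, eisEmb_conj]
  have hXij : ∀ i j, eisEmb (X i j : EisField) = (‖g.det‖ : ℂ) * stdForm ℂ i j := fun i j => by
    have := congrFun (congrFun (hXmap.trans h1) i) j
    simpa using this
  have hinj : ∀ {z w : OE}, eisEmb (z : EisField) = eisEmb (w : EisField) → z = w :=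
    fun h => RingOfIntegers.ext (eisEmb.injective h)
  have h00 : X 0 0 = 0 := hinj (by rw [hXij, coe_zero', map_zero]; simp [stdForm])
  have h11 : X 1 1 = 0 := hinj (by rw [hXij, coe_zero', map_zero]; simp [stdForm])
  have h10 : X 1 0 = X 0 1 := hinj (by rw [hXij, hXij]; simp [stdForm])
  obtain ⟨z, hz⟩ := exists_int_eq (x := X 0 1) (hinj (by
    rw [coe_intConj, eisEmb_conj, hXij]
    simp [stdForm, Complex.conj_ofReal]))
  have hz0 : 0 ≤ z := by
    have := hXij 0 1
    rw [hz, coe_intCast', map_intCast] at this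
    simp [stdForm] at this
    have h' : (z : ℝ) = ‖g.det‖ := by exact_mod_cast this
    exact_mod_cast h'.symm ▸ norm_nonneg g.det
  have hdet : (z : OE) ^ 2 = T.det * intConj T.det := by
    have := det_hermAct intConj T (stdForm OE)
    rw [← hX, Matrix.det_fin_two X, h00, h11, h10, hz,
      show (stdForm OE).det = -1 by simp [stdForm, Matrix.det_fin_two]] at this
    linear_combination -this
  have hzu : z ∣ 1 := by
    have h2 : T.det * T'.det = 1 := by rw [← Matrix.det_mul, hTT, Matrix.det_one]
    obtain ⟨m, hm⟩ := exists_normInt T'.det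
    refine int_dvd_of_dvd ⟨(z : OE) * m, ?_⟩
    rw [Int.cast_one, ← mul_assoc, ← sq, hdet, ← hm, mul_mul_mul_comm, ← map_mul, h2, map_one,
      mul_one]
  have hz1 : z = 1 := Int.eq_one_of_dvd_one hz0 hzu
  ext i j
  fin_cases i <;> fin_cases j <;> simp [stdForm, h00, h11, h10, hz, hz1]

theorem planeDelta_mul_sqrt : ∃ σ : ℤ, σ * σ = 1 ∧ planeDelta * eisSqrt = (σ : EisField) := by
  rcases planeDelta_eq_or with e | e
  · exact ⟨1, by norm_num, by rw [e, eisDelta, inv_mul_cancel₀ Asai.eisSqrt_ne_zero]; simp⟩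
  · exact ⟨-1, by norm_num, by
      rw [e, eisDelta, neg_mul, inv_mul_cancel₀ Asai.eisSqrt_ne_zero]; simp⟩

variable {M e : ℕ} [NeZero M]

/-- An integral isometry of determinant one congruent to a scalar comes from `honeGroup`. -/
theorem exists_planeConj {γ : GL (Fin 2) EisField} {T : Matrix (Fin 2) (Fin 2) OE}
    (hγ : γ.val = T.map (algebraMap OE EisField)) (hdet : T.det = 1)
    (hT : hermAct intConj T (stdForm OE) = stdForm OE)
    (had : (honeLevel M e : OE) ∣ T 0 0 - T 1 1) (hb : (honeLevel M e : OE) ∣ T 0 1)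
    (hc : (honeLevel M e : OE) ∣ T 1 0) :
    ∃ γs ∈ honeGroup M e, planeConj M γs = γ := by
  obtain ⟨ha', hd', hb', hc'⟩ := intConj_entries hdet hT
  obtain ⟨A, hA⟩ := exists_int_eq ha'
  obtain ⟨D, hD⟩ := exists_int_eq hd'
  obtain ⟨B, hB⟩ := exists_eq_int_sqrt hb'
  obtain ⟨C, hC⟩ := exists_eq_int_sqrt hc'
  rw [hB] at hb
  rw [hC] at hc
  rw [hA, hD, ← Int.cast_sub] at had
  have hadZ : (honeLevel M e : ℤ) ∣ A - D := int_dvd_of_dvd (by exact_mod_cast had)
  obtain ⟨k, rfl⟩ := dvd_of_dvd_mul_sqrt hb
  obtain ⟨l, rfl⟩ := dvd_of_dvd_mul_sqrt hc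
  obtain ⟨σ, hσ, hσs⟩ := planeDelta_mul_sqrt
  set b₀ : ℤ := -3 * σ * (3 ^ (2 * e + 2) * k) with hb₀
  set c₀ : ℤ := σ * (M * (honeLevel M e * l)) with hc₀
  have h1 : (planeUnit M : EisField) * (b₀ : EisField) = (T 0 1 : EisField) := by
    rw [hB, coe_mul', coe_intCast', hb₀, show (planeUnit M : EisField) = (M : EisField) * planeDelta
      from rfl, coe_eisSqrtInt, honeLevel]
    push_cast
    linear_combination (3 * (M : EisField) * 3 ^ (2 * e + 2) * k * planeDelta) * hσs -
      ((M : EisField) * 3 ^ (2 * e + 2) * k * eisSqrt) * planeDelta_sq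
  have h2 : (c₀ : EisField) * (((planeUnit M)⁻¹ : EisFieldˣ) : EisField) = (T 1 0 : EisField) := by
    refine (Units.mul_inv_eq_iff_eq_mul _).2 ?_
    rw [hC, coe_mul', coe_intCast', hc₀, show (planeUnit M : EisField) = (M : EisField) * planeDelta
      from rfl, coe_eisSqrtInt]
    push_cast
    linear_combination -((M : EisField) * (honeLevel M e : EisField) * l) * hσs
  have hu : (planeUnit M : EisField) * (((planeUnit M)⁻¹ : EisFieldˣ) : EisField) = 1 :=
    Units.mul_inv _
  have hdz : A * D - b₀ * c₀ = 1 := by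
    have h := congrArg (fun z : OE => (z : EisField)) hdet
    simp only [Matrix.det_fin_two, hA, hD, map_sub, map_mul, map_intCast, map_one] at h
    replace h : (A : EisField) * D - (planeUnit M : EisField) * b₀ *
        ((c₀ : EisField) * (((planeUnit M)⁻¹ : EisFieldˣ) : EisField)) = 1 := by
      rw [h1, h2]; exact h
    have h' : ((A * D - b₀ * c₀ : ℤ) : EisField) = ((1 : ℤ) : EisField) := by
      push_cast
      linear_combination h + (b₀ : EisField) * (c₀ : EisField) * hu
    exact_mod_cast h'
  refine ⟨⟨!![A, b₀; c₀, D], by simpa [Matrix.det_fin_two] using hdz⟩, ?_, Units.ext ?_⟩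
  · refine (mem_honeGroup_iff M e _).2 ⟨?_, ?_, by simpa using hadZ⟩
    · show ((3 ^ (2 * e + 3) : ℕ) : ℤ) ∣ b₀
      exact ⟨-σ * k, by rw [hb₀]; push_cast; ring⟩
    · show ((honeLevel M e * M : ℕ) : ℤ) ∣ c₀
      exact ⟨σ * l, by rw [hc₀]; push_cast; ring⟩
  · rw [hγ]
    refine (planeConj_val M _).trans ?_
    ext i j
    fin_cases i <;> fin_cases j
    · simp [hA]
    · simpa using h1
    · simpa using h2
    · simp [hD]

end Fermat.Agent.LT.Lift.Stab

namespace Fermat.Agent.LT.Lift

open LiftHecke
open Fermat.Agent.LT.Lift.Unitary Fermat.Agent.LT.Lift.Stab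

variable {M e : ℕ} [NeZero M] [NeZero (honeLevel M e ^ 2)]

/-- **The stabiliser of an index lies in the image of `honeGroup`.** -/
theorem exists_honeGroup_of_smul (hL : 0 < honeLevel M e) (u : (ZMod (honeLevel M e ^ 2))ˣ)
    (g : AdelicG eisFrame.toHermFrame) (hg : g • unitIndex hL u = unitIndex hL u) :
    ∃ γ ∈ honeGroup M e, honeHom M γ = g := by
  obtain ⟨γ, rfl⟩ := AdelicG.exists_mk g
  have hfix := hg
  rw [adelicIndex_mk_smul, smul_unitIndex_iff] at hfix
  obtain ⟨a, k, hk, hak⟩ := QuotientGroup.eq.1 hfix.1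
  set d : GLFin EisField := dia (Asai.hatUnit EisField ((honeLevel M e) ^ 2) u)
  have hd : Reduction.IntGL d :=
    intGL_dia (Asai.hatUnit_mem _ u) (Asai.hatUnit_inv_mem _ u)
  have hγ : glIncl EisField γ = scalarFin EisField a⁻¹ * (d * k⁻¹ * d⁻¹) := by
    have e1 : glIncl EisField γ = d * ((glIncl EisField γ * d)⁻¹ * d)⁻¹ * d⁻¹ := by group
    rw [e1, hak, _root_.mul_inv_rev, ← map_inv]
    simp only [mul_assoc]
    rw [← mul_assoc k⁻¹, ← scalarFin_comm a⁻¹ k⁻¹, ← mul_assoc d, ← mul_assoc d,
      ← scalarFin_comm a⁻¹ d]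
    simp only [mul_assoc]
  have hkp := isPrincipal_conj hd hk.inv
  obtain ⟨q, T, T', β, hval, hTT, hβ, hincl⟩ :=
    exists_scaled (Reduction.intGL_of_isPrincipal (hkp.of_dvd (one_dvd _))) hγ
  set γ₁ := scalarGlobal EisField q * γ with hγ₁
  have hmk : (AdelicG.mk γ₁ : AdelicG eisFrame.toHermFrame) = AdelicG.mk γ :=
    Reduction.mk_scalarGlobal_mul q γ
  rw [← hmk] at hg ⊢
  rw [adelicIndex_mk_smul, smul_unitIndex_iff] at hg
  have hform := exists_form hval hTT hg.2
  -- the congruences
  obtain ⟨s, hs⟩ := exists_reduces hL hβ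
  have hred : T.map (resMap (honeLevel M e)) = !![s, 0; 0, s] := by
    have h1 : MReduces (honeLevel M e) (glIncl EisField γ₁).val (T.map (resMap (honeLevel M e))) := by
      rw [show (glIncl EisField γ₁).val = T.map oIncl from
        Matrix.ext fun i j => congrArg (finIncl EisField) (congrFun (congrFun hval i) j)]
      exact mReduces_map
    have h2 : MReduces (honeLevel M e) (glIncl EisField γ₁).val (!![s, 0; 0, s] * 1) := by
      rw [hincl, Units.val_mul, scalarFin_val]
      exact (mReduces_fin hs reduces_zero reduces_zero hs).mul (mReduces_of_isPrincipal hkp)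
    rw [mul_one] at h2
    exact h1.unique hL h2
  obtain ⟨o, rfl⟩ := resMap_surjective (honeLevel M e) s
  have hr : ∀ i j, resMap (honeLevel M e) (T i j) = !![resMap (honeLevel M e) o, 0; 0, resMap (honeLevel M e) o] i j := fun i j => by
    rw [← hred]; rfl
  -- normalise the determinant
  have hN : T.det * intConj T.det = 1 := by
    have := det_hermAct intConj T (stdForm (𝓞 EisField))
    rw [hform, show (stdForm (𝓞 EisField)).det = -1 by simp [stdForm, Matrix.det_fin_two]] at this
    linear_combination this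
  have hcube : T.det ^ 3 = 1 := by
    refine cube_eq_one (s := o) hN ?_
    refine (show ((3 : ℕ) : 𝓞 EisField) ∣ ((honeLevel M e) : 𝓞 EisField) from ?_).trans
      ((resMap_eq_zero_iff (honeLevel M e)).1 ?_)
    · obtain ⟨m, hm⟩ := three_dvd_honeLevel M e
      exact ⟨m, by rw [hm]; push_cast; ring⟩
    · simp [Matrix.det_fin_two, hr]
  set D := T.det with hDdef
  have hD0 : (D : EisField) ≠ 0 := fun h0 => by
    have := congrArg (fun z : 𝓞 EisField => (z : EisField)) hN
    simp [h0] at this
  set q' : EisFieldˣ := Units.mk0 (D : EisField) hD0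
  have hval₂ : (scalarGlobal EisField q' * γ₁).val =
      (D • T).map (algebraMap (𝓞 EisField) EisField) := by
    rw [Units.val_mul, scalarGlobal_val, hval, Matrix.smul_mul, one_mul]
    ext i j
    simp [q']
  have hdet₂ : (D • T).det = 1 := by
    rw [Matrix.det_smul, Fintype.card_fin, ← hDdef, ← hcube]
    ring
  have hform₂ : hermAct intConj (D • T) (stdForm (𝓞 EisField)) = stdForm (𝓞 EisField) := by
    have e1 : hermAct intConj (D • T) (stdForm (𝓞 EisField)) =
        (D * intConj D) • hermAct intConj T (stdForm (𝓞 EisField)) := by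
      ext i j
      simp [hermAct, Matrix.mul_apply, Fin.sum_univ_two]
      ring
    rw [e1, hN, one_smul, hform]
  obtain ⟨γs, hγs, he⟩ := exists_planeConj (M := M) (e := e) hval₂ hdet₂ hform₂
    ((resMap_eq_zero_iff _).1 (by simp [hr])) ((resMap_eq_zero_iff _).1 (by simp [hr]))
    ((resMap_eq_zero_iff _).1 (by simp [hr]))
  refine ⟨γs, hγs, ?_⟩
  rw [honeHom_apply, he]
  exact Reduction.mk_scalarGlobal_mul q' γ₁

end Fermat.Agent.LT.Lift

end
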