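import Fermat.Agent.LT.Lift.FinalInputs
import Fermat.Agent.LT.Lift.HonePeriod
import Fermat.Agent.LT.Lift.HoneMem
import Fermat.Agent.LT.Lift.HoneStab
import Fermat.Agent.LT.LiftTheta.Nice

/-!
# The lift step

The theta lift of a cusp form on `ℚ(ζ₃)` attached to a supersingular mod `3` representation gives
a form of weight one over `ℚ` whose eigenvalues at the split primes are the traces of the lifted
representation, at a level cube-free away from `3`.
-/

set_option autoImplicit false

noncomputable section

open scoped MatrixGroups

namespace Fermat.Agent.LT.Lift

open LiftHecke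

/-- **The lift step.** -/
theorem liftStep : LiftStep := by
  refine liftStep_of_inputs stdNice (honeOfPeriod_of_stabilisers fun M e _ _ _ => ?_)
  have hL := honeLevel_pos (NeZero.pos M) e
  exact ⟨finiteIndex_honeGroup M e, fun u γ hγ => honeHom_smul_unitIndex M hL hγ u,
    fun u f hf => hasSum_honeGroup M hL u (fun g hg => exists_honeGroup_of_smul hL u g hg) hf⟩

end Fermat.Agent.LT.Lift

end
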