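import Fermat.Agent.LT.Lift.LiftFun
import Mathlib.Analysis.Complex.LocallyUniformLimit
import Mathlib.MeasureTheory.Integral.IntervalIntegral.FundThmCalculus

/-!
# Niceness of the lift

The lift is nice, and its Fourier coefficients at positive integers are the coefficients of the
lift.
-/

set_option autoImplicit false

noncomputable section

open MeasureTheory Real Filter Topology Set Complex
open scoped ENNReal Matrix ComplexConjugate

namespace Fermat.Agent.LT.Lift

variable [MeasurableSpace H3] [BorelSpace H3]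
variable {G J : Type*} [Group G] [Countable G] [MulAction G J] [MulAction G H3]
  [Countable J] [MeasurableSpace J] [MeasurableSingletonClass J]
  {μ : Measure H3} [SigmaFinite μ] {c : ℝ≥0∞}

namespace LiftData

variable (D : LiftData G J μ c)

/-- The norms lie in `d⁻¹ ℤ`. -/
def HasNormDenominator (d : ℕ) : Prop := 0 < d ∧ ∀ j, ∃ k : ℤ, nForm (D.X j) = (k : ℝ) / d

/-- The condition at norm zero. -/
def ConvergesSingular : Prop :=
  Integrable ((D.condSet 0).indicator fun z => D.ω z.1 z.2 * ‖D.ψ z.1 z.2‖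
    * Real.exp (-mTrace (D.X z.1) z.2 ^ 2) / |mTrace (D.X z.1) z.2|) (jointMeasure J μ)

/-- The vectors of nonzero norm. -/
def nonnullSet : Set (J × H3) := (D.normSet 0)ᶜ

omit [BorelSpace H3] [Countable G] [SigmaFinite μ] in
theorem measurableSet_nonnullSet : MeasurableSet D.nonnullSet :=
  (D.measurableSet_normSet 0).compl

/-- The vectors of norm zero do not contribute. -/
theorem partInt_normSet_zero (hμ : IsH3Measure μ c) (hc : c ≠ 0) (hconv : D.ConvergesAll)
    (hsing : D.ConvergesSingular) {τ : ℂ} (hτ : 0 < τ.im) :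
    D.partInt (D.normSet 0) τ = 0 := by
  set Z : Set (J × H3) := {z | D.X z.1 = 0} with hZ
  have hZm : MeasurableSet Z :=
    (MeasurableSet.of_discrete (s := {j | D.X j = 0})).preimage measurable_fst
  have hsplit : D.normSet 0 = Z ∪ D.condSet 0 := by
    ext z
    by_cases h : D.X z.1 = 0
    · simp [normSet, normZ, condSet, hZ, h, nForm]
    · simp [normSet, normZ, condSet, hZ, h]
  have hdisj : Disjoint Z (D.condSet 0) := Set.disjoint_left.mpr fun z hz hc' => hc'.2 hz
  have hi := D.integrable_weightFun hconv hτ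
  rw [partInt, hsplit, setIntegral_union hdisj (D.measurableSet_condSet 0) hi.integrableOn
    hi.integrableOn]
  have h1 : ∫ z in Z, D.weightFun τ z ∂jointMeasure J μ = 0 := by
    have e : ∀ z ∈ Z, D.weightFun τ z = D.ω z.1 z.2 • D.ψ z.1 z.2 := fun z hz => by
      have hz0 : D.X z.1 = 0 := hz
      simp [weightFun, kern, normZ, majZ, hz0, nForm, mTrace]
    rw [setIntegral_congr_fun hZm e, ← integral_indicator hZm]
    refine D.integral_zero_vector hμ hc ?_
    refine (integrable_indicator_iff hZm).mpr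
      ((hconv 1 one_pos).integrableOn.congr_fun (fun z hz => ?_) hZm)
    have hz0 : D.X z.1 = 0 := hz
    simp [majorant, majZ, hz0, nForm, mTrace]
  have h2 : ∫ z in D.condSet 0, D.weightFun τ z ∂jointMeasure J μ = 0 := by
    rw [setIntegral_congr_fun (D.measurableSet_condSet 0)
      (fun z hz => D.weightFun_of_normZ τ (q := 0) hz.1), integral_const_mul]
    have h := D.coeff_zero hμ hc (Converges.of_convergesAll D hconv 0) hsing hτ
    rw [coeff, smul_eq_zero] at h
    rw [← integral_indicator (D.measurableSet_condSet 0)]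
    exact mul_eq_zero_of_right _ (h.resolve_left (Real.sqrt_pos.mpr hτ).ne')
  rw [h1, h2, add_zero]

/-- The lift has only vectors of nonzero norm. -/
theorem lift_eq_nonnull (hμ : IsH3Measure μ c) (hc : c ≠ 0) (hconv : D.ConvergesAll)
    (hsing : D.ConvergesSingular) {τ : ℂ} (hτ : 0 < τ.im) :
    D.lift τ = D.liftPart D.nonnullSet τ := by
  have hi := D.integrable_weightFun hconv hτ
  have h0 := D.partInt_normSet_zero hμ hc hconv hsing hτ
  rw [partInt] at h0
  rw [lift, liftPart, liftPart, partInt, partInt, nonnullSet, setIntegral_univ,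
    ← integral_add_compl (D.measurableSet_normSet 0) hi, h0, zero_add]

omit [MeasurableSpace H3] [BorelSpace H3] in
theorem sqrtIm_norm (τ : ℂ) : ‖sqrtIm τ‖ = √τ.im := by
  rw [sqrtIm, Complex.norm_real, Real.norm_eq_abs, abs_of_nonneg (Real.sqrt_nonneg _)]

omit [Countable G] [Countable J] [MeasurableSpace J] [MeasurableSingletonClass J] [SigmaFinite μ] in
/-- A bound for the density of `∂/∂τ̄`. -/
theorem norm_dbarWeight_le (hμ : IsH3Measure μ c) {τ : ℂ} {y₀ : ℝ} (hy : 0 < y₀)
    (hτ : y₀ ≤ τ.im) (z : J × H3) :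
    ‖D.dbarWeight τ z‖
      ≤ (1 / √y₀ + 2 / y₀ * √τ.im) * D.majorant (π * y₀) z := by
  have hm := D.majZ_nonneg hμ z
  have hs := Real.sqrt_pos.mpr hy
  have h1 : D.majorant (2 * π * τ.im) z ≤ D.majorant (π * y₀) z := by
    refine mul_le_mul_of_nonneg_left (Real.exp_le_exp.mpr (neg_le_neg ?_))
      (mul_nonneg (D.ω_nonneg _ _) (norm_nonneg _))
    exact mul_le_mul_of_nonneg_right (by nlinarith [Real.pi_pos]) hm
  obtain ⟨b1, b2⟩ := D.norm_weight_deriv_le hμ hy hτ z
  rw [dbarWeight, add_mul]
  refine (norm_add_le _ _).trans (add_le_add ?_ ?_)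
  · rw [norm_mul, norm_div, Complex.norm_I, norm_mul, sqrtIm_norm, D.norm_weightFun]
    refine mul_le_mul ?_ h1 (D.majorant_nonneg _ _) (by positivity)
    refine one_div_le_one_div_of_le hs ?_
    have := Real.sqrt_le_sqrt hτ
    norm_num
    linarith
  · rw [norm_mul, sqrtIm_norm, mul_comm (2 / y₀), mul_assoc]
    refine mul_le_mul_of_nonneg_left ?_ (Real.sqrt_nonneg _)
    rw [norm_mul, norm_inv, Complex.norm_two]
    have := norm_add_le (D.weightRe τ z) (Complex.I * D.weightIm τ z)
    rw [norm_mul, Complex.norm_I, one_mul] at this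
    linarith

/-- `ξ` of the lift is holomorphic. -/
theorem differentiableOn_xiFun (hμ : IsH3Measure μ c) (hc : c ≠ 0) (hconv : D.ConvergesAll)
    {d : ℕ} (hd : D.HasNormDenominator d) :
    DifferentiableOn ℂ (xiFun (D.liftPart D.nonnullSet)) upperSet := by
  obtain ⟨hd0, hk⟩ := hd
  have hdR : (0 : ℝ) < d := Nat.cast_pos.mpr hd0
  set S : {k : ℤ // k ≠ 0} → Set (J × H3) := fun k => D.normSet ((k.1 : ℝ) / d) with hS
  have hS0 : ∀ k : {k : ℤ // k ≠ 0}, ((k.1 : ℝ) / d) ≠ 0 := fun k =>
    div_ne_zero (Int.cast_ne_zero.mpr k.2) hdR.ne'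
  have hSm : ∀ k, MeasurableSet (S k) := fun k => D.measurableSet_normSet _
  have hSd : Pairwise (Function.onFun Disjoint S) := fun k l hkl =>
    Set.disjoint_left.mpr fun z hzk hzl => hkl <| Subtype.ext <| by
      have h : (k.1 : ℝ) / d = (l.1 : ℝ) / d :=
        (show D.normZ z = (k.1 : ℝ) / d from hzk).symm.trans
          (show D.normZ z = (l.1 : ℝ) / d from hzl)
      exact_mod_cast (div_left_inj' hdR.ne').mp h
  have hSU : (⋃ k, S k) = D.nonnullSet := by
    ext z
    simp only [mem_iUnion, hS, nonnullSet, mem_compl_iff]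
    constructor
    · rintro ⟨k, hzk⟩ h0
      exact hS0 k ((show D.normZ z = (k.1 : ℝ) / d from hzk).symm.trans h0)
    · intro hne
      obtain ⟨k, hk'⟩ := hk z.1
      refine ⟨⟨k, fun h => hne ?_⟩, hk'⟩
      show D.normZ z = 0
      rw [show D.normZ z = (k : ℝ) / d from hk', h]
      simp
  intro τ₀ hτ₀
  set y₀ := τ₀.im / 2 with hy₀
  have hy : 0 < y₀ := half_pos hτ₀
  set Y := τ₀.im + 1 with hY
  set U : Set ℂ := {w | y₀ < w.im ∧ w.im < Y} with hU
  have hUo : IsOpen U := (isOpen_lt continuous_const Complex.continuous_im).inter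
    (isOpen_lt Complex.continuous_im continuous_const)
  have hUu : U ⊆ upperSet := fun w hw => hy.trans hw.1
  have hYpos : 0 < Y := by
    have : 0 < τ₀.im := hτ₀
    linarith
  set u : {k : ℤ // k ≠ 0} → ℝ := fun k => Y * ((1 / √y₀ + 2 / y₀ * √Y)
    * ∫ z in S k, D.majorant (π * y₀) z ∂jointMeasure J μ) with hu
  have husum : Summable u :=
    ((hasSum_integral_iUnion hSm hSd (hconv _ (by positivity)).integrableOn).summable.mul_left
      _).mul_left _
  have hsum : ∀ w ∈ upperSet, xiFun (D.liftPart D.nonnullSet) w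
      = ∑' k, xiFun (D.liftPart (S k)) w := by
    intro w hw
    have h := hasSum_integral_iUnion hSm hSd (D.integrable_dbarWeight hμ hconv hw).integrableOn
    rw [hSU] at h
    have h' : HasSum (fun k => dbar (D.liftPart (S k)) w) (dbar (D.liftPart D.nonnullSet) w) := by
      rw [D.dbar_liftPart hμ hconv _ hw]
      simpa only [D.dbar_liftPart hμ hconv _ hw] using h
    exact ((Complex.hasSum_conj'.mpr h').mul_left _).tsum_eq.symm
  have hterm : ∀ k, DifferentiableOn ℂ (xiFun (D.liftPart (S k))) U := by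
    intro k
    obtain ⟨K, hK⟩ := D.exists_xiFun_liftPart hμ hc hconv (hS0 k)
    refine DifferentiableOn.congr ?_ (fun w hw => hK w (hUu hw))
    fun_prop
  have hbound : ∀ (k : {k : ℤ // k ≠ 0}) (w : ℂ), w ∈ U → ‖xiFun (D.liftPart (S k)) w‖ ≤ u k := by
    intro k w hw
    rw [xiFun, norm_mul, Complex.norm_conj, Complex.norm_real, Real.norm_eq_abs,
      abs_of_pos (hUu hw), D.dbar_liftPart hμ hconv _ (hUu hw), hu]
    refine mul_le_mul hw.2.le ?_ (norm_nonneg _) hYpos.le
    rw [← integral_const_mul]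
    refine (norm_integral_le_integral_norm _).trans (integral_mono
      (D.integrable_dbarWeight hμ hconv (hUu hw)).norm.restrict
      (((hconv _ (by positivity)).const_mul _).restrict) fun z => ?_)
    refine (D.norm_dbarWeight_le hμ hy hw.1.le z).trans (mul_le_mul_of_nonneg_right ?_
      (D.majorant_nonneg _ _))
    exact add_le_add le_rfl (mul_le_mul_of_nonneg_left (Real.sqrt_le_sqrt hw.2.le) (by positivity))
  have hmem : τ₀ ∈ U := ⟨half_lt_self hτ₀, lt_add_one _⟩
  exact (((differentiableOn_tsum_of_summable_norm husum hterm hUo hbound).congr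
    fun w hw => hsum w (hUu hw)).differentiableAt (hUo.mem_nhds hmem)).differentiableWithinAt

/-- **The lift is nice.** -/
theorem isNice_lift (hμ : IsH3Measure μ c) (hc : c ≠ 0) (hconv : D.ConvergesAll)
    (hsing : D.ConvergesSingular) {d : ℕ} (hd : D.HasNormDenominator d) : IsNice D.lift := by
  refine IsNice.congr ?_ (fun τ hτ => D.lift_eq_nonnull hμ hc hconv hsing hτ)
  refine ⟨D.contDiffOn_liftPart hμ hconv _, D.differentiableOn_xiFun hμ hc hconv hd, ?_⟩
  obtain ⟨hd0, hk⟩ := hd
  have hdR : (0 : ℝ) < d := Nat.cast_pos.mpr hd0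
  set η : ℝ := 1 / d with hη
  have hη0 : 0 < η := one_div_pos.mpr hdR
  have hgap : ∀ z ∈ D.nonnullSet, η ≤ D.majZ z := by
    intro z hz
    refine le_trans ?_ (D.abs_normZ_le hμ z)
    obtain ⟨k, hk'⟩ := hk z.1
    rw [show D.normZ z = (k : ℝ) / d from hk', abs_div, abs_of_pos hdR, hη]
    refine div_le_div_of_nonneg_right ?_ hdR.le
    have hk0 : k ≠ 0 := fun h => hz (by
      show D.normZ z = 0
      rw [show D.normZ z = (k : ℝ) / d from hk', h]; simp)
    exact_mod_cast Int.one_le_abs hk0
  set δ : ℝ := π * η / 2 with hδ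
  have hδ0 : 0 < δ := by positivity
  set M : ℝ := ∫ z, D.majorant (π / 2) z ∂jointMeasure J μ with hM
  have hM0 : 0 ≤ M := integral_nonneg fun z => D.majorant_nonneg _ _
  have hexp : ∀ (τ : ℂ), 1 ≤ τ.im → ∀ z ∈ D.nonnullSet,
      D.majorant (π * τ.im) z ≤ Real.exp (-(δ * τ.im)) * D.majorant (π / 2) z := by
    intro τ hτ z hz
    have hm := hgap z hz
    rw [majorant, majorant, mul_comm (Real.exp (-(δ * τ.im))), mul_assoc (D.ω _ _ * _),
      ← Real.exp_add]
    refine mul_le_mul_of_nonneg_left (Real.exp_le_exp.mpr ?_)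
      (mul_nonneg (D.ω_nonneg _ _) (norm_nonneg _))
    have h1 : η * τ.im ≤ D.majZ z * τ.im := mul_le_mul_of_nonneg_right hm (by linarith)
    have h2 : D.majZ z * 1 ≤ D.majZ z * τ.im :=
      mul_le_mul_of_nonneg_left hτ (hη0.le.trans hm)
    rw [hδ]
    nlinarith [Real.pi_pos, mul_le_mul_of_nonneg_left h1 Real.pi_pos.le,
      mul_le_mul_of_nonneg_left h2 Real.pi_pos.le]
  have hest : ∀ (τ : ℂ), 1 ≤ τ.im → ∀ f : J × H3 → ℂ, ∀ C : ℝ, 0 ≤ C →
      Integrable f (jointMeasure J μ) → (∀ z, ‖f z‖ ≤ C * D.majorant (π * τ.im) z) →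
      ‖∫ z in D.nonnullSet, f z ∂jointMeasure J μ‖ ≤ C * (Real.exp (-(δ * τ.im)) * M) := by
    intro τ hτ f C hC hfi hf
    refine (norm_integral_le_integral_norm _).trans (le_trans (setIntegral_mono_on
      hfi.norm.integrableOn (((hconv _ (by positivity)).const_mul _).const_mul C).integrableOn
      D.measurableSet_nonnullSet
      fun z hz => (hf z).trans (mul_le_mul_of_nonneg_left (hexp τ hτ z hz) hC)) ?_)
    rw [integral_const_mul, integral_const_mul]
    refine mul_le_mul_of_nonneg_left (mul_le_mul_of_nonneg_left ?_ (Real.exp_pos _).le) hC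
    exact setIntegral_le_integral (hconv _ (by positivity))
      (Eventually.of_forall fun z => D.majorant_nonneg _ _)
  refine ⟨3 * M * (1 + 2 / δ), δ / 2, half_pos hδ0, fun τ hτ => ?_⟩
  have hτ0 : 0 < τ.im := one_pos.trans_le hτ
  have hsq : √τ.im * Real.exp (-(δ * τ.im)) ≤ (1 + 2 / δ) * Real.exp (-(δ / 2 * τ.im)) := by
    rw [show -(δ * τ.im) = -(δ / 2 * τ.im) + -(δ / 2 * τ.im) by ring, Real.exp_add, ← mul_assoc]
    refine mul_le_mul_of_nonneg_right ?_ (Real.exp_pos _).le
    have h1 : √τ.im ≤ τ.im := Real.sqrt_le_iff.mpr ⟨hτ0.le, by nlinarith⟩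
    have h2 := mul_exp_neg_le (x := τ.im) (half_pos hδ0)
    rw [one_div_div] at h2
    have := mul_le_mul_of_nonneg_right h1 (Real.exp_pos (-(δ / 2 * τ.im))).le
    linarith
  constructor
  · have hi := D.integrable_weightFun hconv hτ0
    have h := hest τ hτ (D.weightFun τ) 1 zero_le_one hi fun z => by
      rw [one_mul, D.norm_weightFun]
      refine mul_le_mul_of_nonneg_left (Real.exp_le_exp.mpr (neg_le_neg ?_))
        (mul_nonneg (D.ω_nonneg _ _) (norm_nonneg _))
      exact mul_le_mul_of_nonneg_right (by nlinarith [Real.pi_pos]) (D.majZ_nonneg hμ z)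
    rw [one_mul] at h
    rw [liftPart, norm_mul, sqrtIm_norm, partInt]
    calc √τ.im * ‖∫ z in D.nonnullSet, D.weightFun τ z ∂jointMeasure J μ‖
        ≤ √τ.im * (Real.exp (-(δ * τ.im)) * M) :=
          mul_le_mul_of_nonneg_left h (Real.sqrt_nonneg _)
      _ = M * (√τ.im * Real.exp (-(δ * τ.im))) := by ring
      _ ≤ M * ((1 + 2 / δ) * Real.exp (-(δ / 2 * τ.im))) := mul_le_mul_of_nonneg_left hsq hM0
      _ ≤ _ := by nlinarith [mul_nonneg hM0 (mul_nonneg (show (0:ℝ) ≤ 1 + 2 / δ by positivity)
          (Real.exp_pos (-(δ / 2 * τ.im))).le)]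
  · rw [D.dbar_liftPart hμ hconv _ hτ0]
    refine (hest τ hτ _ (3 * √τ.im) (by positivity) (D.integrable_dbarWeight hμ hconv hτ0)
      fun z => ?_).trans ?_
    · refine (D.norm_dbarWeight_le hμ hτ0 le_rfl z).trans
        (mul_le_mul_of_nonneg_right ?_ (D.majorant_nonneg _ _))
      have h1 : 1 ≤ √τ.im := Real.one_le_sqrt.mpr hτ
      have h2 : 1 / √τ.im ≤ 1 := by rw [div_le_one (by linarith)]; exact h1
      have h3 : 2 / τ.im * √τ.im ≤ 2 * √τ.im :=
        mul_le_mul_of_nonneg_right (div_le_self zero_le_two hτ) (by linarith)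
      linarith
    · calc 3 * √τ.im * (Real.exp (-(δ * τ.im)) * M)
          = 3 * M * (√τ.im * Real.exp (-(δ * τ.im))) := by ring
        _ ≤ 3 * M * ((1 + 2 / δ) * Real.exp (-(δ / 2 * τ.im))) :=
            mul_le_mul_of_nonneg_left hsq (by positivity)
        _ = _ := by ring

/-! ### Fourier coefficients -/

omit [MeasurableSpace H3] [BorelSpace H3] in
theorem integral_cexp_int (m : ℤ) :
    ∫ u in (0 : ℝ)..1, Complex.exp (2 * π * Complex.I * (m : ℂ) * u)
      = if m = 0 then 1 else 0 := by
  split_ifs with h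
  · simp [h]
  · have hne : 2 * (π : ℂ) * Complex.I * m ≠ 0 := by simp [h, Real.pi_ne_zero]
    rw [integral_exp_mul_complex hne, Complex.ofReal_one, Complex.ofReal_zero, mul_one, mul_zero,
      Complex.exp_zero, show 2 * (π : ℂ) * Complex.I * m = m * (2 * π * Complex.I) by ring,
      Complex.exp_int_mul_two_pi_mul_I]
    simp

/-- **The Fourier coefficient at a positive integer.** -/
theorem integral_lift_mul_exp (hμ : IsH3Measure μ c) (hc : c ≠ 0) (hconv : D.ConvergesAll)
    (hd : D.HasNormDenominator 1) {n : ℕ} (hn : 0 < n) {t : ℝ} (ht : 0 < t) :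
    ∫ u in (0 : ℝ)..1, Complex.exp (-(2 * π * Complex.I * n * (u + t * Complex.I)))
        * D.lift (u + t * Complex.I) = D.coeff n 1 := by
  set ν := jointMeasure J μ
  have him : ∀ u : ℝ, ((u : ℂ) + t * Complex.I).im = t := fun u => by simp
  have hre : ∀ u : ℝ, ((u : ℂ) + t * Complex.I).re = u := fun u => by simp
  have hs : ∀ u : ℝ, sqrtIm ((u : ℂ) + t * Complex.I) = ((√t : ℝ) : ℂ) := fun u => by
    rw [sqrtIm, him]
  set e : ℝ → ℂ := fun u => Complex.exp (-(2 * π * Complex.I * n * (u + t * Complex.I))) with he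
  set F : ℝ → J × H3 → ℂ := fun u z => e u * D.weightFun (u + t * Complex.I) z with hF
  have hne : ∀ u, ‖e u‖ = Real.exp (2 * π * n * t) := fun u => by
    rw [he, Complex.norm_exp]
    congr 1
    simp
  have hint : Integrable (Function.uncurry F)
      ((volume.restrict (Set.uIoc (0 : ℝ) 1)).prod ν) := by
    have hm : Measurable (Function.uncurry F) := by
      have h1 : Measurable fun p : ℝ × (J × H3) => D.normZ p.2 := D.measurable_normZ.comp measurable_snd
      have h2 : Measurable fun p : ℝ × (J × H3) => D.majZ p.2 := D.measurable_majZ.comp measurable_snd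
      have h3 : Measurable fun p : ℝ × (J × H3) => D.ω p.2.1 p.2.2 :=
        D.measurable_part.comp measurable_snd
      have h4 : Measurable fun p : ℝ × (J × H3) => D.ψ p.2.1 p.2.2 :=
        D.measurable_weight.comp measurable_snd
      simp only [hF, he, Function.uncurry_def, weightFun, kern, hre, him]
      fun_prop
    have : IsFiniteMeasure (volume.restrict (Set.uIoc (0 : ℝ) 1)) :=
      ⟨by rw [Measure.restrict_apply_univ, uIoc_of_le zero_le_one]; exact measure_Ioc_lt_top⟩
    refine (((integrable_const (1 : ℝ)).mul_prod (hconv (2 * π * t) (by positivity))).const_mul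
      (Real.exp (2 * π * n * t))).mono' hm.aestronglyMeasurable
      (Eventually.of_forall fun p => le_of_eq ?_)
    simp only [Function.uncurry_def, hF, norm_mul, hne, D.norm_weightFun, him, one_mul]
  have hinner : ∀ z : J × H3, ∫ u in (0 : ℝ)..1, F u z
      = (D.normSet n).indicator (fun z =>
          (D.ω z.1 z.2 * Real.exp (-(4 * π * t * mTrace (D.X z.1) z.2 ^ 2))) • D.ψ z.1 z.2) z := by
    intro z
    obtain ⟨k, hk⟩ := hd.2 z.1
    rw [Nat.cast_one, div_one] at hk
    have hz : D.normZ z = (k : ℝ) := hk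
    set W : ℂ := (D.ω z.1 z.2 * Real.exp (-(4 * π * t * mTrace (D.X z.1) z.2 ^ 2))) • D.ψ z.1 z.2
      with hW
    have hFz : ∀ u : ℝ, F u z = Complex.exp (2 * π * Complex.I * ((k - n : ℤ) : ℂ) * u)
        * (Complex.exp (2 * π * Complex.I * ((k - n : ℤ) : ℂ) * (t * Complex.I)) * W) := by
      intro u
      rw [hF]
      dsimp only
      rw [D.weightFun_of_normZ _ hz, him, ← hW, he, ← mul_assoc, ← mul_assoc, ← Complex.exp_add,
        ← Complex.exp_add]
      congr 2
      push_cast
      ring
    simp only [hFz, intervalIntegral.integral_mul_const, integral_cexp_int]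
    by_cases hkn : k = n
    · rw [indicator_of_mem (show z ∈ D.normSet n by
        show D.normZ z = _
        rw [hz, hkn]; simp), hkn, sub_self, if_pos rfl]
      simp [hW]
    · rw [indicator_of_notMem (show z ∉ D.normSet n from fun h : D.normZ z = (n : ℝ) =>
        hkn (by exact_mod_cast hz.symm.trans h)), if_neg (sub_ne_zero.mpr hkn), zero_mul]
  have hleft : ∀ u : ℝ, e u * D.lift (u + t * Complex.I) = ((√t : ℝ) : ℂ) * ∫ z, F u z ∂ν := fun u => by
    rw [lift, liftPart, partInt, setIntegral_univ, hs, hF, integral_const_mul]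
    ring
  calc ∫ u in (0 : ℝ)..1, e u * D.lift (u + t * Complex.I)
      = ((√t : ℝ) : ℂ) * ∫ u in (0 : ℝ)..1, ∫ z, F u z ∂ν := by
        simp only [hleft]
        rw [intervalIntegral.integral_const_mul]
    _ = D.coeff n t := by
        rw [intervalIntegral_integral_swap hint]
        simp only [hinner]
        rw [D.normSet_eq_condSet (by exact_mod_cast hn.ne'), coeff, Complex.real_smul, pairing]
    _ = D.coeff n 1 := D.coeff_pos hμ hc (by exact_mod_cast hn) (Converges.of_convergesAll D hconv _) ht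

end LiftData

end Fermat.Agent.LT.Lift
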