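import Fermat.Agent.LT.H3.Coord
import Fermat.Agent.LT.Lift.QuotientIntegral
import Fermat.Agent.LT.Lift.Radial
import Mathlib.MeasureTheory.Integral.Prod
import Mathlib.MeasureTheory.Measure.Count

/-!
# Theta lift data and the adjointness of ball averages

`LiftData` packages vectors, invariant weights which are eigenfunctions in the point, and a
partition of unity, for a group acting on `J × H3`.  Averages over balls are self-adjoint for the
pairing against the invariant weight.
-/

set_option autoImplicit false

noncomputable section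

open MeasureTheory Real Filter Topology Set
open scoped ENNReal Matrix

namespace Fermat.Agent.LT.Lift

variable [MeasurableSpace H3] [BorelSpace H3]

/-- Eigenfunctions of all ball averages for the spherical function `r / sinh r`. -/
def IsBallEigen (μ : Measure H3) (c : ℝ≥0∞) (ψ : H3 → ℂ) : Prop :=
  ∀ P : H3, ∀ ρ : ℝ, 0 < ρ → IntegrableOn ψ {Q | H3.cdist P Q ≤ cosh ρ} μ ∧
    ∫ Q in {Q | H3.cdist P Q ≤ cosh ρ}, ψ Q ∂μ = (c.toReal * ballMass ρ) • ψ P

/-- Vectors `X j`, invariant weights `ψ j` which are eigenfunctions in the point, and a partition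
of unity `ω`, for a group acting diagonally on `J × H3`. -/
structure LiftData (G J : Type*) [Group G] [MulAction G J] [MulAction G H3]
    (μ : Measure H3) (c : ℝ≥0∞) where
  /-- The vectors. -/
  X : J → Matrix (Fin 2) (Fin 2) ℂ
  /-- The weights. -/
  ψ : J → H3 → ℂ
  /-- The partition of unity. -/
  ω : J → H3 → ℝ
  hermitian : ∀ j, (X j).IsHermitian
  measurable_ψ : ∀ j, Measurable (ψ j)
  measurable_ω : ∀ j, Measurable (ω j)
  eigen : ∀ j, IsBallEigen μ c (ψ j)
  measurePreserving : ∀ g : G, MeasurePreserving (fun P : H3 => g • P) μ μ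
  cdist_smul : ∀ (g : G) (P Q : H3), H3.cdist (g • P) (g • Q) = H3.cdist P Q
  ψ_smul : ∀ (g : G) (j : J) (P : H3), ψ (g • j) (g • P) = ψ j P
  mTrace_smul : ∀ (g : G) (j : J) (P : H3), mTrace (X (g • j)) (g • P) = mTrace (X j) P
  nForm_smul : ∀ (g : G) (j : J), nForm (X (g • j)) = nForm (X j)
  ω_nonneg : ∀ j P, 0 ≤ ω j P
  ω_sum : ∀ (j : J) (P : H3), HasSum (fun g : G => ω (g • j) (g • P)) 1

theorem measurable_cdist_uncurry : Measurable fun p : H3 × H3 => H3.cdist p.1 p.2 := by
  have h : ∀ i j, Measurable fun Q : H3 => Q.mat i j := fun i j => (continuous_entry i j).measurable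
  have h1 : ∀ i j, Measurable fun p : H3 × H3 => p.1.mat i j := fun i j =>
    (h i j).comp measurable_fst
  have h2 : ∀ i j, Measurable fun p : H3 × H3 => p.2.mat i j := fun i j =>
    (h i j).comp measurable_snd
  have e : (fun p : H3 × H3 => H3.cdist p.1 p.2) = fun p => (p.1.mat 1 1 * p.2.mat 0 0
      - p.1.mat 0 1 * p.2.mat 1 0 - p.1.mat 1 0 * p.2.mat 0 1 + p.1.mat 0 0 * p.2.mat 1 1).re / 2 :=
    funext fun p => by rw [cdist_eq_mTrace, mTrace_eq]
  rw [e]
  refine Measurable.div_const ?_ 2
  have hm : Measurable fun p : H3 × H3 => p.1.mat 1 1 * p.2.mat 0 0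
      - p.1.mat 0 1 * p.2.mat 1 0 - p.1.mat 1 0 * p.2.mat 0 1 + p.1.mat 0 0 * p.2.mat 1 1 := by
    have := h1 1 1; have := h1 0 1; have := h1 1 0; have := h1 0 0
    have := h2 1 1; have := h2 0 1; have := h2 1 0; have := h2 0 0
    fun_prop
  exact Complex.measurable_re.comp hm

attribute [local irreducible] H3.cdist mTrace

/-- Hyperbolic balls are measurable. -/
theorem measurableSet_ball (P : H3) (ρ : ℝ) : MeasurableSet {Q : H3 | H3.cdist P Q ≤ cosh ρ} :=
  have hm : Measurable fun Q : H3 => H3.cdist P Q := (continuous_cdist P).measurable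
  measurableSet_le hm measurable_const

variable {G J : Type*} [Group G] [Countable G] [MulAction G J] [MulAction G H3]
  [Countable J] [MeasurableSpace J] [MeasurableSingletonClass J]
  {μ : Measure H3} [SigmaFinite μ] {c : ℝ≥0∞}

omit [MeasurableSpace H3] [BorelSpace H3] [Countable G] [MulAction G H3] [SigmaFinite μ] in
theorem measurePreserving_count (g : G) :
    MeasurePreserving (fun j : J => g • j) Measure.count Measure.count := by
  refine ⟨.of_discrete, Measure.ext_of_singleton fun a => ?_⟩
  rw [Measure.map_apply .of_discrete (measurableSet_singleton a),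
    show (fun j : J => g • j) ⁻¹' {a} = {g⁻¹ • a} by ext j; simp [eq_inv_smul_iff],
    Measure.count_singleton, Measure.count_singleton]

/-- The measure on `J × H3`. -/
abbrev jointMeasure (J : Type*) [MeasurableSpace J] (μ : Measure H3) : Measure (J × H3) :=
  Measure.count.prod μ

omit [BorelSpace H3] [Countable G] [SigmaFinite μ] in
/-- The weight of the lift is measurable in both variables. -/
theorem LiftData.measurable_weight (D : LiftData G J μ c) :
    Measurable fun z : J × H3 => D.ψ z.1 z.2 :=
  measurable_from_prod_countable_right D.measurable_ψ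

omit [BorelSpace H3] [Countable G] [SigmaFinite μ] in
/-- The partition of the lift is measurable in both variables. -/
theorem LiftData.measurable_part (D : LiftData G J μ c) :
    Measurable fun z : J × H3 => D.ω z.1 z.2 :=
  measurable_from_prod_countable_right D.measurable_ω

omit [Countable G] [SigmaFinite μ] in
/-- The trace of the vectors of the lift is measurable in both variables. -/
theorem LiftData.measurable_mTrace (D : LiftData G J μ c) :
    Measurable fun z : J × H3 => mTrace (D.X z.1) z.2 :=
  measurable_from_prod_countable_right fun j => (continuous_mTrace (D.X j)).measurable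

/-- Ball averages are self-adjoint for the pairing against the invariant weight. -/
theorem ball_adjoint (D : LiftData G J μ c) {ρ : ℝ} (hρ : 0 < ρ) {F : J → H3 → ℝ}
    (hF : ∀ j, Measurable (F j)) (hFinv : ∀ (g : G) j P, F (g • j) (g • P) = F j P)
    (hFi : ∀ j P, IntegrableOn (F j) {Q | H3.cdist P Q ≤ cosh ρ} μ)
    (hint : Integrable (fun z : J × H3 =>
      D.ω z.1 z.2 * (∫ Q in {Q | H3.cdist z.2 Q ≤ cosh ρ}, |F z.1 Q| ∂μ) * ‖D.ψ z.1 z.2‖)
      (jointMeasure J μ)) :
    ∫ z : J × H3, (D.ω z.1 z.2 * ∫ Q in {Q | H3.cdist z.2 Q ≤ cosh ρ}, F z.1 Q ∂μ) • D.ψ z.1 z.2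
        ∂jointMeasure J μ
      = (c.toReal * ballMass ρ) •
        ∫ z : J × H3, (D.ω z.1 z.2 * F z.1 z.2) • D.ψ z.1 z.2 ∂jointMeasure J μ := by
  set ν := (jointMeasure J μ).prod μ with hν
  set B : Set ((J × H3) × H3) := {t | H3.cdist t.1.2 t.2 ≤ cosh ρ} with hB
  have hBm : MeasurableSet B := measurableSet_le (measurable_cdist_uncurry.comp
    ((measurable_snd.comp measurable_fst).prodMk measurable_snd)) measurable_const
  have hFm : Measurable fun t : (J × H3) × H3 => F t.1.1 t.2 :=
    (measurable_from_prod_countable_right hF : Measurable fun p : J × H3 => F p.1 p.2).comp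
      ((measurable_fst.comp measurable_fst).prodMk measurable_snd)
  set A : (J × H3) × H3 → ℂ := fun t => B.indicator (fun t => F t.1.1 t.2) t • D.ψ t.1.1 t.1.2
    with hA
  set a : (J × H3) × H3 → ℝ := fun t => D.ω t.1.1 t.1.2 with ha
  set b : (J × H3) × H3 → ℝ := fun t => D.ω t.1.1 t.2 with hb
  have ham : Measurable a := D.measurable_part.comp measurable_fst
  have hbm : Measurable b :=
    D.measurable_part.comp ((measurable_fst.comp measurable_fst).prodMk measurable_snd)
  have hAm : Measurable A := (hFm.indicator hBm).smul (D.measurable_weight.comp measurable_fst)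
  have hpres : ∀ g : G, MeasurePreserving (fun t : (J × H3) × H3 => g • t) ν ν := fun g =>
    ((measurePreserving_count g).prod (D.measurePreserving g)).prod (D.measurePreserving g)
  have hpa : IsPartition G a := ⟨fun t => D.ω_nonneg _ _, fun t => D.ω_sum _ _⟩
  have hpb : IsPartition G b := ⟨fun t => D.ω_nonneg _ _, fun t => D.ω_sum _ _⟩
  have hinv : ∀ (g : G) t, A (g • t) = A t := by
    intro g t
    simp only [hA, Prod.smul_fst, Prod.smul_snd, D.ψ_smul]
    congr 1
    have : g • t ∈ B ↔ t ∈ B := by simp [hB, D.cdist_smul]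
    by_cases ht : t ∈ B
    · rw [indicator_of_mem ht, indicator_of_mem (this.mpr ht)]
      simp only [Prod.smul_fst, Prod.smul_snd, hFinv]
    · rw [indicator_of_notMem ht, indicator_of_notMem (mt this.mp ht)]
  have hai : Integrable (fun t => a t • A t) ν := by
    refine (integrable_prod_iff (ham.smul hAm).aestronglyMeasurable).mpr
      ⟨Eventually.of_forall fun z => ?_, ?_⟩
    · simp only [ha, hA, Pi.smul_apply']
      suffices h' : Integrable (fun Q => B.indicator (fun t => F t.1.1 t.2) (z, Q)) μ from
        (h'.smul_const (D.ψ z.1 z.2)).smul (D.ω z.1 z.2)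
      have : (fun Q => B.indicator (fun t => F t.1.1 t.2) (z, Q))
          = {Q | H3.cdist z.2 Q ≤ cosh ρ}.indicator (F z.1) := by
        funext Q; simp [hB, indicator_apply]
      rw [this]
      exact (integrable_indicator_iff (measurableSet_ball _ _)).mpr (hFi _ _)
    · refine hint.congr (Eventually.of_forall fun z => ?_)
      simp only [ha, hA, Pi.smul_apply', norm_smul, Real.norm_eq_abs, abs_of_nonneg (D.ω_nonneg _ _),
        ← mul_assoc]
      rw [integral_mul_const, integral_const_mul, ← integral_indicator (measurableSet_ball _ _)]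
      congr 2
      refine integral_congr_ae (Eventually.of_forall fun Q => ?_)
      simp [hB, indicator_apply, apply_ite abs]
  have key := integral_partition_swap hpres ham hbm hAm.aestronglyMeasurable hpa hpb hinv hai
  have hbi := integrable_partition_swap hpres ham hbm hAm.aestronglyMeasurable hpa hpb hinv hai
  -- exchange the two points
  set σ : (J × H3) × H3 → (J × H3) × H3 := fun t => ((t.1.1, t.2), t.1.2) with hσ
  have hσp : MeasurePreserving σ ν ν := by
    have h1 := measurePreserving_prodAssoc (Measure.count : Measure J) μ μ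
    have h2 : MeasurePreserving (Prod.map id (Prod.swap (α := H3) (β := H3)))
        ((Measure.count : Measure J).prod (μ.prod μ)) ((Measure.count : Measure J).prod (μ.prod μ)) :=
      (MeasurePreserving.id _).prod Measure.measurePreserving_swap
    exact ((h1.symm MeasurableEquiv.prodAssoc).comp (h2.comp h1) :)
  have hσe : MeasurableEmbedding σ :=
    (⟨⟨σ, σ, fun t => rfl, fun t => rfl⟩, hσp.measurable, hσp.measurable⟩ :
      (J × H3) × H3 ≃ᵐ (J × H3) × H3).measurableEmbedding
  calc _ = ∫ t, a t • A t ∂ν := by
        rw [hν, integral_prod _ hai]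
        refine integral_congr_ae (Eventually.of_forall fun z => ?_)
        simp only [ha, hA]
        rw [integral_smul, integral_smul_const, smul_smul, ← integral_indicator (measurableSet_ball _ _)]
        congr 2
    _ = ∫ t, b t • A t ∂ν := key
    _ = ∫ t, b (σ t) • A (σ t) ∂ν := (hσp.integral_comp hσe fun t => b t • A t).symm
    _ = _ := by
        have hbσ : Integrable (fun t => b (σ t) • A (σ t)) ((jointMeasure J μ).prod μ) :=
          (hσp.integrable_comp_emb hσe).mpr hbi
        rw [hν, integral_prod _ hbσ, ← integral_smul]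
        refine integral_congr_ae (Eventually.of_forall fun z => ?_)
        have e : ∀ Q, b (σ (z, Q)) • A (σ (z, Q)) = {Q | H3.cdist z.2 Q ≤ cosh ρ}.indicator
            (fun Q => (D.ω z.1 z.2 * F z.1 z.2) • D.ψ z.1 Q) Q := fun Q => by
          simp only [hb, hA, hσ, hB, indicator_apply, mem_ofPred_eq, H3.cdist_comm Q z.2, smul_smul]
          split_ifs <;> simp
        simp only [e]
        rw [integral_indicator (measurableSet_ball _ _), integral_smul, (D.eigen z.1 z.2 ρ hρ).2,
          smul_comm]

end Fermat.Agent.LT.Lift
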