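import Fermat.Agent.LT.H3.Sph
import Fermat.Agent.LT.H3.RadialEigen
import Fermat.Agent.LT.Lift.Adjoint

/-!
# Hyperbolic three-space as an input of the lift

The invariant measure has the axis image required by the lift, and spherical eigenfunctions have
the ball mean value property.
-/

set_option autoImplicit false

noncomputable section

open MeasureTheory Real Set
open scoped ENNReal

namespace Fermat.Agent.LT.Lift

theorem axisCoord_eq_axisCoord : (axisCoord : H3 → ℝ × ℝ) = H3.axisCoord := by
  funext Q
  simp [axisCoord, H3.axisCoord, Complex.add_re, Complex.sub_re]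

/-- The invariant measure is a measure for the lift, with constant `2π`. -/
theorem isH3Measure_vol : IsH3Measure H3.vol (ENNReal.ofReal (2 * π)) where
  invariant := H3.measurePreserving_smul
  transitive := H3.exists_smul_origin
  axis := by rw [axisCoord_eq_axisCoord]; exact H3.map_axisCoord
  ne_top := ENNReal.ofReal_ne_top

/-- A spherical eigenfunction has the ball mean value property. -/
theorem isBallEigen_of_isSphEigen {ψ : H3 → ℂ} (hψ : H3.IsSphEigen ψ) :
    IsBallEigen H3.vol (ENNReal.ofReal (2 * π)) ψ := fun P ρ hρ => by
  refine ⟨hψ.continuous.continuousOn.integrableOn_compact (H3.isCompact_cdist_le P _), ?_⟩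
  rw [H3.IsSphEigen.setIntegral_cdist_le hψ hρ.le P, ENNReal.toReal_ofReal (by positivity)]
  rfl

/-- Constant multiples of eigenfunctions of the ball averages are eigenfunctions. -/
theorem IsBallEigen.const_mul {μ : Measure H3} {c : ℝ≥0∞} {ψ : H3 → ℂ} (h : IsBallEigen μ c ψ)
    (a : ℂ) : IsBallEigen μ c fun Q => a * ψ Q := fun P ρ hρ => by
  obtain ⟨h1, h2⟩ := h P ρ hρ
  refine ⟨h1.const_mul a, ?_⟩
  rw [integral_const_mul, h2, mul_smul_comm]

variable {F : Type*} [Field F] [NumberField F] [Unique (NumberField.InfinitePlace F)]
  {U : Level F}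

/-- A radial eigenfunction on `Y` restricted to a coset, for one infinite place. -/
theorem isBallEigen_slice {φ : Y U → ℂ} (h : IsRadialEigen φ)
    (hc : ∀ c, Continuous fun P => φ (P, c)) (b : GLFin F ⧸ U.toSubgroup) :
    IsBallEigen H3.vol (ENNReal.ofReal (2 * π)) fun Q => φ (fun _ => Q, b) := by
  classical
  have := h.isSphEigen_slice hc (fun _ => H3.origin, b) default
  have e : (fun R => φ (Function.update (fun _ => H3.origin) default R, b)) =
      fun R => φ (fun _ => R, b) := by
    funext R
    congr
    funext w
    rw [Unique.eq_default w, Function.update_self]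
  rw [e] at this
  exact isBallEigen_of_isSphEigen this

end Fermat.Agent.LT.Lift

end
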