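import Fermat.Agent.LT.Lift.AdelicAction
import Fermat.Agent.LT.Lift.MeasureInstance
import Fermat.Agent.LT.Lift.LiftNice
import Fermat.Agent.LT.LiftHecke.Relation
import Fermat.Agent.LT.Setup.Operators

/-!
# The adelic data of the theta lift

For a weight `W` and a spherical cusp form `φ` the indices (coset, Hermitian matrix) times
hyperbolic space become `Y` times Hermitian matrices.  The lift is then a quotient integral of `φ`
against a theta function, and its coefficients of positive norm are the periods of `φ`.
-/

set_option autoImplicit false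

noncomputable section

open MeasureTheory Matrix Filter
open scoped Classical ENNReal
open NumberField (InfinitePlace)

namespace Fermat.Agent.LT.Lift

open LiftHecke

variable {K : Type*} [Field K] [NumberField K] {Fr : HermFrame K} {U : Level K}
  {C : NormScale Fr U}

instance countable_adelicJ : Countable (AdelicJ C) :=
  have := ThetaWeight.countable_herm Fr
  inferInstanceAs (Countable ((GLFin K ⧸ U.toSubgroup) × Fr.Herm))

instance : MeasurableSpace (AdelicJ C) := ⊤

instance : MeasurableSpace Fr.Herm := ⊤

instance : DiscreteMeasurableSpace Fr.Herm := ⟨fun _ => trivial⟩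

instance : DiscreteMeasurableSpace (AdelicJ C) := ⟨fun _ => trivial⟩

/-- The point of `Y` of a point and a coset. -/
def constY (P : H3) (b : GLFin K ⧸ U.toSubgroup) : Y U := (fun _ => P, b)

theorem measurable_constY (b : GLFin K ⧸ U.toSubgroup) :
    Measurable fun P : H3 => constY P b :=
  (measurable_pi_lambda _ fun _ => measurable_id).prodMk measurable_const

theorem constY_smul (hw : ∀ w : InfinitePlace K, w.embedding = Fr.e) (γ : GL (Fin 2) K) (P : H3)
    (b : GLFin K ⧸ U.toSubgroup) :
    constY (Matrix.GeneralLinearGroup.map Fr.e γ • P) (glIncl K γ • b) = γ • constY P b := by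
  refine Prod.ext (funext fun w => ?_) rfl
  show _ = glEmb K w γ • P
  rw [glEmb, hw]
  rfl

variable [Unique (InfinitePlace K)]

/-- A point of `Y` is the class of its archimedean part and its coset. -/
theorem constY_default (y : Y U) : constY (y.1 default) y.2 = y :=
  Prod.ext (funext fun w => by show y.1 default = y.1 w; rw [Unique.eq_default w]) rfl

/-- The hypotheses on the eigenfunction and on the partition of unity. -/
structure AdelicInput (W : ThetaWeight Fr C) (π : PartitionOfUnity U) (φ : Y U → ℂ) : Prop where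
  embedding : ∀ w : InfinitePlace K, w.embedding = Fr.e
  cusp : IsSphericalCuspForm φ
  measurable_weight : Measurable π.weight

variable {W : ThetaWeight Fr C} {π : PartitionOfUnity U} {φ : Y U → ℂ}

/-- **The data of the lift.** -/
def adelicData (h : AdelicInput W π φ) :
    LiftData (AdelicG Fr) (AdelicJ C) H3.vol (ENNReal.ofReal (2 * Real.pi)) where
  X j := if W.Φ (ThetaWeight.arg j.coset.out j.mat) = 0 then 0 else j.vec
  ψ j P := W.Φ (ThetaWeight.arg j.coset.out j.mat) * φ (constY P j.coset)
  ω j P := π.weight (constY P j.coset)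
  hermitian j := by
    show (if _ then (0 : Matrix (Fin 2) (Fin 2) ℂ) else j.vec).IsHermitian
    split_ifs
    · exact Matrix.isHermitian_zero
    · exact Fr.isHermitian_normVec _ _
  measurable_ψ j := by
    have hc : Continuous fun P : H3 => φ (constY P j.coset) :=
      (h.cusp.cuspEigen.continuous j.coset).comp (continuous_pi fun _ => continuous_id)
    exact hc.measurable.const_mul _
  measurable_ω j := h.measurable_weight.comp (measurable_constY _)
  eigen j := (isBallEigen_slice h.cusp.radial h.cusp.cuspEigen.continuous j.coset).const_mul _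
  measurePreserving c := by
    obtain ⟨γ, rfl⟩ := AdelicG.exists_mk c
    exact H3.measurePreserving_smul (Matrix.GeneralLinearGroup.map Fr.e γ)
  cdist_smul c P Q := by
    obtain ⟨γ, rfl⟩ := AdelicG.exists_mk c
    exact H3.cdist_smul _ P Q
  ψ_smul c j P := by
    obtain ⟨γ, rfl⟩ := AdelicG.exists_mk c
    rw [adelicIndex_mk_smul, adelicPoint_mk_smul, weight_transport,
      show (transport γ j).coset = glIncl K γ • j.coset from rfl, constY_smul h.embedding,
      h.cusp.cuspEigen.automorphic]
  mTrace_smul c j P := by
    obtain ⟨γ, rfl⟩ := AdelicG.exists_mk c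
    rw [adelicIndex_mk_smul, adelicPoint_mk_smul, weight_transport]
    split_ifs
    · simp [mTrace]
    · rw [mTrace_smul, pullMat_vec_transport]
  nForm_smul c j := by
    obtain ⟨γ, rfl⟩ := AdelicG.exists_mk c
    rw [adelicIndex_mk_smul, weight_transport]
    split_ifs
    · rfl
    · rw [← nForm_pullMat (Matrix.GeneralLinearGroup.map Fr.e γ), pullMat_vec_transport]
  ω_nonneg j P := π.nonneg _
  ω_sum j P := by
    refine (π.hasSum_pgl (constY P j.coset)).congr_fun fun c => ?_
    obtain ⟨γ, rfl⟩ := AdelicG.exists_mk (Fr := Fr) c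
    rw [adelicIndex_mk_smul, adelicPoint_mk_smul,
      show (transport γ j).coset = glIncl K γ • j.coset from rfl, constY_smul h.embedding]
    rfl

/-- The vector of an index, replaced by zero where the weight vanishes. -/
theorem adelicData_X (h : AdelicInput W π φ) (j : AdelicJ C) :
    (adelicData h).X j = if W.Φ (ThetaWeight.arg j.coset.out j.mat) = 0 then 0 else j.vec := rfl

theorem adelicData_ψ_eq_zero (h : AdelicInput W π φ) {j : AdelicJ C}
    (hj : W.Φ (ThetaWeight.arg j.coset.out j.mat) = 0) (P : H3) : (adelicData h).ψ j P = 0 := by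
  show W.Φ _ * _ = 0
  rw [hj, zero_mul]

/-- Indices times hyperbolic space as `Y` times matrices. -/
def jointEquiv (C : NormScale Fr U) : AdelicJ C × H3 ≃ᵐ Y U × Fr.Herm where
  toFun z := (constY z.2 z.1.coset, z.1.mat)
  invFun q := (AdelicJ.of q.1.2 q.2, q.1.1 default)
  left_inv _ := rfl
  right_inv q := Prod.ext (constY_default q.1) rfl
  measurable_toFun := by
    have := countable_adelicJ (C := C)
    exact measurable_from_prod_countable_right fun j =>
      ((measurable_constY j.coset).prodMk measurable_const :
        Measurable fun P : H3 => (constY P j.coset, j.mat))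
  measurable_invFun := by
    refine Measurable.prodMk ?_ ((measurable_pi_apply default).comp
      (measurable_fst.comp measurable_fst))
    have := ThetaWeight.countable_herm Fr
    have hp : Measurable fun p : (GLFin K ⧸ U.toSubgroup) × Fr.Herm =>
        (AdelicJ.of p.1 p.2 : AdelicJ C) := .of_discrete
    exact hp.comp ((measurable_snd.comp measurable_fst).prodMk measurable_snd)

variable (C) in
/-- `jointEquiv` carries the product measure to the product of the volume of `Y` and counting. -/
theorem measurePreserving_jointEquiv :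
    MeasurePreserving (jointEquiv C) (jointMeasure (AdelicJ C) H3.vol)
      ((yVol U).prod Measure.count) := by
  have := ThetaWeight.countable_herm Fr
  refine ⟨(jointEquiv C).measurable, ?_⟩
  refine Measure.ext_of_lintegral _ fun f hf => ?_
  rw [lintegral_map hf (jointEquiv C).measurable,
    lintegral_prod_symm (fun z => f (jointEquiv C z))
      (hf.comp (jointEquiv C).measurable).aemeasurable,
    lintegral_prod f hf.aemeasurable, yVol,
    lintegral_prod _ (hf.lintegral_prod_right').aemeasurable]
  have hfu := measurePreserving_funUnique (H3.vol : Measure H3) (InfinitePlace K)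
  rw [infVol, ← hfu.lintegral_comp_emb (MeasurableEquiv.funUnique _ _).measurableEmbedding]
  congr 1
  · congr 1; exact Subsingleton.elim _ _
  funext P
  have hP : constY (P default) = fun b : GLFin K ⧸ U.toSubgroup => ((P, b) : Y U) :=
    funext fun b => constY_default (U := U) (P, b)
  simp only [lintegral_count, MeasurableEquiv.funUnique_apply]
  rw [← ENNReal.tsum_prod' (f := fun p : (GLFin K ⧸ U.toSubgroup) × Fr.Herm => f (((P, p.1) : Y U), p.2))]
  refine tsum_congr fun j => ?_
  show f (constY (P default) j.coset, j.mat) = _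
  rw [congrFun hP j.coset]
  rfl

/-- The majorant of a summand of the theta sums. -/
def majTerm (W : ThetaWeight Fr C) (s : ℝ) (P : H3) (g : GLFin K) (X : Fr.Herm) : ℝ :=
  ‖W.Φ (ThetaWeight.arg g X)‖ * Real.exp (-(s * (nForm (Fr.normVec (C.c g) X)
    + 2 * mTrace (Fr.normVec (C.c g) X) P ^ 2)))

omit [Unique (InfinitePlace K)] in
/-- The majorant of a summand of the theta sums is nonnegative. -/
theorem majTerm_nonneg (W : ThetaWeight Fr C) (s : ℝ) (P : H3) (g : GLFin K) (X : Fr.Herm) :
    0 ≤ majTerm W s P g X :=
  mul_nonneg (norm_nonneg _) (Real.exp_pos _).le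

/-- The majorant of the theta sums on `Y`. -/
def majY (W : ThetaWeight Fr C) (s : ℝ) (y : Y U) : ℝ :=
  ∑' X : Fr.Herm, majTerm W s (y.1 default) y.2.out X

/-- Absolute convergence of the theta sums and integrability against the weight. -/
structure ThetaBound (W : ThetaWeight Fr C) (π : PartitionOfUnity U) : Prop where
  summable : ∀ s, 0 < s → ∀ P g, Summable (majTerm W s P g)
  integrable : ∀ s, 0 < s → Integrable (fun y => π.weight y * majY W s y) (yVol U)

/-- Fubini for a dominated function on indices times hyperbolic space. -/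
theorem integrable_of_dominated {F : AdelicJ C × H3 → ℂ} (hFm : Measurable F)
    {T : H3 → GLFin K → Fr.Herm → ℝ} {q : Y U → ℝ} (hTs : ∀ P g, Summable (T P g))
    (hTi : Integrable (fun y => q y * ∑' X, T (y.1 default) y.2.out X) (yVol U))
    (hF : ∀ z : AdelicJ C × H3,
      ‖F z‖ ≤ q (constY z.2 z.1.coset) * T z.2 z.1.coset.out z.1.mat) :
    Integrable F (jointMeasure (AdelicJ C) H3.vol) ∧
      (∫ z, F z ∂jointMeasure (AdelicJ C) H3.vol =
        ∫ y, (∑' X, F ((jointEquiv C).symm (y, X))) ∂yVol U) ∧
      Integrable (fun y => ∑' X, F ((jointEquiv C).symm (y, X))) (yVol U) := by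
  have := ThetaWeight.countable_herm Fr
  set e := jointEquiv C
  have he := measurePreserving_jointEquiv C
  set G : Y U × Fr.Herm → ℂ := fun q => F (e.symm q)
  have hGm : Measurable G := hFm.comp e.symm.measurable
  have hbound : ∀ y X, ‖G (y, X)‖ ≤ q y * T (y.1 default) y.2.out X :=
    fun y X => by
      have h := hF (e.symm (y, X))
      rwa [show constY (e.symm (y, X)).2 (e.symm (y, X)).1.coset = y from constY_default y] at h
  have hsum : ∀ y, Summable fun X => ‖G (y, X)‖ := fun y =>
    .of_nonneg_of_le (fun X => norm_nonneg _) (hbound y) ((hTs _ _).mul_left _)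
  have hone : ∀ (y : Y U), Integrable (fun X => G (y, X)) Measure.count := fun y =>
    integrable_count_iff.mpr (hsum y)
  have hGi : Integrable G ((yVol U).prod Measure.count) := by
    refine (integrable_prod_iff hGm.aestronglyMeasurable).mpr
      ⟨Eventually.of_forall hone, ?_⟩
    refine hTi.mono'
      hGm.norm.stronglyMeasurable.integral_prod_right'.aestronglyMeasurable
      (Eventually.of_forall fun y => ?_)
    rw [Real.norm_of_nonneg (integral_nonneg fun X => norm_nonneg _),
      integral_countable (hone y).norm]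
    simp only [Measure.real, Measure.count_singleton, ENNReal.toReal_one, one_smul]
    rw [← tsum_mul_left]
    exact (hsum y).tsum_le_tsum (hbound y) ((hTs _ _).mul_left _)
  have hFe : F = fun z => G (e z) := funext fun z => by simp [G]
  have hint : ∀ y, ∫ X, G (y, X) ∂Measure.count = ∑' X, G (y, X) := fun y => by
    rw [integral_countable (hone y)]
    simp only [Measure.real, Measure.count_singleton, ENNReal.toReal_one, one_smul]
  refine ⟨?_, ?_, hGi.integral_prod_left.congr (Eventually.of_forall hint)⟩
  · rw [hFe]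
    exact (he.integrable_comp_emb e.measurableEmbedding).mpr hGi
  · rw [show ∫ z, F z ∂jointMeasure (AdelicJ C) H3.vol =
        ∫ z, G (e z) ∂jointMeasure (AdelicJ C) H3.vol from by rw [← hFe],
      he.integral_comp e.measurableEmbedding G, integral_prod _ hGi]
    exact integral_congr_ae (Eventually.of_forall hint)

/-- Fubini for a function dominated by the majorant. -/
theorem integrable_and_integral_eq (hT : ThetaBound W π) {F : AdelicJ C × H3 → ℂ}
    (hFm : Measurable F) {s L : ℝ} (hs : 0 < s) (hF : ∀ z : AdelicJ C × H3,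
      ‖F z‖ ≤ L * π.weight (constY z.2 z.1.coset) * majTerm W s z.2 z.1.coset.out z.1.mat) :
    Integrable F (jointMeasure (AdelicJ C) H3.vol) ∧
      (∫ z, F z ∂jointMeasure (AdelicJ C) H3.vol =
        ∫ y, (∑' X, F ((jointEquiv C).symm (y, X))) ∂yVol U) ∧
      Integrable (fun y => ∑' X, F ((jointEquiv C).symm (y, X))) (yVol U) :=
  integrable_of_dominated hFm (T := majTerm W s) (q := fun y => L * π.weight y) (hT.summable s hs)
    (((hT.integrable s hs).const_mul L).congr (Eventually.of_forall fun y => by
      simp only [majY]; ring)) hF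

/-- A summand of the majorant at the null vectors. -/
def nullTerm (W : ThetaWeight Fr C) (P : H3) (g : GLFin K) (X : Fr.Herm) : ℝ :=
  if nForm (Fr.normVec (C.c g) X) = 0 ∧ Fr.normVec (C.c g) X ≠ 0 then
    ‖W.Φ (ThetaWeight.arg g X)‖ * (Real.exp (-mTrace (Fr.normVec (C.c g) X) P ^ 2)
      / |mTrace (Fr.normVec (C.c g) X) P|)
  else 0

/-- The bound at the null vectors. -/
structure NullBound (W : ThetaWeight Fr C) (π : PartitionOfUnity U) (φ : Y U → ℂ) : Prop where
  summable : ∀ P g, Summable (nullTerm W P g)
  integrable : Integrable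
    (fun y => π.weight y * ‖φ y‖ * ∑' X, nullTerm W (y.1 default) y.2.out X) (yVol U)

/-- A bound for `φ` bounds the majorant of the lift by the majorant of the theta sums. -/
theorem majorant_adelicData_le (h : AdelicInput W π φ) {B : ℝ} (hB : ∀ y, ‖φ y‖ ≤ B) (t : ℝ)
    (z : AdelicJ C × H3) :
    (adelicData h).majorant t z ≤
      B * π.weight (constY z.2 z.1.coset) * majTerm W t z.2 z.1.coset.out z.1.mat := by
  show π.weight _ * ‖W.Φ _ * φ _‖ * _ ≤ _
  rw [norm_mul, majTerm]
  rcases eq_or_ne (W.Φ (ThetaWeight.arg z.1.coset.out z.1.mat)) 0 with h0 | h0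
  · simp [h0]
  rw [LiftData.majZ, adelicData_X, if_neg h0, AdelicJ.vec]
  refine le_trans (mul_le_mul_of_nonneg_right (mul_le_mul_of_nonneg_left
    (mul_le_mul_of_nonneg_left (hB _) (norm_nonneg _)) (π.nonneg _)) (Real.exp_pos _).le) ?_
  exact le_of_eq (by ring)

/-- The theta bound makes the lift converge absolutely at every height. -/
theorem convergesAll_adelicData (h : AdelicInput W π φ) (hT : ThetaBound W π) :
    (adelicData h).ConvergesAll := by
  obtain ⟨B, hB⟩ := h.cusp.cuspEigen.bounded
  intro t ht
  set D := adelicData h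
  have hm : Measurable fun z : AdelicJ C × H3 => ((D.majorant t z : ℝ) : ℂ) :=
    Complex.measurable_ofReal.comp ((D.measurable_part.mul D.measurable_weight.norm).mul
      (D.measurable_majZ.const_mul t).neg.exp)
  obtain ⟨hi, -, -⟩ := integrable_and_integral_eq hT hm ht (L := B) fun z => by
    rw [Complex.norm_real, Real.norm_of_nonneg (D.majorant_nonneg t z)]
    exact majorant_adelicData_le h hB t z
  simpa using hi.re

/-- The bound at the null vectors gives convergence at norm zero. -/
theorem convergesSingular_adelicData (h : AdelicInput W π φ) (hN : NullBound W π φ) :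
    (adelicData h).ConvergesSingular := by
  set D := adelicData h with hD
  set F : AdelicJ C × H3 → ℝ := (D.condSet 0).indicator fun z => D.ω z.1 z.2 * ‖D.ψ z.1 z.2‖
    * Real.exp (-mTrace (D.X z.1) z.2 ^ 2) / |mTrace (D.X z.1) z.2|
  have hm : Measurable fun z => ((F z : ℝ) : ℂ) :=
    Complex.measurable_ofReal.comp ((((D.measurable_part.mul D.measurable_weight.norm).mul
      (D.measurable_mTrace.pow_const 2).neg.exp).div D.measurable_mTrace.abs).indicator
      (D.measurableSet_condSet 0))
  obtain ⟨hi, -⟩ := integrable_of_dominated hm hN.summable hN.integrable fun z => by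
    obtain ⟨j, P⟩ := z
    rw [Complex.norm_real, Real.norm_eq_abs]
    have hnn : 0 ≤ π.weight (constY P j.coset) * ‖φ (constY P j.coset)‖ :=
      mul_nonneg (π.nonneg _) (norm_nonneg _)
    have hT0 : 0 ≤ nullTerm W P j.coset.out j.mat := by
      unfold nullTerm; split_ifs <;> positivity
    rcases eq_or_ne (W.Φ (ThetaWeight.arg j.coset.out j.mat)) 0 with h0 | h0
    · simp only [F, Set.indicator_apply, hD, adelicData_ψ_eq_zero h h0, norm_zero, mul_zero,
        zero_mul, zero_div, ite_self, abs_zero]
      exact mul_nonneg hnn hT0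
    have hXv : D.X j = Fr.normVec (C.c j.coset.out) j.mat := by
      rw [hD, adelicData_X, if_neg h0, AdelicJ.vec]
    by_cases hz : ((j, P) : AdelicJ C × H3) ∈ D.condSet 0
    · have hz' : nForm (Fr.normVec (C.c j.coset.out) j.mat) = 0 ∧
          Fr.normVec (C.c j.coset.out) j.mat ≠ 0 := hXv ▸ hz
      simp only [F]
      rw [Set.indicator_of_mem hz]
      show |π.weight _ * ‖W.Φ _ * φ _‖ * _ / _| ≤ _
      rw [nullTerm, if_pos hz', abs_of_nonneg (div_nonneg (mul_nonneg (mul_nonneg (π.nonneg _)
        (norm_nonneg _)) (Real.exp_pos _).le) (abs_nonneg _)), norm_mul, hXv]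
      exact le_of_eq (by ring)
    · simp only [F]
      rw [Set.indicator_of_notMem hz, abs_zero]
      exact mul_nonneg hnn hT0
  show Integrable F _
  simpa using hi.re

omit [Unique (InfinitePlace K)] in
theorem norm_term_le {f : ℝ → ℝ} {a M n : ℝ} (hM : 0 ≤ M)
    (hf : ∀ x, |f x| ≤ M * Real.exp (-(a * x ^ 2))) (P : H3) (g : GLFin K) (X : Fr.Herm) :
    ‖W.term f n P g X‖ ≤ M * Real.exp (a * n / 2) * majTerm W (a / 2) P g X := by
  rw [ThetaWeight.term, majTerm]
  split_ifs with hn
  · rw [norm_mul, Complex.norm_real, Real.norm_eq_abs, hn]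
    calc |f (mTrace (Fr.normVec (C.c g) X) P)| * ‖W.Φ (ThetaWeight.arg g X)‖
        ≤ M * Real.exp (-(a * mTrace (Fr.normVec (C.c g) X) P ^ 2)) *
            ‖W.Φ (ThetaWeight.arg g X)‖ := mul_le_mul_of_nonneg_right (hf _) (norm_nonneg _)
      _ = _ := by
        rw [show -(a * mTrace (Fr.normVec (C.c g) X) P ^ 2) = a * n / 2
          + -(a / 2 * (n + 2 * mTrace (Fr.normVec (C.c g) X) P ^ 2)) by ring, Real.exp_add]
        ring
  · rw [norm_zero]; positivity

/-- The theta series of a test function of Gaussian decay converge. -/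
theorem summable_term (hT : ThetaBound W π) {f : ℝ → ℝ} {a M : ℝ} (ha : 0 < a) (hM : 0 ≤ M)
    (hf : ∀ x, |f x| ≤ M * Real.exp (-(a * x ^ 2))) (n : ℝ) (P : H3) (g : GLFin K) :
    Summable (W.term f n P g) :=
  Summable.of_norm_bounded ((hT.summable _ (half_pos ha) P g).mul_left _)
    fun X => norm_term_le hM hf P g X

theorem seriesY_eq_out (f : ℝ → ℝ) (n : ℝ) (y : Y U) :
    W.seriesY default f n y = W.series f n (y.1 default) y.2.out := by
  rw [ThetaWeight.seriesY, ← W.seriesAt_mk f n _ y.2.out, QuotientGroup.out_eq']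

theorem integrable_seriesY (h : AdelicInput W π φ) (hT : ThetaBound W π) {f : ℝ → ℝ}
    (hfm : Measurable f) {a M : ℝ} (ha : 0 < a) (hM : 0 ≤ M)
    (hf : ∀ x, |f x| ≤ M * Real.exp (-(a * x ^ 2))) (n : ℝ) :
    Integrable (fun y => π.weight y • W.seriesY default f n y) (yVol U) := by
  refine ((hT.integrable _ (half_pos ha)).const_mul (M * Real.exp (a * n / 2))).mono'
    (h.measurable_weight.smul (W.measurable_seriesY default hfm n
      (summable_term hT ha hM hf n))).aestronglyMeasurable (Eventually.of_forall fun y => ?_)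
  rw [norm_smul, Real.norm_of_nonneg (π.nonneg y), seriesY_eq_out,
    ThetaWeight.series, mul_left_comm]
  refine mul_le_mul_of_nonneg_left ?_ (π.nonneg y)
  rw [majY, ← tsum_mul_left]
  have hs := (hT.summable _ (half_pos ha) (y.1 default) y.2.out).mul_left
    (M * Real.exp (a * n / 2))
  exact (norm_tsum_le_tsum_norm (.of_nonneg_of_le (fun X => norm_nonneg _)
    (fun X => norm_term_le hM hf _ _ X) hs)).trans
      ((Summable.of_nonneg_of_le (fun X => norm_nonneg _)
        (fun X => norm_term_le hM hf _ _ X) hs).tsum_le_tsum (fun X => norm_term_le hM hf _ _ X) hs)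

/-- **The pairing is the period.** -/
theorem pairing_eq_period (h : AdelicInput W π φ) (hT : ThetaBound W π) {f : ℝ → ℝ}
    (hfm : Measurable f) {a M : ℝ} (ha : 0 < a) (hM : 0 ≤ M)
    (hf : ∀ x, |f x| ≤ M * Real.exp (-(a * x ^ 2))) {n : ℝ} (hn : n ≠ 0) :
    (adelicData h).pairing n f = W.period default π φ f n := by
  obtain ⟨B, hB⟩ := h.cusp.cuspEigen.bounded
  set D := adelicData h with hD
  have hB0 : 0 ≤ B := (norm_nonneg _).trans (hB (constY H3.origin (QuotientGroup.mk 1)))
  have hval : ∀ (j : AdelicJ C) (P : H3), (D.condSet n).indicator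
      (fun z => (D.ω z.1 z.2 * f (mTrace (D.X z.1) z.2)) • D.ψ z.1 z.2) (j, P) =
        π.weight (constY P j.coset) •
          (φ (constY P j.coset) * W.term f n P j.coset.out j.mat) := by
    intro j P
    rw [ThetaWeight.term]
    rcases eq_or_ne (W.Φ (ThetaWeight.arg j.coset.out j.mat)) 0 with h0 | h0
    · simp [Set.indicator_apply, hD, adelicData_ψ_eq_zero h h0, h0]
    have hXv : D.X j = j.vec := by rw [hD, adelicData_X, if_neg h0]
    split_ifs with hX
    · have hX0 : j.vec ≠ 0 := fun h0 => hn (by
        rw [show Fr.normVec (C.c j.coset.out) j.mat = j.vec from rfl, h0] at hX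
        simpa [nForm] using hX.symm)
      rw [Set.indicator_of_mem (show (j, P) ∈ D.condSet n from
        ⟨show nForm (D.X j) = n by rw [hXv]; exact hX, show D.X j ≠ 0 by rw [hXv]; exact hX0⟩)]
      show (π.weight _ * f (mTrace (D.X j) P)) • (W.Φ _ * φ _) = _
      rw [hXv]
      simp only [Complex.real_smul, AdelicJ.vec]
      push_cast
      ring
    · rw [Set.indicator_of_notMem (show (j, P) ∉ D.condSet n from fun h' => hX (by
        have h'' : nForm (D.X j) = n := h'.1
        rwa [hXv] at h'')), mul_zero, smul_zero]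
  have hFm : Measurable ((D.condSet n).indicator
      fun z => (D.ω z.1 z.2 * f (mTrace (D.X z.1) z.2)) • D.ψ z.1 z.2) :=
    ((D.measurable_part.mul (hfm.comp D.measurable_mTrace)).smul D.measurable_weight).indicator
      (D.measurableSet_condSet n)
  obtain ⟨-, he, -⟩ := integrable_and_integral_eq hT hFm (half_pos ha)
    (L := B * (M * Real.exp (a * n / 2))) fun z => by
      rw [hval z.1 z.2, norm_smul, norm_mul, Real.norm_of_nonneg (π.nonneg _)]
      calc π.weight (constY z.2 z.1.coset) *
            (‖φ (constY z.2 z.1.coset)‖ * ‖W.term f n z.2 z.1.coset.out z.1.mat‖)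
          ≤ π.weight (constY z.2 z.1.coset) * (B * (M * Real.exp (a * n / 2) *
              majTerm W (a / 2) z.2 z.1.coset.out z.1.mat)) :=
            mul_le_mul_of_nonneg_left (mul_le_mul (hB _) (norm_term_le hM hf _ _ _)
              (norm_nonneg _) hB0) (π.nonneg _)
        _ = _ := by ring
  rw [LiftData.pairing, he, ThetaWeight.period, quotIntegral]
  refine integral_congr_ae (Eventually.of_forall fun y => ?_)
  show ∑' X, (D.condSet n).indicator _ ((jointEquiv C).symm (y, X)) = _
  simp only [show ∀ X, (jointEquiv C).symm (y, X) =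
    ((AdelicJ.of y.2 X : AdelicJ C), y.1 default) from fun X => rfl, hval,
    show ∀ X, (AdelicJ.of y.2 X : AdelicJ C).coset = y.2 from fun X => rfl,
    show ∀ X, (AdelicJ.of y.2 X : AdelicJ C).mat = X from fun X => rfl, constY_default]
  rw [tsum_const_smul'', tsum_mul_left, seriesY_eq_out, ThetaWeight.series]

/-- Gaussian pairings at a positive norm. -/
theorem LiftData.pairing_gauss_pos {G J : Type*} [Group G] [Countable G] [MulAction G J]
    [MulAction G H3] [Countable J] [MeasurableSpace J] [MeasurableSingletonClass J]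
    {μ : Measure H3} [SigmaFinite μ] {c : ℝ≥0∞} (hμ : IsH3Measure μ c) (hc : c ≠ 0)
    (D : LiftData G J μ c) {n : ℝ} (hn : 0 < n) (hconv : D.Converges n) {t : ℝ} (ht : 0 < t) :
    D.pairing n (fun x => Real.exp (-(t * x ^ 2))) =
      2 * D.coeff n 1 * (√(Real.pi / t) : ℝ) := by
  have hπ := Real.pi_pos
  set y := t / (4 * Real.pi) with hy
  have hy0 : 0 < y := by positivity
  have h1 := D.coeff_pos hμ hc hn hconv hy0
  rw [LiftData.coeff, show 4 * Real.pi * y = t by rw [hy]; field_simp] at h1
  have h2 : √y * (2 * √(Real.pi / t)) = 1 := by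
    rw [← Real.sqrt_sq (show (0 : ℝ) ≤ 2 by norm_num), ← Real.sqrt_mul (sq_nonneg _),
      ← Real.sqrt_mul hy0.le, Real.sqrt_eq_one, hy]
    field_simp
    ring
  rw [← h1, Complex.real_smul]
  have h2' : ((√y : ℝ) : ℂ) * (2 * ((√(Real.pi / t) : ℝ) : ℂ)) = 1 := by exact_mod_cast h2
  linear_combination (-(D.pairing n fun x => Real.exp (-(t * x ^ 2)))) * h2'

/-- **The coefficients of the lift in the shape of the Hecke relation.** -/
theorem isCoefficient_coeff (h : AdelicInput W π φ) (hT : ThetaBound W π) {n : ℝ} (hn : 0 < n) :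
    W.IsCoefficient default π φ n (2 * (adelicData h).coeff n 1) := by
  have hb : ∀ a x : ℝ, |gaussFn a x| ≤ 1 * Real.exp (-(a * x ^ 2)) := fun a x => by
    rw [one_mul, gaussFn, Real.abs_exp]
  refine ⟨fun a ha P g => summable_term hT ha zero_le_one (hb a) n P g,
    fun a ha => integrable_seriesY h hT (measurable_gaussFn a) ha zero_le_one (hb a) n,
    fun a ha => ?_⟩
  rw [← pairing_eq_period h hT (measurable_gaussFn a) ha zero_le_one (hb a) hn.ne']
  exact LiftData.pairing_gauss_pos isH3Measure_vol (by simp [Real.pi_pos]) _ hn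
    (LiftData.Converges.of_convergesAll (adelicData h) (convergesAll_adelicData h hT) n) ha

/-- A summand of the theta sum of the lift. -/
def thetaTerm (W : ThetaWeight Fr C) (τ : ℂ) (P : H3) (g : GLFin K) (X : Fr.Herm) : ℂ :=
  Complex.exp (2 * Real.pi * (Complex.I * nForm (Fr.normVec (C.c g) X) * τ.re
    - (nForm (Fr.normVec (C.c g) X) + 2 * mTrace (Fr.normVec (C.c g) X) P ^ 2 : ℝ) * τ.im)) *
      W.Φ (ThetaWeight.arg g X)

/-- The theta function on `Y`. -/
def thetaY (W : ThetaWeight Fr C) (τ : ℂ) (y : Y U) : ℂ :=
  ∑' X : Fr.Herm, thetaTerm W τ (y.1 default) y.2.out X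

/-- **The lift as an integral over the quotient.** -/
theorem lift_eq_quotIntegral (h : AdelicInput W π φ) (hT : ThetaBound W π) {τ : ℂ}
    (hτ : 0 < τ.im) :
    (adelicData h).lift τ = sqrtIm τ * quotIntegral π fun y => φ y * thetaY W τ y := by
  obtain ⟨B, hB⟩ := h.cusp.cuspEigen.bounded
  set D := adelicData h
  obtain ⟨-, he, -⟩ := integrable_and_integral_eq hT (D.measurable_weightFun τ)
    (show (0 : ℝ) < 2 * Real.pi * τ.im by positivity) (L := B) fun z => by
      rw [D.norm_weightFun]
      exact majorant_adelicData_le h hB _ z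
  rw [LiftData.lift, LiftData.liftPart, LiftData.partInt, setIntegral_univ, he, quotIntegral]
  congr 1
  refine integral_congr_ae (Eventually.of_forall fun y => ?_)
  show _ = π.weight y • (φ y * thetaY W τ y)
  rw [thetaY, ← tsum_mul_left, ← tsum_const_smul'']
  refine tsum_congr fun X => ?_
  show π.weight (constY (y.1 default) y.2) • _ = _
  rw [constY_default, LiftData.kern, thetaTerm]
  congr 1
  show _ * (W.Φ _ * φ (constY (y.1 default) y.2)) = _
  rw [constY_default]
  have hc : ((jointEquiv C).symm (y, X)).1.coset = y.2 := rfl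
  have hm : ((jointEquiv C).symm (y, X)).1.mat = X := rfl
  rw [hc, hm]
  rcases eq_or_ne (W.Φ (ThetaWeight.arg y.2.out X)) 0 with h0 | h0
  · simp [h0]
  have hXv : D.X ((jointEquiv C).symm (y, X)).1 = Fr.normVec (C.c y.2.out) X := by
    rw [adelicData_X, hc, hm, if_neg h0, AdelicJ.vec, hc, hm]
  show Complex.exp _ * _ = _
  rw [LiftData.normZ, LiftData.majZ, hXv,
    show ((jointEquiv C).symm (y, X)).2 = y.1 default from rfl]
  ring

/-- The product with the theta function is integrable. -/
theorem integrable_mul_thetaY (h : AdelicInput W π φ) (hT : ThetaBound W π) {τ : ℂ}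
    (hτ : 0 < τ.im) :
    Integrable (fun y => π.weight y • (φ y * thetaY W τ y)) (yVol U) := by
  obtain ⟨B, hB⟩ := h.cusp.cuspEigen.bounded
  have hB0 : 0 ≤ B := (norm_nonneg _).trans (hB (constY H3.origin (QuotientGroup.mk 1)))
  set F : AdelicJ C × H3 → ℂ := fun z => π.weight (constY z.2 z.1.coset) •
    (φ (constY z.2 z.1.coset) * thetaTerm W τ z.2 z.1.coset.out z.1.mat) with hF
  have hFm : Measurable F := measurable_from_prod_countable_right fun j => by
    show Measurable fun P => π.weight (constY P j.coset) •
      (φ (constY P j.coset) * thetaTerm W τ P j.coset.out j.mat)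
    refine (h.measurable_weight.comp (measurable_constY _)).smul
      (((h.cusp.cuspEigen.continuous j.coset).comp
        (continuous_pi fun _ => continuous_id)).measurable.mul ?_)
    refine (Measurable.mul_const ?_ _)
    refine Complex.measurable_exp.comp ((measurable_const.sub
      ((Complex.measurable_ofReal.comp (measurable_const.add
        (((continuous_mTrace _).measurable.pow_const 2).const_mul 2))).mul_const _)).const_mul _)
  obtain ⟨-, -, hi⟩ := integrable_and_integral_eq hT hFm
    (show (0 : ℝ) < 2 * Real.pi * τ.im by positivity) (L := B) fun z => by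
      simp only [hF]
      rw [norm_smul, Real.norm_of_nonneg (π.nonneg _), norm_mul, mul_comm B, mul_assoc]
      refine mul_le_mul_of_nonneg_left (mul_le_mul (hB _) (le_of_eq ?_) (norm_nonneg _) hB0)
        (π.nonneg _)
      rw [thetaTerm, norm_mul, Complex.norm_exp, majTerm, mul_comm]
      congr 2
      simp [-Complex.ofReal_pow]
      ring
  refine hi.congr (Eventually.of_forall fun y => ?_)
  show ∑' X, π.weight (constY (y.1 default) y.2) •
    (φ (constY (y.1 default) y.2) * thetaTerm W τ (y.1 default) y.2.out X) = _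
  rw [constY_default, tsum_const_smul'', tsum_mul_left]
  rfl

end Fermat.Agent.LT.Lift

end
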