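import Fermat.Agent.LT.Lift.FormPackage

/-!
# Lifts with an invariant coefficient

Multiplying the weight by a bounded invariant coefficient preserves convergence; a slash of the
lift which expands in theta terms of a good weight is nice.
-/

set_option autoImplicit false

noncomputable section

open MeasureTheory Matrix Filter UpperHalfPlane
open scoped Classical ENNReal MatrixGroups ModularForm
open NumberField (InfinitePlace)

namespace Fermat.Agent.LT.Lift

section General

variable {G J : Type*} [Group G] [MulAction G J] [MulAction G H3]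
  [Countable J] [MeasurableSpace J] [MeasurableSingletonClass J]
  {μ : Measure H3} {c : ℝ≥0∞}

/-- The data with the weight multiplied by an invariant coefficient. -/
def LiftData.mulCoef (D : LiftData G J μ c) (a : J → ℂ) (ha : ∀ (g : G) j, a (g • j) = a j) :
    LiftData G J μ c :=
  { D with
    ψ := fun j P => a j * D.ψ j P
    measurable_ψ := fun j => (D.measurable_ψ j).const_mul _
    eigen := fun j => (D.eigen j).const_mul _
    ψ_smul := fun g j P => by rw [ha, D.ψ_smul] }

variable (D : LiftData G J μ c) {a : J → ℂ} (ha : ∀ (g : G) j, a (g • j) = a j)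

theorem LiftData.convergesAll_mulCoef {B : ℝ} (hB : ∀ j, ‖a j‖ ≤ B) (h : D.ConvergesAll) :
    (D.mulCoef a ha).ConvergesAll := fun t ht => by
  refine ((h t ht).const_mul B).mono'
    (((D.mulCoef a ha).measurable_part.mul (D.mulCoef a ha).measurable_weight.norm).mul
      ((D.mulCoef a ha).measurable_majZ.const_mul t).neg.exp).aestronglyMeasurable
    (Eventually.of_forall fun z => ?_)
  rw [Real.norm_of_nonneg (LiftData.majorant_nonneg _ t z)]
  show D.ω z.1 z.2 * ‖a z.1 * D.ψ z.1 z.2‖ * _ ≤ B * (D.ω z.1 z.2 * ‖D.ψ z.1 z.2‖ * _)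
  rw [norm_mul]
  calc D.ω z.1 z.2 * (‖a z.1‖ * ‖D.ψ z.1 z.2‖) * _
      ≤ D.ω z.1 z.2 * (B * ‖D.ψ z.1 z.2‖) * _ :=
        mul_le_mul_of_nonneg_right (mul_le_mul_of_nonneg_left
          (mul_le_mul_of_nonneg_right (hB _) (norm_nonneg _)) (D.ω_nonneg _ _)) (Real.exp_pos _).le
    _ = _ := by ring!

theorem LiftData.convergesSingular_mulCoef {B : ℝ} (hB : ∀ j, ‖a j‖ ≤ B)
    (h : D.ConvergesSingular) : (D.mulCoef a ha).ConvergesSingular := by
  refine (h.const_mul B).mono'
    (((((D.mulCoef a ha).measurable_part.mul (D.mulCoef a ha).measurable_weight.norm).mul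
      ((D.mulCoef a ha).measurable_mTrace.pow_const 2).neg.exp).div
        (D.mulCoef a ha).measurable_mTrace.abs).indicator
      ((D.mulCoef a ha).measurableSet_condSet 0)).aestronglyMeasurable
    (Eventually.of_forall fun z => ?_)
  by_cases hz : z ∈ D.condSet 0
  · rw [Set.indicator_of_mem hz, Set.indicator_of_mem (show z ∈ (D.mulCoef a ha).condSet 0 from hz),
      Real.norm_of_nonneg (div_nonneg (mul_nonneg (mul_nonneg
        ((D.mulCoef a ha).ω_nonneg _ _) (norm_nonneg _)) (Real.exp_pos _).le) (abs_nonneg _))]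
    show D.ω z.1 z.2 * ‖a z.1 * D.ψ z.1 z.2‖ * _ / _ ≤ B * (D.ω z.1 z.2 * ‖D.ψ z.1 z.2‖ * _ / _)
    rw [norm_mul, mul_div_assoc' B]
    refine div_le_div_of_nonneg_right ?_ (abs_nonneg _)
    calc D.ω z.1 z.2 * (‖a z.1‖ * ‖D.ψ z.1 z.2‖) * _
        ≤ D.ω z.1 z.2 * (B * ‖D.ψ z.1 z.2‖) * _ :=
          mul_le_mul_of_nonneg_right (mul_le_mul_of_nonneg_left
            (mul_le_mul_of_nonneg_right (hB _) (norm_nonneg _)) (D.ω_nonneg _ _)) (Real.exp_pos _).le
      _ = _ := by ring!
  · rw [Set.indicator_of_notMem hz, Set.indicator_of_notMem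
      (show z ∉ (D.mulCoef a ha).condSet 0 from hz), norm_zero, mul_zero]

end General

open LiftHecke

variable {K : Type*} [Field K] [NumberField K] {Fr : HermFrame K} {U : Level K}
  {C : NormScale Fr U} [Unique (InfinitePlace K)] {W Wb : ThetaWeight Fr C}
  {π : PartitionOfUnity U} {φ : Y U → ℂ}

/-- An expansion of a family of functions on the upper half-plane in the theta terms of a weight,
with bounded invariant coefficients. -/
def HasExpansion (Wb : ThetaWeight Fr C) (F : Y U → ℍ → ℂ) : Prop :=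
  ∃ a : AdelicJ C → ℂ, (∀ (g : AdelicG Fr) j, a (g • j) = a j) ∧ (∃ B, ∀ j, ‖a j‖ ≤ B) ∧
    ∀ y τ, F y τ = sqrtIm τ *
      ∑' X, a (AdelicJ.of y.2 X) * thetaTerm Wb τ (y.1 default) y.2.out X

/-- **An expansion of the slash makes the slashed lift nice.** -/
theorem isNice_of_expansion (h : AdelicInput W π φ) (hg : IsGoodWeight Wb π φ) (δ : SL(2, ℤ))
    (he : HasExpansion Wb fun y => thetaFun W y ∣[(1 : ℤ)] δ) :
    IsNice (extFun (liftFn W π φ ∣[(1 : ℤ)] δ)) := by
  obtain ⟨a, ha, ⟨B, hB⟩, he⟩ := he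
  obtain ⟨d, hd⟩ := hg.denom
  obtain ⟨Bφ, hBφ⟩ := h.cusp.cuspEigen.bounded
  have hb : AdelicInput Wb π φ := ⟨h.embedding, h.cusp, h.measurable_weight⟩
  set D := (adelicData hb).mulCoef a ha with hD
  have hnice : IsNice D.lift := D.isNice_lift isH3Measure_vol (by simp [Real.pi_pos])
    ((adelicData hb).convergesAll_mulCoef ha hB (convergesAll_adelicData hb hg.bound))
    ((adelicData hb).convergesSingular_mulCoef ha hB (convergesSingular_adelicData hb hg.null))
    (hasNormDenominator_adelicData hb hd)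
  refine hnice.congr fun z hz => ?_
  have hz' : 0 < z.im := hz
  set τ : ℍ := ⟨z, hz'⟩ with hτ
  rw [extFun_of_im_pos _ hz', ← hτ, ModularForm.SL_slash_apply, liftFn, quotIntegral,
    ← integral_mul_const]
  obtain ⟨-, hI, -⟩ := integrable_and_integral_eq hg.bound (D.measurable_weightFun z)
    (show (0 : ℝ) < 2 * Real.pi * z.im by positivity) (L := B * Bφ) fun w => by
      have hB0 : 0 ≤ B := (norm_nonneg _).trans (hB w.1)
      have hm : 0 ≤ majTerm Wb (2 * Real.pi * z.im) w.2 w.1.coset.out w.1.mat := by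
        unfold majTerm; positivity
      rw [D.norm_weightFun, LiftData.majorant]
      show π.weight _ * ‖a w.1 * (Wb.Φ _ * φ _)‖ * _ ≤ _
      rw [norm_mul, norm_mul, majTerm]
      rcases eq_or_ne (Wb.Φ (ThetaWeight.arg w.1.coset.out w.1.mat)) 0 with h0 | h0
      · simp [h0]
      rw [LiftData.majZ, show D.X w.1 = (adelicData hb).X w.1 from rfl, adelicData_X, if_neg h0,
        AdelicJ.vec]
      refine le_trans (mul_le_mul_of_nonneg_right (mul_le_mul_of_nonneg_left
        (mul_le_mul (hB _) (mul_le_mul_of_nonneg_left (hBφ _) (norm_nonneg _))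
          (mul_nonneg (norm_nonneg _) (norm_nonneg _)) hB0) (π.nonneg _)) (Real.exp_pos _).le) ?_
      exact le_of_eq (by ring)
  rw [LiftData.lift, LiftData.liftPart, LiftData.partInt, setIntegral_univ, hI,
    ← integral_const_mul]
  refine integral_congr_ae (Eventually.of_forall fun y => ?_)
  have e1 := he y τ
  simp only [ModularForm.SL_slash_apply] at e1
  show (π.weight y • (φ y * thetaFun W y (δ • τ))) * _ = _
  rw [Complex.real_smul, mul_assoc, mul_assoc, e1]
  show (π.weight y : ℂ) * (φ y * (sqrtIm z * _)) =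
    sqrtIm z * ∑' X, D.weightFun z ((jointEquiv C).symm (y, X))
  rw [← tsum_mul_left (a := sqrtIm z), ← tsum_mul_left (a := φ y),
    ← tsum_mul_left (a := (π.weight y : ℂ)), ← tsum_mul_left (a := sqrtIm z)]
  refine tsum_congr fun X => ?_
  show _ = sqrtIm z * (π.weight (constY (y.1 default) y.2) • _)
  rw [constY_default, LiftData.kern, thetaTerm, Complex.real_smul]
  have hc : ((jointEquiv C).symm (y, X)).1.coset = y.2 := rfl
  have hm : ((jointEquiv C).symm (y, X)).1.mat = X := rfl
  show _ = sqrtIm z * ((π.weight y : ℂ) *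
    (_ * (a (AdelicJ.of y.2 X) * (Wb.Φ _ * φ (constY (y.1 default) y.2)))))
  rw [constY_default, hc, hm]
  rcases eq_or_ne (Wb.Φ (ThetaWeight.arg y.2.out X)) 0 with h0 | h0
  · simp [h0]
  have hXv : D.X ((jointEquiv C).symm (y, X)).1 = Fr.normVec (C.c y.2.out) X := by
    rw [show D.X ((jointEquiv C).symm (y, X)).1 =
      (adelicData hb).X ((jointEquiv C).symm (y, X)).1 from rfl, adelicData_X, hc, hm, if_neg h0,
      AdelicJ.vec, hc, hm]
  rw [LiftData.normZ, LiftData.majZ, hXv,
    show ((jointEquiv C).symm (y, X)).2 = y.1 default from rfl]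
  show (π.weight y : ℂ) * (φ y * (sqrtIm z * _)) = _
  ring!

end Fermat.Agent.LT.Lift

end
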