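import Fermat.Agent.LT.Lift.Radial
import Mathlib.Analysis.Calculus.ParametricIntegral
import Mathlib.Analysis.SpecialFunctions.Arsinh
import Mathlib.Analysis.SpecialFunctions.Gaussian.GaussianIntegral
import Mathlib.Analysis.SpecialFunctions.ImproperIntegrals
import Mathlib.MeasureTheory.Function.JacobianOneDim
import Mathlib.MeasureTheory.Integral.IntegralEqImproper

/-!
# Gaussian tests on the line

Integrals against affine functions of the test functions `exp (-t M(s)²) M'(s)` for the three
profiles `M`.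
-/

set_option autoImplicit false

noncomputable section

open MeasureTheory Real Filter Topology Set

namespace Fermat.Agent.LT.Lift

/-- The test function `exp (-t M(s)²) M'(s)`. -/
def gaussTest (α β t s : ℝ) : ℝ := exp (-(t * prof α β s ^ 2)) * prof' α β s

/-- The Gaussian test function is continuous. -/
theorem continuous_gaussTest (α β t : ℝ) : Continuous (gaussTest α β t) := by
  unfold gaussTest prof prof'; fun_prop

/-- The Gaussian test function is locally Lipschitz. -/
theorem locallyLipschitz_gaussTest (α β t : ℝ) : LocallyLipschitz (gaussTest α β t) := by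
  refine ContDiff.locallyLipschitz (𝕂 := ℝ) ?_
  unfold gaussTest prof prof'
  fun_prop

theorem hasDerivAt_prof (α β s : ℝ) : HasDerivAt (prof α β) (prof' α β s) s := by
  refine (((hasDerivAt_exp s).const_mul α).add
    (((hasDerivAt_neg s).exp).const_mul β)).congr_deriv ?_
  simp [prof', sub_eq_add_neg]

/-! ### Domination -/

theorem integrable_of_gauss_bound {f : ℝ → ℝ} (hf : Continuous f) {C b m : ℝ} (hb : 0 < b)
    (h : ∀ x, |f x| ≤ C * (exp (m * |x|) * exp (-(b * x ^ 2)))) : Integrable f := by
  refine ((integrable_exp_neg_mul_sq (half_pos hb)).const_mul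
    (|C| * exp (m ^ 2 / (2 * b)))).mono' hf.aestronglyMeasurable (Eventually.of_forall fun x => ?_)
  refine (h x).trans ((mul_le_mul_of_nonneg_right (le_abs_self C)
    (mul_pos (exp_pos _) (exp_pos _)).le).trans ?_)
  rw [mul_assoc]
  refine mul_le_mul_of_nonneg_left ?_ (abs_nonneg C)
  rw [← exp_add, ← exp_add, exp_le_exp]
  have : m * |x| - b / 2 * x ^ 2 ≤ m ^ 2 / (2 * b) := by
    rw [le_div_iff₀ (by positivity), ← sq_abs x]
    nlinarith [sq_nonneg (m - b * |x|)]
  linarith

theorem abs_le_exp_abs (x : ℝ) : |x| ≤ exp |x| := le_of_lt (lt_of_lt_of_le (lt_add_one _)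
  (add_one_le_exp _))

theorem cosh_le_exp_abs (x : ℝ) : cosh x ≤ exp |x| := by
  rw [← cosh_abs, cosh_eq]
  have : exp (-|x|) ≤ exp |x| := exp_le_exp.mpr (by linarith [abs_nonneg x])
  linarith

theorem abs_sinh_le_exp_abs (x : ℝ) : |sinh x| ≤ exp |x| :=
  (abs_sinh x ▸ (sinh_lt_cosh |x|).le).trans ((cosh_abs x).trans_le (cosh_le_exp_abs x))

theorem sq_le_sinh_sq (x : ℝ) : x ^ 2 ≤ sinh x ^ 2 := by
  rw [← sq_abs x, ← sq_abs (sinh x), abs_sinh]
  exact pow_le_pow_left₀ (abs_nonneg x) (self_le_sinh_iff.mpr (abs_nonneg x)) 2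

theorem sq_le_cosh_sq (x : ℝ) : x ^ 2 ≤ cosh x ^ 2 := by
  have := sq_le_sinh_sq x
  nlinarith [cosh_sq x]

/-! ### Positive norm -/

/-- The derivative of the profile of positive norm. -/
theorem prof'_pos_eq (ν s : ℝ) : prof' (ν / 2) (-(ν / 2)) s = ν * cosh s := by
  simp only [prof', cosh_eq]; ring

/-- The profile of positive norm is `ν sinh`. -/
theorem prof_pos_eq (ν s : ℝ) : prof (ν / 2) (-(ν / 2)) s = ν * sinh s := by
  simp only [prof, sinh_eq]; ring

theorem abs_gaussTest_pos_le {ν t : ℝ} (hν : 0 < ν) (ht : 0 < t) (s : ℝ) :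
    |gaussTest (ν / 2) (-(ν / 2)) t s| ≤ ν * (exp (1 * |s|) * exp (-(t * ν ^ 2 * s ^ 2))) := by
  rw [gaussTest, prof_pos_eq, prof'_pos_eq, abs_mul, abs_mul, abs_of_pos (exp_pos _),
    abs_of_pos hν, abs_of_pos (cosh_pos s), one_mul]
  calc exp (-(t * (ν * sinh s) ^ 2)) * (ν * cosh s)
      ≤ exp (-(t * ν ^ 2 * s ^ 2)) * (ν * exp |s|) := by
        refine mul_le_mul (exp_le_exp.mpr (neg_le_neg ?_))
          (mul_le_mul_of_nonneg_left (cosh_le_exp_abs s) hν.le) (by positivity) (exp_pos _).le
        rw [mul_pow, ← mul_assoc]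
        exact mul_le_mul_of_nonneg_left (sq_le_sinh_sq s) (by positivity)
    _ = _ := by ring

/-- Gaussian moments along the profile of positive norm. -/
theorem integral_gaussTest_pos {ν t : ℝ} (hν : 0 < ν) (ht : 0 < t) (A B : ℂ) :
    ∫ L, gaussTest (ν / 2) (-(ν / 2)) t L • (A + L • B) = √(π / t) • A := by
  set h := gaussTest (ν / 2) (-(ν / 2)) t with hh
  have hc : Continuous h := continuous_gaussTest _ _ _
  have hi : Integrable h := integrable_of_gauss_bound hc (by positivity)
    (abs_gaussTest_pos_le hν ht)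
  have hiL : Integrable fun L => L * h L := by
    refine integrable_of_gauss_bound (by fun_prop) (C := ν) (m := 2) (b := t * ν ^ 2) (by positivity)
      fun x => ?_
    rw [abs_mul]
    refine (mul_le_mul (abs_le_exp_abs x) (abs_gaussTest_pos_le hν ht x) (abs_nonneg _)
      (exp_pos _).le).trans (le_of_eq ?_)
    rw [show (2 : ℝ) * |x| = |x| + 1 * |x| by ring, exp_add]
    ring
  have hodd : ∫ L, L * h L = 0 := by
    have e : ∫ L, L * h L = -∫ L, L * h L := by
      conv_lhs => rw [← integral_neg_eq_self]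
      rw [← integral_neg]
      congr 1
      funext L
      simp only [hh, gaussTest, prof_pos_eq, prof'_pos_eq, sinh_neg, cosh_neg, mul_neg, neg_sq]
      ring
    linarith
  have hone : ∫ L, h L = √(π / t) := by
    rw [← integral_gaussian t]
    have hs : Function.Injective fun s => ν * sinh s := fun a b hab =>
      sinh_injective (mul_left_cancel₀ hν.ne' hab)
    have key := integral_image_eq_integral_abs_deriv_smul (s := univ) (f := fun s => ν * sinh s)
      (f' := fun s => ν * cosh s) MeasurableSet.univ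
      (fun x _ => ((hasDerivAt_sinh x).const_mul ν).hasDerivWithinAt) hs.injOn
      fun x : ℝ => exp (-t * x ^ 2)
    have himg : (fun s => ν * sinh s) '' univ = univ := by
      refine eq_univ_of_forall fun y => ⟨arsinh (y / ν), trivial, ?_⟩
      show ν * sinh (arsinh (y / ν)) = y
      rw [sinh_arsinh]
      field_simp
    rw [himg, setIntegral_univ, setIntegral_univ] at key
    rw [key]
    congr 1
    funext s
    rw [smul_eq_mul, abs_of_pos (mul_pos hν (cosh_pos s)), hh, gaussTest, prof_pos_eq, prof'_pos_eq]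
    ring_nf
  calc ∫ L, h L • (A + L • B) = ∫ L, (h L • A + (L * h L) • B) := by
        congr 1; funext L; rw [smul_add, smul_smul, mul_comm L]
    _ = _ := by
        rw [integral_add (hi.smul_const A) (hiL.smul_const B), integral_smul_const,
          integral_smul_const, hone, hodd, zero_smul, add_zero]

/-! ### Negative norm -/

/-- The derivative of the profile of negative norm. -/
theorem prof'_neg_eq (ν s : ℝ) : prof' (ν / 2) (ν / 2) s = ν * sinh s := by
  simp only [prof', sinh_eq]; ring

/-- The profile of negative norm is `ν cosh`. -/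
theorem prof_neg_eq (ν s : ℝ) : prof (ν / 2) (ν / 2) s = ν * cosh s := by
  simp only [prof, cosh_eq]; ring

/-- `∫ s exp (-t M(s)²) M'(s)` for negative norm. -/
def negMoment (ν t : ℝ) : ℝ := ∫ L, L * gaussTest (ν / 2) (ν / 2) t L

theorem exp_neg_prof_neg_le_gauss {ν t : ℝ} (ht : 0 ≤ t) (s : ℝ) :
    exp (-(t * prof (ν / 2) (ν / 2) s ^ 2)) ≤ exp (-(t * ν ^ 2 * s ^ 2)) := by
  refine exp_le_exp.mpr (neg_le_neg ?_)
  rw [prof_neg_eq, mul_pow, ← mul_assoc]
  exact mul_le_mul_of_nonneg_left (sq_le_cosh_sq s) (by positivity)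

theorem abs_gaussTest_neg_le {ν t : ℝ} (hν : 0 < ν) (ht : 0 ≤ t) (s : ℝ) :
    |gaussTest (ν / 2) (ν / 2) t s| ≤ ν * (exp (1 * |s|) * exp (-(t * ν ^ 2 * s ^ 2))) := by
  rw [gaussTest, prof'_neg_eq, abs_mul, abs_mul, abs_of_pos (exp_pos _), abs_of_pos hν, one_mul]
  refine (mul_le_mul (exp_neg_prof_neg_le_gauss ht s)
    (mul_le_mul_of_nonneg_left (abs_sinh_le_exp_abs s) hν.le) (by positivity)
    (exp_pos _).le).trans (le_of_eq (by ring))

theorem integrable_mul_gaussTest_neg {ν t : ℝ} (hν : 0 < ν) (ht : 0 < t) :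
    Integrable fun L => L * gaussTest (ν / 2) (ν / 2) t L := by
  refine integrable_of_gauss_bound ((continuous_id).mul (continuous_gaussTest _ _ _))
    (C := ν) (m := 2) (b := t * ν ^ 2) (by positivity) fun x => ?_
  rw [abs_mul]
  refine (mul_le_mul (abs_le_exp_abs x) (abs_gaussTest_neg_le hν ht.le x) (abs_nonneg _)
    (exp_pos _).le).trans (le_of_eq ?_)
  rw [show (2 : ℝ) * |x| = |x| + 1 * |x| by ring, exp_add]
  ring

/-- Gaussian moments along the profile of negative norm. -/
theorem integral_gaussTest_neg {ν t : ℝ} (hν : 0 < ν) (ht : 0 < t) (A B : ℂ) :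
    ∫ L, gaussTest (ν / 2) (ν / 2) t L • (A + L • B) = negMoment ν t • B := by
  set h := gaussTest (ν / 2) (ν / 2) t with hh
  have hi : Integrable h := integrable_of_gauss_bound (continuous_gaussTest _ _ _) (by positivity)
    (abs_gaussTest_neg_le hν ht.le)
  have hiL := integrable_mul_gaussTest_neg hν ht
  have hodd : ∫ L, h L = 0 := by
    have e : ∫ L, h L = -∫ L, h L := by
      conv_lhs => rw [← integral_neg_eq_self]
      rw [← integral_neg]
      congr 1
      funext L
      simp only [hh, gaussTest, prof_neg_eq, prof'_neg_eq, sinh_neg, cosh_neg, mul_neg]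
    linarith
  calc ∫ L, h L • (A + L • B) = ∫ L, (h L • A + (L * h L) • B) := by
        congr 1; funext L; rw [smul_add, smul_smul, mul_comm L]
    _ = _ := by
        rw [integral_add (hi.smul_const A) (hiL.smul_const B), integral_smul_const,
          integral_smul_const, hodd, zero_smul, zero_add, negMoment]

/-- `d/dt (√t ∫ s h_t) = - √π exp (-t ν²) / (2 t)`. -/
theorem hasDerivAt_sqrt_mul_negMoment {ν t : ℝ} (hν : 0 < ν) (ht : 0 < t) :
    HasDerivAt (fun t => √t * negMoment ν t) (-(√π * exp (-(t * ν ^ 2)) / (2 * t))) t := by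
  set α := ν / 2 with hα
  set M := prof α α with hM
  set M' := prof' α α with hM'
  set e : ℝ → ℝ := fun L => exp (-(t * M L ^ 2)) with he
  have hMc : Continuous M := continuous_prof _ _
  have hM'c : Continuous M' := by rw [hM']; unfold prof'; fun_prop
  have ht2 : 0 < t / 2 := half_pos ht
  -- differentiation under the integral sign
  have hbd : Integrable fun L => |L| * (M L ^ 2 * (|M' L| * exp (-(t / 2 * M L ^ 2)))) := by
    refine integrable_of_gauss_bound (by fun_prop) (C := ν ^ 2 * ν) (m := 4) (b := t / 2 * ν ^ 2)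
      (by positivity) fun x => ?_
    rw [abs_of_nonneg (by positivity), show (4 : ℝ) * |x| = |x| + (|x| + |x|) + |x| by ring,
      exp_add, exp_add, exp_add]
    have h2 : M x ^ 2 ≤ ν ^ 2 * (exp |x| * exp |x|) := by
      rw [hM, hα, prof_neg_eq, mul_pow, sq (cosh x)]
      exact mul_le_mul_of_nonneg_left (mul_le_mul (cosh_le_exp_abs x) (cosh_le_exp_abs x)
        (cosh_pos x).le (exp_pos _).le) (sq_nonneg ν)
    have h3 : |M' x| ≤ ν * exp |x| := by
      rw [hM', hα, prof'_neg_eq, abs_mul, abs_of_pos hν]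
      exact mul_le_mul_of_nonneg_left (abs_sinh_le_exp_abs x) hν.le
    calc |x| * (M x ^ 2 * (|M' x| * exp (-(t / 2 * M x ^ 2))))
        ≤ exp |x| * ((ν ^ 2 * (exp |x| * exp |x|))
            * ((ν * exp |x|) * exp (-(t / 2 * ν ^ 2 * x ^ 2)))) := by
          refine mul_le_mul (abs_le_exp_abs x) (mul_le_mul h2 (mul_le_mul h3
            (exp_neg_prof_neg_le_gauss ht2.le x) (exp_pos _).le (by positivity)) (by positivity)
            (by positivity)) (by positivity) (exp_pos _).le
      _ = _ := by ring
  have hD := hasDerivAt_integral_of_dominated_loc_of_deriv_le (μ := (volume : Measure ℝ))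
    (F := fun s L => L * gaussTest α α s L)
    (F' := fun s L => L * (-(M L ^ 2) * (exp (-(s * M L ^ 2)) * M' L)))
    (bound := fun L => |L| * (M L ^ 2 * (|M' L| * exp (-(t / 2 * M L ^ 2)))))
    (Ioi_mem_nhds (half_lt_self ht))
    (Eventually.of_forall fun s => ((continuous_id).mul
      (continuous_gaussTest _ _ _)).aestronglyMeasurable)
    (integrable_mul_gaussTest_neg hν ht)
    (Continuous.aestronglyMeasurable (by fun_prop))
    (Eventually.of_forall fun L s hs => by
      simp only [norm_mul, norm_neg, Real.norm_eq_abs, abs_exp, abs_pow, sq_abs]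
      rw [mul_comm (exp _) |M' L|]
      gcongr
      exact hs.le)
    hbd (Eventually.of_forall fun L s _ => by
      refine ((((hasDerivAt_id s).mul_const (M L ^ 2)).neg.exp).mul_const (M' L) |>.const_mul L)
        |>.congr_deriv ?_
      simp only [id, Pi.neg_apply]
      ring)
  -- integration by parts
  have hderiv : ∀ L, HasDerivAt (fun L => L * (M L * e L))
      (M L * e L + (L * (e L * M' L) - 2 * t * (L * (M L ^ 2 * (e L * M' L))))) L := by
    intro L
    have h1 : HasDerivAt M (M' L) L := hasDerivAt_prof _ _ L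
    have h2 : HasDerivAt e (exp (-(t * M L ^ 2)) * -(t * (2 * M L * M' L))) L := by
      refine (((h1.pow 2).const_mul t).neg.exp).congr_deriv ?_
      norm_num
    refine ((hasDerivAt_id L).mul (h1.mul h2)).congr_deriv ?_
    simp only [he, id, Pi.mul_apply]
    ring
  have hMe : Integrable fun L => M L * e L := by
    refine integrable_of_gauss_bound (by fun_prop) (C := ν) (m := 1) (b := t * ν ^ 2)
      (by positivity) fun x => ?_
    rw [abs_mul, he, abs_exp, one_mul, hM, hα, prof_neg_eq, abs_mul, abs_of_pos hν,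
      abs_of_pos (cosh_pos x), mul_assoc]
    refine mul_le_mul_of_nonneg_left (mul_le_mul (cosh_le_exp_abs x) ?_ (exp_pos _).le
      (exp_pos _).le) hν.le
    rw [← prof_neg_eq]
    exact exp_neg_prof_neg_le_gauss ht.le x
  have hLMe : Integrable fun L => L * (M L * e L) := by
    refine integrable_of_gauss_bound (by fun_prop) (C := ν) (m := 2) (b := t * ν ^ 2)
      (by positivity) fun x => ?_
    rw [abs_mul, abs_mul, he, abs_exp, show (2 : ℝ) * |x| = |x| + |x| by ring, exp_add]
    have hx : |M x| ≤ ν * exp |x| := by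
      rw [hM, hα, prof_neg_eq, abs_mul, abs_of_pos hν, abs_of_pos (cosh_pos x)]
      exact mul_le_mul_of_nonneg_left (cosh_le_exp_abs x) hν.le
    calc |x| * (|M x| * exp (-(t * M x ^ 2)))
        ≤ exp |x| * (ν * exp |x| * exp (-(t * ν ^ 2 * x ^ 2))) :=
          mul_le_mul (abs_le_exp_abs x) (mul_le_mul hx (exp_neg_prof_neg_le_gauss ht.le x)
            (exp_pos _).le (by positivity)) (by positivity) (exp_pos _).le
      _ = _ := by ring
  have hG : Integrable fun L => L * (e L * M' L) := integrable_mul_gaussTest_neg hν ht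
  have hG2 : Integrable fun L => L * (M L ^ 2 * (e L * M' L)) :=
    hD.1.neg.congr (Eventually.of_forall fun L => by simp only [Pi.neg_apply, he]; ring)
  have hGd : Integrable fun L => M L * e L + (L * (e L * M' L) - 2 * t * (L * (M L ^ 2 * (e L * M' L)))) :=
    hMe.add (hG.sub (hG2.const_mul _))
  have hibp := integral_eq_zero_of_hasDerivAt_of_integrable hderiv hGd hLMe
  have i2 : Integrable fun L => L * (e L * M' L) - 2 * t * (L * (M L ^ 2 * (e L * M' L))) :=
    hG.sub (hG2.const_mul _)
  rw [integral_add hMe i2, integral_sub hG (hG2.const_mul _), integral_const_mul] at hibp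
  -- the remaining Gaussian
  have hgauss : ∫ L, M L * e L = exp (-(t * ν ^ 2)) * √(π / t) := by
    have := integral_gaussTest_pos hν ht (1 : ℂ) 0
    simp only [smul_zero, add_zero, Complex.real_smul, mul_one] at this
    rw [integral_complex_ofReal] at this
    rw [← Complex.ofReal_injective this, ← integral_const_mul]
    congr 1
    funext L
    simp only [hM, he, hα, gaussTest, prof_pos_eq, prof'_pos_eq, prof_neg_eq]
    rw [← mul_assoc, ← exp_add, mul_comm]
    congr 1
    congr 1
    linear_combination (-(t * ν ^ 2)) * cosh_sq L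
  refine ((hasDerivAt_sqrt ht.ne').mul hD.2).congr_deriv ?_
  have e1 : ∫ L, L * (-(M L ^ 2) * (exp (-(t * M L ^ 2)) * M' L))
      = -∫ L, L * (M L ^ 2 * (e L * M' L)) := by
    rw [← integral_neg]; congr 1; funext L; simp only [he]; ring
  have e2 : negMoment ν t = ∫ L, L * (e L * M' L) := rfl
  rw [e1, show (∫ L, L * gaussTest α α t L) = ∫ L, L * (e L * M' L) from rfl]
  rw [hgauss, Real.sqrt_div' π ht.le] at hibp
  have hs : √t * √t = t := Real.mul_self_sqrt ht.le
  have hs0 : √t ≠ 0 := (Real.sqrt_pos.mpr ht).ne'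
  generalize (∫ L, L * (e L * M' L)) = I at hibp ⊢
  generalize (∫ L, L * (M L ^ 2 * (e L * M' L))) = K at hibp ⊢
  field_simp at hibp ⊢
  linear_combination √t * hibp - I * hs

/-! ### Norm zero -/

theorem integrable_exp_neg_half_abs : Integrable fun x : ℝ => exp (-(|x| / 2)) := by
  rw [← integrableOn_univ, ← Iic_union_Ioi (a := (0 : ℝ)), integrableOn_union]
  refine ⟨(integrableOn_exp_mul_Iic (by norm_num : (0 : ℝ) < 1 / 2) 0).congr_fun ?_ measurableSet_Iic,
    (integrableOn_exp_mul_Ioi (by norm_num : (-(1 / 2) : ℝ) < 0) 0).congr_fun ?_ measurableSet_Ioi⟩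
  · intro x hx
    show exp (1 / 2 * x) = exp (-(|x| / 2))
    rw [abs_of_nonpos (mem_Iic.mp hx)]; ring_nf
  · intro x hx
    show exp (-(1 / 2) * x) = exp (-(|x| / 2))
    rw [abs_of_pos (mem_Ioi.mp hx)]; ring_nf

theorem gaussTest_zero_eq (t s : ℝ) : gaussTest 1 0 t s = exp (-(t * exp s ^ 2)) * exp s := by
  simp [gaussTest, prof, prof']

theorem integrable_gaussTest_zero_one :
    Integrable (gaussTest 1 0 1) ∧ Integrable fun L => L * gaussTest 1 0 1 L := by
  have key : ∀ x : ℝ, (1 + |x|) * exp (-(1 * exp x ^ 2)) * exp x ≤ exp 8 * exp (-(|x| / 2)) := by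
    intro x
    have h1 : 1 + |x| ≤ 2 * exp (|x| / 2) := by
      have := add_one_le_exp (|x| / 2)
      nlinarith [abs_nonneg x]
    have h2 : (2 : ℝ) ≤ exp 1 := by linarith [add_one_le_exp (1 : ℝ)]
    have h3 : 1 + |x| ≤ exp (|x| / 2 + 1) := by
      rw [exp_add]; nlinarith [exp_pos (|x| / 2)]
    refine (mul_le_mul_of_nonneg_right (mul_le_mul_of_nonneg_right h3 (exp_pos _).le)
      (exp_pos _).le).trans ?_
    rw [← exp_add, ← exp_add, ← exp_add, exp_le_exp, ← exp_nat_mul]
    rcases le_total 0 x with hx | hx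
    · rw [abs_of_nonneg hx]
      have := quadratic_le_exp_of_nonneg (show (0 : ℝ) ≤ (2 : ℕ) * x by positivity)
      push_cast at *
      nlinarith
    · rw [abs_of_nonpos hx]
      have := exp_pos ((2 : ℕ) * x)
      push_cast at *
      linarith
  have hc := continuous_gaussTest 1 0 1
  constructor
  · refine (integrable_exp_neg_half_abs.const_mul (exp 8)).mono' hc.aestronglyMeasurable
      (Eventually.of_forall fun x => ?_)
    refine le_trans ?_ (key x)
    rw [gaussTest_zero_eq, Real.norm_eq_abs, abs_of_pos (by positivity), mul_assoc]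
    exact le_mul_of_one_le_left (by positivity) (by linarith [abs_nonneg x])
  · refine (integrable_exp_neg_half_abs.const_mul (exp 8)).mono'
      (continuous_id.mul hc).aestronglyMeasurable (Eventually.of_forall fun x => ?_)
    refine le_trans ?_ (key x)
    rw [gaussTest_zero_eq, Real.norm_eq_abs, abs_mul, abs_of_pos (mul_pos (exp_pos _) (exp_pos _)),
      mul_assoc (1 + |x|)]
    exact mul_le_mul_of_nonneg_right (by linarith) (by positivity)

/-- For norm zero the pairing is `(A' + B' log t) / √t`. -/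
theorem exists_integral_gaussTest_zero (A B : ℂ) : ∃ C₀ C₁ : ℂ, ∀ t : ℝ, 0 < t →
    √t • ∫ L, gaussTest 1 0 t L • (A + L • B) = C₀ + log t • C₁ := by
  obtain ⟨i1, i2⟩ := integrable_gaussTest_zero_one
  set I := ∫ L, gaussTest 1 0 1 L
  refine ⟨I • A + (∫ L, L * gaussTest 1 0 1 L) • B, (-I / 2) • B, fun t ht => ?_⟩
  set c := log t / 2 with hc
  have hec : exp c = √t := by rw [hc, ← log_sqrt ht.le, exp_log (Real.sqrt_pos.mpr ht)]
  have hsh : ∀ L, √t * gaussTest 1 0 t L = gaussTest 1 0 1 (L + c) := fun L => by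
    rw [gaussTest_zero_eq, gaussTest_zero_eq, exp_add, hec, mul_pow, Real.sq_sqrt ht.le]
    ring_nf
  rw [← integral_smul]
  calc ∫ L, √t • gaussTest 1 0 t L • (A + L • B)
      = ∫ L, gaussTest 1 0 1 (L + c) • (A + L • B) := by
        congr 1; funext L; rw [smul_smul, hsh]
    _ = ∫ L, gaussTest 1 0 1 L • (A + (L - c) • B) := by
        rw [← integral_add_right_eq_self (fun L => gaussTest 1 0 1 L • (A + (L - c) • B)) c]
        simp
    _ = ∫ L, ((gaussTest 1 0 1 L • A + (L * gaussTest 1 0 1 L) • B)
          - (c * gaussTest 1 0 1 L) • B) := by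
        congr 1; funext L; simp only [smul_add, sub_smul, smul_sub, smul_smul]; ring_nf
    _ = _ := by
        have hab : Integrable fun L => gaussTest 1 0 1 L • A + (L * gaussTest 1 0 1 L) • B :=
          (i1.smul_const A).add (i2.smul_const B)
        have hcB : Integrable fun L => (c * gaussTest 1 0 1 L) • B := (i1.const_mul c).smul_const B
        rw [integral_sub hab hcB, integral_add (i1.smul_const A) (i2.smul_const B),
          integral_smul_const, integral_smul_const, integral_smul_const, integral_const_mul,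
          smul_smul, sub_eq_add_neg, ← neg_smul]
        congr 2
        simp only [hc]; ring

end Fermat.Agent.LT.Lift
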