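import Fermat.Agent.LT.Lift.EigenLine
import Fermat.Agent.LT.Lift.GaussLine

/-!
# The coefficients of the lift

As functions of the height the coefficients are constant for positive norm, vanish for norm zero,
and have exponential derivative for negative norm.  The weight is orthogonal to constants.
-/

set_option autoImplicit false

noncomputable section

open MeasureTheory Real Filter Topology Set
open scoped ENNReal Matrix

namespace Fermat.Agent.LT.Lift

theorem cosh_add_le {x s : ℝ} (hs : |s| ≤ 1) : cosh (x + s) ≤ exp 1 * cosh x := by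
  have hc := cosh_pos x
  have h1 : |sinh x| ≤ cosh x := by rw [abs_sinh, ← cosh_abs]; exact (sinh_lt_cosh _).le
  calc cosh (x + s) = cosh x * cosh s + sinh x * sinh s := cosh_add x s
    _ ≤ cosh x * cosh |s| + cosh x * sinh |s| := by
        rw [cosh_abs]
        refine add_le_add le_rfl ((le_abs_self _).trans ?_)
        rw [abs_mul, abs_sinh s]
        exact mul_le_mul_of_nonneg_right h1 (sinh_nonneg_iff.mpr (abs_nonneg s))
    _ = cosh x * exp |s| := by rw [← mul_add, cosh_add_sinh]
    _ ≤ _ := by rw [mul_comm]; exact mul_le_mul_of_nonneg_right (exp_le_exp.mpr hs) hc.le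

theorem cosh_sq_div_le {x s : ℝ} (hs : |s| ≤ 1) : cosh x ^ 2 / exp 1 ^ 2 ≤ cosh (x + s) ^ 2 := by
  rw [div_le_iff₀ (by positivity), ← mul_pow]
  refine pow_le_pow_left₀ (cosh_pos x).le ?_ 2
  have := cosh_add_le (x := x + s) (s := -s) (by rwa [abs_neg])
  rw [add_neg_cancel_right] at this
  linarith

namespace Branch

variable {n : ℝ}

theorem admissible_gaussTest (B : Branch n) (t : ℝ) :
    Admissible B.odd (gaussTest B.α B.β t) := by
  intro hodd x
  have h0 := B.prof'_neg hodd 0
  simp only [prof', neg_zero, exp_zero, mul_one] at h0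
  have hαβ : B.α = B.β := by linarith
  simp only [gaussTest, prof, prof', hαβ, neg_neg]
  ring_nf

end Branch

variable [MeasurableSpace H3] [BorelSpace H3]
variable {G J : Type*} [Group G] [Countable G] [MulAction G J] [MulAction G H3]
  [Countable J] [MeasurableSpace J] [MeasurableSingletonClass J]
  {μ : Measure H3} [SigmaFinite μ] {c : ℝ≥0∞}

namespace LiftData

variable {n : ℝ}

/-- Absolute convergence of the vectors of norm `n`. -/
def Converges (D : LiftData G J μ c) (n : ℝ) : Prop :=
  ∀ t : ℝ, 0 < t → Integrable ((D.condSet n).indicator fun z =>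
    D.ω z.1 z.2 * ‖D.ψ z.1 z.2‖ * exp (-(t * mTrace (D.X z.1) z.2 ^ 2))) (jointMeasure J μ)

omit [Countable G] [Countable J] [MeasurableSpace J] [MeasurableSingletonClass J] [SigmaFinite μ] in
theorem prof_lineVar_sq (hμ : IsH3Measure μ c) (D : LiftData G J μ c) (B : Branch n) {z : J × H3}
    (hz : z ∈ D.condSet n) :
    prof B.α B.β (D.lineVar B z) ^ 2 = mTrace (D.X z.1) z.2 ^ 2 := by
  obtain ⟨hn, hX0⟩ := hz
  obtain ⟨σ, hσ, hσx, -⟩ := B.exists_sign (mTrace (D.X z.1) z.2)
  have h1 : 0 ≤ mTrace (D.X z.1) z.2 ^ 2 + n := by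
    conv_rhs => rw [← hn]
    exact mTrace_sq_add_nForm_nonneg hμ (D.hermitian _) _
  rw [LiftData.lineVar,
    B.prof_R _ h1 fun h0 => mTrace_ne_zero (D.hermitian _) (hn.trans h0) hX0 _, ← hσx]
  rcases hσ with rfl | rfl <;> ring

omit [BorelSpace H3] [Countable G] [Countable J] [MeasurableSpace J]
  [MeasurableSingletonClass J] [SigmaFinite μ] in
theorem norm_lineWeight (D : LiftData G J μ c) (B : Branch n) {z : J × H3}
    (hz : z ∈ D.condSet n) :
    ‖D.lineWeight B z‖
      = D.ω z.1 z.2 * ‖D.ψ z.1 z.2‖ / |prof' B.α B.β (D.lineVar B z)| := by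
  rw [lineWeight, indicator_of_mem hz, norm_smul, Real.norm_eq_abs, abs_div,
    abs_of_nonneg (D.ω_nonneg _ _)]
  ring

/-- The pairings with Gaussians are integrals against an affine function. -/
theorem exists_pairing_gauss_eq (hμ : IsH3Measure μ c) (hc : c ≠ 0) (D : LiftData G J μ c)
    (B : Branch n) (g : ℝ → ℝ) (hg : Continuous g) (hg0 : ∀ x, 0 < g x) (κ ε K : ℝ) (hε : 0 < ε)
    (h1 : ∀ x, originWeight B.odd x * g x ≤ κ * |prof' B.α B.β x|)
    (h2 : ∀ x s, |s| ≤ 1 → |prof' B.α B.β (x + s)| ≤ κ * g x)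
    (h3 : ∀ x s, |s| ≤ 1 → ε * prof B.α B.β x ^ 2 - K ≤ prof B.α B.β (x + s) ^ 2)
    (hconv : D.Converges n) :
    ∃ A Bc : ℂ, ∀ t : ℝ, 0 < t → D.pairing n (fun x => exp (-(t * x ^ 2)))
      = ∫ L, gaussTest B.α B.β t L • (A + L • Bc) := by
  have hκ : 0 ≤ κ := by
    have := (abs_nonneg _).trans (h2 0 0 (by simp))
    nlinarith [hg0 0]
  set w := D.lineWeight B
  set r := D.lineVar B
  have hwm : AEStronglyMeasurable w (jointMeasure J μ) :=
    (D.measurable_lineWeight B).aestronglyMeasurable
  have hrm : Measurable r := D.measurable_lineVar B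
  have hdiv : ∀ z, originWeight B.odd (r z) / |prof' B.α B.β (r z)| ≤ κ / g (r z) := by
    intro z
    rcases eq_or_ne (prof' B.α B.β (r z)) 0 with h0 | h0
    · rw [h0, abs_zero, div_zero]; exact div_nonneg hκ (hg0 _).le
    · rw [div_le_div_iff₀ (abs_pos.mpr h0) (hg0 _)]
      exact h1 _
  have hloc : ∀ R : ℝ, Integrable ({z | |r z| ≤ R}.indicator fun z =>
      originWeight B.odd (r z) • w z) (jointMeasure J μ) := by
    intro R
    rcases lt_or_ge R 0 with hR | hR
    · have : {z | |r z| ≤ R} = ∅ :=
        eq_empty_of_forall_notMem fun z hz => absurd (le_trans (abs_nonneg _) hz) (not_le.mpr hR)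
      rw [this, indicator_empty]
      exact integrable_zero _ _ _
    obtain ⟨x₀, hx₀, hmin⟩ := (isCompact_Icc (a := -R) (b := R)).exists_isMinOn
      (nonempty_Icc.mpr (by linarith)) hg.continuousOn
    obtain ⟨Q, hQ⟩ := (isCompact_Icc (a := -R) (b := R)).exists_bound_of_continuousOn
      ((continuous_prof B.α B.β).pow 2).continuousOn
    refine ((hconv 1 one_pos).const_mul (κ / g x₀ * exp Q)).mono'
      (((show Measurable fun z => originWeight B.odd (r z) by
        unfold originWeight; split_ifs <;> fun_prop).aestronglyMeasurable.smul hwm).indicator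
          (measurableSet_le (measurable_norm.comp hrm) measurable_const)) (Eventually.of_forall fun z => ?_)
    by_cases hz : |r z| ≤ R
    · rw [indicator_of_mem (s := {z | |r z| ≤ R}) hz, norm_smul, Real.norm_eq_abs,
        abs_of_nonneg (originWeight_nonneg _ _)]
      by_cases hzc : z ∈ D.condSet n
      · rw [indicator_of_mem hzc, D.norm_lineWeight B hzc, one_mul, ← D.prof_lineVar_sq hμ B hzc]
        have hmem : r z ∈ Icc (-R) R := abs_le.mp hz
        have e1 : κ / g (r z) ≤ κ / g x₀ := div_le_div_of_nonneg_left hκ (hg0 _) (hmin hmem)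
        have e2 : 1 ≤ exp Q * exp (-prof B.α B.β (r z) ^ 2) := by
          rw [← exp_add]
          refine one_le_exp ?_
          have := hQ _ hmem
          simp only [Pi.pow_apply, Real.norm_eq_abs, abs_pow, sq_abs] at this
          linarith
        calc originWeight B.odd (r z) * (D.ω z.1 z.2 * ‖D.ψ z.1 z.2‖ / |prof' B.α B.β (r z)|)
            = (originWeight B.odd (r z) / |prof' B.α B.β (r z)|)
                * (D.ω z.1 z.2 * ‖D.ψ z.1 z.2‖) := by ring
          _ ≤ κ / g x₀ * (D.ω z.1 z.2 * ‖D.ψ z.1 z.2‖) * 1 := by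
              rw [mul_one]
              exact mul_le_mul_of_nonneg_right ((hdiv z).trans e1)
                (mul_nonneg (D.ω_nonneg _ _) (norm_nonneg _))
          _ ≤ κ / g x₀ * (D.ω z.1 z.2 * ‖D.ψ z.1 z.2‖)
                * (exp Q * exp (-prof B.α B.β (r z) ^ 2)) :=
              mul_le_mul_of_nonneg_left e2 (mul_nonneg (div_nonneg hκ (hg0 _).le)
                (mul_nonneg (D.ω_nonneg _ _) (norm_nonneg _)))
          _ = _ := by ring
      · simp [indicator_of_notMem hzc, w, lineWeight]
    · rw [indicator_of_notMem (s := {z | |r z| ≤ R}) hz, norm_zero]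
      exact mul_nonneg (mul_nonneg (div_nonneg hκ (hg0 _).le) (exp_pos _).le)
        (indicator_nonneg (fun z _ => mul_nonneg (mul_nonneg (D.ω_nonneg _ _) (norm_nonneg _))
          (exp_pos _).le) z)
  obtain ⟨A, Bc, hAB⟩ := exists_affine_repr B.odd (jointMeasure J μ) w r hwm hrm hloc
    (D.ballEigen_lineWeight hμ hc B)
  refine ⟨A, Bc, fun t ht => ?_⟩
  set h := gaussTest B.α B.β t with hh
  have hhc : Continuous h := continuous_gaussTest _ _ _
  -- the integrand of the pairing
  have hval : (fun z => h (r z) • w z) =ᵐ[jointMeasure J μ] (D.condSet n).indicator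
      (fun z => (D.ω z.1 z.2 * exp (-(t * mTrace (D.X z.1) z.2 ^ 2))) • D.ψ z.1 z.2) := by
    filter_upwards [D.ae_prof'_ne_zero hμ B] with z hne
    by_cases hz : z ∈ D.condSet n
    · simp only [w, r, hh, gaussTest, lineWeight, indicator_of_mem hz, D.prof_lineVar_sq hμ B hz,
        smul_smul]
      congr 1
      field_simp [hne hz]
    · simp [w, lineWeight, indicator_of_notMem hz]
  have hi : Integrable (fun z => h (r z) • w z) (jointMeasure J μ) := by
    refine (hconv t ht).mono' ((hhc.measurable.comp hrm).aestronglyMeasurable.smul hwm) ?_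
    filter_upwards [hval] with z hz
    rw [hz]
    by_cases hzc : z ∈ D.condSet n
    · rw [indicator_of_mem hzc, indicator_of_mem hzc, norm_smul, Real.norm_eq_abs,
        abs_of_nonneg (mul_nonneg (D.ω_nonneg _ _) (exp_pos _).le)]
      exact le_of_eq (by ring)
    · simp [indicator_of_notMem hzc]
  have key := hAB h (fun x => κ * g x * exp (t * K) * exp (-(t * ε * prof B.α B.β x ^ 2)))
    (locallyLipschitz_gaussTest _ _ _) (B.admissible_gaussTest t) hi (fun x s hs => ?_) ?_
  · rw [← key, lineFun, integral_congr_ae hval, pairing]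
  · rw [hh, gaussTest, abs_mul, abs_exp, mul_comm]
    rw [mul_assoc (κ * g x), ← exp_add]
    refine mul_le_mul (h2 x s hs) (exp_le_exp.mpr ?_) (exp_pos _).le (mul_nonneg hκ (hg0 x).le)
    nlinarith [h3 x s hs]
  · refine ((hconv (t * ε) (by positivity)).const_mul (κ * κ * exp (t * K))).mono' ?_
      (Eventually.of_forall fun z => ?_)
    · have : Measurable fun x => originWeight B.odd x
          * (κ * g x * exp (t * K) * exp (-(t * ε * prof B.α B.β x ^ 2))) := by
        have := hg.measurable
        have := (continuous_prof B.α B.β).measurable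
        unfold originWeight; cases B.odd <;> simp <;> fun_prop
      exact (this.comp hrm).aestronglyMeasurable.mul hwm.norm
    · by_cases hzc : z ∈ D.condSet n
      · rw [indicator_of_mem hzc, D.norm_lineWeight B hzc, ← D.prof_lineVar_sq hμ B hzc,
          Real.norm_eq_abs]
        rw [abs_of_nonneg (mul_nonneg (mul_nonneg (originWeight_nonneg _ _)
          (mul_nonneg (mul_nonneg (mul_nonneg hκ (hg0 _).le) (exp_pos _).le) (exp_pos _).le))
          (div_nonneg (mul_nonneg (D.ω_nonneg _ _) (norm_nonneg _)) (abs_nonneg _)))]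
        have e1 : originWeight B.odd (r z) / |prof' B.α B.β (r z)| * g (r z) ≤ κ :=
          (mul_le_mul_of_nonneg_right (hdiv z) (hg0 _).le).trans_eq
            (div_mul_cancel₀ _ (hg0 _).ne')
        calc originWeight B.odd (r z) * (κ * g (r z) * exp (t * K)
              * exp (-(t * ε * prof B.α B.β (r z) ^ 2)))
              * (D.ω z.1 z.2 * ‖D.ψ z.1 z.2‖ / |prof' B.α B.β (r z)|)
            = (originWeight B.odd (r z) / |prof' B.α B.β (r z)| * g (r z))
                * (κ * exp (t * K) * exp (-(t * ε * prof B.α B.β (r z) ^ 2))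
                  * (D.ω z.1 z.2 * ‖D.ψ z.1 z.2‖)) := by ring
          _ ≤ κ * (κ * exp (t * K) * exp (-(t * ε * prof B.α B.β (r z) ^ 2))
                  * (D.ω z.1 z.2 * ‖D.ψ z.1 z.2‖)) :=
              mul_le_mul_of_nonneg_right e1 (mul_nonneg (mul_nonneg (mul_nonneg hκ (exp_pos _).le)
                (exp_pos _).le) (mul_nonneg (D.ω_nonneg _ _) (norm_nonneg _)))
          _ = _ := by ring
      · simp [w, lineWeight, indicator_of_notMem hzc]

/-- The coefficient of norm `n` at height `y`. -/
def coeff (D : LiftData G J μ c) (n y : ℝ) : ℂ :=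
  √y • D.pairing n fun x => exp (-(4 * π * y * x ^ 2))

/-- For positive norm the coefficient does not depend on the height. -/
theorem coeff_pos (hμ : IsH3Measure μ c) (hc : c ≠ 0) (D : LiftData G J μ c) (hn : 0 < n)
    (hconv : D.Converges n) {y : ℝ} (hy : 0 < y) : D.coeff n y = D.coeff n 1 := by
  have hν := Real.sqrt_pos.mpr hn
  set ν := √n with hνdef
  refine (D.exists_pairing_gauss_eq hμ hc (branchPos hn) cosh continuous_cosh
    cosh_pos (max ν⁻¹ (ν * exp 1)) (exp 1 ^ 2)⁻¹ n (by positivity) ?_ ?_ ?_ hconv).elim fun A hA => hA.elim fun Bc hAB => ?_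
  rotate_left 3
  · suffices h : ∀ y : ℝ, 0 < y → D.coeff n y = (√π / √(4 * π)) • A by rw [h y hy, h 1 one_pos]
    intro y hy
    rw [coeff, hAB _ (by positivity), show (branchPos hn).α = ν / 2 from rfl,
      show (branchPos hn).β = -(ν / 2) from rfl, integral_gaussTest_pos hν (by positivity), smul_smul]
    congr 1
    rw [Real.sqrt_div' _ (by positivity : (0 : ℝ) ≤ 4 * π * y), Real.sqrt_mul (by positivity)]
    field_simp
  · intro x
    rw [show (branchPos hn).odd = false from rfl, show (branchPos hn).α = ν / 2 from rfl,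
      show (branchPos hn).β = -(ν / 2) from rfl, prof'_pos_eq,
      abs_of_pos (mul_pos hν (cosh_pos x)), originWeight, if_neg Bool.false_ne_true, one_mul]
    calc cosh x = ν⁻¹ * (ν * cosh x) := by field_simp
      _ ≤ _ := mul_le_mul_of_nonneg_right (le_max_left _ _) (mul_pos hν (cosh_pos x)).le
  · intro x s hs
    rw [show (branchPos hn).α = ν / 2 from rfl, show (branchPos hn).β = -(ν / 2) from rfl,
      prof'_pos_eq, abs_of_pos (mul_pos hν (cosh_pos _))]
    refine (mul_le_mul_of_nonneg_left (cosh_add_le hs) hν.le).trans ?_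
    rw [← mul_assoc]
    exact mul_le_mul_of_nonneg_right (le_max_right _ _) (cosh_pos x).le
  · intro x s hs
    rw [show (branchPos hn).α = ν / 2 from rfl, show (branchPos hn).β = -(ν / 2) from rfl,
      prof_pos_eq, prof_pos_eq, mul_pow, mul_pow, hνdef, Real.sq_sqrt hn.le]
    have h := cosh_sq_div_le (x := x) hs
    rw [cosh_sq, cosh_sq, div_eq_inv_mul] at h
    have h0 : 0 ≤ (exp 1 ^ 2)⁻¹ := by positivity
    nlinarith [mul_le_mul_of_nonneg_left h hn.le, mul_nonneg h0 hn.le]

/-- For norm zero the coefficient vanishes. -/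
theorem coeff_zero (hμ : IsH3Measure μ c) (hc : c ≠ 0) (D : LiftData G J μ c)
    (hconv : D.Converges 0)
    (hsing : Integrable ((D.condSet 0).indicator fun z => D.ω z.1 z.2 * ‖D.ψ z.1 z.2‖
      * exp (-mTrace (D.X z.1) z.2 ^ 2) / |mTrace (D.X z.1) z.2|) (jointMeasure J μ))
    {y : ℝ} (hy : 0 < y) : D.coeff 0 y = 0 := by
  refine (D.exists_pairing_gauss_eq hμ hc branchZero exp continuous_exp exp_pos
    (exp 1) (exp 1 ^ 2)⁻¹ 0 (by positivity) ?_ ?_ ?_ hconv).elim fun A hA => hA.elim fun Bc hAB => ?_
  rotate_left 3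
  · obtain ⟨C₀, C₁, hC⟩ := exists_integral_gaussTest_zero A Bc
    set P : ℝ → ℂ := fun t => √t • D.pairing 0 fun x => exp (-(t * x ^ 2)) with hP
    have hPC : ∀ t : ℝ, 0 < t → P t = C₀ + log t • C₁ := fun t ht => by
      rw [hP, ← hC t ht]
      show √t • _ = _
      rw [hAB t ht]
      rfl
    -- decay as `t → ∞`
    have hlim : Tendsto P atTop (𝓝 0) := by
      have hconv2 : Tendsto (fun t : ℝ => ∫ z, (D.condSet 0).indicator (fun z =>
          (√t * (D.ω z.1 z.2 * exp (-(t * mTrace (D.X z.1) z.2 ^ 2)))) • D.ψ z.1 z.2) z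
            ∂jointMeasure J μ) atTop (𝓝 (∫ _ : J × H3, (0 : ℂ) ∂jointMeasure J μ)) := by
        refine tendsto_integral_filter_of_dominated_convergence
          ((D.condSet 0).indicator fun z => D.ω z.1 z.2 * ‖D.ψ z.1 z.2‖
            * exp (-mTrace (D.X z.1) z.2 ^ 2) / |mTrace (D.X z.1) z.2|) ?_ ?_ hsing ?_
        · refine Eventually.of_forall fun t => Measurable.aestronglyMeasurable ?_
          exact ((measurable_const.mul (D.measurable_part.mul
            ((measurable_const.mul (D.measurable_mTrace.pow_const 2)).neg.exp))).smul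
              D.measurable_weight).indicator (D.measurableSet_condSet 0)
        · filter_upwards [eventually_ge_atTop 2] with t ht
          refine Eventually.of_forall fun z => ?_
          by_cases hz : z ∈ D.condSet 0
          · rw [indicator_of_mem hz, indicator_of_mem hz, norm_smul, Real.norm_eq_abs]
            set m := mTrace (D.X z.1) z.2
            have hm : m ≠ 0 := mTrace_ne_zero (D.hermitian _) hz.1 hz.2 _
            have hω := D.ω_nonneg z.1 z.2
            rw [abs_of_nonneg (by positivity), le_div_iff₀ (abs_pos.mpr hm)]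
            have key : √t * |m| * exp (-(t * m ^ 2)) ≤ exp (-m ^ 2) := by
              set u := √t * |m| with hu
              have hu2 : u ^ 2 = t * m ^ 2 := by rw [hu, mul_pow, Real.sq_sqrt (by linarith), sq_abs]
              have h1 : u ≤ exp (u ^ 2 / 2) := by
                refine le_trans ?_ (add_one_le_exp _)
                nlinarith [sq_nonneg (u - 1)]
              refine (mul_le_mul_of_nonneg_right h1 (exp_pos _).le).trans ?_
              rw [← exp_add, exp_le_exp, hu2]
              nlinarith [sq_nonneg m]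
            calc √t * (D.ω z.1 z.2 * exp (-(t * m ^ 2))) * ‖D.ψ z.1 z.2‖ * |m|
                = D.ω z.1 z.2 * ‖D.ψ z.1 z.2‖ * (√t * |m| * exp (-(t * m ^ 2))) := by ring
              _ ≤ _ := mul_le_mul_of_nonneg_left key (by positivity)
          · simp [indicator_of_notMem hz]
        · refine Eventually.of_forall fun z => ?_
          by_cases hz : z ∈ D.condSet 0
          · simp only [indicator_of_mem hz]
            set m := mTrace (D.X z.1) z.2
            have hm : m ≠ 0 := mTrace_ne_zero (D.hermitian _) hz.1 hz.2 _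
            have h : Tendsto (fun t : ℝ => √t * exp (-(t * m ^ 2))) atTop (𝓝 0) := by
              have := tendsto_rpow_mul_exp_neg_mul_atTop_nhds_zero (1 / 2) (m ^ 2) (by positivity)
              refine this.congr fun t => ?_
              rw [Real.sqrt_eq_rpow]; ring_nf
            have := (h.mul_const (D.ω z.1 z.2)).smul_const (D.ψ z.1 z.2)
            simp only [zero_mul, zero_smul] at this
            exact this.congr fun t => by ring_nf
          · simp only [indicator_of_notMem hz]
            exact tendsto_const_nhds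
      rw [integral_zero] at hconv2
      refine hconv2.congr fun t => ?_
      rw [hP]
      show _ = √t • pairing D 0 _
      rw [pairing, ← integral_smul]
      congr 1
      funext z
      by_cases hz : z ∈ D.condSet 0
      · rw [indicator_of_mem hz, indicator_of_mem hz, smul_smul]
      · rw [indicator_of_notMem hz, indicator_of_notMem hz, smul_zero]
    have hC1 : C₁ = 0 := by
      have h4 : Tendsto (fun t => P (4 * t) - P t) atTop (𝓝 0) := by
        simpa using (hlim.comp (tendsto_id.const_mul_atTop (by norm_num : (0 : ℝ) < 4))).sub hlim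
      have : (fun t => P (4 * t) - P t) =ᶠ[atTop] fun _ => log 4 • C₁ := by
        filter_upwards [eventually_gt_atTop 0] with t ht
        rw [hPC _ (by positivity), hPC _ ht, log_mul (by norm_num) ht.ne', add_smul]
        abel
      exact (smul_eq_zero.mp (tendsto_nhds_unique (tendsto_const_nhds.congr' this.symm) h4)).resolve_left
        (log_pos (by norm_num)).ne'
    have hC0 : C₀ = 0 := by
      have : P =ᶠ[atTop] fun _ => C₀ := by
        filter_upwards [eventually_gt_atTop 0] with t ht
        simp [hPC _ ht, hC1]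
      exact tendsto_nhds_unique (tendsto_const_nhds.congr' this.symm) hlim
    have h := hPC (4 * π * y) (by positivity)
    rw [hC0, hC1, smul_zero, add_zero, hP] at h
    have h' : D.pairing 0 (fun x => exp (-(4 * π * y * x ^ 2))) = 0 :=
      (smul_eq_zero.mp h).resolve_left (by positivity)
    rw [coeff, h', smul_zero]
  · intro x
    rw [show branchZero.odd = false from rfl, show branchZero.α = 1 from rfl,
      show branchZero.β = 0 from rfl, (prof_zero_branch x).2, abs_of_pos (exp_pos x), originWeight,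
      if_neg Bool.false_ne_true, one_mul]
    exact le_mul_of_one_le_left (exp_pos x).le (one_le_exp zero_le_one)
  · intro x s hs
    rw [show branchZero.α = 1 from rfl, show branchZero.β = 0 from rfl,
      (prof_zero_branch _).2, abs_of_pos (exp_pos _), ← exp_add, exp_le_exp]
    linarith [(abs_le.mp hs).2]
  · intro x s hs
    rw [show branchZero.α = 1 from rfl, show branchZero.β = 0 from rfl,
      (prof_zero_branch _).1, (prof_zero_branch _).1, sub_zero, exp_add, ← div_eq_inv_mul,
      div_le_iff₀ (by positivity), ← mul_pow, mul_assoc, ← exp_add]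
    refine pow_le_pow_left₀ (exp_pos x).le ?_ 2
    exact le_mul_of_one_le_right (exp_pos x).le (one_le_exp (by linarith [(abs_le.mp hs).1]))

/-- For negative norm the derivative of the coefficient is exponential. -/
theorem coeff_neg (hμ : IsH3Measure μ c) (hc : c ≠ 0) (D : LiftData G J μ c) (hn : n < 0)
    (hconv : D.Converges n) :
    ∃ Bc : ℂ, (∀ y : ℝ, 0 < y → HasDerivAt (D.coeff n) ((exp (4 * π * n * y) / y) • Bc) y) ∧
      (Bc = 0 → ∀ y : ℝ, 0 < y → D.coeff n y = 0) := by
  have hν := Real.sqrt_pos.mpr (neg_pos.mpr hn)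
  set ν := √(-n) with hνdef
  refine (D.exists_pairing_gauss_eq hμ hc (branchNeg hn) cosh continuous_cosh
    cosh_pos (max ((cosh 1 + 2) / ν) (ν * exp 1)) (exp 1 ^ 2)⁻¹ 0 (by positivity) ?_ ?_ ?_ hconv).elim fun A hA => hA.elim fun Bc hAB => ?_
  rotate_left 3
  · have e : ∀ y : ℝ, 0 < y → D.coeff n y
        = (√(4 * π * y) * negMoment ν (4 * π * y) / √(4 * π)) • Bc := by
      intro y hy
      rw [coeff, hAB _ (by positivity), show (branchNeg hn).α = ν / 2 from rfl,
        show (branchNeg hn).β = ν / 2 from rfl, integral_gaussTest_neg hν (by positivity), smul_smul]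
      congr 1
      rw [Real.sqrt_mul (by positivity) y]
      field_simp
    refine ⟨(-(√π / (2 * √(4 * π)))) • Bc, fun y hy => ?_, fun h0 y hy => ?_⟩
    · have h1 := ((hasDerivAt_sqrt_mul_negMoment hν (t := 4 * π * y) (by positivity)).comp y
        ((hasDerivAt_id y).const_mul (4 * π))).div_const (√(4 * π))
      refine ((h1.smul_const Bc).congr_of_eventuallyEq ?_).congr_deriv ?_
      · filter_upwards [Ioi_mem_nhds hy] with u hu
        exact e u hu
      · rw [smul_smul]
        congr 1
        rw [hνdef, Real.sq_sqrt (neg_nonneg.mpr hn.le), mul_one,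
          show -(4 * π * y * -n) = 4 * π * n * y by ring]
        field_simp
    · have : Bc = 0 := (smul_eq_zero.mp h0).resolve_left (neg_ne_zero.mpr (by positivity))
      rw [e y hy, this, smul_zero]
  · intro x
    rw [show (branchNeg hn).odd = true from rfl, show (branchNeg hn).α = ν / 2 from rfl,
      show (branchNeg hn).β = ν / 2 from rfl, prof'_neg_eq, abs_mul, abs_of_pos hν, abs_sinh,
      originWeight, if_pos rfl]
    refine le_trans ?_ (mul_le_mul_of_nonneg_right (le_max_left _ _)
      (mul_nonneg hν.le (sinh_nonneg_iff.mpr (abs_nonneg x))))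
    rw [div_mul_eq_mul_div, le_div_iff₀ hν, ← mul_assoc, mul_comm (cosh 1 + 2) ν,
      mul_comm _ ν, mul_assoc ν]
    refine mul_le_mul_of_nonneg_left ?_ hν.le
    rcases le_total |x| 1 with hx | hx
    · rw [min_eq_left hx]
      calc |x| * cosh x ≤ sinh |x| * cosh 1 := mul_le_mul (self_le_sinh_iff.mpr (abs_nonneg x))
            (cosh_le_cosh.mpr (by rwa [abs_one])) (cosh_pos x).le (sinh_nonneg_iff.mpr (abs_nonneg x))
        _ ≤ _ := by nlinarith [sinh_nonneg_iff.mpr (abs_nonneg x)]
    · rw [min_eq_right hx, one_mul, ← cosh_abs x]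
      have h1 : 1 ≤ sinh |x| := (self_le_sinh_iff.mpr zero_le_one).trans (sinh_le_sinh.mpr hx)
      have h2 : cosh |x| = sinh |x| + exp (-|x|) := by rw [← cosh_sub_sinh]; ring
      have h3 : exp (-|x|) ≤ 1 := exp_le_one_iff.mpr (by linarith)
      nlinarith [cosh_pos 1]
  · intro x s hs
    rw [show (branchNeg hn).α = ν / 2 from rfl, show (branchNeg hn).β = ν / 2 from rfl,
      prof'_neg_eq, abs_mul, abs_of_pos hν]
    refine (mul_le_mul_of_nonneg_left ((show |sinh (x + s)| ≤ cosh (x + s) by
      rw [abs_sinh, ← cosh_abs]; exact (sinh_lt_cosh _).le).trans (cosh_add_le hs)) hν.le).trans ?_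
    rw [← mul_assoc]
    exact mul_le_mul_of_nonneg_right (le_max_right _ _) (cosh_pos x).le
  · intro x s hs
    rw [show (branchNeg hn).α = ν / 2 from rfl, show (branchNeg hn).β = ν / 2 from rfl,
      prof_neg_eq, prof_neg_eq, mul_pow, mul_pow, sub_zero, mul_left_comm, ← div_eq_inv_mul]
    exact mul_le_mul_of_nonneg_left (cosh_sq_div_le hs) (sq_nonneg ν)

omit [MeasurableSpace H3] [BorelSpace H3] in
theorem volume_axisSlice_ne_ballMass : ∃ ρ : ℝ, 0 < ρ ∧
    (volume (axisSlice ρ)).toReal ≠ ballMass ρ := by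
  refine ⟨12, by norm_num, ne_of_gt ?_⟩
  set Q := cosh 12 with hQ
  have hQ0 : 128 ≤ Q := by
    have h1 : (256 : ℝ) ≤ exp 12 := by
      rw [show (12 : ℝ) = (4 : ℕ) * 3 by norm_num, exp_nat_mul]
      calc (256 : ℝ) = 4 ^ 4 := by norm_num
        _ ≤ exp 3 ^ 4 := pow_le_pow_left₀ (by norm_num) (by linarith [add_one_le_exp (3 : ℝ)]) 4
    rw [hQ, cosh_eq]
    linarith [exp_pos (-12 : ℝ)]
  have hmass : ballMass 12 ≤ 24 * Q := by
    calc ballMass 12 = ∫ s in Icc (-12 : ℝ) 12, ballKer 12 s :=
          (setIntegral_eq_integral_of_forall_compl_eq_zero fun s hs => ballKer_eq_zero (by norm_num)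
            (not_lt.mp fun h => hs (mem_Icc.mpr ⟨(abs_lt.mp h).1.le, (abs_lt.mp h).2.le⟩))).symm
      _ ≤ ∫ _s in Icc (-12 : ℝ) 12, Q := setIntegral_mono_on
          (continuous_ballKer 12).continuousOn.integrableOn_Icc
          (integrableOn_const measure_Icc_lt_top.ne) measurableSet_Icc fun s _ =>
            max_le (by linarith [cosh_pos s]) (cosh_pos 12).le
      _ = 24 * Q := by
          rw [setIntegral_const, Real.volume_real_Icc_of_le (by norm_num), smul_eq_mul]
          norm_num
  have hbox : Icc (Q / 2) Q ×ˢ Icc (-(Q / 4)) (Q / 4) ⊆ axisSlice 12 := by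
    rintro ⟨q, u⟩ ⟨hq, hu⟩
    have hu2 : u ^ 2 ≤ (Q / 4) ^ 2 := sq_le_sq' hu.1 hu.2
    have hq2 : (Q / 2) ^ 2 ≤ q ^ 2 := pow_le_pow_left₀ (by linarith) hq.1 2
    refine ⟨by linarith [hq.1], ?_, hq.2⟩
    show u ^ 2 ≤ q ^ 2 - 1
    nlinarith
  have hfin : volume (axisSlice 12) ≠ ∞ := ((measure_mono (axisSlice_subset 12)).trans_lt
    (isCompact_Icc.prod isCompact_Icc).measure_lt_top).ne
  have h2 := ENNReal.toReal_mono hfin (measure_mono (μ := (volume : Measure (ℝ × ℝ))) hbox)
  rw [Measure.volume_eq_prod, Measure.prod_prod, Real.volume_Icc, Real.volume_Icc,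
    ENNReal.toReal_mul, ENNReal.toReal_ofReal (by linarith), ENNReal.toReal_ofReal (by linarith),
    ← Measure.volume_eq_prod] at h2
  nlinarith

/-- The weight is orthogonal to constants: the zero vector does not contribute. -/
theorem integral_zero_vector (hμ : IsH3Measure μ c) (hc : c ≠ 0) (D : LiftData G J μ c)
    (hint : Integrable ({z : J × H3 | D.X z.1 = 0}.indicator fun z =>
      D.ω z.1 z.2 * ‖D.ψ z.1 z.2‖) (jointMeasure J μ)) :
    ∫ z, {z : J × H3 | D.X z.1 = 0}.indicator (fun z => D.ω z.1 z.2 • D.ψ z.1 z.2) z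
      ∂jointMeasure J μ = 0 := by
  obtain ⟨ρ, hρ, hne⟩ := volume_axisSlice_ne_ballMass
  set S := {z : J × H3 | D.X z.1 = 0} with hS
  set V := (volume (axisSlice ρ)).toReal
  have hfin : volume (axisSlice ρ) ≠ ∞ := ((measure_mono (axisSlice_subset ρ)).trans_lt
    (isCompact_Icc.prod isCompact_Icc).measure_lt_top).ne
  have hvol : ∀ P : H3, ∫ _Q in {Q | H3.cdist P Q ≤ cosh ρ}, (1 : ℝ) ∂μ = c.toReal * V ∧
      IntegrableOn (fun _ => (1 : ℝ)) {Q | H3.cdist P Q ≤ cosh ρ} μ := fun P => by
    obtain ⟨δ, -, h1, h2⟩ := setIntegral_ball_eq hμ (Matrix.isHermitian_zero) P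
      (f := fun _ => (1 : ℝ)) measurable_const ρ
    refine ⟨?_, h2 (integrableOn_const hfin)⟩
    rw [h1, setIntegral_const, smul_eq_mul, mul_one]
    rfl
  set F : J → H3 → ℝ := fun j _ => {j | D.X j = 0}.indicator (fun _ => (1 : ℝ)) j with hF
  have hFb : ∀ z : J × H3, ∫ Q in {Q | H3.cdist z.2 Q ≤ cosh ρ}, F z.1 Q ∂μ
      = S.indicator (fun _ => c.toReal * V) z := fun z => by
    by_cases hz : D.X z.1 = 0
    · simp only [hF, indicator_of_mem (show z.1 ∈ {j | D.X j = 0} from hz),
        indicator_of_mem (show z ∈ S from hz)]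
      exact (hvol z.2).1
    · simp only [hF, indicator_of_notMem (show z.1 ∉ {j | D.X j = 0} from hz),
        indicator_of_notMem (show z ∉ S from hz), integral_zero]
  have key := ball_adjoint D hρ (F := F) (fun j => measurable_const) (fun g j P => ?_)
    (fun j P => ?_) ?_
  · have e1 : ∀ z : J × H3,
        (D.ω z.1 z.2 * ∫ Q in {Q | H3.cdist z.2 Q ≤ cosh ρ}, F z.1 Q ∂μ) • D.ψ z.1 z.2
          = (c.toReal * V) • S.indicator (fun z => D.ω z.1 z.2 • D.ψ z.1 z.2) z := fun z => by
      rw [hFb]
      by_cases hz : z ∈ S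
      · rw [indicator_of_mem hz, indicator_of_mem hz, smul_smul, mul_comm (D.ω _ _)]
      · simp [indicator_of_notMem hz]
    have e2 : ∀ z : J × H3, (D.ω z.1 z.2 * F z.1 z.2) • D.ψ z.1 z.2
        = S.indicator (fun z => D.ω z.1 z.2 • D.ψ z.1 z.2) z := fun z => by
      by_cases hz : D.X z.1 = 0
      · simp [hF, hS, hz]
      · simp [hF, hS, hz]
    simp only [e1, e2, integral_smul] at key
    have hc' : c.toReal ≠ 0 := (ENNReal.toReal_pos hc hμ.ne_top).ne'
    rw [← sub_eq_zero, ← sub_smul, ← mul_sub] at key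
    exact (smul_eq_zero.mp key).resolve_left (mul_ne_zero hc' (sub_ne_zero.mpr hne))
  · simp only [hF]
    by_cases hz : D.X j = 0
    · rw [indicator_of_mem (show g • j ∈ {j | D.X j = 0} from
        not_not.mp (mt (D.smul_ne_zero_iff g j).mp (not_not.mpr hz))),
        indicator_of_mem (show j ∈ {j | D.X j = 0} from hz)]
    · rw [indicator_of_notMem (show g • j ∉ {j | D.X j = 0} from (D.smul_ne_zero_iff g j).mpr hz),
        indicator_of_notMem (show j ∉ {j | D.X j = 0} from hz)]
  · simp only [hF]
    by_cases hz : D.X j = 0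
    · simp only [indicator_of_mem (show j ∈ {j | D.X j = 0} from hz)]
      exact (hvol P).2
    · simp only [indicator_of_notMem (show j ∉ {j | D.X j = 0} from hz)]
      exact integrableOn_zero
  · refine (hint.const_mul (c.toReal * V)).congr (Eventually.of_forall fun z => ?_)
    have hab : ∀ Q, |F z.1 Q| = F z.1 Q := fun Q =>
      abs_of_nonneg (indicator_nonneg (fun _ _ => zero_le_one) _)
    simp only [hab, hFb]
    by_cases hz : z ∈ S
    · rw [indicator_of_mem hz, indicator_of_mem hz]; ring
    · simp [indicator_of_notMem hz]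

end LiftData

end Fermat.Agent.LT.Lift
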