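import Fermat.Agent.LT.Lift.Radial
import Fermat.Agent.LT.H3.Coord
import Mathlib.Analysis.SpecialFunctions.Exp
import Mathlib.Analysis.SpecificLimits.Basic

/-!
# Gaussian sums over separated sets, uniformly in the centre
-/

set_option autoImplicit false

noncomputable section

open scoped ENNReal

namespace Fermat.Agent.LT.Lift

/-- The bound for a one dimensional Gaussian sum with spacing `1` and rate `b`. -/
def gaussBound (b : ℝ) : ℝ := 2 * Real.exp (1 / 4) * (1 + 1 / Real.sqrt b)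

/-- The Gaussian bound is nonnegative. -/
theorem gaussBound_nonneg (b : ℝ) : 0 ≤ gaussBound b := by
  unfold gaussBound; positivity

theorem tsum_gauss_nat_le {b : ℝ} (hb : 0 < b) :
    ∑' c : Bool × ℕ, ENNReal.ofReal (Real.exp (-(b * (c.2 : ℝ) ^ 2)))
      ≤ ENNReal.ofReal (gaussBound b) := by
  set r := Real.sqrt b with hr
  have hr0 : 0 < r := Real.sqrt_pos.mpr hb
  have hb' : b = r ^ 2 := (Real.sq_sqrt hb.le).symm
  set q := Real.exp (-r) with hq
  have hq0 : 0 < q := Real.exp_pos _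
  have hq1 : q < 1 := Real.exp_lt_one_iff.mpr (by linarith)
  have hle : ∀ n : ℕ, ENNReal.ofReal (Real.exp (-(b * (n : ℝ) ^ 2))) ≤
      ENNReal.ofReal (Real.exp (1 / 4) * q ^ n) := fun n => by
    refine ENNReal.ofReal_le_ofReal ?_
    rw [hq, ← Real.exp_nat_mul, ← Real.exp_add, Real.exp_le_exp, hb']
    nlinarith [sq_nonneg (r * n - 1 / 2)]
  have hgeo : ∑' n : ℕ, ENNReal.ofReal (Real.exp (1 / 4) * q ^ n) ≤
      ENNReal.ofReal (Real.exp (1 / 4) * (1 + 1 / r)) := by
    rw [← ENNReal.ofReal_tsum_of_nonneg (fun n => by positivity)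
      ((summable_geometric_of_lt_one hq0.le hq1).mul_left _), tsum_mul_left,
      tsum_geometric_of_lt_one hq0.le hq1]
    refine ENNReal.ofReal_le_ofReal (mul_le_mul_of_nonneg_left ?_ (Real.exp_pos _).le)
    rw [inv_le_iff_one_le_mul₀ (by linarith)]
    have h1 : q * (1 + r) ≤ 1 := by
      rw [hq, Real.exp_neg, inv_mul_le_iff₀ (Real.exp_pos r), mul_one]
      linarith [Real.add_one_le_exp r]
    have h2 : (1 + 1 / r) * (1 - q) = (1 - q) * (1 + r) / r := by field_simp; ring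
    rw [h2, le_div_iff₀ hr0]
    nlinarith
  calc ∑' c : Bool × ℕ, ENNReal.ofReal (Real.exp (-(b * (c.2 : ℝ) ^ 2)))
      = ∑' (_ : Bool) (n : ℕ), ENNReal.ofReal (Real.exp (-(b * (n : ℝ) ^ 2))) := ENNReal.tsum_prod'
    _ ≤ ∑' (_ : Bool), ENNReal.ofReal (Real.exp (1 / 4) * (1 + 1 / r)) :=
        ENNReal.tsum_le_tsum fun _ => (ENNReal.tsum_le_tsum hle).trans hgeo
    _ = _ := by
        rw [tsum_bool, ← two_mul, gaussBound, mul_assoc,
          ENNReal.ofReal_mul (p := (2 : ℝ)) two_pos.le]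
        norm_num [hr]

/-- The cell of a real number in the grid of width `δ`. -/
def cell (δ x : ℝ) : Bool × ℕ := (decide (0 ≤ x), ⌊|x| / δ⌋₊)

theorem cell_sq_le {δ : ℝ} (hδ : 0 < δ) (x : ℝ) : δ ^ 2 * ((cell δ x).2 : ℝ) ^ 2 ≤ x ^ 2 := by
  rw [← mul_pow, ← sq_abs x]
  refine pow_le_pow_left₀ (by positivity) ?_ 2
  rw [mul_comm, ← le_div_iff₀ hδ]
  exact Nat.floor_le (by positivity)

theorem abs_sub_lt_of_cell_eq {δ x y : ℝ} (hδ : 0 < δ) (h : cell δ x = cell δ y) :
    |x - y| < δ := by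
  obtain ⟨hs, hn⟩ := Prod.mk.inj h
  have a1 := Nat.floor_le (a := |x| / δ) (by positivity)
  have a2 := Nat.lt_floor_add_one (|x| / δ)
  have b1 := Nat.floor_le (a := |y| / δ) (by positivity)
  have b2 := Nat.lt_floor_add_one (|y| / δ)
  rw [hn] at a1 a2
  rw [le_div_iff₀ hδ] at a1 b1
  rw [div_lt_iff₀ hδ] at a2 b2
  rw [decide_eq_decide] at hs
  rcases le_or_gt 0 x with hx | hx
  · rw [abs_of_nonneg hx] at a1 a2
    rw [abs_of_nonneg (hs.mp hx)] at a1 a2 b1 b2
    rw [abs_lt]; constructor <;> nlinarith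
  · rw [abs_of_neg hx] at a1 a2
    rw [abs_of_neg (not_le.mp fun hy => not_le.mpr hx (hs.mpr hy))] at a1 a2 b1 b2
    rw [abs_lt]; constructor <;> nlinarith

/-- A Gaussian sum over a separated family of real numbers, uniformly in the centre. -/
theorem tsum_gauss_real_le {ι : Type*} (f : ι → ℝ) {δ a : ℝ} (hδ : 0 < δ) (ha : 0 < a)
    (hsep : ∀ i j, i ≠ j → δ ≤ |f i - f j|) (x₀ : ℝ) :
    ∑' i, ENNReal.ofReal (Real.exp (-(a * (f i - x₀) ^ 2)))
      ≤ ENNReal.ofReal (gaussBound (a * δ ^ 2)) := by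
  have hinj : Function.Injective fun i => cell δ (f i - x₀) := fun i j h => by
    by_contra hne
    have h1 := abs_sub_lt_of_cell_eq hδ h
    rw [sub_sub_sub_cancel_right] at h1
    exact (hsep i j hne).not_gt h1
  refine le_trans (ENNReal.tsum_le_tsum fun i => ?_) ((ENNReal.tsum_comp_le_tsum_of_injective hinj
    fun c => ENNReal.ofReal (Real.exp (-(a * δ ^ 2 * (c.2 : ℝ) ^ 2)))).trans
      (tsum_gauss_nat_le (by positivity)))
  refine ENNReal.ofReal_le_ofReal (Real.exp_le_exp.mpr (neg_le_neg ?_))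
  rw [mul_assoc]
  exact mul_le_mul_of_nonneg_left (cell_sq_le hδ _) ha.le

/-- A Gaussian sum over a separated family of complex numbers, uniformly in the centre. -/
theorem tsum_gauss_complex_le {ι : Type*} (f : ι → ℂ) {δ a : ℝ} (hδ : 0 < δ) (ha : 0 < a)
    (hsep : ∀ i j, i ≠ j → δ ≤ ‖f i - f j‖) (z₀ : ℂ) :
    ∑' i, ENNReal.ofReal (Real.exp (-(a * ‖f i - z₀‖ ^ 2)))
      ≤ ENNReal.ofReal (gaussBound (a * (δ / 2) ^ 2) ^ 2) := by
  set b := a * (δ / 2) ^ 2 with hb
  have hb0 : 0 < b := by positivity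
  let g : Bool × ℕ → ℝ≥0∞ := fun c => ENNReal.ofReal (Real.exp (-(b * (c.2 : ℝ) ^ 2)))
  have hinj : Function.Injective fun i =>
      (cell (δ / 2) (f i - z₀).re, cell (δ / 2) (f i - z₀).im) := fun i j h => by
    by_contra hne
    obtain ⟨h1, h2⟩ := Prod.mk.inj h
    have e1 := abs_sub_lt_of_cell_eq (half_pos hδ) h1
    have e2 := abs_sub_lt_of_cell_eq (half_pos hδ) h2
    have h3 := Complex.norm_le_abs_re_add_abs_im (f i - f j)
    simp only [Complex.sub_re, Complex.sub_im, sub_sub_sub_cancel_right] at e1 e2 h3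
    linarith [hsep i j hne]
  calc ∑' i, ENNReal.ofReal (Real.exp (-(a * ‖f i - z₀‖ ^ 2)))
      ≤ ∑' i, g (cell (δ / 2) (f i - z₀).re) * g (cell (δ / 2) (f i - z₀).im) := by
        refine ENNReal.tsum_le_tsum fun i => ?_
        rw [← ENNReal.ofReal_mul (Real.exp_pos _).le, ← Real.exp_add]
        refine ENNReal.ofReal_le_ofReal (Real.exp_le_exp.mpr ?_)
        rw [← Complex.normSq_eq_norm_sq, Complex.normSq_apply, hb]
        have h1 := mul_le_mul_of_nonneg_left (cell_sq_le (half_pos hδ) (f i - z₀).re) ha.le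
        have h2 := mul_le_mul_of_nonneg_left (cell_sq_le (half_pos hδ) (f i - z₀).im) ha.le
        nlinarith
    _ ≤ ∑' c : (Bool × ℕ) × (Bool × ℕ), g c.1 * g c.2 :=
        ENNReal.tsum_comp_le_tsum_of_injective hinj fun c => g c.1 * g c.2
    _ = (∑' c, g c) * ∑' c, g c := by
        rw [ENNReal.tsum_prod (f := fun x y => g x * g y)]
        simp only [ENNReal.tsum_mul_left, ENNReal.tsum_mul_right]
    _ ≤ _ := by
        rw [sq, ENNReal.ofReal_mul (gaussBound_nonneg b)]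
        exact mul_le_mul' (tsum_gauss_nat_le hb0) (tsum_gauss_nat_le hb0)

/-- The Gaussian bound under scaling of the spacing. -/
theorem gaussBound_mul_sq {a r : ℝ} (hr : 0 < r) :
    gaussBound (a * r ^ 2) ≤ gaussBound a * (1 + 1 / r) := by
  have h : 1 / Real.sqrt (a * r ^ 2) = 1 / Real.sqrt a * (1 / r) := by
    rw [Real.sqrt_mul' a (sq_nonneg r), Real.sqrt_sq hr.le, div_mul_div_comm, one_mul]
  rw [gaussBound, gaussBound, h, mul_assoc (2 * Real.exp (1 / 4))]
  refine mul_le_mul_of_nonneg_left ?_ (by positivity)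
  have h1 : 0 ≤ 1 / Real.sqrt a := by positivity
  have h2 : 0 < 1 / r := by positivity
  nlinarith

/-- The majorant in cusp coordinates. -/
theorem nForm_add_two_mTrace_sq (P : H3) (p q : ℝ) (w : ℂ) :
    nForm !![(p : ℂ), w; (starRingEnd ℂ) w, (q : ℂ)]
        + 2 * mTrace !![(p : ℂ), w; (starRingEnd ℂ) w, (q : ℂ)] P ^ 2
      = ‖w - q * H3.zc P‖ ^ 2 + ((p - (2 * (H3.zc P * (starRingEnd ℂ) w).re
          - Complex.normSq (H3.zc P) * q)) ^ 2 / H3.tc P ^ 2 + H3.tc P ^ 2 * q ^ 2) / 2 := by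
  have ht := H3.tc_pos P
  have hP : P.mat = _ := (congrArg H3.mat (H3.pt_coord P)).symm.trans (H3.mat_pt (H3.zc P) ht)
  rw [mTrace_eq, hP, nForm, ← Complex.normSq_eq_norm_sq]
  generalize H3.tc P = t at ht ⊢
  generalize H3.zc P = z
  simp only [Matrix.det_fin_two, Matrix.of_apply, Matrix.cons_val', Matrix.cons_val_zero,
    Matrix.cons_val_one, Matrix.cons_val_fin_one, Complex.normSq_apply, Complex.add_re,
    Complex.add_im, Complex.sub_re, Complex.sub_im, Complex.mul_re, Complex.mul_im,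
    Complex.ofReal_re, Complex.ofReal_im, Complex.conj_re, Complex.conj_im,
    Complex.div_ofReal_re, Complex.div_ofReal_im, ← Complex.ofReal_inv, ← Complex.ofReal_pow]
  field_simp
  ring

end Fermat.Agent.LT.Lift
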