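import Fermat.Agent.LT.Lift.Adelic
import Fermat.Agent.LT.Lift.ThetaGrowth
import Fermat.Agent.LT.Decay.Siegel
import Fermat.Agent.LT.Reduction.Units
import Fermat.Agent.LT.Geometric.DenBound

/-!
# The convergence hypotheses of the lift

For a bounded weight supported on adelic matrices with bounded denominators the theta majorant is
`O (height)` on Siegel sets, and the sum at the null vectors is `O (height²)`.
-/

set_option autoImplicit false

noncomputable section

open MeasureTheory Matrix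
open scoped Classical ENNReal NumberField
open NumberField (InfinitePlace IsTotallyComplex)

namespace Fermat.Agent.LT.Lift

open LiftHecke

variable {K : Type*} [Field K] [NumberField K] {Fr : HermFrame K} {U : Level K}
  {C : NormScale Fr U}

/-- A bounded weight, supported on matrices with bounded denominators. -/
structure IsBoundedWeight (W : ThetaWeight Fr C) : Prop where
  bounded : ∃ B : ℝ, ∀ Y, ‖W.Φ Y‖ ≤ B
  support : ∃ M : ℕ, 0 < M ∧ ∀ Y, W.Φ Y ≠ 0 → ∀ i j, (M : FinAdele K) * Y i j ∈ integralAdele K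

variable {W : ThetaWeight Fr C}

/-- The Hermitian matrices in the support at `g` have bounded denominators. -/
theorem exists_den_support (hW : IsBoundedWeight W) (g : GLFin K) :
    ∃ M : ℕ, 0 < M ∧ ∀ X : Fr.Herm, W.Φ (ThetaWeight.arg g X) ≠ 0 → ∀ i j,
      ∃ o : 𝓞 K, (o : K) = (M : K) * X.1 i j := by
  obtain ⟨M₀, hM₀, hsupp⟩ := hW.support
  obtain ⟨d, hd, hdi⟩ := Reduction.exists_denominator (fun p : Fin 2 × Fin 2 => g.val p.1 p.2)
  refine ⟨d * M₀ * d, by positivity, fun X hX i j => Reduction.exists_integer_of_finIncl_mem ?_⟩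
  set τ := (finMap Fr.σ).toRingHom
  have hback : hermAct τ g.val (ThetaWeight.arg g X) = X.1.map (finIncl K) := by
    rw [ThetaWeight.arg, ← hermAct_mul, ← Units.val_mul, mul_inv_cancel, Units.val_one]
    simp [hermAct]
  have hτ : ∀ a b, (d : FinAdele K) * τ (g.val a b) ∈ integralAdele K := fun a b => by
    have := Geometric.finMap_mem_integralAdele Fr.σ (hdi (a, b))
    rwa [map_mul, map_natCast] at this
  rw [map_mul, map_natCast,
    show finIncl K (X.1 i j) = (hermAct τ g.val (ThetaWeight.arg g X)) i j from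
      (congrFun (congrFun hback i) j).symm]
  simp only [hermAct, Matrix.mul_apply, Matrix.transpose_apply, Matrix.map_apply, Finset.mul_sum,
    Finset.sum_mul]
  refine sum_mem fun l _ => sum_mem fun q _ => ?_
  rw [show ((d * M₀ * d : ℕ) : FinAdele K) *
      (g.val i q * ThetaWeight.arg g X q l * τ (g.val j l)) =
    ((d : FinAdele K) * g.val i q) * ((M₀ : FinAdele K) * ThetaWeight.arg g X q l) *
      ((d : FinAdele K) * τ (g.val j l)) by push_cast; ring]
  exact mul_mem (mul_mem (hdi (i, q)) (hsupp _ hX q l)) (hτ j l)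

variable [IsTotallyComplex K] [Unique (InfinitePlace K)]

/-- Elements of bounded denominator are separated. -/
theorem inv_le_norm_sub {M : ℕ} (hM : 0 < M) (e : K →+* ℂ) {x y : K}
    (hx : ∃ o : 𝓞 K, (o : K) = (M : K) * x) (hy : ∃ o : 𝓞 K, (o : K) = (M : K) * y) (h : x ≠ y) :
    ((M : ℝ))⁻¹ ≤ ‖e x - e y‖ := by
  obtain ⟨a, ha⟩ := hx
  obtain ⟨b, hb⟩ := hy
  have h1 := Reduction.inv_pow_le_prod (sub_ne_zero.mpr h) hM (o := a - b)
    (by push_cast [ha, hb]; ring)
  rw [Fintype.card_unique, pow_one, Fintype.prod_unique,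
    Subsingleton.elim (default : InfinitePlace K) (InfinitePlace.mk e), InfinitePlace.apply,
    map_sub] at h1
  exact h1

/-- The constant of the bound. -/
def growthConst (s δ : ℝ) : ℝ :=
  gaussBound (s / 2 * δ ^ 2) ^ 2 * gaussBound (s * (δ / 2) ^ 2) ^ 2

/-- **Growth of the theta majorant.** -/
theorem tsum_majorant_le (X₀ : ℝ) (hX₀ : 0 < X₀) {M : ℕ} (hM : 0 < M) {s : ℝ} (hs : 0 < s)
    (S : Set Fr.Herm) (hS : ∀ X ∈ S, ∀ i j, ∃ o : 𝓞 K, (o : K) = (M : K) * X.1 i j) (P : H3)
    (c : ℚ) (hc : √(c : ℝ) = X₀) :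
    ∑' X : S, ENNReal.ofReal (Real.exp (-(s * (nForm (Fr.normVec c X.1)
        + 2 * mTrace (Fr.normVec c X.1) P ^ 2))))
      ≤ ENNReal.ofReal (growthConst s (X₀⁻¹ * (M : ℝ)⁻¹) *
          ((1 + H3.tc P) * (1 + 1 / H3.tc P))) := by
  set t := H3.tc P with ht'
  have ht : 0 < t := H3.tc_pos P
  set z := H3.zc P with hz'
  set δ := X₀⁻¹ * (M : ℝ)⁻¹ with hδ'
  have hδ : 0 < δ := by positivity
  let R := {x : K // (∃ o : 𝓞 K, (o : K) = (M : K) * x) ∧ Fr.σ x = x}
  let L := {x : K // ∃ o : 𝓞 K, (o : K) = (M : K) * x}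
  let fR : R → ℝ := fun x => X₀⁻¹ * (Fr.e x.1).re
  let fL : L → ℂ := fun x => ((X₀⁻¹ : ℝ) : ℂ) * Fr.e x.1
  have him : ∀ x : R, (Fr.e x.1).im = 0 := fun x => by
    have h := congrArg Fr.e x.2.2
    rw [Fr.conj_e] at h
    exact Complex.conj_eq_iff_im.mp h
  have hR : ∀ x y : R, x ≠ y → δ ≤ |fR x - fR y| := fun x y h => by
    have h1 := inv_le_norm_sub hM Fr.e x.2.1 y.2.1 fun he => h (Subtype.ext he)
    rw [show Fr.e x.1 - Fr.e y.1 = (((Fr.e x.1).re - (Fr.e y.1).re : ℝ) : ℂ) from
      Complex.ext (by simp) (by simp [him]), Complex.norm_real, Real.norm_eq_abs] at h1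
    rw [← mul_sub, abs_mul, abs_of_pos (inv_pos.mpr hX₀), hδ']
    exact mul_le_mul_of_nonneg_left h1 (inv_pos.mpr hX₀).le
  have hL : ∀ x y : L, x ≠ y → δ ≤ ‖fL x - fL y‖ := fun x y h => by
    rw [← mul_sub, norm_mul, Complex.norm_real, Real.norm_of_nonneg (inv_pos.mpr hX₀).le, hδ']
    exact mul_le_mul_of_nonneg_left
      (inv_le_norm_sub hM Fr.e x.2 y.2 fun he => h (Subtype.ext he)) (inv_pos.mpr hX₀).le
  have hσ : ∀ (X : Fr.Herm) i j, Fr.σ (X.1 i j) = X.1 j i := fun X i j =>
    congrFun (congrFun X.2 j) i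
  let emb : S → R × (L × R) := fun X =>
    (⟨X.1.1 1 1, hS X.1 X.2 1 1, hσ X.1 1 1⟩, ⟨X.1.1 0 1, hS X.1 X.2 0 1⟩,
      ⟨X.1.1 0 0, hS X.1 X.2 0 0, hσ X.1 0 0⟩)
  have hemb : Function.Injective emb := fun X Y h => by
    simp only [emb, Prod.mk.injEq] at h
    obtain ⟨h11, h01, h00⟩ := h
    refine Subtype.ext (Subtype.ext (Matrix.ext fun i j => ?_))
    fin_cases i <;> fin_cases j
    · exact congrArg Subtype.val h00
    · exact congrArg Subtype.val h01
    · exact ((hσ X.1 0 1).symm.trans (congrArg Fr.σ (congrArg Subtype.val h01))).trans (hσ Y.1 0 1)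
    · exact congrArg Subtype.val h11
  let cen : R → L → ℝ := fun q w =>
    2 * (z * (starRingEnd ℂ) (fL w)).re - Complex.normSq z * fR q
  let A : R → ℝ≥0∞ := fun q => ENNReal.ofReal (Real.exp (-(s * t ^ 2 / 2 * (fR q - 0) ^ 2)))
  let B : R → L → ℝ≥0∞ := fun q w =>
    ENNReal.ofReal (Real.exp (-(s * ‖fL w - (fR q : ℂ) * z‖ ^ 2)))
  let D : R → L → R → ℝ≥0∞ := fun q w p =>
    ENNReal.ofReal (Real.exp (-(s / (2 * t ^ 2) * (fR p - cen q w) ^ 2)))
  have hval : ∀ X : S, ENNReal.ofReal (Real.exp (-(s * (nForm (Fr.normVec c X.1)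
      + 2 * mTrace (Fr.normVec c X.1) P ^ 2)))) =
        A (emb X).1 * B (emb X).1 (emb X).2.1 * D (emb X).1 (emb X).2.1 (emb X).2.2 := by
    intro X
    have hv : Fr.normVec c X.1 = !![(fR (emb X).2.2 : ℂ), fL (emb X).2.1;
        (starRingEnd ℂ) (fL (emb X).2.1), (fR (emb X).1 : ℂ)] := by
      ext i j
      simp only [HermFrame.normVec, hc, Matrix.smul_apply, Matrix.map_apply, smul_eq_mul]
      have hd : ∀ x : R, ((X₀⁻¹ : ℝ) : ℂ) * Fr.e x.1 = (fR x : ℂ) := fun x =>
        Complex.ext (by simp [fR]) (by simp [fR, him x])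
      fin_cases i <;> fin_cases j
      · exact hd (emb X).2.2
      · rfl
      · show _ = (starRingEnd ℂ) (((X₀⁻¹ : ℝ) : ℂ) * Fr.e (X.1.1 0 1))
        rw [map_mul, Complex.conj_ofReal, ← Fr.conj_e, hσ]
        rfl
      · exact hd (emb X).1
    rw [hv, nForm_add_two_mTrace_sq, ← ENNReal.ofReal_mul (Real.exp_pos _).le, ← Real.exp_add,
      ← ENNReal.ofReal_mul (Real.exp_pos _).le, ← Real.exp_add]
    congr 2
    simp only [cen, ← ht', ← hz']
    field_simp
    ring
  simp only [hval]
  refine le_trans (ENNReal.tsum_comp_le_tsum_of_injective hemb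
    fun x : R × (L × R) => A x.1 * B x.1 x.2.1 * D x.1 x.2.1 x.2.2) ?_
  rw [ENNReal.tsum_prod']
  simp only [ENNReal.tsum_prod', mul_assoc, ENNReal.tsum_mul_left]
  set a := s / 2 * δ ^ 2 with ha
  have ha0 : 0 < a := by positivity
  calc ∑' q, A q * ∑' w, B q w * ∑' p, D q w p
      ≤ ∑' q, A q * ∑' w, B q w * ENNReal.ofReal (gaussBound a * (1 + t)) := by
        refine ENNReal.tsum_le_tsum fun q => mul_le_mul' le_rfl (ENNReal.tsum_le_tsum fun w =>
          mul_le_mul' le_rfl ?_)
        refine (tsum_gauss_real_le fR hδ (by positivity) hR (cen q w)).trans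
          (ENNReal.ofReal_le_ofReal ?_)
        have h := gaussBound_mul_sq (a := a) (inv_pos.mpr ht)
        rw [one_div, inv_inv] at h
        refine le_trans (le_of_eq ?_) h
        rw [ha]; congr 1; field_simp
    _ ≤ ∑' q, A q * (ENNReal.ofReal (gaussBound (s * (δ / 2) ^ 2) ^ 2) *
          ENNReal.ofReal (gaussBound a * (1 + t))) := by
        refine ENNReal.tsum_le_tsum fun q => mul_le_mul' le_rfl ?_
        rw [ENNReal.tsum_mul_right]
        exact mul_le_mul' (tsum_gauss_complex_le fL hδ hs hL _) le_rfl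
    _ = (∑' q, A q) * (ENNReal.ofReal (gaussBound (s * (δ / 2) ^ 2) ^ 2) *
          ENNReal.ofReal (gaussBound a * (1 + t))) := ENNReal.tsum_mul_right
    _ ≤ ENNReal.ofReal (gaussBound a * (1 + 1 / t)) *
          (ENNReal.ofReal (gaussBound (s * (δ / 2) ^ 2) ^ 2) *
            ENNReal.ofReal (gaussBound a * (1 + t))) := by
        refine mul_le_mul' ((tsum_gauss_real_le fR hδ (by positivity) hR 0).trans
          (ENNReal.ofReal_le_ofReal (le_trans (le_of_eq ?_) (gaussBound_mul_sq (a := a) ht)))) le_rfl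
        rw [ha]; congr 1; ring
    _ = _ := by
        have h1 := gaussBound_nonneg a
        rw [← ENNReal.ofReal_mul (by positivity), ← ENNReal.ofReal_mul (by positivity), growthConst,
          ← ha]
        congr 1
        ring

/-- The majorant at `g` is summable, with a uniform bound in the point. -/
theorem exists_tsum_majTerm_le (hW : IsBoundedWeight W) {s : ℝ} (hs : 0 < s) (g : GLFin K) :
    ∃ K₀ : ℝ, 0 ≤ K₀ ∧ ∀ P, Summable (majTerm W s P g) ∧
      ∑' X, majTerm W s P g X ≤ K₀ * ((1 + H3.tc P) * (1 + 1 / H3.tc P)) := by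
  obtain ⟨B, hB⟩ := hW.bounded
  have hB0 : 0 ≤ B := (norm_nonneg _).trans (hB 0)
  obtain ⟨M, hM, hden⟩ := exists_den_support hW g
  have hc : (0 : ℝ) < C.c g := by exact_mod_cast C.pos g
  set δ := (√(C.c g : ℝ))⁻¹ * (M : ℝ)⁻¹
  refine ⟨B * growthConst s δ, mul_nonneg hB0 (mul_nonneg (sq_nonneg _) (sq_nonneg _)), fun P => ?_⟩
  set S : Set Fr.Herm := {X | W.Φ (ThetaWeight.arg g X) ≠ 0}
  have hsupp : Function.support (fun X => ENNReal.ofReal (majTerm W s P g X)) ⊆ S := fun X hX h0 =>
    hX (by simp [majTerm, h0])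
  have ht := H3.tc_pos P
  have hb : ∑' X, ENNReal.ofReal (majTerm W s P g X) ≤
      ENNReal.ofReal (B * growthConst s δ * ((1 + H3.tc P) * (1 + 1 / H3.tc P))) := by
    rw [← tsum_subtype_eq_of_support_subset hsupp, mul_assoc, ENNReal.ofReal_mul hB0]
    refine le_trans (ENNReal.tsum_le_tsum fun X : S => ?_) ((ENNReal.tsum_mul_left).trans_le
      (mul_le_mul' le_rfl (tsum_majorant_le _ (Real.sqrt_pos.mpr hc) hM hs S hden P _ rfl)))
    rw [← ENNReal.ofReal_mul hB0, majTerm]
    exact ENNReal.ofReal_le_ofReal (mul_le_mul_of_nonneg_right (hB _) (Real.exp_pos _).le)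
  have hne := ne_top_of_le_ne_top ENNReal.ofReal_ne_top hb
  have hsum : Summable (majTerm W s P g) := (ENNReal.summable_toReal hne).congr fun X =>
    ENNReal.toReal_ofReal (majTerm_nonneg W s P g X)
  refine ⟨hsum, ?_⟩
  rw [← ENNReal.ofReal_tsum_of_nonneg (majTerm_nonneg W s P g) hsum] at hb
  exact (ENNReal.ofReal_le_ofReal_iff (mul_nonneg (mul_nonneg hB0
    (mul_nonneg (sq_nonneg _) (sq_nonneg _))) (by positivity))).mp hb

/-- At a null vector the trace is bounded below. -/
theorem exists_null_bound (hW : IsBoundedWeight W) (g : GLFin K) :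
    ∃ L : ℝ, 0 ≤ L ∧ ∀ P X, nullTerm W P g X ≤
      L * (H3.tc P + 1 / H3.tc P) * majTerm W (1 / 2) P g X := by
  obtain ⟨M, hM, hden⟩ := exists_den_support hW g
  have hc : (0 : ℝ) < C.c g := by exact_mod_cast C.pos g
  set X₀ := √(C.c g : ℝ) with hX₀
  have hX0 : 0 < X₀ := Real.sqrt_pos.mpr hc
  set δ := X₀⁻¹ * (M : ℝ)⁻¹ with hδ
  have hδ0 : 0 < δ := by positivity
  refine ⟨2 / δ, by positivity, fun P X => ?_⟩
  have ht := H3.tc_pos P
  rw [nullTerm]
  split_ifs with hn
  swap; · exact mul_nonneg (by positivity) (majTerm_nonneg W _ P g X)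
  obtain ⟨hn0, hv0⟩ := hn
  rcases eq_or_ne (W.Φ (ThetaWeight.arg g X)) 0 with h0 | h0
  · rw [h0, norm_zero, zero_mul]
    exact mul_nonneg (by positivity) (majTerm_nonneg W _ P g X)
  set v := Fr.normVec (C.c g) X with hv
  have hvh : v.IsHermitian := Fr.isHermitian_normVec _ _
  have hm0 : mTrace v P ≠ 0 := mTrace_ne_zero hvh hn0 hv0 P
  have hreal : ∀ i, v i i = ((v i i).re : ℂ) := fun i =>
    (Complex.conj_eq_iff_re.mp (hvh.apply i i)).symm
  have hvform : v = !![((v 0 0).re : ℂ), v 0 1; (starRingEnd ℂ) (v 0 1), ((v 1 1).re : ℂ)] := by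
    ext i j
    fin_cases i <;> fin_cases j
    · exact hreal 0
    · rfl
    · exact (hvh.apply 1 0).symm
    · exact hreal 1
  have hsep : ∀ i j, v i j ≠ 0 → δ ≤ ‖v i j‖ := by
    intro i j hij
    have hx : X.1 i j ≠ 0 := fun h => hij (by simp [hv, HermFrame.normVec, h])
    have h1 := inv_le_norm_sub hM Fr.e (hden X h0 i j) ⟨0, by simp⟩ hx
    rw [map_zero, sub_zero] at h1
    rw [hv, HermFrame.normVec, Matrix.smul_apply, Matrix.map_apply, smul_eq_mul, norm_mul,
      Complex.norm_real, Real.norm_of_nonneg (inv_pos.mpr hX0).le, hδ]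
    exact mul_le_mul_of_nonneg_left h1 (inv_pos.mpr hX0).le
  have hkey := nForm_add_two_mTrace_sq P (v 0 0).re (v 1 1).re (v 0 1)
  rw [← hvform, hn0, zero_add] at hkey
  have habs : ∀ i, v i i ≠ 0 → δ ^ 2 ≤ (v i i).re ^ 2 := fun i hi => by
    have := hsep i i hi
    rw [hreal i, Complex.norm_real, Real.norm_eq_abs] at this
    rw [← sq_abs (v i i).re]
    exact pow_le_pow_left₀ hδ0.le this 2
  have hlow : δ ^ 2 / (4 * (H3.tc P + 1 / H3.tc P) ^ 2) ≤ mTrace v P ^ 2 := by
    have hu1 : H3.tc P ≤ H3.tc P + 1 / H3.tc P := le_add_of_nonneg_right (by positivity)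
    have hu2 : 1 / H3.tc P ≤ H3.tc P + 1 / H3.tc P := le_add_of_nonneg_left ht.le
    set u := H3.tc P + 1 / H3.tc P
    set z := H3.zc P
    set t := H3.tc P
    have hu : 0 < u := lt_of_lt_of_le ht hu1
    have hdet : ‖v 0 1‖ ^ 2 = (v 0 0).re * (v 1 1).re := by
      have hn' := hn0
      rw [hvform, nForm, Matrix.det_fin_two_of, Complex.mul_conj'] at hn'
      simp [← Complex.ofReal_pow] at hn'
      linarith
    rw [div_le_iff₀ (by positivity)]
    by_cases hq : v 1 1 = 0
    · have hq' : (v 1 1).re = 0 := by simp [hq]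
      have hw : v 0 1 = 0 := by
        rw [hq', mul_zero] at hdet
        simpa using hdet
      have hp : v 0 0 ≠ 0 := fun hp => hv0 (by
        rw [hvform]; ext i j; fin_cases i <;> fin_cases j <;> simp [hq', hw, hp])
      simp only [hq', hw] at hkey
      norm_num at hkey
      have h1 := habs 0 hp
      field_simp at hkey
      nlinarith [mul_le_mul_of_nonneg_left (pow_le_pow_left₀ ht.le hu1 2)
        (sq_nonneg (mTrace v P))]
    · have h1 := habs 1 hq
      have h2 : 1 ≤ (u * t) ^ 2 := by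
        rw [div_le_iff₀ ht] at hu2
        nlinarith
      have hge : t ^ 2 * (v 1 1).re ^ 2 / 2 ≤ 2 * mTrace v P ^ 2 := by
        rw [hkey]
        have : 0 ≤ ((v 0 0).re - (2 * (z * (starRingEnd ℂ) (v 0 1)).re
          - Complex.normSq z * (v 1 1).re)) ^ 2 / t ^ 2 := by positivity
        nlinarith [sq_nonneg ‖v 0 1 - (v 1 1).re * z‖]
      nlinarith [mul_le_mul h1 h2 zero_le_one (sq_nonneg (v 1 1).re),
        mul_le_mul_of_nonneg_left hge (sq_nonneg u)]
  have hinv : 1 / |mTrace v P| ≤ 2 / δ * (H3.tc P + 1 / H3.tc P) := by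
    set u := H3.tc P + 1 / H3.tc P
    have hu : 0 < u := by positivity
    have h1 : δ / (2 * u) ≤ |mTrace v P| := by
      rw [← abs_of_pos (show 0 < δ / (2 * u) by positivity)]
      refine sq_le_sq.mp (le_trans (le_of_eq ?_) hlow)
      ring
    refine (one_div_le_one_div_of_le (by positivity) h1).trans (le_of_eq ?_)
    field_simp
  rw [majTerm, hn0, zero_add, show -((1 : ℝ) / 2 * (2 * mTrace v P ^ 2)) = -mTrace v P ^ 2 by ring,
    show Real.exp (-mTrace v P ^ 2) / |mTrace v P| =
      1 / |mTrace v P| * Real.exp (-mTrace v P ^ 2) by ring]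
  calc ‖W.Φ (ThetaWeight.arg g X)‖ * (1 / |mTrace v P| * Real.exp (-mTrace v P ^ 2))
      ≤ ‖W.Φ (ThetaWeight.arg g X)‖ *
          (2 / δ * (H3.tc P + 1 / H3.tc P) * Real.exp (-mTrace v P ^ 2)) := by gcongr
    _ = _ := by ring

variable {π : PartitionOfUnity U} {R : Finset (GLFin K)} {A B b : ℝ}

omit [IsTotallyComplex K] in
theorem height_eq_tc (y : Y U) : Reduction.height y = H3.tc (y.1 default) := by
  rw [Reduction.height, Fintype.prod_unique]

omit [IsTotallyComplex K] in
theorem measurable_coset_sum {T : H3 → GLFin K → Fr.Herm → ℝ}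
    (hT : ∀ g X, Measurable fun P => T P g X) :
    Measurable fun y : Y U => ∑' X, T (y.1 default) y.2.out X := by
  have := ThetaWeight.countable_herm Fr
  refine measurable_from_prod_countable_left fun c => ?_
  exact (Measurable.tsum fun X => hT _ X : Measurable fun P => ∑' X, T P c.out X).comp
    (measurable_pi_apply _)

omit [IsTotallyComplex K] [Unique (InfinitePlace K)] in
theorem measurable_majTerm (W : ThetaWeight Fr C) (s : ℝ) (g : GLFin K) (X : Fr.Herm) :
    Measurable fun P => majTerm W s P g X := by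
  unfold majTerm
  exact ((((continuous_mTrace _).measurable.pow_const 2).const_mul 2).const_add _ |>.const_mul s
    |>.neg.exp).const_mul _

omit [IsTotallyComplex K] [Unique (InfinitePlace K)] in
theorem measurable_nullTerm (W : ThetaWeight Fr C) (g : GLFin K) (X : Fr.Herm) :
    Measurable fun P => nullTerm W P g X := by
  unfold nullTerm
  split_ifs
  · exact (((continuous_mTrace _).measurable.pow_const 2).neg.exp.div
      (continuous_mTrace _).measurable.abs).const_mul _
  · exact measurable_const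

omit [IsTotallyComplex K] [Unique (InfinitePlace K)] in
/-- A uniform constant for the finitely many cosets of a Siegel set. -/
theorem exists_uniform {f : GLFin K → ℝ → Prop} (h : ∀ g, ∃ L, 0 ≤ L ∧ f g L)
    (hmono : ∀ g L L', L ≤ L' → f g L → f g L') (R : Finset (GLFin K)) :
    ∃ L, 0 ≤ L ∧ ∀ y : Y U, (∃ r ∈ R, y.2 = QuotientGroup.mk r) → f y.2.out L := by
  choose L hL hf using h
  refine ⟨∑ r ∈ R, L (QuotientGroup.mk r : GLFin K ⧸ U.toSubgroup).out,
    Finset.sum_nonneg fun r _ => hL _, fun y ⟨r, hr, hy⟩ => ?_⟩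
  rw [hy]
  exact hmono _ _ _ (Finset.single_le_sum
    (f := fun r => L (QuotientGroup.mk r : GLFin K ⧸ U.toSubgroup).out) (fun r _ => hL _) hr) (hf _)

/-- The theta majorant is summable and integrable against the weight. -/
theorem thetaBound_of_siegel (hW : IsBoundedWeight W) (hπm : Measurable π.weight) (hb : 0 < b)
    (hπ : ∀ y, π.weight y ≤ (Reduction.siegel U R A B b).indicator (fun _ => 1) y) :
    ThetaBound W π := by
  refine ⟨fun s hs P g => ((exists_tsum_majTerm_le hW hs g).choose_spec.2 P).1, fun s hs => ?_⟩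
  obtain ⟨L, hL, hLy⟩ := exists_uniform (U := U)
    (f := fun g L => ∀ P, ∑' X, majTerm W s P g X ≤ L * ((1 + H3.tc P) * (1 + 1 / H3.tc P)))
    (fun g => by
      obtain ⟨L, hL, h⟩ := exists_tsum_majTerm_le hW hs g
      exact ⟨L, hL, fun P => (h P).2⟩)
    (fun g L L' hle h P => (h P).trans (mul_le_mul_of_nonneg_right hle (by
      have := H3.tc_pos P; positivity))) R
  refine Decay.integrable_of_siegel_le (R := R) (A := A) (B := B) (b := b) (α := 1)
    (K := L * ((1 / b + 1) * (1 + 1 / b)))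
    (hπm.mul (measurable_coset_sum (measurable_majTerm W s))).aestronglyMeasurable one_lt_two hb
    (fun y hy => ?_) fun y hy => ?_
  · have h := hπ y
    rw [Set.indicator_of_notMem hy] at h
    simp [le_antisymm h (π.nonneg y)]
  · have h1 := hπ y
    rw [Set.indicator_of_mem hy] at h1
    have hnn : 0 ≤ majY W s y := tsum_nonneg fun X => majTerm_nonneg W s _ _ X
    rw [Real.norm_of_nonneg (mul_nonneg (π.nonneg y) hnn)]
    refine (mul_le_of_le_one_left hnn h1).trans ((hLy y hy.2 _).trans ?_)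
    rw [Real.rpow_one, height_eq_tc, mul_assoc L]
    have hbt : b ≤ H3.tc (y.1 default) := (hy.1 default).1
    have ht := H3.tc_pos (y.1 default)
    refine mul_le_mul_of_nonneg_left ?_ hL
    set t := H3.tc (y.1 default)
    calc (1 + t) * (1 + 1 / t) ≤ ((1 / b + 1) * t) * (1 + 1 / b) := by
          refine mul_le_mul ?_ ?_ (by positivity) (by positivity)
          · rw [add_mul, one_mul, div_mul_eq_mul_div, one_mul]
            linarith [(one_le_div hb).mpr hbt]
          · gcongr
      _ = _ := by ring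

/-- The sum at the null vectors is integrable against the weight and the cusp form. -/
theorem nullBound_of_siegel (hW : IsBoundedWeight W) {φ : Y U → ℂ}
    (hφ : Whittaker.IsCuspEigen φ) (hπm : Measurable π.weight) (hb : 0 < b)
    (hπ : ∀ y, π.weight y ≤ (Reduction.siegel U R A B b).indicator (fun _ => 1) y) :
    NullBound W π φ := by
  have hnn : ∀ P g X, 0 ≤ nullTerm W P g X := fun P g X => by
    unfold nullTerm; split_ifs <;> positivity
  have hnull : ∀ g, ∃ L, 0 ≤ L ∧ ∀ P, Summable (nullTerm W P g) ∧ ∑' X, nullTerm W P g X ≤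
      L * ((H3.tc P + 1 / H3.tc P) * ((1 + H3.tc P) * (1 + 1 / H3.tc P))) := by
    intro g
    obtain ⟨L, hL, hle⟩ := exists_null_bound hW g
    obtain ⟨L', hL', h'⟩ := exists_tsum_majTerm_le hW (one_half_pos (α := ℝ)) g
    refine ⟨L * L', mul_nonneg hL hL', fun P => ?_⟩
    have hs := ((h' P).1).mul_left (L * (H3.tc P + 1 / H3.tc P))
    have hsum : Summable (nullTerm W P g) :=
      .of_nonneg_of_le (hnn P g) (hle P) hs
    refine ⟨hsum, (hsum.tsum_le_tsum (hle P) hs).trans ?_⟩
    rw [tsum_mul_left]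
    have ht := H3.tc_pos P
    refine (mul_le_mul_of_nonneg_left (h' P).2 (by positivity)).trans (le_of_eq ?_)
    ring
  refine ⟨fun P g => ((hnull g).choose_spec.2 P).1, ?_⟩
  obtain ⟨L, hL, hLy⟩ := exists_uniform (U := U)
    (f := fun g L => ∀ P, ∑' X, nullTerm W P g X ≤
      L * ((H3.tc P + 1 / H3.tc P) * ((1 + H3.tc P) * (1 + 1 / H3.tc P))))
    (fun g => by
      obtain ⟨L, hL, h⟩ := hnull g
      exact ⟨L, hL, fun P => (h P).2⟩)
    (fun g L L' hle h P => (h P).trans (mul_le_mul_of_nonneg_right hle (by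
      have := H3.tc_pos P; positivity))) R
  set f : Y U → ℂ := fun y => ((∑' X, nullTerm W (y.1 default) y.2.out X : ℝ) : ℂ)
  have h := (Decay.integrable_weight_mul hφ hπm hb hπ (f := f)
    (Complex.measurable_ofReal.comp
      (measurable_coset_sum (measurable_nullTerm W))).aestronglyMeasurable
    (α := 2) (K := L * ((1 + 1 / b ^ 2) * ((1 / b + 1) * (1 + 1 / b)))) fun y hy => ?_).norm
  · refine h.congr (Filter.Eventually.of_forall fun y => ?_)
    simp only [f, norm_smul, norm_mul, Complex.norm_real, Real.norm_of_nonneg (π.nonneg y),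
      Real.norm_of_nonneg (tsum_nonneg fun X => hnn _ _ X), mul_assoc]
  · simp only [f, Complex.norm_real, Real.norm_of_nonneg (tsum_nonneg fun X => hnn _ _ X)]
    refine (hLy y hy.2 _).trans ?_
    rw [height_eq_tc, Real.rpow_two, mul_assoc L]
    refine mul_le_mul_of_nonneg_left ?_ hL
    have hbt : b ≤ H3.tc (y.1 default) := (hy.1 default).1
    have ht := H3.tc_pos (y.1 default)
    set t := H3.tc (y.1 default)
    calc (t + 1 / t) * ((1 + t) * (1 + 1 / t))
        ≤ ((1 + 1 / b ^ 2) * t) * (((1 / b + 1) * t) * (1 + 1 / b)) := by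
          refine mul_le_mul ?_ (mul_le_mul ?_ ?_ (by positivity) (by positivity)) (by positivity)
            (by positivity)
          · rw [add_mul, one_mul, div_mul_eq_mul_div, one_mul]
            have : 1 / t ≤ t / b ^ 2 := by
              rw [div_le_div_iff₀ ht (by positivity)]
              nlinarith [pow_le_pow_left₀ hb.le hbt 2]
            linarith
          · rw [add_mul, one_mul, div_mul_eq_mul_div, one_mul]
            linarith [(one_le_div hb).mpr hbt]
          · gcongr
      _ = _ := by ring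

end Fermat.Agent.LT.Lift
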