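import Fermat.Agent.LT.Lift.Step
import Fermat.Agent.LT.Lift.ThetaBounds
import Fermat.Agent.LT.Reduction.Public
import Fermat.Agent.LT.LiftHecke.SplitEis

/-!
# The theta lift over `ℚ(ζ₃)`

Partitions of unity for which every bounded weight converges, and the lifted form of a bounded
weight at a principal level, given the slash conditions and a nonzero first coefficient.
-/

set_option autoImplicit false

noncomputable section

open MeasureTheory Matrix CongruenceSubgroup UpperHalfPlane
open scoped NumberField MatrixGroups ModularForm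
open NumberField (InfinitePlace)

namespace Fermat.Agent.LT.Lift

open LiftHecke

variable {U : Level EisField}

/-- A partition of unity for which every bounded weight converges. -/
def IsLiftPartition (π : PartitionOfUnity U) : Prop :=
  Measurable π.weight ∧ ∀ (C : NormScale eisFrame.toHermFrame U)
    (W : ThetaWeight eisFrame.toHermFrame C), IsBoundedWeight W →
      ThetaBound W π ∧ ∀ φ : Y U → ℂ, Whittaker.IsCuspEigen φ → NullBound W π φ

/-- A partition of unity coming from a Siegel set makes every bounded weight converge. -/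
theorem exists_liftPartition (U : Level EisField) :
    ∃ π : PartitionOfUnity U, IsLiftPartition π := by
  obtain ⟨R, A, B, b, π, hb, hm, hle, -⟩ := Reduction.exists_partition_integrable U
  exact ⟨π, hm, fun C W hW =>
    ⟨thetaBound_of_siegel hW hm hb hle, fun φ hφ => nullBound_of_siegel hW hφ hm hb hle⟩⟩

variable {C : NormScale eisFrame.toHermFrame U} {W : ThetaWeight eisFrame.toHermFrame C}
  {π : PartitionOfUnity U} {φ : Y U → ℂ}

/-- The inputs of the lift over `ℚ(ζ₃)`. -/
theorem adelicInput_eis (hπ : IsLiftPartition π) (hφ : IsSphericalCuspForm φ) :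
    AdelicInput W π φ :=
  ⟨eisEmb_eq, hφ, hπ.1⟩

/-- A lift partition gives the theta bound for a bounded weight. -/
theorem IsLiftPartition.thetaBound (hπ : IsLiftPartition π) (hW : IsBoundedWeight W) :
    ThetaBound W π :=
  (hπ.2 C W hW).1

/-- A lift partition gives the bound at the null vectors for a cusp form. -/
theorem IsLiftPartition.nullBound (hπ : IsLiftPartition π) (hW : IsBoundedWeight W)
    (hφ : IsSphericalCuspForm φ) : NullBound W π φ :=
  (hπ.2 C W hW).2 φ hφ.cuspEigen

theorem isGoodWeight_eis (hπ : IsLiftPartition π) (hφ : IsSphericalCuspForm φ)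
    (hW : IsBoundedWeight W) (hint : HasSupportDenominator W 1) : IsGoodWeight W π φ :=
  ⟨hπ.thetaBound hW, hπ.nullBound hW hφ, 1, hint⟩

/-- The input of the lifted form over the Eisenstein field, from character and niceness. -/
theorem liftFormInput_eis {L : ℕ} (hπ : IsLiftPartition π) (hφ : IsSphericalCuspForm φ)
    (hW : IsBoundedWeight W) (hint : HasSupportDenominator W 1)
    (hchi : ∀ γ ∈ Gamma0 L, ∀ y, thetaFun W y ∣[(1 : ℤ)] γ =
      (Final.chiInt (γ 1 1) : ℂ) • thetaFun W y)
    (hnice : ∀ δ : SL(2, ℤ),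
      IsNice (extFun (liftFn W π φ ∣[(1 : ℤ)] δ))) :
    LiftFormInput W π φ L :=
  ⟨isGoodWeight_eis hπ hφ hW hint, hint, hchi, hnice⟩

/-- At a split prime of good reduction the relation needs only the splitting of the weight. -/
theorem hasSplitRelation_eis {M : ℕ} (hM : 0 < M)
    {W : ThetaWeight eisFrame.toHermFrame (eisFrame.principalScale M hM)}
    {φ : Y (Level.principal EisField M hM) → ℂ} {lam : Ideal (𝓞 EisField) → ℂ} {p : ℕ}
    (hp : p.Prime) (hpM : ¬ p ∣ M) (hsys : IsHeckeEigenSystem M φ lam)
    (R : SplitRoot ⟨p, hp⟩) (hv : W.IsSplitFor R.split 1) :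
    HasSplitRelation W φ lam p := by
  have h := R.notMem_place hpM
  refine ⟨R.split, Places.heckeAt (Level.principal EisField M hM) R.place
    (Places.isGoodAt_principal hM h), R.place.asIdeal, rfl, R.place.isPrime, R.absNorm_place, hv,
    R.c_nbr M hM, fun a b => Places.heckeAt_kernel_symm _ a b, R.heckeAt_op_eq _, ?_⟩
  exact (Places.isHeckeEigenAt_iff hM h φ _).1
    (hsys R.place.asIdeal R.place.isPrime R.place.ne_bot h)

/-- **The lifted form of a bounded weight at a principal level.** -/
theorem hasLiftedForm_of {M : ℕ} (hM : 0 < M) {L : ℕ} (hL : 0 < L) (h3 : 3 ∣ L)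
    (hcube : ∀ q : ℕ, q.Prime → q ≠ 3 → ¬ q ^ 3 ∣ L) (hML : ∀ p : ℕ, p.Prime → p ∣ M → p ∣ 3 * L)
    {W : ThetaWeight eisFrame.toHermFrame (eisFrame.principalScale M hM)}
    {π : PartitionOfUnity (Level.principal EisField M hM)}
    {φ : Y (Level.principal EisField M hM) → ℂ} {lam : Ideal (𝓞 EisField) → ℂ}
    (hπ : IsLiftPartition π) (hφ : IsSphericalCuspForm φ) (hsys : IsHeckeEigenSystem M φ lam)
    (hin : LiftFormInput W π φ L)
    (hsplit : ∀ (p : ℕ) (hp : p.Prime), ¬ p ∣ M →
      ∀ R : SplitRoot ⟨p, hp⟩, W.IsSplitFor R.split 1)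
    (hone : (adelicData (adelicInput_eis (W := W) hπ hφ)).coeff 1 1 ≠ 0) :
    HasLiftedForm lam := by
  refine hasLiftedForm_of_weight hL h3 hcube (adelicInput_eis hπ hφ) hin hone
    fun p hp hp3 hpL => ?_
  have hpM : ¬ p ∣ M := fun h => hpL (hML p hp h)
  obtain ⟨R⟩ := exists_splitRoot ⟨p, hp⟩ hp3
  exact hasSplitRelation_eis hM hp hpM hsys R (hsplit p hp hpM R)

end Fermat.Agent.LT.Lift

end
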