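import Fermat.Agent.LT.LiftHecke.Weight
import Fermat.Agent.LT.Reduction.Classes
import Mathlib.NumberTheory.NumberField.Cyclotomic.PID

/-!
# Hermitian forms over the Eisenstein integers

`GL₂(K) GL₂(Ô)` is all of `GL₂(𝔸_f)` for `K = ℚ(ζ₃)`, and every integral Hermitian form of
determinant `-1` is `GL₂(𝓞)`-equivalent to `(0 1; 1 0)`.
-/

set_option autoImplicit false

noncomputable section

open Matrix
open scoped NumberField

namespace Fermat.Agent.LT.Lift

open LiftHecke
open Asai (eisZeta eisZeta_sq isIntegral_eisZeta)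

section Lattice

open Reduction

/-- **`GL₂(K) GL₂(Ô)` is everything.** -/
theorem exists_glIncl_mul_intGL (g : GLFin EisField) :
    ∃ (γ : GL (Fin 2) EisField) (k : GLFin EisField),
      Reduction.IntGL k ∧ g = glIncl EisField γ * k := by
  have hpid : IsPrincipalIdealRing (𝓞 EisField) := IsCyclotomicExtension.Rat.three_pid EisField
  obtain ⟨β, C, C', -, hlat⟩ := exists_upper_lattice g
  have hgen : ∀ D : ClassGroup (𝓞 EisField), ∃ c : 𝓞 EisField,
      (c : EisField) ≠ 0 ∧ repIdeal D = Ideal.span {c} := fun D => by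
    obtain ⟨c, hc⟩ := (hpid.principal (repIdeal D)).principal
    refine ⟨c, fun h => nonZeroDivisors.coe_ne_zero (ClassGroup.mk0_surjective D).choose ?_, hc⟩
    rw [show c = 0 from NumberField.RingOfIntegers.coe_injective (by simpa using h)] at hc
    show repIdeal D = 0
    rw [hc, Submodule.span_zero_singleton]
    rfl
  obtain ⟨c, hc0, hc⟩ := hgen C
  obtain ⟨c', hc0', hc'⟩ := hgen C'
  set δ : GL (Fin 2) EisField := GeneralLinearGroup.mkOfDetNeZero !![(c : EisField), 0; 0, c']
    (by simp [Matrix.det_fin_two, hc0, hc0'])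
  have hk : Reduction.IntGL ((glIncl EisField δ)⁻¹ * (glIncl EisField β * g)) := by
    refine intGL_of_latticeMem_iff fun x => (hlat x).trans ?_
    rw [show glIncl EisField δ = glIncl EisField δ * 1 from (mul_one _).symm,
      latticeMem_glIncl_mul]
    set y := (δ⁻¹).val *ᵥ x
    have hy : x = ![(c : EisField) * y 0, (c' : EisField) * y 1] := by
      have h : δ.val *ᵥ y = x := by
        rw [Matrix.mulVec_mulVec, ← Units.val_mul, mul_inv_cancel, Units.val_one,
          Matrix.one_mulVec]
      rw [← h]
      funext i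
      fin_cases i <;> simp [δ, Matrix.mulVec, dotProduct, Fin.sum_univ_two]
    have hone : LatticeMem (1 : GLFin EisField) y ↔
        ∀ i, ∃ o : 𝓞 EisField, y i = (o : EisField) := by
      refine forall_congr' fun i => ?_
      rw [inv_one, Units.val_one, Matrix.one_mulVec]
      exact ⟨fun h => (exists_integer_of_finIncl_mem h).imp fun o ho => ho.symm,
        fun ⟨o, ho⟩ => ho ▸ finIncl_mem_of_isIntegral o⟩
    have hspan : ∀ (d : 𝓞 EisField) (z : EisField), (d : EisField) ≠ 0 →
        ((∃ j : 𝓞 EisField, (∃ o, o * d = j) ∧ (d : EisField) * z = j) ↔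
          ∃ o : 𝓞 EisField, z = o) := fun d z hd => by
      refine ⟨fun ⟨j, ⟨o, ho⟩, hj⟩ => ⟨o, mul_left_cancel₀ hd ?_⟩,
        fun ⟨o, ho⟩ => ⟨o * d, ⟨o, rfl⟩, by
          rw [ho]
          exact (mul_comm _ _).trans (map_mul (algebraMap (𝓞 EisField) EisField) _ _).symm⟩⟩
      rw [hj, ← ho]; exact (map_mul (algebraMap (𝓞 EisField) EisField) _ _).trans (mul_comm _ _)
    rw [hone, Fin.forall_fin_two, hc, hc', hy]
    simp only [Ideal.mem_span_singleton', Matrix.cons_val_zero, Matrix.cons_val_one,
      Matrix.cons_val_fin_one]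
    exact and_congr (hspan c _ hc0) (hspan c' _ hc0')
  exact ⟨β⁻¹ * δ, _, hk, by rw [map_mul, map_inv]; group⟩

end Lattice

section Forms

/-- All entries are algebraic integers. -/
def IsIntMat (M : Matrix (Fin 2) (Fin 2) EisField) : Prop := ∀ i j, IsIntegral ℤ (M i j)

/-- Integral matrices are closed under multiplication. -/
theorem IsIntMat.mul {M N : Matrix (Fin 2) (Fin 2) EisField} (hM : IsIntMat M) (hN : IsIntMat N) :
    IsIntMat (M * N) := fun i j => by
  rw [Matrix.mul_apply, Fin.sum_univ_two]
  exact ((hM i 0).mul (hN 0 j)).add ((hM i 1).mul (hN 1 j))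

/-- A matrix with integral entries is integral. -/
theorem isIntMat_of {a b c d : EisField} (ha : IsIntegral ℤ a) (hb : IsIntegral ℤ b)
    (hc : IsIntegral ℤ c) (hd : IsIntegral ℤ d) : IsIntMat !![a, b; c, d] := fun i j => by
  fin_cases i <;> fin_cases j <;> simpa

/-- Equivalence to the standard form over the integers. -/
def IsStdEquiv (X : Matrix (Fin 2) (Fin 2) EisField) : Prop :=
  ∃ γ : GL (Fin 2) EisField, IsIntMat γ.val ∧ IsIntMat (γ⁻¹).val ∧
    hermAct eisConj γ.val (stdForm EisField) = X

theorem IsStdEquiv.hermAct {X : Matrix (Fin 2) (Fin 2) EisField} (hX : IsStdEquiv X)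
    {g : GL (Fin 2) EisField} (hg : IsIntMat g.val) (hg' : IsIntMat (g⁻¹).val) :
    IsStdEquiv (LiftHecke.hermAct eisConj g.val X) := by
  obtain ⟨γ, h, h', e⟩ := hX
  refine ⟨g * γ, hg.mul h, ?_, ?_⟩
  · rw [_root_.mul_inv_rev]
    exact h'.mul hg'
  · rw [Units.val_mul, hermAct_mul, e]

/-- An integral matrix with integral inverse, as an element of `GL₂`. -/
def mkIntGL (M N : Matrix (Fin 2) (Fin 2) EisField) (h : M * N = 1) : GL (Fin 2) EisField :=
  ⟨M, N, h, mul_eq_one_comm.mp h⟩

theorem IsStdEquiv.trans' {X : Matrix (Fin 2) (Fin 2) EisField} (hX : IsStdEquiv X)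
    (M N : Matrix (Fin 2) (Fin 2) EisField) (h : M * N = 1) (hM : IsIntMat M) (hN : IsIntMat N) :
    IsStdEquiv (LiftHecke.hermAct eisConj M X) :=
  hX.hermAct (g := mkIntGL M N h) hM hN

theorem isStdEquiv_stdForm : IsStdEquiv (stdForm EisField) :=
  ⟨1, fun i j => by fin_cases i <;> fin_cases j <;> simp [isIntegral_one, isIntegral_zero],
    fun i j => by fin_cases i <;> fin_cases j <;> simp [isIntegral_one, isIntegral_zero],
    by rw [Units.val_one, hermAct_one]⟩

/-- The conjugate of `ζ` is `-1 - ζ`. -/
theorem eisConj_zeta' : eisConj eisZeta = -1 - eisZeta := by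
  rw [eisConj_zeta]
  linear_combination eisZeta_sq

/-- `u + v ζ`. -/
def eisInt (u v : ℤ) : EisField := (u : EisField) + (v : EisField) * eisZeta

/-- The elements `u + v ζ` are integral. -/
theorem isIntegral_eisInt (u v : ℤ) : IsIntegral ℤ (eisInt u v) :=
  (isIntegral_algebraMap (x := u)).add ((isIntegral_algebraMap (x := v)).mul isIntegral_eisZeta)

theorem eisConj_eisInt (u v : ℤ) : eisConj (eisInt u v) = eisInt (u - v) (-v) := by
  simp only [eisInt, map_add, map_mul, map_intCast, eisConj_zeta']
  push_cast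
  ring

/-- The Hermitian matrix `(a, u + v ζ; conj, d)`. -/
def eisHerm (a u v d : ℤ) : Matrix (Fin 2) (Fin 2) EisField :=
  !![(a : EisField), eisInt u v; eisInt (u - v) (-v), (d : EisField)]

/-- A reduction step. -/
theorem isStdEquiv_shift {a u v d p q : ℤ}
    (h : IsStdEquiv (eisHerm a (u + a * (p - q)) (v - a * q)
      (d + (2 * (p * u - q * v) - (p * v + q * u - q * v)) + a * (p * p - p * q + q * q)))) :
    IsStdEquiv (eisHerm a u v d) := by
  have h' := h.trans' !![1, 0; -eisInt p q, 1] !![1, 0; eisInt p q, 1]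
    (by ext i j; fin_cases i <;> fin_cases j <;> simp [Matrix.mul_apply, Fin.sum_univ_two])
    (isIntMat_of isIntegral_one isIntegral_zero (isIntegral_eisInt p q).neg isIntegral_one)
    (isIntMat_of isIntegral_one isIntegral_zero (isIntegral_eisInt p q) isIntegral_one)
  convert h' using 1
  ext i j
  fin_cases i <;> fin_cases j <;>
    simp [eisHerm, LiftHecke.hermAct, Matrix.mul_apply, Fin.sum_univ_two, eisInt, eisConj_zeta', -eisConj_zeta]
  · ring
  · ring
  · linear_combination (2 * (q : EisField) * v - (q : EisField) ^ 2 * a) * eisZeta_sq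

/-- The swap. -/
theorem isStdEquiv_swap {a u v d : ℤ} (h : IsStdEquiv (eisHerm d (u - v) (-v) a)) :
    IsStdEquiv (eisHerm a u v d) := by
  have h' := h.trans' (stdForm EisField) (stdForm EisField)
    (by ext i j; fin_cases i <;> fin_cases j <;> simp [stdForm, Matrix.mul_apply, Fin.sum_univ_two])
    (isIntMat_of isIntegral_zero isIntegral_one isIntegral_one isIntegral_zero)
    (isIntMat_of isIntegral_zero isIntegral_one isIntegral_one isIntegral_zero)
  convert h' using 1
  ext i j
  fin_cases i <;> fin_cases j <;>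
    simp [eisHerm, stdForm, LiftHecke.hermAct, Matrix.mul_apply, Fin.sum_univ_two, eisInt]

/-- `diag (1, -1)` is equivalent to the standard form. -/
theorem isStdEquiv_diag : IsStdEquiv (eisHerm 1 0 0 (-1)) := by
  have hz := eisZeta_sq
  have h' := isStdEquiv_stdForm.trans' !![-eisZeta, 1; -1 - eisZeta, 1]
    !![1, -1; 1 + eisZeta, -eisZeta]
    (by
      ext i j
      fin_cases i <;> fin_cases j <;> simp [Matrix.mul_apply, Fin.sum_univ_two])
    (isIntMat_of isIntegral_eisZeta.neg isIntegral_one (isIntegral_one.neg.sub isIntegral_eisZeta)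
      isIntegral_one)
    (isIntMat_of isIntegral_one isIntegral_one.neg (isIntegral_one.add isIntegral_eisZeta)
      isIntegral_eisZeta.neg)
  convert h' using 1
  ext i j
  fin_cases i <;> fin_cases j <;>
    simp [eisHerm, stdForm, LiftHecke.hermAct, Matrix.mul_apply, Fin.sum_univ_two, eisInt,
      eisConj_zeta', -eisConj_zeta]
  all_goals first
    | linear_combination (1 : EisField) * hz
    | linear_combination (2 : EisField) * hz
    | linear_combination -hz
    | linear_combination -(2 : EisField) * hz
    | ring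

theorem exists_small_shift (a : ℤ) (ha : a ≠ 0) (u : ℤ) :
    ∃ m : ℤ, 2 * (u + a * m).natAbs ≤ a.natAbs := by
  have h0 := Int.emod_nonneg u ha
  have h1 := Int.emod_lt_abs u ha
  have hA := Int.abs_eq_natAbs a
  have hd := Int.emod_def u a
  rcases le_total (2 * (u % a)) |a| with h | h
  · refine ⟨-(u / a), ?_⟩
    rw [show u + a * -(u / a) = u % a by rw [hd]; ring]
    omega
  · rcases le_total 0 a with hs | hs
    · refine ⟨-(u / a) - 1, ?_⟩
      rw [show u + a * (-(u / a) - 1) = u % a - a by rw [hd]; ring]
      omega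
    · refine ⟨-(u / a) + 1, ?_⟩
      rw [show u + a * (-(u / a) + 1) = u % a + a by rw [hd]; ring]
      omega

/-- Descent on the diagonal entry. -/
theorem isStdEquiv_eisHerm : ∀ n : ℕ, ∀ a u v d : ℤ, a.natAbs = n →
    a * d - (u * u - u * v + v * v) = -1 → IsStdEquiv (eisHerm a u v d) := by
  intro n
  induction n using Nat.strong_induction_on with
  | _ n ih =>
  intro a u v d hn hdet
  rcases eq_or_ne a 0 with rfl | ha
  · -- `b` is a unit and `d` is a trace
    have hz := eisZeta_sq
    have hN : ((u : EisField) * u - u * v + v * v) = 1 := by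
      exact_mod_cast (show u * u - u * v + v * v = 1 by linarith)
    have h' := isStdEquiv_stdForm.trans' !![eisInt u v, 0; -(d : EisField) * eisZeta, 1]
      !![eisInt (u - v) (-v), 0; (d : EisField) * eisZeta * eisInt (u - v) (-v), 1]
      (by
        ext i j
        fin_cases i <;> fin_cases j <;> simp [Matrix.mul_apply, Fin.sum_univ_two, eisInt]
        linear_combination hN - ((v : EisField) * v) * hz)
      (isIntMat_of (isIntegral_eisInt u v) isIntegral_zero
        ((isIntegral_algebraMap (x := d)).neg.mul isIntegral_eisZeta) isIntegral_one)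
      (isIntMat_of (isIntegral_eisInt _ _) isIntegral_zero
        (((isIntegral_algebraMap (x := d)).mul isIntegral_eisZeta).mul (isIntegral_eisInt _ _))
        isIntegral_one)
    convert h' using 1
    ext i j
    fin_cases i <;> fin_cases j <;>
      simp [eisHerm, stdForm, LiftHecke.hermAct, Matrix.mul_apply, Fin.sum_univ_two, eisInt,
        eisConj_zeta', -eisConj_zeta]
    all_goals ring
  · obtain ⟨m, hm⟩ := exists_small_shift a ha u
    obtain ⟨k, hk⟩ := exists_small_shift a ha v
    obtain ⟨p, q, hp, hq⟩ : ∃ p q : ℤ, m = p - q ∧ k = -q := ⟨m - k, -k, by ring, by ring⟩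
    subst hp hq
    refine isStdEquiv_shift (p := p) (q := q) ?_
    set d' := d + (2 * (p * u - q * v) - (p * v + q * u - q * v)) +
      a * (p * p - p * q + q * q) with hd'
    set u' := u + a * (p - q)
    set v' := v - a * q with hv'
    rw [show v + a * -q = v' by rw [hv']; ring] at hk
    have hdet' : a * d' - (u' * u' - u' * v' + v' * v') = -1 := by
      rw [← hdet, hd', hv']; ring
    by_cases h1 : a.natAbs = 1
    · have hu' : u' = 0 := by omega
      have hv0 : v' = 0 := by omega
      rw [hu', hv0]
      rw [hu', hv0] at hdet'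
      rcases Int.natAbs_eq a with h | h <;> rw [h1, Nat.cast_one] at h
      · rw [h] at hdet' ⊢
        rw [show d' = -1 by linarith]
        exact isStdEquiv_diag
      · rw [h] at hdet' ⊢
        rw [show d' = 1 by linarith]
        exact isStdEquiv_swap (by simpa using isStdEquiv_diag)
    · refine isStdEquiv_swap (ih d'.natAbs ?_ d' _ _ a rfl ?_)
      · -- `|d'| < |a|`
        rw [← hn]
        have := Int.abs_eq_natAbs a
        have := Int.abs_eq_natAbs u'
        have := Int.abs_eq_natAbs v'
        have := Int.abs_eq_natAbs d'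
        have hA : (2 : ℤ) ≤ |a| := by
          have := Int.natAbs_ne_zero.mpr ha
          omega
        have hU : 2 * |u'| ≤ |a| := by omega
        have hV : 2 * |v'| ≤ |a| := by omega
        have hU2 : 4 * (u' * u') ≤ a * a := by
          linarith [mul_le_mul hU hU (by positivity) (abs_nonneg a), abs_mul_abs_self u',
            abs_mul_abs_self a]
        have hV2 : 4 * (v' * v') ≤ a * a := by
          linarith [mul_le_mul hV hV (by positivity) (abs_nonneg a), abs_mul_abs_self v',
            abs_mul_abs_self a]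
        have hpos : 0 ≤ u' * u' - u' * v' + v' * v' := by
          linarith [mul_self_nonneg (u' - v'), mul_self_nonneg u', mul_self_nonneg v']
        have hle : 4 * (u' * u' - u' * v' + v' * v') ≤ 3 * (a * a) := by
          linarith [mul_self_nonneg (u' + v')]
        have hA2 := mul_le_mul hA hA two_pos.le (abs_nonneg a)
        have habs : |a| * |d'| < |a| * |a| := by
          rw [← abs_mul, abs_lt]
          constructor <;> linarith [abs_mul_abs_self a]
        have := lt_of_mul_lt_mul_left habs (abs_nonneg a)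
        omega
      · linear_combination hdet'

/-- An integral element fixed by conjugation is a rational integer. -/
theorem exists_int_of_fixed {x : EisField} (hx : IsIntegral ℤ x) (hσ : eisConj x = x) :
    ∃ a : ℤ, x = (a : EisField) := by
  obtain ⟨u, v, h⟩ := exists_eq_add_mul_zeta ⟨x, hx⟩
  change x = _ at h
  refine ⟨u, ?_⟩
  rw [h, map_add, map_mul, map_intCast, map_intCast, eisConj_zeta'] at hσ
  have hv : v = 0 := by
    by_contra hv
    have hlin : 2 * eisZeta + 1 = 0 := mul_left_cancel₀ (Int.cast_ne_zero.mpr hv : (v : EisField) ≠ 0)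
      (by linear_combination -hσ)
    exact Asai.eisSqrt_ne_zero hlin
  rw [h, hv, Int.cast_zero, zero_mul, add_zero]

/-- **Integral Hermitian forms of determinant `-1` are equivalent to the standard form.** -/
theorem exists_conj_stdForm (X : Matrix (Fin 2) (Fin 2) EisField) (hX : (X.map eisConj)ᵀ = X)
    (hint : ∀ i j, IsIntegral ℤ (X i j)) (hdet : X.det = -1) :
    ∃ γ : GL (Fin 2) EisField, (∀ i j, IsIntegral ℤ (γ.val i j)) ∧
      (∀ i j, IsIntegral ℤ ((γ⁻¹).val i j)) ∧ hermAct eisConj γ.val (stdForm EisField) = X := by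
  have h : ∀ i j, eisConj (X j i) = X i j := fun i j => congrFun (congrFun hX i) j
  obtain ⟨a, ha⟩ := exists_int_of_fixed (hint 0 0) (h 0 0)
  obtain ⟨d, hd⟩ := exists_int_of_fixed (hint 1 1) (h 1 1)
  obtain ⟨u, v, hb⟩ := exists_eq_add_mul_zeta ⟨X 0 1, hint 0 1⟩
  change X 0 1 = eisInt u v at hb
  have hc : X 1 0 = eisInt (u - v) (-v) := by rw [← h 1 0, hb, eisConj_eisInt]
  have hXe : X = eisHerm a u v d := by
    ext i j
    fin_cases i <;> fin_cases j <;> simp [eisHerm, ha, hd, hb, hc]
  have hd' : ((a * d - (u * u - u * v + v * v) : ℤ) : EisField) = ((-1 : ℤ) : EisField) := by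
    rw [Matrix.det_fin_two, ha, hd, hb, hc] at hdet
    simp only [eisInt] at hdet
    push_cast at hdet ⊢
    linear_combination hdet - ((v : EisField) * v) * eisZeta_sq
  rw [hXe]
  exact isStdEquiv_eisHerm _ a u v d rfl (Int.cast_injective hd')

end Forms

end Fermat.Agent.LT.Lift

end
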