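import Fermat.Agent.LT.Lift.EisForms
import Fermat.Agent.LT.Asai.Restrict.Cong

/-!
# Diagonal normal form of similitudes of the standard Hermitian form modulo `L`

In `R = 𝓞 / L` a similitude of `(0 1; 1 0)` becomes diagonal after multiplication on the left by
images of exact isometries with integral entries.
-/

set_option autoImplicit false

noncomputable section

open Matrix NumberField
open scoped NumberField

namespace Fermat.Agent.LT.Lift.Unitary

open LiftHecke
open Asai (eisZeta eisZeta_sq eisSqrt eisSqrt_sq isIntegral_eisZeta)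

/-- The conjugation of `ℤ[ζ₃]`. -/
def intConj : 𝓞 EisField →+* 𝓞 EisField := RingOfIntegers.mapRingHom eisConj

/-- The conjugation of `ℤ[ζ₃]` is that of the field. -/
theorem coe_intConj (x : 𝓞 EisField) : (intConj x : EisField) = eisConj (x : EisField) := rfl

theorem intConj_intConj (x : 𝓞 EisField) : intConj (intConj x) = x :=
  RingOfIntegers.ext (eisFrame.toHermFrame.σ_involutive (x : EisField))

theorem intConj_sqrt : intConj eisSqrtInt = -eisSqrtInt :=
  RingOfIntegers.ext (by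
    show eisConj eisSqrt = ((-eisSqrtInt : 𝓞 EisField) : EisField)
    rw [eisConj_sqrt]
    rfl)

theorem sqrt_sq : eisSqrtInt * eisSqrtInt = -3 :=
  RingOfIntegers.ext (by
    have h := eisSqrt_sq
    rw [pow_two] at h
    simpa [show (eisSqrtInt : EisField) = eisSqrt from rfl,
      map_ofNat (algebraMap (𝓞 EisField) EisField)] using h)

/-- Elements fixed by the conjugation are integers. -/
theorem exists_int_eq {x : 𝓞 EisField} (h : intConj x = x) : ∃ a : ℤ, x = (a : 𝓞 EisField) := by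
  obtain ⟨a, ha⟩ := exists_int_of_fixed x.isIntegral_coe
    ((coe_intConj x).symm.trans (congrArg _ h))
  exact ⟨a, RingOfIntegers.ext (by simpa using ha)⟩

/-- The norm, as an integer. -/
theorem exists_normInt (x : 𝓞 EisField) : ∃ n : ℤ, x * intConj x = (n : 𝓞 EisField) :=
  exists_int_eq (by rw [map_mul, intConj_intConj, mul_comm])

/-- The norm. -/
def normInt (x : 𝓞 EisField) : ℤ := (exists_normInt x).choose

theorem normInt_spec (x : 𝓞 EisField) : x * intConj x = (normInt x : 𝓞 EisField) :=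
  (exists_normInt x).choose_spec

/-- Divisibility of rational integers in `ℤ[ζ₃]` holds in `ℤ`. -/
theorem int_dvd_of_dvd {q m : ℤ} (h : (q : 𝓞 EisField) ∣ (m : 𝓞 EisField)) : q ∣ m := by
  rcases eq_or_ne q 0 with rfl | hq
  · rw [Int.cast_zero, zero_dvd_iff, Int.cast_eq_zero] at h
    rw [h]
  obtain ⟨o, ho⟩ := h
  obtain ⟨a, rfl⟩ := exists_int_eq (x := o) (by
    refine mul_left_cancel₀ (Int.cast_ne_zero.mpr hq : (q : 𝓞 EisField) ≠ 0) ?_
    have := congrArg intConj ho
    rw [map_mul, map_intCast, map_intCast] at this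
    rw [← this, ← ho])
  exact ⟨a, by exact_mod_cast ho⟩

theorem int_dvd_of_dvd_sq {q : ℕ} (hq : q.Prime) {m : ℤ}
    (h : (q : 𝓞 EisField) ∣ (m : 𝓞 EisField) ^ 2) : (q : ℤ) ∣ m := by
  refine (Nat.prime_iff_prime_int.1 hq).dvd_of_dvd_pow (n := 2) (int_dvd_of_dvd ?_)
  push_cast
  exact h

/-- The first column of a similitude is nowhere zero modulo a prime. -/
theorem not_dvd_both {q : ℕ} (hq : q.Prime) {a b c d : 𝓞 EisField} {mu : ℤ}
    (hac : (q : 𝓞 EisField) ∣ intConj a * c + a * intConj c)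
    (hbd : (q : 𝓞 EisField) ∣ intConj b * d + b * intConj d)
    (had : (q : 𝓞 EisField) ∣ intConj a * d + intConj c * b - (mu : 𝓞 EisField))
    (hmu : ¬ (q : ℤ) ∣ mu) (ha : (q : ℤ) ∣ normInt a) : ¬ (q : ℤ) ∣ normInt c := by
  intro hc
  let π : 𝓞 EisField →+* 𝓞 EisField ⧸ Ideal.span {(q : 𝓞 EisField)} := Ideal.Quotient.mk _
  have hπ : ∀ x, (q : 𝓞 EisField) ∣ x ↔ π x = 0 := fun x => by
    rw [Ideal.Quotient.eq_zero_iff_mem, Ideal.mem_span_singleton]
  have hz : ∀ m : ℤ, (q : ℤ) ∣ m → π (m : 𝓞 EisField) = 0 := by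
    rintro _ ⟨k, rfl⟩
    exact (hπ _).1 ⟨(k : 𝓞 EisField), by push_cast; rfl⟩
  have hA : π a * π (intConj a) = 0 := by rw [← map_mul, normInt_spec]; exact hz _ ha
  have hC : π c * π (intConj c) = 0 := by rw [← map_mul, normInt_spec]; exact hz _ hc
  obtain ⟨X, hX⟩ := exists_int_eq
    (x := intConj a * c * (d * intConj b) + a * intConj c * (intConj d * b))
    (by simp only [map_add, map_mul, intConj_intConj]; ring)
  have e1 := (hπ _).1 hac
  have e2 := (hπ _).1 hbd
  have e3 := (hπ _).1 had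
  simp only [map_add, map_sub, map_mul] at e1 e2 e3
  set m := π (mu : 𝓞 EisField)
  have e3' : π a * π (intConj d) + π c * π (intConj b) = m := by
    have h' := (hπ _).1 (show (q : 𝓞 EisField) ∣ intConj (intConj a * d + intConj c * b - mu) by
      obtain ⟨o, ho⟩ := had
      exact ⟨intConj o, by rw [ho, map_mul, map_natCast]⟩)
    simp only [map_add, map_sub, map_mul, intConj_intConj, map_intCast intConj] at h'
    linear_combination h'
  have hXsq : π (X : 𝓞 EisField) * π (X : 𝓞 EisField) = 0 := by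
    rw [← hX]
    simp only [map_add, map_mul]
    linear_combination
      ((π (intConj a) * π c * (π d * π (intConj b)) - π a * π (intConj c) * (π (intConj d) * π b)) *
        (π d * π (intConj b))) * e1 -
      ((π (intConj a) * π c * (π d * π (intConj b)) - π a * π (intConj c) * (π (intConj d) * π b)) *
        (π a * π (intConj c))) * e2 +
      (4 * π c * π (intConj c) * π d * π (intConj b) * π (intConj d) * π b) * hA
  have hX0 := hz X (int_dvd_of_dvd_sq hq ((hπ _).2 (by rw [pow_two, map_mul, hXsq])))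
  rw [← hX] at hX0
  simp only [map_add, map_mul] at hX0
  refine hmu (int_dvd_of_dvd_sq hq ((hπ _).2 ?_))
  rw [pow_two, map_mul]
  linear_combination (π d * π (intConj d)) * hA + (π b * π (intConj b)) * hC + hX0 -
    m * e3 - (π (intConj a) * π d + π (intConj c) * π b) * e3'

/-- The norm of a shift by a multiple of `√-3`. -/
theorem normInt_shift_dvd {q : ℕ} (hq : q.Prime) {a c : 𝓞 EisField} (n : ℤ)
    (h : (q : 𝓞 EisField) ∣ intConj a * c + a * intConj c ∧ (q : ℤ) ∣ normInt a ∨ q = 3) :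
    (q : ℤ) ∣ normInt (a + (n : 𝓞 EisField) * eisSqrtInt * c) - normInt a
      - 3 * n ^ 2 * normInt c := by
  obtain ⟨T, hT⟩ := exists_int_eq
    (x := (n : 𝓞 EisField) * eisSqrtInt * (c * intConj a - a * intConj c))
    (by simp only [map_sub, map_mul, intConj_sqrt, intConj_intConj, map_intCast]; ring)
  have hn : normInt (a + (n : 𝓞 EisField) * eisSqrtInt * c) - normInt a
      - 3 * n ^ 2 * normInt c = T := by
    have : ((normInt (a + (n : 𝓞 EisField) * eisSqrtInt * c) - normInt a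
        - 3 * n ^ 2 * normInt c : ℤ) : 𝓞 EisField) = (T : 𝓞 EisField) := by
      push_cast
      rw [← normInt_spec, ← normInt_spec, ← normInt_spec, ← hT]
      simp only [map_add, map_mul, intConj_sqrt, map_intCast]
      linear_combination (-(n : 𝓞 EisField) * n * c * intConj c) * sqrt_sq
    exact_mod_cast this
  rw [hn]
  refine int_dvd_of_dvd_sq hq ?_
  have e : (T : 𝓞 EisField) ^ 2 = -3 * (n : 𝓞 EisField) ^ 2 *
      ((intConj a * c + a * intConj c) ^ 2 - 4 * (normInt a : 𝓞 EisField) * (c * intConj c)) := by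
    rw [← hT, ← normInt_spec]
    linear_combination ((n : 𝓞 EisField) ^ 2 * (c * intConj a - a * intConj c) ^ 2) * sqrt_sq
  rw [e]
  rcases h with ⟨h1, h2⟩ | rfl
  · refine Dvd.dvd.mul_left (dvd_sub (dvd_pow h1 two_ne_zero) ?_) _
    obtain ⟨k, hk⟩ := h2
    refine ⟨4 * (k : 𝓞 EisField) * (c * intConj c), ?_⟩
    rw [hk]; push_cast; ring
  · exact Dvd.dvd.mul_right (Dvd.dvd.mul_right (by simp) _) _

/-- A shift by a trace zero multiple makes the norm prime to `L`. -/
theorem exists_shift_coprime {L : ℕ} (hL : 0 < L) {a b c d : 𝓞 EisField} {mu : ℤ}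
    (hac : (L : 𝓞 EisField) ∣ intConj a * c + a * intConj c)
    (hbd : (L : 𝓞 EisField) ∣ intConj b * d + b * intConj d)
    (had : (L : 𝓞 EisField) ∣ intConj a * d + intConj c * b - (mu : 𝓞 EisField))
    (hmu : IsCoprime mu (L : ℤ)) (h3 : ¬ (3 : ℤ) ∣ normInt a) :
    ∃ n : ℤ, IsCoprime (normInt (a + (n : 𝓞 EisField) * eisSqrtInt * c)) (L : ℤ) := by
  classical
  set P := L.primeFactors.filter fun q : ℕ => q ≠ 3 ∧ ¬ (q : ℤ) ∣ normInt a with hP
  refine ⟨((∏ q ∈ P, q : ℕ) : ℤ), ?_⟩
  set n : ℤ := ((∏ q ∈ P, q : ℕ) : ℤ) with hn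
  set z := normInt (a + (n : 𝓞 EisField) * eisSqrtInt * c)
  by_contra hco
  rw [Int.isCoprime_iff_gcd_eq_one] at hco
  obtain ⟨q, hq, hqg⟩ := Nat.exists_prime_and_dvd hco
  have hqz : (q : ℤ) ∣ z := (Int.natCast_dvd_natCast.2 hqg).trans (Int.gcd_dvd_left _ _)
  have hqL : q ∣ L := Int.natCast_dvd_natCast.1
    ((Int.natCast_dvd_natCast.2 hqg).trans (Int.gcd_dvd_right _ _))
  have hcast : (q : 𝓞 EisField) ∣ (L : 𝓞 EisField) := by
    obtain ⟨k, rfl⟩ := hqL; exact ⟨k, by push_cast; ring⟩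
  by_cases hq3 : q = 3
  · subst hq3
    have := normInt_shift_dvd hq (a := a) (c := c) n (Or.inr rfl)
    refine h3 ?_
    push_cast at this hqz ⊢
    have h' : (3 : ℤ) ∣ z - (z - normInt a - 3 * n ^ 2 * normInt c) - 3 * n ^ 2 * normInt c :=
      dvd_sub (dvd_sub hqz this) ((dvd_mul_right 3 _).mul_right _)
    convert h' using 1
    ring
  by_cases hqa : (q : ℤ) ∣ normInt a
  · have := normInt_shift_dvd hq n (Or.inl ⟨hcast.trans hac, hqa⟩)
    have h' : (q : ℤ) ∣ 3 * n ^ 2 * normInt c := by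
      have := dvd_sub (dvd_sub hqz hqa) this
      have e : z - normInt a - (z - normInt a - 3 * n ^ 2 * normInt c) = 3 * n ^ 2 * normInt c := by
        ring
      exact e ▸ this
    have hp := Nat.prime_iff_prime_int.1 hq
    rcases hp.dvd_or_dvd h' with h1 | h1
    · rcases hp.dvd_or_dvd h1 with h2 | h2
      · exact hq3 ((Nat.prime_dvd_prime_iff_eq hq Nat.prime_three).1
          (Int.natCast_dvd_natCast.1 h2))
      · have h4 : q ∣ ∏ r ∈ P, r := Int.natCast_dvd_natCast.1 (hp.dvd_of_dvd_pow h2)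
        obtain ⟨r, hr, hqr⟩ := (Prime.dvd_finsetProd_iff hq.prime _).1 h4
        obtain ⟨hr1, -, hr3⟩ := Finset.mem_filter.1 hr
        rw [(Nat.prime_dvd_prime_iff_eq hq (Nat.prime_of_mem_primeFactors hr1)).1 hqr] at hqa
        exact hr3 hqa
    · refine not_dvd_both hq (hcast.trans hac) (hcast.trans hbd) (hcast.trans had) ?_ hqa h1
      intro hd
      obtain ⟨u, v, huv⟩ := hmu
      refine hp.not_dvd_one ?_
      rw [← huv]
      exact dvd_add (hd.mul_left u) ((Int.natCast_dvd_natCast.2 hqL).mul_left v)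
  · have hqP : q ∈ P := Finset.mem_filter.2
      ⟨Nat.mem_primeFactors.2 ⟨hq, hqL, hL.ne'⟩, hq3, hqa⟩
    obtain ⟨k, hk⟩ := Finset.dvd_prod_of_mem (fun r => r) hqP
    refine hqa (int_dvd_of_dvd ?_)
    have hzd : (q : 𝓞 EisField) ∣ (z : 𝓞 EisField) := by
      obtain ⟨j, hj⟩ := hqz
      exact ⟨j, by rw [hj]; push_cast; ring⟩
    obtain ⟨j, hj⟩ := hzd
    refine ⟨j - (k : 𝓞 EisField) * eisSqrtInt * c * intConj a + a * ((k : 𝓞 EisField) *
      eisSqrtInt * intConj c) + (q : 𝓞 EisField) * (k : 𝓞 EisField) ^ 2 * eisSqrtInt ^ 2 * c *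
      intConj c, ?_⟩
    rw [← normInt_spec] at hj ⊢
    simp only [map_add, map_mul, intConj_sqrt, map_intCast] at hj
    rw [hn] at hj
    simp only [hk] at hj
    push_cast at hj ⊢
    linear_combination hj

variable (L : ℕ)

/-- `𝓞 / L`. -/
abbrev ResL : Type := 𝓞 EisField ⧸ Ideal.span {(L : 𝓞 EisField)}

/-- The reduction. -/
def resMap : 𝓞 EisField →+* ResL L := Ideal.Quotient.mk _

/-- The kernel of the reduction consists of the multiples of `L`. -/
theorem resMap_eq_zero_iff {x : 𝓞 EisField} : resMap L x = 0 ↔ (L : 𝓞 EisField) ∣ x := by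
  rw [resMap, Ideal.Quotient.eq_zero_iff_mem, Ideal.mem_span_singleton]

/-- The reduction modulo `L` is surjective. -/
theorem resMap_surjective : Function.Surjective (resMap L) := Ideal.Quotient.mk_surjective

/-- The induced conjugation. -/
def resConj : ResL L →+* ResL L :=
  Ideal.Quotient.lift _ ((resMap L).comp intConj) fun x hx => by
    obtain ⟨o, rfl⟩ := Ideal.mem_span_singleton.1 hx
    show resMap L (intConj _) = 0
    rw [resMap_eq_zero_iff, map_mul, map_natCast]
    exact dvd_mul_right _ _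

theorem resConj_resMap (x : 𝓞 EisField) : resConj L (resMap L x) = resMap L (intConj x) := rfl

theorem resConj_resConj (x : ResL L) : resConj L (resConj L x) = x := by
  obtain ⟨o, rfl⟩ := resMap_surjective L x
  rw [resConj_resMap, resConj_resMap, intConj_intConj]

/-- The similitude relation modulo `L`. -/
def IsSimil (mu : ℤ) (A : Matrix (Fin 2) (Fin 2) (ResL L)) : Prop :=
  hermAct (resConj L) A (stdForm (ResL L)) = (mu : ResL L) • stdForm (ResL L)

/-- The image of an exact integral isometry. -/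
def IsLift (M : Matrix (Fin 2) (Fin 2) (ResL L)) : Prop :=
  ∃ (Γ : GL (Fin 2) EisField) (Mo : Matrix (Fin 2) (Fin 2) (𝓞 EisField)),
    Γ.val = Mo.map (algebraMap (𝓞 EisField) EisField) ∧ IsIntMat (Γ⁻¹).val ∧
      hermAct eisConj Γ.val (stdForm EisField) = stdForm EisField ∧ Mo.map (resMap L) = M

variable {L}

theorem IsLift.mul {M N : Matrix (Fin 2) (Fin 2) (ResL L)} (hM : IsLift L M) (hN : IsLift L N) :
    IsLift L (M * N) := by
  obtain ⟨Γ, A, e, hi, hJ, hA⟩ := hM
  obtain ⟨Δ, B, e', hi', hJ', hB⟩ := hN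
  refine ⟨Γ * Δ, A * B, by rw [Units.val_mul, e, e', Matrix.map_mul], ?_,
    by rw [Units.val_mul, hermAct_mul, hJ', hJ], by rw [Matrix.map_mul, hA, hB]⟩
  rw [_root_.mul_inv_rev]
  exact hi'.mul hi

theorem IsLift.simil {M A : Matrix (Fin 2) (Fin 2) (ResL L)} {mu : ℤ} (hM : IsLift L M)
    (hA : IsSimil L mu A) : IsSimil L mu (M * A) := by
  obtain ⟨Γ, Mo, e, -, hJ, rfl⟩ := hM
  have h1 : hermAct intConj Mo (stdForm (𝓞 EisField)) = stdForm (𝓞 EisField) := by
    refine Matrix.map_injective RingOfIntegers.coe_injective ?_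
    show (hermAct intConj Mo (stdForm (𝓞 EisField))).map (algebraMap (𝓞 EisField) EisField)
      = (stdForm (𝓞 EisField)).map (algebraMap (𝓞 EisField) EisField)
    rw [stdForm_map, hermAct, Matrix.map_mul, Matrix.map_mul, stdForm_map,
      show ((Mo.map intConj)ᵀ).map (algebraMap (𝓞 EisField) EisField) =
        ((Mo.map (algebraMap (𝓞 EisField) EisField)).map eisConj)ᵀ from
        Matrix.ext fun i j => rfl, ← e]
    exact hJ
  have h2 : hermAct (resConj L) (Mo.map (resMap L)) (stdForm (ResL L)) = stdForm (ResL L) := by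
    have := congrArg (fun X => X.map (resMap L)) h1
    simp only [hermAct, Matrix.map_mul, stdForm_map] at this
    rw [show ((Mo.map intConj)ᵀ).map (resMap L) = ((Mo.map (resMap L)).map (resConj L))ᵀ from
      Matrix.ext fun i j => rfl] at this
    exact this
  rw [IsSimil, hermAct_mul, hA, hermAct_smul, h2]

theorem isLift_stdForm : IsLift L (stdForm (ResL L)) :=
  ⟨mkIntGL (stdForm EisField) (stdForm EisField) (by
      ext i j; fin_cases i <;> fin_cases j <;> simp [stdForm, Matrix.mul_apply, Fin.sum_univ_two]),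
    stdForm _, (stdForm_map _).symm,
    isIntMat_of isIntegral_zero isIntegral_one isIntegral_one isIntegral_zero,
    by
      show hermAct eisConj (stdForm EisField) (stdForm EisField) = _
      ext i j
      fin_cases i <;> fin_cases j <;>
        simp [stdForm, hermAct, Matrix.mul_apply, Fin.sum_univ_two],
    stdForm_map _⟩

theorem isLift_upper (p : ℤ) :
    IsLift L !![1, resMap L ((p : 𝓞 EisField) * eisSqrtInt); 0, 1] := by
  refine ⟨mkIntGL !![1, (p : EisField) * eisSqrt; 0, 1] !![1, -((p : EisField) * eisSqrt); 0, 1]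
    (by ext i j; fin_cases i <;> fin_cases j <;> simp [Matrix.mul_apply, Fin.sum_univ_two]),
    !![1, (p : 𝓞 EisField) * eisSqrtInt; 0, 1], ?_, ?_, ?_, ?_⟩
  · show !![(1 : EisField), (p : EisField) * eisSqrt; 0, 1] = _
    ext i j; fin_cases i <;> fin_cases j <;> simp
  · exact isIntMat_of isIntegral_one
      (((isIntegral_algebraMap (x := p)).mul eisSqrtInt.isIntegral_coe).neg)
      isIntegral_zero isIntegral_one
  · show hermAct eisConj !![1, (p : EisField) * eisSqrt; 0, 1] (stdForm EisField) = _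
    ext i j
    fin_cases i <;> fin_cases j <;>
      simp [stdForm, hermAct, Matrix.mul_apply, Fin.sum_univ_two, eisConj_sqrt]
  · ext i j; fin_cases i <;> fin_cases j <;> simp

theorem isLift_lower (p : ℤ) :
    IsLift L !![1, 0; resMap L ((p : 𝓞 EisField) * eisSqrtInt), 1] := by
  have h := (isLift_stdForm (L := L)).mul ((isLift_upper (L := L) p).mul isLift_stdForm)
  convert h using 1
  ext i j
  fin_cases i <;> fin_cases j <;> simp [stdForm, Matrix.mul_apply, Fin.sum_univ_two]

/-- Trace zero classes are multiples of `√-3`. -/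
theorem exists_eq_sqrt {x : ResL L} (hx : x + resConj L x = 0) :
    ∃ p : ℤ, x = resMap L ((p : 𝓞 EisField) * eisSqrtInt) := by
  obtain ⟨o, rfl⟩ := resMap_surjective L x
  obtain ⟨u, v, ho⟩ := exists_eq_add_mul_zeta o
  have htr : o + intConj o = ((2 * u - v : ℤ) : 𝓞 EisField) := by
    refine RingOfIntegers.ext ?_
    rw [show ((o + intConj o : 𝓞 EisField) : EisField) = (o : EisField) + eisConj (o : EisField)
      from rfl, show (((2 * u - v : ℤ) : 𝓞 EisField) : EisField) = ((2 * u - v : ℤ) : EisField)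
      from map_intCast (algebraMap (𝓞 EisField) EisField) _, ho, map_add, map_mul, map_intCast, map_intCast, eisConj_zeta']
    push_cast; ring
  rw [resConj_resMap, ← map_add, htr, resMap_eq_zero_iff] at hx
  obtain ⟨k, hk⟩ := int_dvd_of_dvd (q := (L : ℤ)) (by exact_mod_cast hx)
  refine ⟨u, sub_eq_zero.1 ?_⟩
  rw [← map_sub, resMap_eq_zero_iff]
  refine ⟨-(k : 𝓞 EisField) * ⟨eisZeta, isIntegral_eisZeta⟩, RingOfIntegers.ext ?_⟩
  simp only [map_sub, map_mul, map_intCast, map_natCast]
  show (o : EisField) - (u : EisField) * eisSqrt = (L : EisField) * (-(k : EisField) * eisZeta)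
  have hk' : (2 * u - v : EisField) = (L : EisField) * k := by exact_mod_cast hk
  rw [ho, eisSqrt]
  linear_combination (-eisZeta) * hk'

/-- The relations between the entries of a similitude. -/
theorem simil_entries {mu : ℤ} {A : Matrix (Fin 2) (Fin 2) (ResL L)}
    (hmu : IsUnit (mu : ResL L)) (hA : IsSimil L mu A) :
    resConj L (A 0 0) * A 1 0 + resConj L (A 1 0) * A 0 0 = 0 ∧
      resConj L (A 0 1) * A 1 1 + resConj L (A 1 1) * A 0 1 = 0 ∧
      resConj L (A 0 0) * A 1 1 + resConj L (A 1 0) * A 0 1 = (mu : ResL L) ∧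
      A 0 0 * resConj L (A 1 1) + A 0 1 * resConj L (A 1 0) = (mu : ResL L) := by
  obtain ⟨w, hw⟩ := hmu
  set J := stdForm (ResL L) with hJ
  have hJJ : J * J = 1 := by
    ext i j; fin_cases i <;> fin_cases j <;> simp [hJ, stdForm, Matrix.mul_apply, Fin.sum_univ_two]
  set H := (A.map (resConj L))ᵀ with hH
  have h1 : A * J * H = (mu : ResL L) • J := hA
  have h2 : A * ((↑w⁻¹ : ResL L) • (J * H * J)) = 1 := by
    rw [Matrix.mul_smul, ← Matrix.mul_assoc, ← Matrix.mul_assoc, h1, Matrix.smul_mul, hJJ,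
      smul_smul, ← hw, Units.inv_mul, one_smul]
  have h3 : J * H * J * A = (mu : ResL L) • (1 : Matrix (Fin 2) (Fin 2) (ResL L)) := by
    have h4 := congrArg (fun X => (mu : ResL L) • X) (mul_eq_one_comm.1 h2)
    simp only [Matrix.smul_mul, smul_smul, ← hw, Units.mul_inv, one_smul] at h4
    rw [h4, hw]
  refine ⟨?_, ?_, ?_, ?_⟩
  · have := congrFun (congrFun h3 1) 0
    simp [hH, hJ, stdForm, Matrix.mul_apply, Fin.sum_univ_two, Matrix.vecMul, dotProduct] at this
    linear_combination this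
  · have := congrFun (congrFun h3 0) 1
    simp [hH, hJ, stdForm, Matrix.mul_apply, Fin.sum_univ_two, Matrix.vecMul, dotProduct] at this
    linear_combination this
  · have := congrFun (congrFun h3 1) 1
    simp [hH, hJ, stdForm, Matrix.mul_apply, Fin.sum_univ_two, Matrix.vecMul, dotProduct] at this
    linear_combination this
  · have := congrFun (congrFun h1 0) 1
    simp [hH, hJ, stdForm, Matrix.mul_apply, Fin.sum_univ_two] at this
    linear_combination this

theorem isUnit_intCast {mu : ℤ} (h : IsCoprime mu (L : ℤ)) : IsUnit (mu : ResL L) := by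
  obtain ⟨u, v, huv⟩ := h
  refine IsUnit.of_mul_eq_one (u : ResL L) ?_
  have h0 : ((L : ℤ) : ResL L) = 0 := by
    rw [← map_intCast (resMap L), resMap_eq_zero_iff]; simp
  have : ((u * mu + v * (L : ℤ) : ℤ) : ResL L) = 1 := by rw [huv]; simp
  rw [Int.cast_add, Int.cast_mul, Int.cast_mul, h0] at this
  linear_combination this

theorem resMap_isUnit_of_coprime {x : 𝓞 EisField} (h : IsCoprime (normInt x) (L : ℤ)) :
    IsUnit (resMap L x) := by
  refine isUnit_of_mul_isUnit_left (y := resMap L (intConj x)) ?_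
  rw [← map_mul, normInt_spec, map_intCast]
  exact isUnit_intCast h

/-- An integer invertible modulo `L` by an integer is prime to `L`. -/
theorem isCoprime_of_intCast_mul_eq_one {m n : ℤ} (h : (m : ResL L) * (n : ResL L) = 1) :
    IsCoprime n (L : ℤ) := by
  have h0 : ((m * n - 1 : ℤ) : ResL L) = 0 := by push_cast; rw [h, sub_self]
  rw [← map_intCast (resMap L), resMap_eq_zero_iff] at h0
  obtain ⟨t, ht⟩ := int_dvd_of_dvd (q := (L : ℤ)) (by exact_mod_cast h0)
  exact ⟨m, -t, by linear_combination ht⟩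

/-- The congruences between lifts of the entries of a similitude. -/
theorem simil_dvd {mu : ℤ} {A : Matrix (Fin 2) (Fin 2) (ResL L)} (hmu : IsUnit (mu : ResL L))
    (hA : IsSimil L mu A) {a b c d : 𝓞 EisField} (ha : resMap L a = A 0 0)
    (hb : resMap L b = A 0 1) (hc : resMap L c = A 1 0) (hd : resMap L d = A 1 1) :
    (L : 𝓞 EisField) ∣ intConj a * c + a * intConj c ∧
      (L : 𝓞 EisField) ∣ intConj b * d + b * intConj d ∧
      (L : 𝓞 EisField) ∣ intConj a * d + intConj c * b - (mu : 𝓞 EisField) := by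
  obtain ⟨e1, e2, e3, -⟩ := simil_entries hmu hA
  simp only [← resMap_eq_zero_iff, map_add, map_sub, map_mul, map_intCast, ← resConj_resMap, ha,
    hb, hc, hd]
  exact ⟨by linear_combination e1, by linear_combination e2, by linear_combination e3⟩

/-- Some lift makes the corner a unit. -/
theorem exists_unit_corner (hL : 0 < L) {mu : ℤ} (hmu : IsCoprime mu (L : ℤ))
    {A : Matrix (Fin 2) (Fin 2) (ResL L)} (hA : IsSimil L mu A) (h3 : 3 ∣ L) :
    ∃ M, IsLift L M ∧ IsUnit ((M * A) 0 0) := by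
  have key : ∀ {A : Matrix (Fin 2) (Fin 2) (ResL L)}, IsSimil L mu A →
      ∀ a c : 𝓞 EisField, resMap L a = A 0 0 → resMap L c = A 1 0 → ¬ (3 : ℤ) ∣ normInt a →
      ∃ M, IsLift L M ∧ IsUnit ((M * A) 0 0) := by
    intro A hA a c ha hc h3a
    obtain ⟨b, hb⟩ := resMap_surjective L (A 0 1)
    obtain ⟨d, hd⟩ := resMap_surjective L (A 1 1)
    obtain ⟨e1, e2, e3⟩ := simil_dvd (isUnit_intCast hmu) hA ha hb hc hd
    obtain ⟨n, hn⟩ := exists_shift_coprime hL e1 e2 e3 hmu h3a
    refine ⟨_, isLift_upper n, ?_⟩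
    have := resMap_isUnit_of_coprime hn
    rw [map_add, map_mul, ha, hc] at this
    simpa [Matrix.mul_apply, Fin.sum_univ_two] using this
  obtain ⟨a, ha⟩ := resMap_surjective L (A 0 0)
  obtain ⟨c, hc⟩ := resMap_surjective L (A 1 0)
  by_cases h3a : (3 : ℤ) ∣ normInt a
  · obtain ⟨b, hb⟩ := resMap_surjective L (A 0 1)
    obtain ⟨d, hd⟩ := resMap_surjective L (A 1 1)
    obtain ⟨e1, e2, e3⟩ := simil_dvd (isUnit_intCast hmu) hA ha hb hc hd
    have h3L : ((3 : ℕ) : 𝓞 EisField) ∣ (L : 𝓞 EisField) := Nat.cast_dvd_cast h3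
    have h3c : ¬ (3 : ℤ) ∣ normInt c := by
      have := not_dvd_both Nat.prime_three (h3L.trans e1) (h3L.trans e2) (h3L.trans e3)
        (fun h => by
          obtain ⟨u, v, huv⟩ := hmu
          exact Int.prime_three.not_dvd_one (huv ▸ dvd_add (h.mul_left u)
            (Dvd.dvd.mul_left (by exact_mod_cast h3) v)))
      exact this h3a
    have hA' := (isLift_stdForm (L := L)).simil hA
    obtain ⟨M, hM, hu⟩ := key hA' c a
      (by rw [hc]; simp [stdForm, Matrix.mul_apply, Fin.sum_univ_two])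
      (by rw [ha]; simp [stdForm, Matrix.mul_apply, Fin.sum_univ_two]) h3c
    exact ⟨M * stdForm (ResL L), hM.mul isLift_stdForm, by rwa [Matrix.mul_assoc]⟩
  · exact key hA a c ha hc h3a

/-- **Diagonal normal form.** -/
theorem exists_diagonal (hL : 0 < L) {mu : ℤ} (hmu : IsCoprime mu (L : ℤ))
    {A : Matrix (Fin 2) (Fin 2) (ResL L)} (hA : IsSimil L mu A) (h3 : 3 ∣ L) :
    ∃ M, IsLift L M ∧ ∃ (u : ℤ) (y : ResL L), IsCoprime u (L : ℤ) ∧ IsUnit y ∧
      M * A = !![(u : ResL L) * y, 0; 0, y] := by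
  obtain ⟨M, hM, ha⟩ := exists_unit_corner hL hmu hA h3
  have hB := hM.simil hA
  set B := M * A with hBdef
  obtain ⟨e1, -, -, -⟩ := simil_entries (isUnit_intCast hmu) hB
  obtain ⟨a', ha'⟩ := ha
  set x := -(B 1 0 * (↑a'⁻¹ : ResL L)) with hx
  have hx0 : x + resConj L x = 0 := by
    have hi : (↑a'⁻¹ : ResL L) * B 0 0 = 1 := by rw [← ha', Units.inv_mul]
    have hj : resConj L (↑a'⁻¹ : ResL L) * resConj L (B 0 0) = 1 := by
      rw [← map_mul, hi, map_one]
    rw [hx, map_neg, map_mul]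
    linear_combination (-(↑a'⁻¹ : ResL L) * resConj L (↑a'⁻¹ : ResL L)) * e1 +
      (B 1 0 * (↑a'⁻¹ : ResL L)) * hj +
      (resConj L (B 1 0) * resConj L (↑a'⁻¹ : ResL L)) * hi
  obtain ⟨p, hp⟩ := exists_eq_sqrt hx0
  have hlow : (!![1, 0; x, 1] : Matrix (Fin 2) (Fin 2) (ResL L)) * B =
      !![B 0 0, B 0 1; 0, x * B 0 1 + B 1 1] := by
    have hi : (↑a'⁻¹ : ResL L) * B 0 0 = 1 := by rw [← ha', Units.inv_mul]
    ext i j
    fin_cases i <;> fin_cases j <;> simp [Matrix.mul_apply, Fin.sum_univ_two]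
    rw [hx]
    linear_combination -(B 1 0) * hi
  have hM₁ : IsLift L (!![1, 0; x, 1] * M) := (hp ▸ isLift_lower p : IsLift L !![1, 0; x, 1]).mul hM
  have hC := hM₁.simil hA
  rw [Matrix.mul_assoc, ← hBdef, hlow] at hC
  obtain ⟨-, c2, c3, c4⟩ := simil_entries (isUnit_intCast hmu) hC
  simp only [Matrix.of_apply, Matrix.cons_val', Matrix.cons_val_zero, Matrix.cons_val_one,
    Matrix.cons_val_fin_one, map_zero, mul_zero, zero_mul, add_zero] at c2 c3 c4
  set d := x * B 0 1 + B 1 1 with hd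
  have hdu : IsUnit d := by
    have := isUnit_intCast (L := L) hmu
    rw [← c3] at this
    exact (IsUnit.mul_iff.1 this).2
  obtain ⟨d', hd'⟩ := hdu
  set z := -(B 0 1 * (↑d'⁻¹ : ResL L)) with hz
  have hi : (↑d'⁻¹ : ResL L) * d = 1 := by rw [← hd', Units.inv_mul]
  have hj : resConj L (↑d'⁻¹ : ResL L) * resConj L d = 1 := by rw [← map_mul, hi, map_one]
  have hz0 : z + resConj L z = 0 := by
    rw [hz, map_neg, map_mul]
    linear_combination (-(↑d'⁻¹ : ResL L) * resConj L (↑d'⁻¹ : ResL L)) * c2 +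
      (B 0 1 * (↑d'⁻¹ : ResL L)) * hj +
      (resConj L (B 0 1) * resConj L (↑d'⁻¹ : ResL L)) * hi
  obtain ⟨q, hq⟩ := exists_eq_sqrt hz0
  obtain ⟨o, ho⟩ := resMap_surjective L d
  -- the norm of `d` is inverted by the norm of a lift of `d⁻¹`
  have hN : d * resConj L d = (normInt o : ResL L) := by
    rw [← ho, resConj_resMap, ← map_mul, normInt_spec, map_intCast]
  obtain ⟨w, hw⟩ := resMap_surjective L (↑d'⁻¹ : ResL L)
  set e := normInt w
  have he : (e : ResL L) * (normInt o : ResL L) = 1 := by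
    rw [← hN, ← map_intCast (resMap L), ← normInt_spec, map_mul, ← resConj_resMap, hw]
    linear_combination (resConj L (↑d'⁻¹ : ResL L) * resConj L d) * hi + hj
  have hu0 : IsCoprime (mu * e) (L : ℤ) :=
    IsCoprime.mul_left hmu (isCoprime_of_intCast_mul_eq_one (by rw [mul_comm]; exact he))
  refine ⟨!![1, z; 0, 1] * (!![1, 0; x, 1] * M),
    (hq ▸ isLift_upper q : IsLift L !![1, z; 0, 1]).mul hM₁, mu * e, d, hu0, hd' ▸ d'.isUnit, ?_⟩
  rw [Matrix.mul_assoc, Matrix.mul_assoc, ← hBdef, hlow]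
  ext i j
  fin_cases i <;> fin_cases j <;> simp [Matrix.mul_apply, Fin.sum_univ_two]
  · linear_combination (-(B 0 0)) * he + ((e : ResL L) * d) * c4 -
      ((B 0 0) * (e : ResL L)) * hN
  · rw [hz]
    linear_combination (-(B 0 1)) * hi

end Fermat.Agent.LT.Lift.Unitary

end
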