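import Mathlib.Analysis.Complex.Basic
import Mathlib.Analysis.Complex.RealDeriv
import Mathlib.Analysis.Calculus.ContDiff.Defs
import Mathlib.Analysis.Calculus.Deriv.Mul
import Mathlib.Analysis.Calculus.Deriv.Pow
import Mathlib.Analysis.SpecialFunctions.Sqrt
import Mathlib.MeasureTheory.Integral.IntervalIntegral.FundThmCalculus
import Mathlib.MeasureTheory.Integral.Prod

/-!
# Stokes on the standard fundamental domain

An invariant one-form `F dτ` which decays at the cusp and has nonnegative `∂F/∂τ̄` is closed.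
-/

set_option autoImplicit false

noncomputable section

open MeasureTheory Real Filter Topology Set Complex

namespace Fermat.Agent.LT.Lift

/-- `∂f/∂τ̄`. -/
def dbar (f : ℂ → ℂ) (z : ℂ) : ℂ := (2 : ℂ)⁻¹ * (fderiv ℝ f z 1 + I * fderiv ℝ f z I)

/-- The upper half plane is open. -/
theorem isOpen_upperHalf : IsOpen {z : ℂ | 0 < z.im} := isOpen_lt continuous_const continuous_im

theorem continuousOn_dbar {f : ℂ → ℂ} (hf : ContDiffOn ℝ 1 f {z : ℂ | 0 < z.im}) :
    ContinuousOn (dbar f) {z : ℂ | 0 < z.im} := by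
  have h := hf.continuousOn_fderiv_of_isOpen isOpen_upperHalf le_rfl
  exact continuousOn_const.mul ((h.clm_apply continuousOn_const).add
    (continuousOn_const.mul (h.clm_apply continuousOn_const)))

/-- The lower boundary of the fundamental domain. -/
def arcHeight (x : ℝ) : ℝ := √(1 - x ^ 2)

/-- Its derivative. -/
def arcSlope (x : ℝ) : ℝ := -x / √(1 - x ^ 2)

/-- The point at height `t` above the arc. -/
def arcPoint (x t : ℝ) : ℂ := (x : ℂ) + ((arcHeight x + t : ℝ) : ℂ) * I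

theorem one_sub_sq_pos {x : ℝ} (hx : |x| ≤ 1 / 2) : 0 < 1 - x ^ 2 := by
  have := sq_abs x
  nlinarith [abs_nonneg x]

theorem arcHeight_pos {x : ℝ} (hx : |x| ≤ 1 / 2) : 0 < arcHeight x :=
  Real.sqrt_pos.mpr (one_sub_sq_pos hx)

theorem arcPoint_im (x t : ℝ) : (arcPoint x t).im = arcHeight x + t := by simp [arcPoint]

theorem arcPoint_re (x t : ℝ) : (arcPoint x t).re = x := by simp [arcPoint]

theorem arcPoint_im_pos {x t : ℝ} (hx : |x| ≤ 1 / 2) (ht : 0 ≤ t) : 0 < (arcPoint x t).im := by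
  rw [arcPoint_im]; linarith [arcHeight_pos hx]

theorem abs_le_half {x : ℝ} (hx : x ∈ uIcc (-(1 / 2) : ℝ) (1 / 2)) : |x| ≤ 1 / 2 := by
  rw [uIcc_of_le (by norm_num)] at hx
  exact abs_le.mpr ⟨hx.1, hx.2⟩

theorem hasDerivAt_arcHeight {x : ℝ} (hx : |x| ≤ 1 / 2) : HasDerivAt arcHeight (arcSlope x) x := by
  refine (((hasDerivAt_pow 2 x).const_sub 1).sqrt (one_sub_sq_pos hx).ne').congr_deriv ?_
  simp only [arcSlope, Nat.add_one_sub_one, pow_one, Nat.cast_ofNat]
  field_simp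

theorem continuous_arcPoint : Continuous fun p : ℝ × ℝ => arcPoint p.1 p.2 := by
  unfold arcPoint arcHeight; fun_prop

theorem continuousOn_arcSlope : ContinuousOn arcSlope (uIcc (-(1 / 2) : ℝ) (1 / 2)) :=
  continuousOn_id.neg.div (Continuous.continuousOn (by fun_prop))
    fun _ hx => (arcHeight_pos (abs_le_half hx)).ne'

theorem abs_arcSlope_le {x : ℝ} (hx : |x| ≤ 1 / 2) : |arcSlope x| ≤ 1 := by
  have h1 := Real.sq_sqrt (one_sub_sq_pos hx).le
  have h0 := Real.sqrt_pos.mpr (one_sub_sq_pos hx)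
  rw [arcSlope, abs_div, abs_neg, abs_of_pos h0, div_le_one h0]
  nlinarith [sq_abs x, abs_nonneg x]

theorem norm_slope_term_le {x : ℝ} (hx : |x| ≤ 1 / 2) : ‖I - (arcSlope x : ℂ)‖ ≤ 2 :=
  (norm_sub_le _ _).trans (by
    rw [norm_I, Complex.norm_real, Real.norm_eq_abs]; linarith [abs_arcSlope_le hx])

/-- The arc of the fundamental domain does not contribute. -/
theorem arc_integral_eq_zero (F : ℂ → ℂ)
    (hS : ∀ z : ℂ, 0 < z.im → F (-z⁻¹) = z ^ 2 * F z) :
    ∫ x in (-(1 / 2) : ℝ)..(1 / 2), (I - (arcSlope x : ℂ)) * F (arcPoint x 0) = 0 := by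
  set g : ℝ → ℂ := fun x => (I - (arcSlope x : ℂ)) * F (arcPoint x 0) with hg
  have hodd : ∀ x ∈ uIcc (-(1 / 2) : ℝ) (1 / 2), g (-x) = -g x := by
    intro x hx
    have hx' := abs_le_half hx
    set s := arcHeight x with hs
    have hs0 : 0 < s := arcHeight_pos hx'
    have hs2 : (x : ℂ) ^ 2 + (s : ℂ) ^ 2 = 1 := by
      rw [← ofReal_pow, ← ofReal_pow, hs, arcHeight, Real.sq_sqrt (one_sub_sq_pos hx').le,
        ← ofReal_add]
      simp
    have hz : arcPoint x 0 = (x : ℂ) + (s : ℂ) * I := by simp [arcPoint, hs]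
    have hz' : arcPoint (-x) 0 = -(arcPoint x 0)⁻¹ := by
      have hne : arcPoint x 0 ≠ 0 := fun h => by
        have := arcPoint_im_pos hx' le_rfl
        rw [h] at this; simp at this
      have hm : arcPoint (-x) 0 * arcPoint x 0 = -1 := by
        simp only [arcPoint, arcHeight, neg_sq, add_zero, ofReal_neg]
        simp only [hs, arcHeight] at hs2
        linear_combination -hs2 + ((√(1 - x ^ 2) : ℝ) : ℂ) ^ 2 * I_sq
      calc arcPoint (-x) 0 = arcPoint (-x) 0 * arcPoint x 0 * (arcPoint x 0)⁻¹ := by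
            rw [mul_assoc, mul_inv_cancel₀ hne, mul_one]
        _ = -(arcPoint x 0)⁻¹ := by rw [hm]; ring
    have hsl : (arcSlope x : ℂ) = -(x : ℂ) / (s : ℂ) := by
      simp [arcSlope, hs, arcHeight]
    have hsl' : (arcSlope (-x) : ℂ) = (x : ℂ) / (s : ℂ) := by
      simp [arcSlope, hs, arcHeight]
    simp only [hg, hz', hS _ (arcPoint_im_pos hx' le_rfl)]
    rw [hsl, hsl', hz]
    have hsne : (s : ℂ) ≠ 0 := ofReal_ne_zero.mpr hs0.ne'
    generalize F ((x : ℂ) + (s : ℂ) * I) = W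
    field_simp
    linear_combination (-((x : ℂ) + I * s) * W) * hs2 + (((x : ℂ) * s ^ 2 + I * s ^ 3) * W) * I_sq
  have e : ∫ x in (-(1 / 2) : ℝ)..(1 / 2), g x = -∫ x in (-(1 / 2) : ℝ)..(1 / 2), g x := by
    rw [← intervalIntegral.integral_neg, ← intervalIntegral.integral_congr hodd,
      intervalIntegral.integral_comp_neg, neg_neg]
  linear_combination (1 / 2 : ℂ) * e

/-- The integral over a truncated fundamental domain is the top boundary. -/
theorem truncation_eq (F : ℂ → ℂ) (hF : ContDiffOn ℝ 1 F {z : ℂ | 0 < z.im})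
    (hper : ∀ z : ℂ, 0 < z.im → F (z + 1) = F z)
    (hS : ∀ z : ℂ, 0 < z.im → F (-z⁻¹) = z ^ 2 * F z) {T : ℝ} (hT : 0 ≤ T) :
    ∫ t in (0 : ℝ)..T, ∫ x in (-(1 / 2) : ℝ)..(1 / 2), 2 * dbar F (arcPoint x t)
      = ∫ x in (-(1 / 2) : ℝ)..(1 / 2), (I - (arcSlope x : ℂ)) * F (arcPoint x T) := by
  set S : Set (ℝ × ℝ) := uIcc (-(1 / 2) : ℝ) (1 / 2) ×ˢ Ici 0 with hSdef
  have hmaps : MapsTo (fun p : ℝ × ℝ => arcPoint p.1 p.2) S {z : ℂ | 0 < z.im} :=
    fun p hp => arcPoint_im_pos (abs_le_half hp.1) hp.2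
  have hD := hF.continuousOn_fderiv_of_isOpen isOpen_upperHalf le_rfl
  -- the pullback and its derivatives
  set Φ : ℝ → ℝ → ℂ := fun x t => F (arcPoint x t) with hΦ
  set Φx : ℝ → ℝ → ℂ := fun x t => fderiv ℝ F (arcPoint x t) 1
    + (arcSlope x : ℂ) * fderiv ℝ F (arcPoint x t) I with hΦx
  set Φt : ℝ → ℝ → ℂ := fun x t => fderiv ℝ F (arcPoint x t) I with hΦt
  set r : ℝ → ℝ → ℂ := fun x t => 2 * dbar F (arcPoint x t) with hr
  have hpt : ∀ w : ℂ, 0 < w.im → HasFDerivAt F (fderiv ℝ F w) w := fun w hw =>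
    ((hF.contDiffAt (isOpen_upperHalf.mem_nhds hw)).differentiableAt one_ne_zero).hasFDerivAt
  have hdx : ∀ x t, |x| ≤ 1 / 2 → 0 ≤ t → HasDerivAt (fun x => Φ x t) (Φx x t) x := by
    intro x t hx ht
    have h1 : HasDerivAt (fun x => arcPoint x t) (1 + (arcSlope x : ℂ) * I) x := by
      unfold arcPoint
      exact ((hasDerivAt_id x).ofReal_comp.add
        (((hasDerivAt_arcHeight hx).add_const t).ofReal_comp.mul_const I)).congr_deriv (by simp)
    refine ((hpt _ (arcPoint_im_pos hx ht)).comp_hasDerivAt x h1).congr_deriv ?_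
    rw [map_add, ← Complex.real_smul, map_smul, Complex.real_smul]
  have hdt : ∀ x t, |x| ≤ 1 / 2 → 0 ≤ t → HasDerivAt (fun t => Φ x t) (Φt x t) t := by
    intro x t hx ht
    have h1 : HasDerivAt (fun t => arcPoint x t) I t := by
      unfold arcPoint
      exact ((((hasDerivAt_id t).const_add (arcHeight x)).ofReal_comp.mul_const I).const_add
        (x : ℂ)).congr_deriv (by simp)
    exact (hpt _ (arcPoint_im_pos hx ht)).comp_hasDerivAt t h1
  have hΦxc : ContinuousOn (fun p : ℝ × ℝ => Φx p.1 p.2) S := by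
    have hd := hD.comp continuous_arcPoint.continuousOn hmaps
    refine (hd.clm_apply continuousOn_const).add (ContinuousOn.mul ?_
      (hd.clm_apply continuousOn_const))
    exact continuous_ofReal.comp_continuousOn
      (continuousOn_arcSlope.comp continuous_fst.continuousOn fun p hp => hp.1)
  have hΦtc : ContinuousOn (fun p : ℝ × ℝ => Φt p.1 p.2) S :=
    (hD.comp continuous_arcPoint.continuousOn hmaps).clm_apply continuousOn_const
  have hrc : ContinuousOn (fun p : ℝ × ℝ => r p.1 p.2) S :=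
    continuousOn_const.mul ((continuousOn_dbar hF).comp continuous_arcPoint.continuousOn hmaps)
  have hsplit : ∀ x t, r x t = Φx x t + (I - (arcSlope x : ℂ)) * Φt x t := fun x t => by
    simp only [hr, hΦx, hΦt, dbar]; ring
  have hc : ContinuousOn (fun x => I - (arcSlope x : ℂ)) (uIcc (-(1 / 2) : ℝ) (1 / 2)) :=
    continuousOn_const.sub (continuous_ofReal.comp_continuousOn continuousOn_arcSlope)
  show ∫ t in (0 : ℝ)..T, ∫ x in (-(1 / 2) : ℝ)..(1 / 2), r x t
    = ∫ x in (-(1 / 2) : ℝ)..(1 / 2), (I - (arcSlope x : ℂ)) * Φ x T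
  have hsub : uIcc (-(1 / 2) : ℝ) (1 / 2) ×ˢ uIcc 0 T ⊆ S :=
    prod_mono subset_rfl (by rw [uIcc_of_le hT]; exact Icc_subset_Ici_self)
  have hrow : ∀ t ∈ uIcc 0 T, ∫ x in (-(1 / 2) : ℝ)..(1 / 2), r x t
      = ∫ x in (-(1 / 2) : ℝ)..(1 / 2), (I - (arcSlope x : ℂ)) * Φt x t := by
    intro t ht
    have ht0 : 0 ≤ t := by rw [uIcc_of_le hT] at ht; exact ht.1
    have hline : ∀ {f : ℝ × ℝ → ℂ}, ContinuousOn f S →
        ContinuousOn (fun x => f (x, t)) (uIcc (-(1 / 2) : ℝ) (1 / 2)) := fun hf =>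
      hf.comp (by fun_prop) fun x hx => ⟨hx, ht0⟩
    have i1 : ContinuousOn (fun x => Φx x t) (uIcc (-(1 / 2) : ℝ) (1 / 2)) := hline hΦxc
    have i2 : ContinuousOn (fun x => (I - (arcSlope x : ℂ)) * Φt x t)
        (uIcc (-(1 / 2) : ℝ) (1 / 2)) := hc.mul (hline hΦtc)
    simp only [hsplit]
    rw [intervalIntegral.integral_add i1.intervalIntegrable i2.intervalIntegrable,
      intervalIntegral.integral_eq_sub_of_hasDerivAt
        (fun x hx => hdx x t (abs_le_half hx) ht0) i1.intervalIntegrable]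
    have hp : arcPoint (1 / 2) t = arcPoint (-(1 / 2)) t + 1 := by
      simp only [arcPoint, arcHeight, neg_sq, ofReal_neg, ofReal_div, ofReal_one, ofReal_ofNat]
      ring
    have him' := arcPoint_im_pos (x := -(1 / 2)) (by norm_num [abs_of_neg]) ht0
    simp only [hΦ, hp, hper _ him', sub_self, zero_add]
  rw [intervalIntegral.integral_congr hrow]
  have hswap : ∫ t in (0 : ℝ)..T, ∫ x in (-(1 / 2) : ℝ)..(1 / 2), (I - (arcSlope x : ℂ)) * Φt x t
      = ∫ x in (-(1 / 2) : ℝ)..(1 / 2), ∫ t in (0 : ℝ)..T, (I - (arcSlope x : ℂ)) * Φt x t := by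
    simp only [intervalIntegral.integral_of_le hT,
      intervalIntegral.integral_of_le (show (-(1 / 2) : ℝ) ≤ 1 / 2 by norm_num)]
    refine integral_integral_swap ?_
    rw [Measure.prod_restrict, ← Measure.volume_eq_prod]
    refine IntegrableOn.mono_set (t := Icc 0 T ×ˢ Icc (-(1 / 2) : ℝ) (1 / 2)) ?_
      (prod_mono Ioc_subset_Icc_self Ioc_subset_Icc_self)
    refine ContinuousOn.integrableOn_compact (isCompact_Icc.prod isCompact_Icc) ?_
    have hsw : MapsTo Prod.swap (Icc 0 T ×ˢ Icc (-(1 / 2) : ℝ) (1 / 2)) S := fun p hp =>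
      ⟨by rw [uIcc_of_le (by norm_num)]; exact hp.2, hp.1.1⟩
    have hswc : ContinuousOn (fun p : ℝ × ℝ => (I - (arcSlope p.1 : ℂ)) * Φt p.1 p.2) S :=
      (hc.comp continuous_fst.continuousOn fun p hp => hp.1).mul hΦtc
    exact (hswc.comp continuous_swap.continuousOn hsw).congr fun p _ => rfl
  rw [hswap]
  have hcol : ∀ x ∈ uIcc (-(1 / 2) : ℝ) (1 / 2), ∫ t in (0 : ℝ)..T, (I - (arcSlope x : ℂ)) * Φt x t
      = (I - (arcSlope x : ℂ)) * Φ x T - (I - (arcSlope x : ℂ)) * Φ x 0 := by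
    intro x hx
    have hi : ContinuousOn (fun t => Φt x t) (uIcc 0 T) :=
      hΦtc.comp (f := fun t => (x, t)) (by fun_prop) fun t ht => hsub ⟨hx, ht⟩
    rw [intervalIntegral.integral_const_mul, intervalIntegral.integral_eq_sub_of_hasDerivAt
      (fun t ht => hdt x t (abs_le_half hx) (by rw [uIcc_of_le hT] at ht; exact ht.1))
      hi.intervalIntegrable, mul_sub]
  have hΦc : ∀ t : ℝ, 0 ≤ t → ContinuousOn (fun x => (I - (arcSlope x : ℂ)) * Φ x t)
      (uIcc (-(1 / 2) : ℝ) (1 / 2)) := fun t ht => hc.mul fun x hx =>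
    ((hdx x t (abs_le_half hx) ht).continuousAt).continuousWithinAt
  rw [intervalIntegral.integral_congr hcol, intervalIntegral.integral_sub
    (hΦc T hT).intervalIntegrable (hΦc 0 le_rfl).intervalIntegrable,
    arc_integral_eq_zero F hS, sub_zero]

/-- **Stokes on the fundamental domain.** -/
theorem dbar_eq_zero_of_invariant (F : ℂ → ℂ) (hF : ContDiffOn ℝ 1 F {z : ℂ | 0 < z.im})
    (hper : ∀ z : ℂ, 0 < z.im → F (z + 1) = F z)
    (hS : ∀ z : ℂ, 0 < z.im → F (-z⁻¹) = z ^ 2 * F z)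
    (hdecay : ∀ ε : ℝ, 0 < ε → ∃ Y : ℝ, ∀ z : ℂ, Y ≤ z.im → |z.re| ≤ 1 / 2 → ‖F z‖ ≤ ε)
    (hpos : ∀ z : ℂ, 0 < z.im → 0 ≤ (dbar F z).re ∧ (dbar F z).im = 0)
    {z : ℂ} (hre : |z.re| ≤ 1 / 2) (hnorm : 1 ≤ ‖z‖) (him : 0 < z.im) : dbar F z = 0 := by
  set S : Set (ℝ × ℝ) := uIcc (-(1 / 2) : ℝ) (1 / 2) ×ˢ Ici 0 with hSdef
  have hmaps : MapsTo (fun p : ℝ × ℝ => arcPoint p.1 p.2) S {z : ℂ | 0 < z.im} :=
    fun p hp => arcPoint_im_pos (abs_le_half hp.1) hp.2
  set r : ℝ → ℝ → ℂ := fun x t => 2 * dbar F (arcPoint x t) with hr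
  have hrc : ContinuousOn (fun p : ℝ × ℝ => r p.1 p.2) S :=
    continuousOn_const.mul ((continuousOn_dbar hF).comp continuous_arcPoint.continuousOn hmaps)
  set Φ : ℝ → ℝ → ℂ := fun x t => F (arcPoint x t) with hΦ
  have hK : ∀ T : ℝ, 0 ≤ T → ∫ t in (0 : ℝ)..T, ∫ x in (-(1 / 2) : ℝ)..(1 / 2), r x t
      = ∫ x in (-(1 / 2) : ℝ)..(1 / 2), (I - (arcSlope x : ℂ)) * Φ x T :=
    fun T hT => truncation_eq F hF hper hS hT
  -- each truncation vanishes
  set ρ : ℝ → ℝ → ℝ := fun x t => (r x t).re with hρ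
  have hρ0 : ∀ x ∈ uIcc (-(1 / 2) : ℝ) (1 / 2), ∀ t, 0 ≤ t → 0 ≤ ρ x t ∧ r x t = (ρ x t : ℂ) := by
    intro x hx t ht
    obtain ⟨h1, h2⟩ := hpos _ (arcPoint_im_pos (abs_le_half hx) ht)
    refine ⟨?_, Complex.ext (by simp [hρ]) ?_⟩
    · simp [hρ, hr, h1]
    · simp [hr, h2]
  set J : ℝ → ℝ := fun t => ∫ x in (-(1 / 2) : ℝ)..(1 / 2), ρ x t with hJ
  have hJc : ContinuousOn J (Ici 0) := by
    rw [continuousOn_iff_continuous_domRestrict]
    refine intervalIntegral.continuous_parametric_intervalIntegral_of_continuous' (μ := volume)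
      (f := fun (t : Ici (0 : ℝ)) x => ρ (max (-(1 / 2)) (min x (1 / 2))) t) ?_ (-(1 / 2)) (1 / 2)
      |>.congr ?_
    · refine continuous_re.comp (hrc.comp_continuous
        (f := fun p : Ici (0 : ℝ) × ℝ => (max (-(1 / 2) : ℝ) (min p.2 (1 / 2)), (p.1 : ℝ)))
        (by fun_prop) fun p => ⟨?_, p.1.2⟩)
      rw [uIcc_of_le (by norm_num)]
      exact ⟨le_max_left _ _, max_le (by norm_num) (min_le_right _ _)⟩
    · intro t
      refine intervalIntegral.integral_congr fun x hx => ?_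
      rw [uIcc_of_le (by norm_num)] at hx
      simp only [min_eq_left hx.2, max_eq_right hx.1, hρ]
  have hJ0 : ∀ t, 0 ≤ t → 0 ≤ J t := fun t ht =>
    intervalIntegral.integral_nonneg (by norm_num) fun x hx =>
      (hρ0 x (by rw [uIcc_of_le (by norm_num)]; exact hx) t ht).1
  have hJK : ∀ T : ℝ, 0 ≤ T → ((∫ t in (0 : ℝ)..T, J t : ℝ) : ℂ)
      = ∫ x in (-(1 / 2) : ℝ)..(1 / 2), (I - (arcSlope x : ℂ)) * Φ x T := by
    intro T hT
    rw [← hK T hT, ← intervalIntegral.integral_ofReal]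
    refine intervalIntegral.integral_congr fun t ht => ?_
    rw [uIcc_of_le hT] at ht
    rw [hJ, ← intervalIntegral.integral_ofReal]
    exact intervalIntegral.integral_congr fun x hx => ((hρ0 x hx t ht.1).2).symm
  have hvan : ∀ T : ℝ, 0 ≤ T → ∫ t in (0 : ℝ)..T, J t = 0 := by
    intro T hT
    refine le_antisymm (le_of_forall_pos_le_add fun ε hε => ?_)
      (intervalIntegral.integral_nonneg hT fun t ht => hJ0 t ht.1)
    obtain ⟨Y, hY⟩ := hdecay (ε / 2) (half_pos hε)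
    set T' := max T (max Y 0) with hT'def
    have hT' : T ≤ T' := le_max_left _ _
    have hint : ∀ u, 0 ≤ u → IntervalIntegrable J volume 0 u := fun u hu =>
      (hJc.mono (by rw [uIcc_of_le hu]; exact Icc_subset_Ici_self)).intervalIntegrable
    have hmono : ∫ t in (0 : ℝ)..T, J t ≤ ∫ t in (0 : ℝ)..T', J t := by
      rw [← sub_nonneg, intervalIntegral.integral_interval_sub_left (hint T' (hT.trans hT'))
        (hint T hT)]
      exact intervalIntegral.integral_nonneg hT' fun t ht => hJ0 t (hT.trans ht.1)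
    refine hmono.trans ?_
    rw [zero_add]
    have h1 := congrArg norm (hJK T' (hT.trans hT'))
    rw [Complex.norm_real, Real.norm_eq_abs] at h1
    refine (le_abs_self _).trans (h1.trans_le ?_)
    refine (intervalIntegral.norm_integral_le_of_norm_le_const (C := ε) fun x hx => ?_).trans
      (by norm_num)
    have hx' := abs_le_half (uIoc_subset_uIcc hx)
    rw [norm_mul, show ε = 2 * (ε / 2) by ring]
    refine mul_le_mul (norm_slope_term_le hx') (hY _ ?_ (by rwa [arcPoint_re])) (norm_nonneg _)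
      zero_le_two
    rw [arcPoint_im]
    have := arcHeight_pos hx'
    have : Y ≤ T' := (le_max_left Y 0).trans (le_max_right T _)
    linarith
  -- hence the density vanishes
  have hJv : ∀ t, 0 ≤ t → J t = 0 := by
    intro t ht
    by_contra hne
    have hT : (0 : ℝ) < t + 1 := by linarith
    refine absurd (hvan (t + 1) hT.le) (ne_of_gt (intervalIntegral.integral_pos hT
      (hJc.mono Icc_subset_Ici_self) (fun u hu => hJ0 u hu.1.le) ⟨t, ⟨ht, by linarith⟩, ?_⟩))
    exact lt_of_le_of_ne (hJ0 t ht) (Ne.symm hne)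
  have hs : arcHeight z.re ≤ z.im := by
    rw [arcHeight, ← Real.sqrt_sq him.le]
    refine Real.sqrt_le_sqrt ?_
    have h1 : (1 : ℝ) ≤ normSq z := by rw [normSq_eq_norm_sq]; nlinarith
    rw [normSq_apply] at h1
    linarith
  set t₀ := z.im - arcHeight z.re with ht₀
  have ht₀0 : 0 ≤ t₀ := by linarith
  have hz : arcPoint z.re t₀ = z := Complex.ext (arcPoint_re _ _) (by rw [arcPoint_im]; ring)
  have hmem : z.re ∈ uIcc (-(1 / 2) : ℝ) (1 / 2) := by
    rw [uIcc_of_le (by norm_num)]; exact abs_le.mp hre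
  have hρv : ρ z.re t₀ = 0 := by
    by_contra hne
    have hρc : ContinuousOn (fun x => ρ x t₀) (Icc (-(1 / 2) : ℝ) (1 / 2)) :=
      continuous_re.comp_continuousOn (hrc.comp (f := fun x => (x, t₀)) (by fun_prop)
        fun x hx => ⟨by rw [uIcc_of_le (by norm_num)]; exact hx, ht₀0⟩)
    refine absurd (hJv t₀ ht₀0) (ne_of_gt (intervalIntegral.integral_pos (by norm_num) hρc
      (fun x hx => (hρ0 x (by rw [uIcc_of_le (by norm_num)]; exact Ioc_subset_Icc_self hx) t₀
        ht₀0).1) ⟨z.re, abs_le.mp hre, ?_⟩))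
    exact lt_of_le_of_ne (hρ0 _ hmem _ ht₀0).1 (Ne.symm hne)
  have h := (hρ0 _ hmem _ ht₀0).2
  rw [hρv, hr, ofReal_zero] at h
  simp only [hz] at h
  exact (mul_eq_zero.mp h).resolve_left two_ne_zero

end Fermat.Agent.LT.Lift
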