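import Fermat.Agent.LT.Asai.Restrict.PeriodForm
import Fermat.Agent.LT.Asai.Restrict.Main
import Fermat.Agent.LT.Lift.QuotientIntegral

/-!
# A period detects one of finitely many summands

A nonzero period of a sum of functions invariant under a subgroup of finite index gives a nonzero
sum of their integrals, whatever partitions of unity they are integrated against.
-/

set_option autoImplicit false

noncomputable section

open MeasureTheory CongruenceSubgroup
open scoped MatrixGroups UpperHalfPlane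

namespace Fermat.Agent.LT.Lift

open Asai Fermat.Agent.Petersson

variable {R : ℕ} [NeZero R] {H : Subgroup SL(2, ℤ)}

omit [NeZero R] in
/-- A partition of unity of a subgroup of `Γ₀(R)` gives one of `Γ₀(R)`. -/
theorem hasSum_gamma0_of_partition [Fintype (Gamma0 R ⧸ H.subgroupOf (Gamma0 R))]
    (hH : H ≤ Gamma0 R) {w : ℍ → ℝ} (hw : IsPartition H w) (τ : ℍ) :
    HasSum (fun g : Gamma0 R => w ((g : SL(2, ℤ)) • τ) /
      (Fintype.card (Gamma0 R ⧸ H.subgroupOf (Gamma0 R)) : ℝ)) 1 := by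
  set n : ℝ := (Fintype.card (Gamma0 R ⧸ (H.subgroupOf (Gamma0 R))) : ℝ)
  have hn : n ≠ 0 := Nat.cast_ne_zero.mpr Fintype.card_ne_zero
  let E := Equiv.ofBijective _ (bijective_mul_out_inv (H.subgroupOf (Gamma0 R)))
  refine E.hasSum_iff.mp ?_
  have h1 : (1 : ℝ) = ∑ _q : Gamma0 R ⧸ (H.subgroupOf (Gamma0 R)), 1 / n := by
    rw [Finset.sum_const, Finset.card_univ, nsmul_eq_mul]
    show 1 = n * (1 / n)
    field_simp
  rw [h1]
  refine hasSum_prod_of_fintype fun q => ?_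
  simp only [Function.comp_apply]
  have h2 : HasSum (fun b : (H.subgroupOf (Gamma0 R)) => w ((((E (q, b)) : Gamma0 R) : SL(2, ℤ)) • τ)) 1 := by
    refine (Subgroup.subgroupOfEquivOfLe hH).symm.toEquiv.hasSum_iff.mp ?_
    refine (hw.2 (((q.out⁻¹ : Gamma0 R) : SL(2, ℤ)) • τ)).congr_fun fun h => ?_
    simp only [Function.comp_apply, E, Equiv.ofBijective_apply, Subgroup.coe_mul, mul_smul,
      Subgroup.smul_def]
    rfl
  exact h2.div_const _

/-- **A nonzero period gives a nonzero sum of integrals.** -/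
theorem sum_integral_ne_zero [H.FiniteIndex] (hH : H ≤ Gamma0 R) {ι : Type*} [Fintype ι]
    [Nonempty ι] {w : ι → ℍ → ℝ} {Ψ : ι → ℍ → ℂ} (hwm : ∀ i, Measurable (w i))
    (hw : ∀ i, IsPartition H (w i)) (hΨ : ∀ i, Measurable (Ψ i)) {B : ℝ}
    (hB : ∀ i τ, ‖Ψ i τ‖ ≤ B) (hinv : ∀ i, ∀ γ ∈ H, ∀ τ : ℍ, Ψ i (γ • τ) = Ψ i τ)
    (hsum : ∀ γ ∈ Gamma0 R, ∀ τ : ℍ, ∑ i, Ψ i (γ • τ) = ∑ i, Ψ i τ)
    (hP : period R (fun τ => ∑ i, Ψ i τ) ≠ 0) :
    ∑ i, ∫ τ, w i τ • Ψ i τ ≠ 0 := by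
  classical
  have : Fintype (Gamma0 R ⧸ H.subgroupOf (Gamma0 R)) := Fintype.ofFinite _
  obtain ⟨i₀⟩ := ‹Nonempty ι›
  set n : ℝ := (Fintype.card (Gamma0 R ⧸ H.subgroupOf (Gamma0 R)) : ℝ) with hn
  have hn0 : n ≠ 0 := Nat.cast_ne_zero.mpr Fintype.card_ne_zero
  set v : ℍ → ℝ := fun τ => w i₀ τ / n with hv
  have hvm : Measurable v := (hwm i₀).div_const n
  have hv0 : ∀ τ, 0 ≤ v τ := fun τ => div_nonneg ((hw i₀).1 τ) (Nat.cast_nonneg _)
  have hvsum : ∀ τ : ℍ, HasSum (fun g : Gamma0 R => v ((g : SL(2, ℤ)) • τ)) 1 :=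
    hasSum_gamma0_of_partition hH (hw i₀)
  -- the weight is integrable
  obtain ⟨hone, -⟩ := period_eq_integral (R := R) (Ψ := fun _ => (1 : ℂ)) measurable_const
    (fun _ _ _ => rfl) (B := 1) (fun _ => by simp) hvm hv0 (ae_of_all _ hvsum)
  have hvi : ∀ i, Integrable fun τ => w i₀ τ • Ψ i τ := fun i => by
    have h := (hone.bdd_mul (c := B) (hΨ i).aestronglyMeasurable (ae_of_all _ (hB i))).const_mul (n : ℂ)
    refine h.congr (ae_of_all _ fun τ => ?_)
    simp only [hv, Complex.real_smul, mul_one]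
    push_cast
    field_simp [Complex.ofReal_ne_zero.mpr hn0]
  -- swap the partitions
  have hswap : ∀ i, ∫ τ, w i τ • Ψ i τ = ∫ τ, w i₀ τ • Ψ i τ := fun i =>
    (integral_partition_swap (G := H) (fun g => measurePreserving_sl (g : SL(2, ℤ))) (hwm i₀) (hwm i)
      (hΨ i).aestronglyMeasurable (hw i₀) (hw i) (fun g τ => hinv i g g.2 τ) (hvi i)).symm
  rw [Finset.sum_congr rfl fun i _ => hswap i, ← integral_finsetSum _ fun i _ => hvi i]
  have hne : ∫ τ, v τ • ∑ i, Ψ i τ ≠ 0 :=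
    period_eq_integral_ne_zero (Finset.measurable_sum _ fun i _ => hΨ i) hsum
      (B := (Fintype.card ι : ℝ) * B) (fun τ => (norm_sum_le _ _).trans ((Finset.sum_le_sum
        fun i _ => hB i τ).trans (by simp))) hvm hv0 (ae_of_all _ hvsum) hP
  intro h0
  refine hne ?_
  calc ∫ τ, v τ • ∑ i, Ψ i τ = ∫ τ, (n⁻¹ : ℝ) • ∑ i, w i₀ τ • Ψ i τ :=
        integral_congr_ae (ae_of_all _ fun τ => by
          simp only [hv, Finset.smul_sum, smul_smul]
          exact Finset.sum_congr rfl fun i _ => by rw [div_eq_inv_mul])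
    _ = 0 := by rw [integral_smul, h0, smul_zero]

/-- Scaling of the period. -/
theorem period_const_mul {Ψ : ℍ → ℂ} (hΨ : Measurable Ψ) {B : ℝ} (hB : ∀ τ, ‖Ψ τ‖ ≤ B) (k : ℂ) :
    period R (fun τ => k * Ψ τ) = k * period R Ψ := by
  simpa using period_sum (R := R) ({()} : Finset Unit) (fun _ => k) (fun _ => Ψ) (fun _ _ => hΨ)
    (fun _ _ => ⟨B, hB⟩)

end Fermat.Agent.LT.Lift

end
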