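import Fermat.Agent.LT.Lift.HoneGroup
import Fermat.Agent.LT.Lift.PeriodPartition
import Fermat.Agent.LT.Lift.StdInstance

/-!
# The first coefficient from a period

If the indices of norm one are stabilised by a subgroup `H` of `Γ₀(R)` of finite index, then a
nonzero period of the form on the plane makes the first coefficient of the lift nonzero.
-/

set_option autoImplicit false

noncomputable section

open MeasureTheory Matrix NumberField CongruenceSubgroup
open scoped MatrixGroups UpperHalfPlane Classical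

namespace Fermat.Agent.LT.Lift

open LiftHecke Asai Places Translate

theorem bijective_out_mul {G : Type*} [Group G] (S : Subgroup G) :
    Function.Bijective fun p : (G ⧸ S) × S => p.1.out * (p.2 : G) := by
  refine ⟨fun ⟨q, s⟩ ⟨q', s'⟩ h => ?_, fun g => ?_⟩
  · simp only at h
    have hq : q = q' := by
      have := congrArg (QuotientGroup.mk (s := S)) h
      rwa [QuotientGroup.mk_mul_of_mem _ s.2, QuotientGroup.mk_mul_of_mem _ s'.2,
        QuotientGroup.out_eq', QuotientGroup.out_eq'] at this
    subst hq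
    exact Prod.ext rfl (Subtype.ext (mul_left_cancel h))
  · exact ⟨(QuotientGroup.mk g, ⟨(QuotientGroup.mk g : G ⧸ S).out⁻¹ * g,
      QuotientGroup.eq.mp (QuotientGroup.out_eq' _)⟩), mul_inv_cancel_left _ _⟩

/-- The coefficient from an invariant family on the plane with a nonzero period. -/
theorem coeff_ne_zero_of_plane {L : ℕ} (hL : 0 < L) (h3 : 3 ∣ L) [NeZero (L ^ 2)] {M : ℕ}
    [NeZero M] {π : PartitionOfUnity (Level.principal EisField L hL)} (hπ : IsLiftPartition π)
    {φ : Y (Level.principal EisField L hL) → ℂ} (hφ : IsSphericalCuspForm φ) {R : ℕ} [NeZero R]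
    {H : Subgroup SL(2, ℤ)} [H.FiniteIndex] (hH : H ≤ Gamma0 R)
    (hmem : ∀ u : (ZMod (L ^ 2))ˣ, ∀ γ ∈ H, honeHom M γ • unitIndex hL u = unitIndex hL u)
    (hstab : ∀ (u : (ZMod (L ^ 2))ˣ) (P : H3),
      HasSum (fun γ : H => stabWeight (adelicData (adelicInput_eis (W := stdWeight L hL) hπ hφ))
        (unitIndex hL u) (honeHom M (γ : SL(2, ℤ)) • P)) 2)
    (hinv : ∀ γ ∈ Gamma0 R, ∀ τ : ℍ,
      ∑ u : (ZMod (L ^ 2))ˣ, φ (fun _ => planeFrame M • planePoint (γ • τ),
          QuotientGroup.mk (dia (hatUnit EisField (L ^ 2) u))) =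
        ∑ u : (ZMod (L ^ 2))ˣ, φ (fun _ => planeFrame M • planePoint τ,
          QuotientGroup.mk (dia (hatUnit EisField (L ^ 2) u))))
    (hP : period R (fun τ => ∑ u : (ZMod (L ^ 2))ˣ, φ (fun _ => planeFrame M • planePoint τ,
      QuotientGroup.mk (dia (hatUnit EisField (L ^ 2) u)))) ≠ 0) :
    (adelicData (adelicInput_eis (W := stdWeight L hL) hπ hφ)).coeff 1 1 ≠ 0 := by
  set h := adelicInput_eis (W := stdWeight L hL) hπ hφ
  set D := adelicData h with hD
  set Ψ : (ZMod (L ^ 2))ˣ → ℍ → ℂ := fun u τ => D.ψ (unitIndex hL u) (planeFrame M • planePoint τ)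
    with hΨdef
  set w : (ZMod (L ^ 2))ˣ → ℍ → ℝ :=
    fun u τ => stabWeight D (unitIndex hL u) (planeFrame M • planePoint τ) / 2 with hwdef
  have hΨeq : ∀ u τ, Ψ u τ = φ (fun _ => planeFrame M • planePoint τ,
      QuotientGroup.mk (dia (hatUnit EisField (L ^ 2) u))) := fun u τ =>
    adelicData_ψ_unitIndex hL h u _
  have hcont : Measurable fun τ : ℍ => planeFrame M • planePoint τ :=
    ((H3.continuous_smul_point (planeFrame M)).comp continuous_planePoint).measurable
  obtain ⟨B, hB⟩ := hφ.cuspEigen.bounded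
  have hne : ∑ u, ∫ τ, w u τ • Ψ u τ ≠ 0 := by
    refine sum_integral_ne_zero (R := R) (H := H) hH
      (fun u => ((measurable_stabWeight D _).comp hcont).div_const 2) (fun u => ⟨fun τ =>
        div_nonneg (stabWeight_nonneg D _ _) two_pos.le, fun τ => ?_⟩)
      (fun u => (D.measurable_ψ _).comp hcont) (B := B)
      (fun u τ => by rw [hΨeq]; exact hB _) (fun u γ hγ τ => ?_) (fun γ hγ τ => ?_) ?_
    · have := (hstab u (planeFrame M • planePoint τ)).div_const 2
      rw [div_self two_ne_zero] at this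
      refine this.congr_fun fun g => ?_
      simp only [hwdef]
      rw [honeHom_smul_planePoint, Subgroup.smul_def]
    · simp only [hΨdef]
      rw [← honeHom_smul_planePoint]
      conv_lhs => rw [← hmem u γ hγ]
      exact D.ψ_smul _ _ _
    · simp only [hΨeq]
      exact hinv γ hγ τ
    · simp only [hΨeq]
      exact hP
  intro h0
  refine hne ?_
  have hframe : ∀ (s : unitOrbit hL) (q : (ZMod (L ^ 2))ˣ ⧸ unitOrbit hL),
      pullMat (planeFrame M) (D.X ((unitReps hL h h3 s).rep q)) = √(1 : ℝ) • baseVec := fun s q => by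
    rw [show (unitReps hL h h3 s).rep q = unitIndex hL (q.out * s) from rfl,
      adelicData_X_unitIndex, Real.sqrt_one, one_smul]
    exact pullMat_planeFrame M
  have hterm : ∀ s : unitOrbit hL,
      ∑ q : (ZMod (L ^ 2))ˣ ⧸ unitOrbit hL, ∫ τ, w (q.out * s) τ • Ψ (q.out * s) τ = 0 := fun s => by
    obtain ⟨-, hc⟩ := adelic_coeff_eq_planeSum h (hπ.thetaBound (isBoundedWeight_stdWeight hL))
      one_pos (adelicPlaneReps h (unitReps hL h h3 s) (fun _ => planeFrame M) (hframe s))
    rw [h0, tsum_fintype, eq_comm, smul_eq_zero] at hc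
    have hc' := hc.resolve_left (by norm_num)
    have e : ∀ q : (ZMod (L ^ 2))ˣ ⧸ unitOrbit hL,
        ∫ τ, w (q.out * s) τ • Ψ (q.out * s) τ = (1 / 2 : ℝ) •
          (adelicPlaneReps h (unitReps hL h h3 s) (fun _ => planeFrame M) (hframe s)).term q :=
      fun q => by
        rw [PlaneReps.term, ← integral_smul]
        refine integral_congr_ae (ae_of_all _ fun τ => ?_)
        show _ = (1 / 2 : ℝ) • (stabWeight D (unitIndex hL (q.out * s))
          (planeFrame M • planePoint τ) • D.ψ (unitIndex hL (q.out * s)) (planeFrame M • planePoint τ))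
        rw [smul_smul]
        simp only [hwdef, hΨdef]
        congr 1
        ring
    rw [Finset.sum_congr rfl fun q _ => e q, ← Finset.smul_sum, hc', smul_zero]
  rw [← (Equiv.ofBijective _ (bijective_out_mul (unitOrbit hL))).sum_comp, Fintype.sum_prod_type,
    Finset.sum_comm]
  exact Finset.sum_eq_zero fun s _ => hterm s

end Fermat.Agent.LT.Lift

end
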