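import Fermat.Agent.LT.Lift.HoneIndices
import Mathlib.NumberTheory.ModularForms.CongruenceSubgroups

/-!
# The integral group of the plane

The subgroup `honeGroup M e` of `SL₂(ℤ)` whose conjugates by the frame of the plane are scalar
modulo the level, and its homomorphism to `PGL₂` of `ℚ(ζ₃)`.
-/

set_option autoImplicit false

noncomputable section

open Matrix NumberField CongruenceSubgroup
open scoped MatrixGroups UpperHalfPlane

namespace Fermat.Agent.LT.Lift

open LiftHecke Asai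

variable (M e : ℕ)

/-- The matrices whose conjugates by the frame are scalar modulo the level. -/
def honeGroup : Subgroup SL(2, ℤ) where
  carrier := {γ | ((3 ^ (2 * e + 3) : ℕ) : ℤ) ∣ γ 0 1 ∧ ((honeLevel M e * M : ℕ) : ℤ) ∣ γ 1 0 ∧
    (honeLevel M e : ℤ) ∣ γ 0 0 - γ 1 1}
  one_mem' := by simp
  mul_mem' := by
    rintro a b ⟨hab, hac, had⟩ ⟨hbb, hbc, hbd⟩
    have hL : (honeLevel M e : ℤ) ∣ ((honeLevel M e * M : ℕ) : ℤ) := by
      exact_mod_cast dvd_mul_right (honeLevel M e) M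
    refine ⟨?_, ?_, ?_⟩ <;>
      simp only [Matrix.SpecialLinearGroup.coe_mul, Matrix.mul_apply, Fin.sum_univ_two]
    · exact dvd_add (dvd_mul_of_dvd_right hbb _) (dvd_mul_of_dvd_left hab _)
    · exact dvd_add (dvd_mul_of_dvd_left hac _) (dvd_mul_of_dvd_right hbc _)
    · rw [show a 0 0 * b 0 0 + a 0 1 * b 1 0 - (a 1 0 * b 0 1 + a 1 1 * b 1 1) =
        (a 0 0 - a 1 1) * b 0 0 + a 1 1 * (b 0 0 - b 1 1) +
          (a 0 1 * b 1 0 - a 1 0 * b 0 1) by ring]
      exact dvd_add (dvd_add (dvd_mul_of_dvd_left had _) (dvd_mul_of_dvd_right hbd _))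
        (dvd_sub (dvd_mul_of_dvd_right (hL.trans hbc) _) (dvd_mul_of_dvd_left (hL.trans hac) _))
  inv_mem' := by
    rintro a ⟨hab, hac, had⟩
    have e0 : (a⁻¹ : SL(2, ℤ)).val = !![a 1 1, -a 0 1; -a 1 0, a 0 0] := by
      rw [Matrix.SpecialLinearGroup.coe_inv, Matrix.adjugate_fin_two]
    refine ⟨?_, ?_, ?_⟩ <;> simp only [e0]
    · simpa using hab
    · simpa using hac
    · simpa using dvd_sub_comm.mp had

/-- The congruences cutting out `honeGroup`. -/
theorem mem_honeGroup_iff (γ : SL(2, ℤ)) :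
    γ ∈ honeGroup M e ↔ ((3 ^ (2 * e + 3) : ℕ) : ℤ) ∣ γ 0 1 ∧
      ((honeLevel M e * M : ℕ) : ℤ) ∣ γ 1 0 ∧ (honeLevel M e : ℤ) ∣ γ 0 0 - γ 1 1 :=
  Iff.rfl

/-- `honeGroup M e` lies in `Γ₀((3 ^ e M)²)`. -/
theorem honeGroup_le_Gamma0 : honeGroup M e ≤ Gamma0 ((3 ^ e * M) ^ 2) := by
  intro γ hγ
  rw [Gamma0_mem, ZMod.intCast_zmod_eq_zero_iff_dvd]
  refine dvd_trans ?_ hγ.2.1
  rw [Int.natCast_dvd_natCast, honeLevel, mul_pow, ← pow_mul, mul_comm M, mul_assoc, sq M]
  exact mul_dvd_mul_right (pow_dvd_pow 3 (by omega)) _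

/-- The conjugate by the frame. -/
def planeConj [NeZero M] : SL(2, ℤ) →* GL (Fin 2) EisField :=
  (MulAut.conj (dia (planeUnit M))).toMonoidHom.comp (slToGL EisField)

/-- The action of the integers on the plane, in the projective group. -/
def honeHom [NeZero M] : SL(2, ℤ) →* AdelicG eisFrame.toHermFrame where
  toFun γ := AdelicG.mk (planeConj M γ)
  map_one' := by rw [map_one]; rfl
  map_mul' a b := by rw [map_mul, AdelicG.mk_mul]

/-- The homomorphism is the class of the conjugated matrix. -/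
theorem honeHom_apply [NeZero M] (γ : SL(2, ℤ)) :
    honeHom M γ = AdelicG.mk (planeConj M γ) := rfl

/-- The entries of the conjugated matrix. -/
theorem planeConj_val [NeZero M] (γ : SL(2, ℤ)) :
    (planeConj M γ).val = !![((γ 0 0 : ℤ) : EisField), (planeUnit M : EisField) * (γ 0 1 : ℤ);
      ((γ 1 0 : ℤ) : EisField) * ((planeUnit M)⁻¹ : EisFieldˣ), ((γ 1 1 : ℤ) : EisField)] := by
  show ((dia (planeUnit M) : GL (Fin 2) EisField) * slToGL EisField γ *
    (dia (planeUnit M) : GL (Fin 2) EisField)⁻¹).val = _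
  have hd : ((dia (planeUnit M) : GL (Fin 2) EisField)⁻¹).val =
      !![(((planeUnit M)⁻¹ : EisFieldˣ) : EisField), 0; 0, 1] := rfl
  ext i j
  rw [Units.val_mul, Units.val_mul, hd]
  fin_cases i <;> fin_cases j <;>
    simp [dia, Matrix.mul_apply, Fin.sum_univ_two, Matrix.vecMul, dotProduct, slToGL_apply,
      -Units.val_inv_eq_inv_val]
  rw [mul_comm (planeUnit M : EisField), mul_assoc, Units.mul_inv, mul_one]

/-- The action on the plane. -/
theorem honeHom_smul_planePoint [NeZero M] (γ : SL(2, ℤ)) (τ : ℍ) :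
    honeHom M γ • planeFrame M • planePoint τ = planeFrame M • planePoint (γ • τ) := by
  have h := glEmb_smul_planePt (default : InfinitePlace EisField) γ τ
  rw [glEmb, eisEmb_eq, planePt_eq, planePt_eq] at h
  simp only at h
  rw [← h, honeHom_apply, adelicPoint_mk_smul,
    show eisFrame.toHermFrame.e = eisEmb from rfl, planeFrame, ← mul_smul, ← mul_smul, ← map_mul,
    ← map_mul]
  congr 2
  show dia (planeUnit M) * slToGL EisField γ * (dia (planeUnit M))⁻¹ * dia (planeUnit M) = _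
  rw [inv_mul_cancel_right]

end Fermat.Agent.LT.Lift

end
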