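import Fermat.Agent.LT.Lift.PlaneCoord
import Mathlib.Analysis.SpecialFunctions.Gaussian.GaussianIntegral
import Mathlib.MeasureTheory.Function.JacobianOneDim

/-!
# The measure in normal coordinates

The invariant measure in normal coordinates, and the concentration of Gaussians on a plane.
-/

set_option autoImplicit false

noncomputable section

open MeasureTheory Real Set Filter Topology
open scoped ENNReal UpperHalfPlane

namespace Fermat.Agent.LT.Lift

/-- Normal coordinates. -/
def planeEquiv : ℍ × ℝ ≃ᵐ H3 where
  toFun q := planeMap q.1 q.2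
  invFun P := (planeFoot P, planeDist P)
  left_inv q := by
    refine Prod.ext (planeFoot_planeMap q.1 q.2) (sinh_injective ?_)
    have h := mTrace_baseVec_planeMap (planeFoot (planeMap q.1 q.2)) (planeDist (planeMap q.1 q.2))
    rw [planeMap_foot_dist, mTrace_baseVec_planeMap] at h
    exact (neg_injective h).symm
  right_inv P := planeMap_foot_dist P
  measurable_toFun := continuous_planeMap.measurable
  measurable_invFun := by
    refine measurable_planeFoot.prodMk ?_
    exact (continuous_arsinh.measurable.comp
      ((Complex.measurable_im.comp H3.continuous_zc.measurable).div H3.continuous_tc.measurable))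

/-- The density along the normals. -/
def normalMeasure : Measure ℝ := volume.withDensity fun s => ENNReal.ofReal (cosh s ^ 2)

instance : SFinite normalMeasure := by unfold normalMeasure; infer_instance

/-- Normal coordinates preserve the volume. -/
theorem measurePreserving_planeEquiv :
    MeasurePreserving planeEquiv ((volume : Measure ℍ).prod normalMeasure) H3.vol := by
  refine ⟨planeEquiv.measurable, Measure.ext fun s hs => ?_⟩
  have hf : Measurable (s.indicator (1 : H3 → ℝ≥0∞)) := measurable_one.indicator hs
  rw [← lintegral_indicator_one hs, ← lintegral_indicator_one hs,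
    lintegral_map hf planeEquiv.measurable,
    lintegral_prod_symm _ (hf.fun_comp planeEquiv.measurable).aemeasurable, normalMeasure,
    lintegral_planeMap hf]
  have hd : Measurable fun t : ℝ => ENNReal.ofReal (cosh t ^ 2) := by fun_prop
  rw [lintegral_withDensity_eq_lintegral_mul₀ hd.aemeasurable]
  · rfl
  · exact ((hf.fun_comp planeEquiv.measurable).lintegral_prod_left' (μ := volume)).aemeasurable

/-- Integration against the measure along the normals. -/
theorem integral_normalMeasure (g : ℝ → ℂ) :
    ∫ s, g s ∂normalMeasure = ∫ s, (cosh s ^ 2) • g s := by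
  rw [normalMeasure, show (fun s => ENNReal.ofReal (cosh s ^ 2)) =
      fun s => ((Real.toNNReal (cosh s ^ 2) : NNReal) : ℝ≥0∞) from rfl,
    integral_withDensity_eq_integral_smul (by fun_prop)]
  refine integral_congr_ae (Eventually.of_forall fun s => ?_)
  show Real.toNNReal (cosh s ^ 2) • g s = _
  rw [NNReal.smul_def, Real.coe_toNNReal _ (sq_nonneg _)]

/-- A function on the plane, extended along the normals, against a function of the distance. -/
theorem integral_planeEquiv {F : H3 → ℂ} (hF : Integrable F H3.vol) :
    ∫ P, F P ∂H3.vol = ∫ s, ∫ p, F (planeMap p s) ∂(volume : Measure ℍ) ∂normalMeasure := by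
  have h := measurePreserving_planeEquiv
  have hi : Integrable (fun x => F (planeEquiv x)) ((volume : Measure ℍ).prod normalMeasure) :=
    (h.integrable_comp_emb planeEquiv.measurableEmbedding).mpr hF
  rw [← h.integral_comp planeEquiv.measurableEmbedding F, integral_prod_symm _ hi]
  rfl

/-- The Gaussians of the distance concentrate on the plane. -/
theorem tendsto_gauss_normal {U : ℝ → ℂ} (hU : Continuous U) {C : ℝ} (hC : ∀ s, ‖U s‖ ≤ C)
    {a : ℝ} (ha : 0 < a) :
    Tendsto (fun t : ℝ => √t • ∫ s, (cosh s ^ 2 * exp (-(t * (a * sinh s ^ 2)))) • U s) atTop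
      (𝓝 (√(π / a) • U 0)) := by
  set g : ℝ → ℝ → ℂ := fun t y =>
    (√(1 + (y / √t) ^ 2) * exp (-a * y ^ 2)) • U (arsinh (y / √t)) with hg
  have hsub : ∀ t : ℝ, 0 < t →
      √t • ∫ s, (cosh s ^ 2 * exp (-(t * (a * sinh s ^ 2)))) • U s = ∫ y, g t y := by
    intro t ht
    have hst := Real.sqrt_pos.mpr ht
    have h1 := integral_image_eq_integral_abs_deriv_smul MeasurableSet.univ
      (fun s _ => (hasDerivAt_sinh s).hasDerivWithinAt) sinh_injective.injOn
      (fun x => (√(1 + x ^ 2) * exp (-a * (x * √t) ^ 2)) • U (arsinh x))
    rw [image_univ, sinh_surjective.range_eq, setIntegral_univ, setIntegral_univ] at h1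
    have h2 := Measure.integral_comp_mul_right (g t) (√t)
    have h3 : (fun x => g t (x * √t)) =
        fun x => (√(1 + x ^ 2) * exp (-a * (x * √t) ^ 2)) • U (arsinh x) := by
      funext x
      rw [hg]
      simp only [mul_div_cancel_right₀ x hst.ne']
    rw [h3, h1] at h2
    have h4 : ∀ s, (cosh s ^ 2 * exp (-(t * (a * sinh s ^ 2)))) • U s = |cosh s| •
        ((√(1 + sinh s ^ 2) * exp (-a * (sinh s * √t) ^ 2)) • U (arsinh (sinh s))) := by
      intro s
      rw [arsinh_sinh, smul_smul, abs_of_pos (cosh_pos s),
        show √(1 + sinh s ^ 2) = cosh s by rw [← cosh_sq', Real.sqrt_sq (cosh_pos s).le],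
        mul_pow (sinh s), Real.sq_sqrt ht.le]
      congr 1
      ring_nf
    rw [integral_congr_ae (Eventually.of_forall h4), h2, smul_smul, abs_inv,
      abs_of_pos hst, mul_inv_cancel₀ hst.ne', one_smul]
  have hC0 : 0 ≤ C := (norm_nonneg _).trans (hC 0)
  have hlim : Tendsto (fun t => ∫ y, g t y) atTop (𝓝 (∫ y : ℝ, exp (-a * y ^ 2) • U 0)) := by
    refine tendsto_integral_filter_of_dominated_convergence
      (fun y => C * ((1 + y ^ 2) * exp (-a * y ^ 2))) ?_ ?_ ?_ ?_
    · refine Eventually.of_forall fun t => (Continuous.aestronglyMeasurable ?_)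
      have : Continuous fun y : ℝ => y / √t := continuous_id.div_const _
      exact (Continuous.mul (Real.continuous_sqrt.comp (continuous_const.add (this.pow 2)))
        (by fun_prop)).smul (hU.comp (continuous_arsinh.comp this))
    · filter_upwards [eventually_ge_atTop 1] with t ht
      refine Eventually.of_forall fun y => ?_
      have hd : (y / √t) ^ 2 ≤ y ^ 2 := by
        rw [div_pow, Real.sq_sqrt (by linarith)]
        exact div_le_self (sq_nonneg y) ht
      have hs : √(1 + (y / √t) ^ 2) ≤ 1 + y ^ 2 := by
        refine (Real.sqrt_le_iff).mpr ⟨by positivity, ?_⟩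
        nlinarith [sq_nonneg y, sq_nonneg (y / √t), sq_nonneg (y ^ 2)]
      rw [hg, norm_smul, Real.norm_eq_abs, abs_of_nonneg (by positivity), mul_comm C]
      exact mul_le_mul (mul_le_mul_of_nonneg_right hs (exp_pos _).le) (hC _) (norm_nonneg _)
        (by positivity)
    · have h0 := integrable_exp_neg_mul_sq ha
      have h2 : Integrable fun y : ℝ => y ^ 2 * exp (-a * y ^ 2) := by
        have := integrable_rpow_mul_exp_neg_mul_sq ha (show (-1 : ℝ) < 2 by norm_num)
        simpa [Real.rpow_two] using this
      refine ((h0.add h2).const_mul C).congr (Eventually.of_forall fun y => ?_)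
      simp only [Pi.add_apply]
      ring
    · refine Eventually.of_forall fun y => ?_
      have hd : Tendsto (fun t : ℝ => y / √t) atTop (𝓝 0) :=
        tendsto_const_nhds.div_atTop (Real.tendsto_sqrt_atTop)
      have h1 : Tendsto (fun t : ℝ => √(1 + (y / √t) ^ 2) * exp (-a * y ^ 2)) atTop
          (𝓝 (exp (-a * y ^ 2))) := by
        have := ((Real.continuous_sqrt.tendsto _).comp ((hd.pow 2).const_add 1)).mul_const
          (exp (-a * y ^ 2))
        simpa [Function.comp_def] using this
      have h2 : Tendsto (fun t : ℝ => U (arsinh (y / √t))) atTop (𝓝 (U 0)) := by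
        have := ((hU.comp continuous_arsinh).tendsto 0).comp hd
        simpa [Function.comp_def] using this
      exact h1.smul h2
  rw [integral_smul_const, integral_gaussian] at hlim
  exact hlim.congr' ((eventually_gt_atTop 0).mono fun t ht => (hsub t ht).symm)

end Fermat.Agent.LT.Lift

end
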