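import Fermat.Agent.LT.Lift.Adelic
import Fermat.Agent.LT.Lift.PlaneMeasure

/-!
# Coefficients as periods

The coefficients of positive norm are sums over orbits of vectors of integrals over planes.
-/

set_option autoImplicit false

noncomputable section

open MeasureTheory Real Set Filter Topology
open scoped ENNReal UpperHalfPlane Classical

namespace Fermat.Agent.LT.Lift

variable {G J : Type*} [Group G] [Countable G] [MulAction G J] [MulAction G H3]
  [Countable J] [MeasurableSpace J] [MeasurableSingletonClass J]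
  {μ : Measure H3} [SigmaFinite μ] {c : ℝ≥0∞}

/-- The partition of unity of the stabiliser of `r` given by the orbit of `r`. -/
def stabWeight (D : LiftData G J μ c) (r : J) (P : H3) : ℝ :=
  ∑' q : G ⧸ MulAction.stabilizer G r, D.ω (q.out • r) (q.out • P)

omit [Countable G] [Countable J] [MeasurableSpace J] [MeasurableSingletonClass J] [SigmaFinite μ] in
/-- The weight of a stabiliser is nonnegative. -/
theorem stabWeight_nonneg (D : LiftData G J μ c) (r : J) (P : H3) : 0 ≤ stabWeight D r P :=
  tsum_nonneg fun _ => D.ω_nonneg _ _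

omit [Countable G] [Countable J] [MeasurableSpace J] [MeasurableSingletonClass J] [SigmaFinite μ] in
theorem summable_stabWeight (D : LiftData G J μ c) (r : J) (P : H3) :
    Summable fun q : G ⧸ MulAction.stabilizer G r => D.ω (q.out • r) (q.out • P) := by
  refine (D.ω_sum r P).summable.comp_injective (i := fun q : G ⧸ MulAction.stabilizer G r => q.out)
    fun q q' h => ?_
  rw [← QuotientGroup.out_eq' q, ← QuotientGroup.out_eq' q']
  exact congrArg _ h

omit [Countable J] [MeasurableSpace J] [MeasurableSingletonClass J] [SigmaFinite μ] in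
/-- The weight of a stabiliser is measurable. -/
theorem measurable_stabWeight (D : LiftData G J μ c) (r : J) : Measurable (stabWeight D r) := by
  have e : stabWeight D r = fun P =>
      (∑' q : G ⧸ MulAction.stabilizer G r,
        ENNReal.ofReal (D.ω (q.out • r) (q.out • P))).toReal := by
    funext P
    rw [ENNReal.tsum_toReal_eq fun _ => ENNReal.ofReal_ne_top]
    exact tsum_congr fun q => (ENNReal.toReal_ofReal (D.ω_nonneg _ _)).symm
  rw [e]
  have : Countable (G ⧸ MulAction.stabilizer G r) := QuotientGroup.mk_surjective.countable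
  exact (Measurable.tsum fun q =>
    ((D.measurable_ω _).comp (D.measurePreserving _).measurable).ennreal_ofReal).ennreal_toReal

omit [Countable G] [Countable J] [MeasurableSpace J] [MeasurableSingletonClass J] [SigmaFinite μ] in
/-- The translates of `stabWeight` under the stabiliser sum to one. -/
theorem hasSum_stabWeight (D : LiftData G J μ c) (r : J) (P : H3) :
    HasSum (fun h : MulAction.stabilizer G r => stabWeight D r ((h : G) • P)) 1 := by
  set S := MulAction.stabilizer G r
  have hbij : Function.Bijective fun p : S × (G ⧸ S) => p.2.out * (p.1 : G) := by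
    refine ⟨?_, fun g => ?_⟩
    · rintro ⟨h, q⟩ ⟨h', q'⟩ e
      simp only at e
      have hq : q = q' := by
        have := congrArg (QuotientGroup.mk (s := S)) e
        rwa [QuotientGroup.mk_mul_of_mem _ h.2, QuotientGroup.mk_mul_of_mem _ h'.2,
          QuotientGroup.out_eq', QuotientGroup.out_eq'] at this
      subst hq
      exact Prod.ext (Subtype.ext (mul_left_cancel e)) rfl
    · refine ⟨(⟨(QuotientGroup.mk g : G ⧸ S).out⁻¹ * g, ?_⟩, QuotientGroup.mk g),
        mul_inv_cancel_left _ _⟩
      exact QuotientGroup.eq.mp (QuotientGroup.out_eq' _)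
  have h1 : HasSum (fun p : S × (G ⧸ S) =>
      D.ω ((p.2.out * (p.1 : G)) • r) ((p.2.out * (p.1 : G)) • P)) 1 :=
    (Equiv.ofBijective _ hbij).hasSum_iff.mpr (D.ω_sum r P)
  refine h1.prod_fiberwise fun h => ?_
  refine (summable_stabWeight D r ((h : G) • P)).hasSum.congr_fun fun q => ?_
  show D.ω ((q.out * (h : G)) • r) ((q.out * (h : G)) • P) = _
  rw [mul_smul, mul_smul, show (h : G) • r = r from MulAction.mem_stabilizer_iff.mp h.2]

/-- Representatives of the orbits of the vectors of norm `n`. -/
structure OrbitReps (D : LiftData G J μ c) (n : ℝ) (ι : Type*) where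
  /-- The representatives. -/
  rep : ι → J
  norm_eq : ∀ i, nForm (D.X (rep i)) = n
  ne_zero : ∀ i, D.X (rep i) ≠ 0
  inj : ∀ i i' (g : G), g • rep i = rep i' → i = i'
  surj : ∀ j, nForm (D.X j) = n → D.X j ≠ 0 → ∃ i, ∃ g : G, g • rep i = j

variable {ι : Type*} [Countable ι] {D : LiftData G J μ c} {n : ℝ}

omit [Countable ι] in
/-- An invariant function on the vectors of norm `n`, orbit by orbit. -/
theorem integrable_stabWeight_and_hasSum (R : OrbitReps D n ι) (hn : n ≠ 0) {h : J → H3 → ℂ}
    (hh : ∀ j, Measurable (h j)) (hinv : ∀ (g : G) j P, h (g • j) (g • P) = h j P)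
    (hi : Integrable ((D.condSet n).indicator fun z => D.ω z.1 z.2 • h z.1 z.2)
      (jointMeasure J μ)) :
    (∀ i, Integrable (fun P => stabWeight D (R.rep i) P • h (R.rep i) P) μ) ∧
      HasSum (fun i => ∫ P, stabWeight D (R.rep i) P • h (R.rep i) P ∂μ)
        (∫ z, (D.condSet n).indicator (fun z => D.ω z.1 z.2 • h z.1 z.2) z ∂jointMeasure J μ) := by
  set F := (D.condSet n).indicator fun z => D.ω z.1 z.2 • h z.1 z.2 with hF
  obtain ⟨h1, h2⟩ := (integrable_prod_iff hi.1).mp hi
  rw [Measure.ae_count_iff] at h1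
  have hs : Summable fun j => ∫ P, ‖F (j, P)‖ ∂μ :=
    (integrable_count_iff.mp h2).congr fun j => by
      rw [Real.norm_of_nonneg (integral_nonneg fun _ => norm_nonneg _)]
  have hsum : HasSum (fun j => ∫ P, F (j, P) ∂μ) (∫ z, F z ∂jointMeasure J μ) := by
    have hsm : Summable fun j => ∫ P, F (j, P) ∂μ :=
      Summable.of_norm_bounded hs fun j => norm_integral_le_integral_norm _
    refine hsm.hasSum_iff.mpr ?_
    rw [integral_prod _ hi, integral_countable hi.integral_prod_left]
    simp
  set e : (Σ i, G ⧸ MulAction.stabilizer G (R.rep i)) → J := fun p => p.2.out • R.rep p.1 with he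
  have hinj : Function.Injective e := by
    rintro ⟨i, q⟩ ⟨i', q'⟩ heq
    simp only [he] at heq
    have hii : i = i' := R.inj i i' (q'.out⁻¹ * q.out) (by rw [mul_smul, heq, inv_smul_smul])
    subst hii
    have hq : q = q' := by
      rw [← QuotientGroup.out_eq' q, ← QuotientGroup.out_eq' q']
      refine QuotientGroup.eq.mpr (MulAction.mem_stabilizer_iff.mpr ?_)
      rw [mul_smul, ← heq, inv_smul_smul]
    rw [hq]
  have hoff : ∀ j ∉ Set.range e, ∀ P, F (j, P) = 0 := fun j hj P => by
    refine indicator_of_notMem (fun hmem => hj ?_) _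
    obtain ⟨i, g, hg⟩ := R.surj j hmem.1 hmem.2
    refine ⟨⟨i, QuotientGroup.mk g⟩, ?_⟩
    simp only [he]
    obtain ⟨s, hs'⟩ := QuotientGroup.mk_out_eq_mul (MulAction.stabilizer G (R.rep i)) g
    rw [hs', mul_smul, show (s : G) • R.rep i = R.rep i from MulAction.mem_stabilizer_iff.mp s.2,
      hg]
  have hsumσ : HasSum (fun p => ∫ P, F (e p, P) ∂μ) (∫ z, F z ∂jointMeasure J μ) :=
    (hinj.hasSum_iff (fun j hj => by simp [hoff j hj])).mpr hsum
  have hsσ : Summable fun p => ∫ P, ‖F (e p, P)‖ ∂μ := hs.comp_injective hinj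
  set f : (i : ι) → G ⧸ MulAction.stabilizer G (R.rep i) → H3 → ℂ := fun i q P =>
    D.ω (q.out • R.rep i) (q.out • P) • h (R.rep i) P with hf
  have hFf : ∀ i q P, F (e ⟨i, q⟩, q.out • P) = f i q P := by
    intro i q P
    have hmem : ((q.out • R.rep i, q.out • P) : J × H3) ∈ D.condSet n := by
      have hn' : nForm (D.X (q.out • R.rep i)) = n := by rw [D.nForm_smul, R.norm_eq]
      exact ⟨hn', fun h0 => hn (by rw [← hn', h0]; simp [nForm])⟩
    rw [hF]
    show (D.condSet n).indicator _ (q.out • R.rep i, q.out • P) = _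
    rw [indicator_of_mem hmem]
    show D.ω _ _ • h _ _ = _
    rw [hinv]
  have hemb : ∀ g : G, MeasurableEmbedding fun P : H3 => g • P :=
    measurableEmbedding_smul' D.measurePreserving
  have hfi : ∀ i q, Integrable (f i q) μ := fun i q => by
    have := ((D.measurePreserving q.out).integrable_comp_emb (hemb q.out)).mpr (h1 (e ⟨i, q⟩))
    exact this.congr (Eventually.of_forall fun P => hFf i q P)
  have hfn : ∀ i q, ∫ P, ‖f i q P‖ ∂μ = ∫ P, ‖F (e ⟨i, q⟩, P)‖ ∂μ := fun i q => by
    rw [← (D.measurePreserving q.out).integral_comp (hemb q.out) fun P => ‖F (e ⟨i, q⟩, P)‖]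
    simp only [hFf]
  have hfeq : ∀ i q, ∫ P, f i q P ∂μ = ∫ P, F (e ⟨i, q⟩, P) ∂μ := fun i q => by
    rw [← (D.measurePreserving q.out).integral_comp (hemb q.out) fun P => F (e ⟨i, q⟩, P)]
    simp only [hFf]
  have hfs : ∀ i, Summable fun q => ∫ P, ‖f i q P‖ ∂μ := fun i =>
    (hsσ.sigma_factor i).congr fun q => (hfn i q).symm
  have hts : ∀ i P, ∑' q, f i q P = stabWeight D (R.rep i) P • h (R.rep i) P := fun i P =>
    ((summable_stabWeight D (R.rep i) P).hasSum.smul_const (h (R.rep i) P)).tsum_eq
  have hai : ∀ i, Integrable (fun P => stabWeight D (R.rep i) P • h (R.rep i) P) μ := fun i => by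
    have : Countable (G ⧸ MulAction.stabilizer G (R.rep i)) := QuotientGroup.mk_surjective.countable
    refine ⟨(measurable_stabWeight D _).aestronglyMeasurable.smul (hh _).aestronglyMeasurable, ?_⟩
    rw [hasFiniteIntegral_iff_enorm]
    calc ∫⁻ P, ‖stabWeight D (R.rep i) P • h (R.rep i) P‖ₑ ∂μ
        ≤ ∫⁻ P, ∑' q, ‖f i q P‖ₑ ∂μ := lintegral_mono fun P => by
          rw [← hts i P]; exact enorm_tsum_le_tsum_enorm
      _ = ∑' q, ∫⁻ P, ‖f i q P‖ₑ ∂μ := lintegral_tsum fun q => (hfi i q).1.enorm
      _ = ∑' q, ENNReal.ofReal (∫ P, ‖f i q P‖ ∂μ) := tsum_congr fun q =>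
          (ofReal_integral_norm_eq_lintegral_enorm (hfi i q)).symm
      _ < ∞ := by
          rw [← ENNReal.ofReal_tsum_of_nonneg (fun q => integral_nonneg fun _ => norm_nonneg _)
            (hfs i)]
          exact ENNReal.ofReal_lt_top
  refine ⟨hai, hsumσ.sigma fun i => ?_⟩
  have : Countable (G ⧸ MulAction.stabilizer G (R.rep i)) := QuotientGroup.mk_surjective.countable
  have := hasSum_integral_of_summable_integral_norm (hfi i) (hfs i)
  simp only [hts] at this
  exact this.congr_fun fun q => (hfeq i q).symm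

theorem pullMat_real_smul (g : GL (Fin 2) ℂ) (a : ℝ) (X : Matrix (Fin 2) (Fin 2) ℂ) :
    pullMat g (a • X) = a • pullMat g X := by
  simp only [pullMat, Matrix.mul_smul, Matrix.smul_mul]
  exact smul_comm _ a _

/-- Representatives with frames moving their planes to `Im z = 0`. -/
structure PlaneReps {c : ℝ≥0∞} (D : LiftData G J H3.vol c) (n : ℝ) (ι : Type*)
    extends OrbitReps D n ι where
  /-- The matrices through which the group acts. -/
  toGL : G → GL (Fin 2) ℂ
  act : ∀ (g : G) (P : H3), g • P = toGL g • P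
  trans : ∀ (g : G) (j : J), pullMat (toGL g) (D.X (g • j)) = D.X j
  /-- The frames. -/
  frame : ι → GL (Fin 2) ℂ
  frame_eq : ∀ i, pullMat (frame i) (D.X (rep i)) = √n • baseVec

variable {c : ℝ≥0∞} {D : LiftData G J H3.vol c} {n : ℝ}

/-- The integral over the plane of a representative. -/
def PlaneReps.term (R : PlaneReps D n ι) (i : ι) : ℂ :=
  ∫ p : ℍ, stabWeight D (R.rep i) (R.frame i • planePoint p) •
    D.ψ (R.rep i) (R.frame i • planePoint p)

omit [Countable G] [Countable J] [MeasurableSpace J] [MeasurableSingletonClass J] [Countable ι] in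
/-- The foot map commutes with the stabiliser. -/
theorem PlaneReps.foot_stab (R : PlaneReps D n ι) (hn : 0 < n) (i : ι)
    (h : MulAction.stabilizer G (R.rep i)) (P : H3) :
    R.frame i • planePoint (planeFoot ((R.frame i)⁻¹ • (h : G) • P)) =
      (h : G) • R.frame i • planePoint (planeFoot ((R.frame i)⁻¹ • P)) := by
  set g := R.frame i
  set k := g⁻¹ * R.toGL h * g with hk
  have hs : √n ≠ 0 := (Real.sqrt_pos.mpr hn).ne'
  have hX : pullMat g⁻¹ (√n • baseVec) = D.X (R.rep i) := by
    rw [← R.frame_eq i, ← pullMat_mul, mul_inv_cancel, pullMat_one]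
  have hkb : pullMat k baseVec = baseVec := by
    refine smul_right_injective _ hs ?_
    show √n • pullMat k baseVec = √n • baseVec
    have ht := R.trans h (R.rep i)
    rw [show (h : G) • R.rep i = R.rep i from MulAction.mem_stabilizer_iff.mp h.2] at ht
    rw [← pullMat_real_smul, hk, pullMat_mul, pullMat_mul, hX, ht, R.frame_eq i]
  have e : g⁻¹ • (h : G) • P = k • g⁻¹ • P := by
    rw [R.act, hk, ← mul_smul, ← mul_smul, mul_assoc, mul_inv_cancel, mul_one]
  rw [e, planePoint_planeFoot_smul k hkb, R.act, ← mul_smul, ← mul_smul, hk, ← mul_assoc,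
    ← mul_assoc, mul_inv_cancel, one_mul]

omit [Countable ι] [Countable J] [MeasurableSpace J] [MeasurableSingletonClass J] in
/-- Integrals against `stabWeight` in normal coordinates. -/
theorem PlaneReps.integral_coord (R : PlaneReps D n ι) (hn : 0 < n) (i : ι) {A : H3 → ℂ}
    (hA : Measurable A)
    (hinv : ∀ (h : MulAction.stabilizer G (R.rep i)) P, A ((h : G) • P) = A P)
    (hi : Integrable (fun P => stabWeight D (R.rep i) P • A P) H3.vol) :
    Integrable (fun q : ℍ × ℝ => stabWeight D (R.rep i) (R.frame i • planePoint q.1) •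
        A (R.frame i • planeMap q.1 q.2)) ((volume : Measure ℍ).prod normalMeasure) ∧
      ∫ P, stabWeight D (R.rep i) P • A P ∂H3.vol =
        ∫ s, ∫ p, stabWeight D (R.rep i) (R.frame i • planePoint p) •
          A (R.frame i • planeMap p s) ∂(volume : Measure ℍ) ∂normalMeasure := by
  set g := R.frame i
  set b : H3 → ℝ := fun P => stabWeight D (R.rep i) (g • planePoint (planeFoot (g⁻¹ • P))) with hb
  have hν : ∀ h : MulAction.stabilizer G (R.rep i),
      MeasurePreserving (fun P : H3 => h • P) H3.vol H3.vol := fun h => D.measurePreserving h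
  have hbm : Measurable b := (measurable_stabWeight D _).comp
    ((H3.continuous_smul_point g).measurable.comp (continuous_planePoint.measurable.comp
      (measurable_planeFoot.comp (H3.continuous_smul_point g⁻¹).measurable)))
  have hpa : IsPartition (MulAction.stabilizer G (R.rep i)) (stabWeight D (R.rep i)) :=
    ⟨stabWeight_nonneg D _, hasSum_stabWeight D _⟩
  have hpb : IsPartition (MulAction.stabilizer G (R.rep i)) b :=
    ⟨fun P => stabWeight_nonneg D _ _, fun P => (hasSum_stabWeight D (R.rep i)
      (g • planePoint (planeFoot (g⁻¹ • P)))).congr_fun fun h => by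
        rw [hb, Subgroup.smul_def]
        simp only [g]
        rw [R.foot_stab hn i h P]⟩
  have hbi := integrable_partition_swap hν (measurable_stabWeight D _) hbm
    hA.aestronglyMeasurable hpa hpb hinv hi
  have key := integral_partition_swap hν (measurable_stabWeight D _) hbm
    hA.aestronglyMeasurable hpa hpb hinv hi
  have hcomp : Integrable (fun Q => b (g • Q) • A (g • Q)) H3.vol :=
    ((H3.measurePreserving_smul g).integrable_comp_emb (H3.measurableEmbedding_smul g)).mpr hbi
  have e : ∀ p s, b (g • planeMap p s) • A (g • planeMap p s) =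
      stabWeight D (R.rep i) (g • planePoint p) • A (g • planeMap p s) := fun p s => by
    rw [hb]
    simp only [inv_smul_smul, planeFoot_planeMap]
  refine ⟨?_, ?_⟩
  · refine ((measurePreserving_planeEquiv.integrable_comp_emb
      planeEquiv.measurableEmbedding).mpr hcomp).congr (Eventually.of_forall fun q => ?_)
    exact e q.1 q.2
  · rw [key, ← H3.integral_smul_vol g, integral_planeEquiv hcomp]
    simp only [e]

/-- A Gaussian in the trace. -/
theorem measurable_gauss_mTrace (X : Matrix (Fin 2) (Fin 2) ℂ) (t : ℝ) :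
    Measurable fun P : H3 => exp (-(t * mTrace X P ^ 2)) :=
  (((continuous_mTrace X).measurable.pow_const 2).const_mul t).neg.exp

omit [Countable G] [Countable J] [MeasurableSpace J] [MeasurableSingletonClass J] [Countable ι] in
theorem PlaneReps.mTrace_frame (R : PlaneReps D n ι) (hn : 0 ≤ n) (i : ι) (p : ℍ) (s : ℝ) :
    mTrace (D.X (R.rep i)) (R.frame i • planeMap p s) ^ 2 = n * sinh s ^ 2 := by
  rw [mTrace_smul, R.frame_eq, ← Complex.coe_smul, mTrace_smul_mat,
    mTrace_baseVec_planeMap, mul_pow, neg_sq,
    Real.sq_sqrt hn]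

/-- The Gaussian along the normals is integrable. -/
theorem integrable_normal_gauss {a : ℝ} (ha : 0 < a) :
    Integrable fun s : ℝ => cosh s ^ 2 * exp (-(a * sinh s ^ 2)) := by
  refine ((integrable_exp_neg_mul_sq (half_pos ha)).const_mul (1 + 2 / a)).mono'
    (by fun_prop) (Eventually.of_forall fun s => ?_)
  rw [Real.norm_of_nonneg (by positivity)]
  have hs : s ^ 2 ≤ sinh s ^ 2 := by
    rw [← sq_abs s, ← sq_abs (sinh s), abs_sinh]
    exact pow_le_pow_left₀ (abs_nonneg _) (self_le_sinh_iff.mpr (abs_nonneg _)) 2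
  set u := sinh s ^ 2
  have hu : 0 ≤ u := sq_nonneg _
  have h1 : 1 + u ≤ (1 + 2 / a) * exp (a / 2 * u) := by
    refine le_trans ?_ (mul_le_mul_of_nonneg_left (add_one_le_exp _) (by positivity))
    have e : (1 + 2 / a) * (a / 2 * u + 1) = 1 + u + (2 / a + a / 2 * u) := by field_simp; ring
    rw [e]
    exact le_add_of_nonneg_right (by positivity)
  calc cosh s ^ 2 * exp (-(a * u)) = (1 + u) * exp (-(a * u)) := by rw [cosh_sq']
    _ ≤ (1 + 2 / a) * exp (a / 2 * u) * exp (-(a * u)) :=
        mul_le_mul_of_nonneg_right h1 (exp_pos _).le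
    _ = (1 + 2 / a) * exp (-(a / 2) * u) := by rw [mul_assoc, ← exp_add]; ring_nf
    _ ≤ _ := mul_le_mul_of_nonneg_left (exp_le_exp.mpr (by nlinarith)) (by positivity)

theorem normalMeasure_ne_zero : normalMeasure ≠ 0 := fun h0 => by
  have h2 : (volume : Measure ℝ) ≪ normalMeasure := by
    refine withDensity_absolutelyContinuous' (by fun_prop) ?_
    exact Eventually.of_forall fun s => by simp [(cosh_pos s).ne']
  rw [h0] at h2
  exact NeZero.ne (volume : Measure ℝ) (Measure.absolutelyContinuous_zero_iff.mp h2)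

omit [Countable G] [Countable J] [MeasurableSpace J] [MeasurableSingletonClass J] in
/-- Invariant families are invariant under stabilisers. -/
theorem stab_invariant {A : J → H3 → ℂ} (hA : ∀ (g : G) j P, A (g • j) (g • P) = A j P) (r : J)
    (h : MulAction.stabilizer G r) (P : H3) : A r ((h : G) • P) = A r P := by
  have hr : (h : G) • r = r := MulAction.mem_stabilizer_iff.mp h.2
  have := hA (h : G) r P
  rwa [hr] at this

/-- The integral over the plane of `R.rep i` of `stabWeight` against the bound `Kf`. -/
def PlaneReps.area (R : PlaneReps D n ι) (Kf : J → ℝ) (i : ι) : ℝ :=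
  ∫ p : ℍ, stabWeight D (R.rep i) (R.frame i • planePoint p) * Kf (R.rep i)

/-- The integral of `ψ` over the surface at signed distance `s` from the plane of `R.rep i`. -/
def PlaneReps.slice (R : PlaneReps D n ι) (i : ι) (s : ℝ) : ℂ :=
  ∫ p : ℍ, stabWeight D (R.rep i) (R.frame i • planePoint p) •
    D.ψ (R.rep i) (R.frame i • planeMap p s)

omit [Countable ι] in
/-- A function of Gaussian decay in the trace bounds the integrals over the planes and makes
them summable. -/
theorem PlaneReps.integrable_area_and_summable (R : PlaneReps D n ι) (hn : 0 < n) {Kf : J → ℝ}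
    (hK : ∀ (g : G) j, Kf (g • j) = Kf j)
    (hint : Integrable ((D.condSet n).indicator fun z =>
      D.ω z.1 z.2 * (Kf z.1 * exp (-mTrace (D.X z.1) z.2 ^ 2))) (jointMeasure J H3.vol)) :
    (∀ i, Integrable fun p : ℍ =>
        stabWeight D (R.rep i) (R.frame i • planePoint p) * Kf (R.rep i)) ∧
      Summable (R.area Kf) := by
  set cG : ℝ := ∫ s, cosh s ^ 2 * exp (-(n * sinh s ^ 2)) with hcG
  have hcG0 : 0 < cG := by
    refine (integral_pos_iff_support_of_nonneg (fun s => by positivity)
      (integrable_normal_gauss hn)).mpr ?_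
    rw [Function.support_eq_univ fun s => (mul_pos (pow_pos (cosh_pos s) 2) (exp_pos _)).ne']
    simp
  set h₀ : J → H3 → ℂ := fun j P => ((Kf j * exp (-(1 * mTrace (D.X j) P ^ 2)) : ℝ) : ℂ) with hh₀
  have hh₀m : ∀ j, Measurable (h₀ j) := fun j =>
    Complex.measurable_ofReal.comp ((measurable_gauss_mTrace _ 1).const_mul _)
  have hh₀i : ∀ (g : G) j P, h₀ (g • j) (g • P) = h₀ j P := fun g j P => by
    simp only [hh₀, hK, D.mTrace_smul]
  have hint' : Integrable ((D.condSet n).indicator fun z => D.ω z.1 z.2 • h₀ z.1 z.2)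
      (jointMeasure J H3.vol) := by
    refine hint.ofReal.congr (Eventually.of_forall fun z => ?_)
    by_cases hz : z ∈ D.condSet n <;> simp [hz, hh₀]
  obtain ⟨hdi, hds⟩ := integrable_stabWeight_and_hasSum R.toOrbitReps hn.ne' hh₀m hh₀i hint'
  have harea : ∀ i, Integrable (fun p : ℍ =>
      stabWeight D (R.rep i) (R.frame i • planePoint p) * Kf (R.rep i)) ∧
      ∫ P, stabWeight D (R.rep i) P • h₀ (R.rep i) P ∂H3.vol = ((cG * R.area Kf i : ℝ) : ℂ) := by
    intro i
    obtain ⟨hI, he⟩ := R.integral_coord hn i (hh₀m _) (stab_invariant hh₀i _) (hdi i)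
    have e : ∀ p s, stabWeight D (R.rep i) (R.frame i • planePoint p) •
          h₀ (R.rep i) (R.frame i • planeMap p s) =
        (((stabWeight D (R.rep i) (R.frame i • planePoint p) * Kf (R.rep i)) *
          exp (-(n * sinh s ^ 2)) : ℝ) : ℂ) := fun p s => by
      simp only [hh₀, one_mul, R.mTrace_frame hn.le, Complex.real_smul]
      push_cast
      ring
    refine ⟨?_, ?_⟩
    · have hIr : Integrable (fun q : ℍ × ℝ =>
          (stabWeight D (R.rep i) (R.frame i • planePoint q.1) * Kf (R.rep i)) *
            exp (-(n * sinh q.2 ^ 2)))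
          ((volume : Measure ℍ).prod normalMeasure) :=
        (hI.congr (Eventually.of_forall fun q => e q.1 q.2)).re.congr
          (Eventually.of_forall fun q => Complex.ofReal_re _)
      have : (ae normalMeasure).NeBot := ae_neBot.mpr normalMeasure_ne_zero
      obtain ⟨s, hs⟩ := hIr.prod_left_ae.exists
      exact (hs.mul_const (exp (-(n * sinh s ^ 2)))⁻¹).congr
        (Eventually.of_forall fun p => by field_simp)
    · rw [he, integral_normalMeasure]
      simp only [e, integral_complex_ofReal, integral_mul_const, Complex.real_smul,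
        ← Complex.ofReal_mul, PlaneReps.area, hcG]
      conv_rhs => rw [← integral_mul_const]
      congr 1
      exact integral_congr_ae (Eventually.of_forall fun s => by ring)
  refine ⟨fun i => (harea i).1, (summable_mul_left_iff hcG0.ne').mp ?_⟩
  refine (Complex.reCLM.summable hds.summable).congr fun i => ?_
  rw [Complex.reCLM_apply, (harea i).2, Complex.ofReal_re]

omit [Countable G] [Countable J] [MeasurableSpace J] [MeasurableSingletonClass J] [Countable ι] in
/-- The integrand of a slice is bounded by that of the area. -/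
theorem PlaneReps.norm_slice_integrand_le (R : PlaneReps D n ι) {Kf : J → ℝ}
    (hψK : ∀ j P, ‖D.ψ j P‖ ≤ Kf j) (i : ι) (s : ℝ) (p : ℍ) :
    ‖stabWeight D (R.rep i) (R.frame i • planePoint p) •
        D.ψ (R.rep i) (R.frame i • planeMap p s)‖ ≤
      stabWeight D (R.rep i) (R.frame i • planePoint p) * Kf (R.rep i) := by
  rw [norm_smul, Real.norm_of_nonneg (stabWeight_nonneg D _ _)]
  exact mul_le_mul_of_nonneg_left (hψK _ _) (stabWeight_nonneg D _ _)

omit [Countable ι] [Countable J] [MeasurableSpace J] [MeasurableSingletonClass J] in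
/-- The slices are continuous in the distance from the plane. -/
theorem PlaneReps.continuous_slice (R : PlaneReps D n ι) {Kf : J → ℝ}
    (hψK : ∀ j P, ‖D.ψ j P‖ ≤ Kf j) (hψc : ∀ j, Continuous (D.ψ j)) (i : ι)
    (hI : Integrable fun p : ℍ =>
      stabWeight D (R.rep i) (R.frame i • planePoint p) * Kf (R.rep i)) :
    Continuous (R.slice i) := by
  have ham : Measurable fun p : ℍ => stabWeight D (R.rep i) (R.frame i • planePoint p) :=
    (measurable_stabWeight D _).comp
      ((H3.continuous_smul_point _).measurable.comp continuous_planePoint.measurable)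
  refine continuous_of_dominated (fun s => ?_)
    (fun s => Eventually.of_forall (R.norm_slice_integrand_le hψK i s)) hI
    (Eventually.of_forall fun p => ?_)
  · exact (ham.smul ((D.measurable_ψ _).comp ((H3.continuous_smul_point _).comp
      (continuous_planeMap.comp
        (continuous_id.prodMk continuous_const))).measurable)).aestronglyMeasurable
  · exact ((hψc (R.rep i)).comp ((H3.continuous_smul_point (R.frame i)).comp
      (continuous_planeMap.comp ((continuous_const (y := p)).prodMk continuous_id)))).const_smul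
        (stabWeight D (R.rep i) (R.frame i • planePoint p))

/-- The Gaussian pairing at norm `n` is the integral along the normals of the summed slices. -/
theorem PlaneReps.pairing_gauss_eq (R : PlaneReps D n ι) (hn : 0 < n) (hconv : D.Converges n)
    {A : ι → ℝ} (hA : Summable A) (hb : ∀ i s, ‖R.slice i s‖ ≤ A i)
    (hc : ∀ i, Continuous (R.slice i)) {t : ℝ} (ht : 0 < t) :
    D.pairing n (fun x => exp (-(t * x ^ 2))) =
      ∫ s, (cosh s ^ 2 * exp (-(t * (n * sinh s ^ 2)))) • ∑' i, R.slice i s := by
  set f : J → H3 → ℂ := fun j P => exp (-(t * mTrace (D.X j) P ^ 2)) • D.ψ j P with hf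
  have hm : ∀ j, Measurable (f j) := fun j =>
    (measurable_gauss_mTrace _ t).smul (D.measurable_ψ j)
  have hinv : ∀ (g : G) j P, f (g • j) (g • P) = f j P := fun g j P => by
    simp only [hf, D.mTrace_smul, D.ψ_smul]
  have hzm : Measurable fun z : J × H3 => D.ω z.1 z.2 • f z.1 z.2 :=
    measurable_from_prod_countable_right fun j => (D.measurable_ω j).smul (hm j)
  have hi : Integrable ((D.condSet n).indicator fun z => D.ω z.1 z.2 • f z.1 z.2)
      (jointMeasure J H3.vol) := by
    refine (hconv t ht).mono' (hzm.indicator (D.measurableSet_condSet n)).aestronglyMeasurable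
      (Eventually.of_forall fun z => ?_)
    by_cases hz : z ∈ D.condSet n
    · rw [indicator_of_mem hz, indicator_of_mem hz, norm_smul, hf, norm_smul,
        Real.norm_of_nonneg (D.ω_nonneg _ _), Real.norm_of_nonneg (exp_pos _).le]
      exact le_of_eq (by ring)
    · simp [hz]
  obtain ⟨hii, his⟩ := integrable_stabWeight_and_hasSum R.toOrbitReps hn.ne' hm hinv hi
  have hval : ∀ i, ∫ P, stabWeight D (R.rep i) P • f (R.rep i) P ∂H3.vol =
      ∫ s, (cosh s ^ 2 * exp (-(t * (n * sinh s ^ 2)))) • R.slice i s := fun i => by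
    rw [(R.integral_coord hn i (hm _) (stab_invariant hinv _) (hii i)).2, integral_normalMeasure]
    refine integral_congr_ae (Eventually.of_forall fun s => ?_)
    simp only [hf, R.mTrace_frame hn.le, PlaneReps.slice]
    rw [← smul_smul (cosh s ^ 2)]
    congr 1
    rw [← integral_smul]
    exact integral_congr_ae (Eventually.of_forall fun p => smul_comm _ _ _)
  have hdom : Integrable fun s => cosh s ^ 2 * exp (-(t * (n * sinh s ^ 2))) := by
    simpa only [mul_assoc] using integrable_normal_gauss (mul_pos ht hn)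
  have hwi : ∀ i, Integrable fun s =>
      (cosh s ^ 2 * exp (-(t * (n * sinh s ^ 2)))) • R.slice i s :=
    fun i => hdom.smul_bdd (A i) (hc i).aestronglyMeasurable (Eventually.of_forall (hb i))
  have hsum := hasSum_integral_of_summable_integral_norm hwi (Summable.of_nonneg_of_le
    (fun i => integral_nonneg fun _ => norm_nonneg _) (fun i => by
      calc ∫ s, ‖(cosh s ^ 2 * exp (-(t * (n * sinh s ^ 2)))) • R.slice i s‖
          ≤ ∫ s, (cosh s ^ 2 * exp (-(t * (n * sinh s ^ 2)))) * A i := by
            refine integral_mono (hwi i).norm (hdom.mul_const _) fun s => ?_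
            rw [norm_smul, Real.norm_of_nonneg (by positivity)]
            exact mul_le_mul_of_nonneg_left (hb i s) (by positivity)
        _ = _ := integral_mul_const _ _) (hA.mul_left _))
  have hs' : ∀ s, ∑' i, (cosh s ^ 2 * exp (-(t * (n * sinh s ^ 2)))) • R.slice i s =
      (cosh s ^ 2 * exp (-(t * (n * sinh s ^ 2)))) • ∑' i, R.slice i s :=
    fun s => tsum_const_smul'' _
  simp only [hs'] at hsum
  rw [← hsum.tsum_eq, LiftData.pairing]
  refine Eq.trans ?_ ((his.congr_fun fun i => (hval i).symm).tsum_eq.symm)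
  refine integral_congr_ae (Eventually.of_forall fun z => ?_)
  by_cases hz : z ∈ D.condSet n
  · simp only [indicator_of_mem hz, hf, smul_smul]
  · simp only [indicator_of_notMem hz]

/-- A constant Gaussian average along the normals determines the value on the plane. -/
theorem eq_of_gauss_normal_const {U : ℝ → ℂ} (hUc : Continuous U) {B : ℝ}
    (hUb : ∀ s, ‖U s‖ ≤ B) {a : ℝ} (ha : 0 < a) {x : ℂ}
    (hconst : ∀ t : ℝ, 0 < t → √t • ∫ s, (cosh s ^ 2 * exp (-(t * (a * sinh s ^ 2)))) • U s =
      2 * x * ((√π : ℝ) : ℂ)) :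
    x = (1 / (2 * √a)) • U 0 := by
  have h2 := tendsto_nhds_unique (tendsto_gauss_normal hUc hUb ha) (tendsto_const_nhds.congr'
    ((eventually_gt_atTop 0).mono fun t ht => (hconst t ht).symm))
  rw [Real.sqrt_div' _ ha.le] at h2
  have hπ : ((√π : ℝ) : ℂ) ≠ 0 := Complex.ofReal_ne_zero.mpr (Real.sqrt_pos.mpr pi_pos).ne'
  have hs : ((√a : ℝ) : ℂ) ≠ 0 := Complex.ofReal_ne_zero.mpr (Real.sqrt_pos.mpr ha).ne'
  rw [Complex.real_smul] at h2 ⊢
  push_cast at h2 ⊢
  field_simp at h2 ⊢
  linear_combination -h2

/-- **Coefficients as integrals over planes.** -/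
theorem coeff_eq_planeSum (hμ : IsH3Measure H3.vol c) (hc : c ≠ 0) (R : PlaneReps D n ι)
    (hn : 0 < n) (hconv : D.Converges n) (hψc : ∀ j, Continuous (D.ψ j)) (Kf : J → ℝ)
    (hK : ∀ (g : G) j, Kf (g • j) = Kf j) (hψK : ∀ j P, ‖D.ψ j P‖ ≤ Kf j)
    (hint : Integrable ((D.condSet n).indicator fun z =>
      D.ω z.1 z.2 * (Kf z.1 * exp (-mTrace (D.X z.1) z.2 ^ 2))) (jointMeasure J H3.vol)) :
    Summable R.term ∧ D.coeff n 1 = (1 / (2 * √n)) • ∑' i, R.term i := by
  obtain ⟨hI, hA⟩ := R.integrable_area_and_summable hn hK hint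
  have hb : ∀ i s, ‖R.slice i s‖ ≤ R.area Kf i := fun i s =>
    norm_integral_le_of_norm_le (hI i) (Eventually.of_forall (R.norm_slice_integrand_le hψK i s))
  have hcont : ∀ i, Continuous (R.slice i) := fun i => R.continuous_slice hψK hψc i (hI i)
  have h0 : (fun i => R.slice i 0) = R.term := by
    funext i
    simp only [PlaneReps.slice, planeMap_zero]
    rfl
  refine ⟨h0 ▸ Summable.of_norm_bounded hA fun i => hb i 0, ?_⟩
  rw [eq_of_gauss_normal_const (x := D.coeff n 1) (continuous_tsum hcont hA hb)
    (fun s => tsum_of_norm_bounded hA.hasSum fun i => hb i s) hn fun t ht => by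
      rw [← R.pairing_gauss_eq hn hconv hA hb hcont ht,
        LiftData.pairing_gauss_pos hμ hc D hn hconv ht, Complex.real_smul,
        mul_left_comm, ← Complex.ofReal_mul, ← Real.sqrt_mul ht.le]
      congr 3
      field_simp, h0]

section Adelic

open LiftHecke
open NumberField (InfinitePlace)

variable {K : Type*} [Field K] [NumberField K] [Unique (InfinitePlace K)] {Fr : HermFrame K}
  {U : Level K} {C : NormScale Fr U} {W : ThetaWeight Fr C} {pu : PartitionOfUnity U} {φ : Y U → ℂ}

/-- The matrix of a class. -/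
def adelicToGL (g : AdelicG Fr) : GL (Fin 2) ℂ :=
  Matrix.GeneralLinearGroup.map Fr.e (AdelicG.exists_mk g).choose

omit [Unique (InfinitePlace K)] [NumberField K] in
theorem adelicToGL_act (g : AdelicG Fr) (P : H3) : g • P = adelicToGL g • P := by
  conv_lhs => rw [← (AdelicG.exists_mk g).choose_spec]
  rw [adelicPoint_mk_smul, adelicToGL]

theorem adelicToGL_trans (h : AdelicInput W pu φ) (g : AdelicG Fr) (j : AdelicJ C) :
    pullMat (adelicToGL g) ((adelicData h).X (g • j)) = (adelicData h).X j := by
  have e : g • j = transport (AdelicG.exists_mk g).choose j := by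
    conv_lhs => rw [← (AdelicG.exists_mk g).choose_spec]
    rfl
  rw [e, adelicData_X, adelicData_X, weight_transport]
  split_ifs
  · simp [pullMat]
  · rw [adelicToGL, pullMat_vec_transport]

/-- Representatives with frames, for the adelic data. -/
def adelicPlaneReps (h : AdelicInput W pu φ) {n : ℝ} {ι : Type*}
    (R : OrbitReps (adelicData h) n ι) (frame : ι → GL (Fin 2) ℂ)
    (hframe : ∀ i, pullMat (frame i) ((adelicData h).X (R.rep i)) = √n • baseVec) :
    PlaneReps (adelicData h) n ι :=
  { R with
    toGL := adelicToGL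
    act := adelicToGL_act
    trans := adelicToGL_trans h
    frame := frame
    frame_eq := hframe }

/-- **Coefficients of the lift as integrals over planes.** -/
theorem adelic_coeff_eq_planeSum (h : AdelicInput W pu φ) (hT : ThetaBound W pu) {n : ℝ}
    (hn : 0 < n) {ι : Type*} [Countable ι] (R : PlaneReps (adelicData h) n ι) :
    Summable R.term ∧ (adelicData h).coeff n 1 = (1 / (2 * √n)) • ∑' i, R.term i := by
  obtain ⟨B, hB⟩ := h.cusp.cuspEigen.bounded
  have hB0 : 0 ≤ B := (norm_nonneg _).trans (hB (constY H3.origin (QuotientGroup.mk 1)))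
  refine coeff_eq_planeSum isH3Measure_vol (by simp [Real.pi_pos]) R hn
    (LiftData.Converges.of_convergesAll (adelicData h) (convergesAll_adelicData h hT) n)
    (fun j => ((h.cusp.cuspEigen.continuous j.coset).comp
      (continuous_pi fun _ => continuous_id)).const_smul (W.Φ _))
    (fun j => ‖W.Φ (ThetaWeight.arg j.coset.out j.mat)‖ * B)
    (fun g j => ?_) (fun j P => ?_) ?_
  · obtain ⟨γ, rfl⟩ := AdelicG.exists_mk g
    rw [adelicIndex_mk_smul, weight_transport]
  · show ‖W.Φ _ * φ _‖ ≤ _
    rw [norm_mul]
    exact mul_le_mul_of_nonneg_left (hB _) (norm_nonneg _)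
  · set D := adelicData h with hD
    set F : AdelicJ C × H3 → ℝ := (D.condSet n).indicator fun z => D.ω z.1 z.2 *
      (‖W.Φ (ThetaWeight.arg z.1.coset.out z.1.mat)‖ * B * exp (-mTrace (D.X z.1) z.2 ^ 2)) with hF
    have hm : Measurable fun z => ((F z : ℝ) : ℂ) :=
      Complex.measurable_ofReal.comp ((D.measurable_part.mul
        ((show Measurable fun z : AdelicJ C × H3 =>
          ‖W.Φ (ThetaWeight.arg z.1.coset.out z.1.mat)‖ * B from
            measurable_from_prod_countable_right fun j =>
              (measurable_const : Measurable fun _ : H3 => ‖W.Φ (ThetaWeight.arg j.coset.out j.mat)‖ * B)).mul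
          (D.measurable_mTrace.pow_const 2).neg.exp)).indicator (D.measurableSet_condSet n))
    obtain ⟨hi, -, -⟩ := integrable_and_integral_eq hT hm (half_pos one_pos)
      (L := B * exp (n / 2)) fun z => by
        have hmaj : 0 ≤ majTerm W (1 / 2) z.2 z.1.coset.out z.1.mat := by
          unfold majTerm; positivity
        have hnn : 0 ≤ pu.weight (constY z.2 z.1.coset) := pu.nonneg _
        rw [Complex.norm_real, Real.norm_eq_abs]
        by_cases hz : z ∈ D.condSet n
        · rw [hF, indicator_of_mem hz,
            abs_of_nonneg (mul_nonneg (D.ω_nonneg _ _) (by positivity))]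
          have h0 : W.Φ (ThetaWeight.arg z.1.coset.out z.1.mat) ≠ 0 := fun h0 => hz.2 (by
            rw [hD, adelicData_X, if_pos h0])
          have hXv : D.X z.1 = Fr.normVec (C.c z.1.coset.out) z.1.mat := by
            rw [hD, adelicData_X, if_neg h0, AdelicJ.vec]
          have hnn' : nForm (Fr.normVec (C.c z.1.coset.out) z.1.mat) = n := hXv ▸ hz.1
          show pu.weight (constY z.2 z.1.coset) * _ ≤ _
          refine le_of_eq ?_
          rw [majTerm, hnn', hXv, show -(mTrace (Fr.normVec (C.c z.1.coset.out) z.1.mat) z.2 ^ 2)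
            = n / 2 + -(1 / 2 * (n + 2 * mTrace (Fr.normVec (C.c z.1.coset.out) z.1.mat) z.2 ^ 2))
            by ring, exp_add]
          ring
        · rw [hF, indicator_of_notMem hz, abs_zero]
          positivity
    exact hi.re.congr (Eventually.of_forall fun z => Complex.ofReal_re _)

end Adelic

end Fermat.Agent.LT.Lift

end
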