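import Fermat.Agent.LT.Lift.HoneTranslate
import Fermat.Agent.LT.Lift.EisForms
import Fermat.Agent.LT.Lift.EisUnitary
import Fermat.Agent.LT.Lift.Concrete
import Fermat.Agent.LT.Lift.Period

/-!
# The indices of norm one of the standard weight

Every orbit of indices of norm one in the support of the standard weight passes through an index
`(dia û, J)` with `u` a unit modulo `L²`.
-/

set_option autoImplicit false

noncomputable section

open Matrix NumberField
open scoped Classical

namespace Fermat.Agent.LT.Lift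

open LiftHecke Asai Places

section General

variable {K : Type*} [Field K] [NumberField K] {Fr : HermFrame K} {U : Level K}

theorem out_inv_mul_mem (g : GLFin K) :
    ((QuotientGroup.mk g : GLFin K ⧸ U.toSubgroup).out)⁻¹ * g ∈ U.toSubgroup :=
  QuotientGroup.eq.mp (QuotientGroup.out_eq' _)

variable (C : NormScale Fr U)

/-- The rational square root of the scale between `g` and its representative. -/
def cosetRoot (g : GLFin K) : ℚ := (C.sq_rat _ (out_inv_mul_mem g)).choose

theorem cosetRoot_spec (g : GLFin K) : 0 < cosetRoot C g ∧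
    C.c (((QuotientGroup.mk g : GLFin K ⧸ U.toSubgroup).out)⁻¹ * g) = cosetRoot C g ^ 2 :=
  (C.sq_rat _ (out_inv_mul_mem g)).choose_spec

/-- The index of a matrix and a Hermitian matrix. -/
def indexOf (g : GLFin K) (X : Fr.Herm) : AdelicJ C :=
  AdelicJ.of (QuotientGroup.mk g)
    (Fr.ratEquiv (cosetRoot C g)⁻¹ (inv_ne_zero (cosetRoot_spec C g).1.ne') X)

theorem indexOf_coset (g : GLFin K) (X : Fr.Herm) :
    (indexOf C g X).coset = QuotientGroup.mk g := rfl

theorem indexOf_vec (g : GLFin K) (X : Fr.Herm) :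
    (indexOf C g X).vec = Fr.normVec (C.c g) X := by
  obtain ⟨hr, hc⟩ := cosetRoot_spec C g
  show Fr.normVec (C.c (QuotientGroup.mk g : GLFin K ⧸ U.toSubgroup).out) (Fr.ratEquiv _ _ X) = _
  rw [← HermFrame.normVec_mul_sq Fr _ _ hr, ← hc, ← map_mul, mul_inv_cancel_left]

variable {C}

theorem indexOf_weight (W : ThetaWeight Fr C) (g : GLFin K) (X : Fr.Herm) :
    W.Φ (ThetaWeight.arg (indexOf C g X).coset.out (indexOf C g X).mat) =
      W.Φ (ThetaWeight.arg g X) := by
  obtain ⟨hr, hc⟩ := cosetRoot_spec C g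
  show W.Φ (ThetaWeight.arg (QuotientGroup.mk g : GLFin K ⧸ U.toSubgroup).out
    (Fr.ratEquiv _ _ X)) = _
  rw [ThetaWeight.arg_ratEquiv, ← W.level _ (out_inv_mul_mem g) _ hr hc, ← ThetaWeight.arg_mul,
    mul_inv_cancel_left]

theorem transport_indexOf (γ : GL (Fin 2) K) (g : GLFin K) (X : Fr.Herm) :
    transport γ (indexOf C g X) = indexOf C (glIncl K γ * g) (Fr.hermEquiv γ X) := by
  refine AdelicJ.ext' rfl (pullMat_injective (Matrix.GeneralLinearGroup.map Fr.e γ) ?_)
  rw [pullMat_vec_transport, indexOf_vec, indexOf_vec, ThetaWeight.normVec_hermEquiv]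

theorem indexOf_out (j : AdelicJ C) : indexOf C j.coset.out j.mat = j := by
  refine AdelicJ.ext' ?_ ?_
  · rw [indexOf_coset, QuotientGroup.out_eq']
  · rw [indexOf_vec]
    rfl

end General

section Ideles

variable {F : Type*} [Field F] [NumberField F] {L : ℕ} {hL : 0 < L}

/-- Unit ideles congruent modulo the level give the same coset. -/
theorem mk_dia_eq_of_congMod {a b : (FinAdele F)ˣ}
    (ha' : ((a⁻¹ : (FinAdele F)ˣ) : FinAdele F) ∈ integralAdele F)
    (hb' : ((b⁻¹ : (FinAdele F)ˣ) : FinAdele F) ∈ integralAdele F)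
    (hab : CongMod L ((a : FinAdele F) - (b : FinAdele F))) :
    (QuotientGroup.mk (dia a) : GLFin F ⧸ (Level.principal F L hL).toSubgroup) =
      QuotientGroup.mk (dia b) := by
  refine QuotientGroup.eq.mpr (mem_principal_of_isPrincipal hL _ ?_)
  have h1 : ((dia a : GLFin F)⁻¹ * dia b).val =
      !![((a⁻¹ : (FinAdele F)ˣ) : FinAdele F) * b, 0; 0, 1] := by
    rw [Units.val_mul, dia_inv_entries, dia_entries]
    ext i j; fin_cases i <;> fin_cases j <;> simp
  have h2 : (((dia a : GLFin F)⁻¹ * dia b)⁻¹).val =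
      !![((b⁻¹ : (FinAdele F)ˣ) : FinAdele F) * a, 0; 0, 1] := by
    rw [_root_.mul_inv_rev, inv_inv, Units.val_mul, dia_inv_entries, dia_entries]
    ext i j; fin_cases i <;> fin_cases j <;> simp
  obtain ⟨c, hc, hcc⟩ := (hab.neg).mul_left ha'
  obtain ⟨d, hd, hdd⟩ := hab.mul_left hb'
  have e1 : ((a⁻¹ : (FinAdele F)ˣ) : FinAdele F) * b = 1 + (L : FinAdele F) * c := by
    rw [← hcc]; linear_combination Units.inv_mul a
  have e2 : ((b⁻¹ : (FinAdele F)ˣ) : FinAdele F) * a = 1 + (L : FinAdele F) * d := by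
    rw [← hdd]; linear_combination Units.inv_mul b
  intro i j
  refine ⟨if i = 0 ∧ j = 0 then c else 0, ?_, if i = 0 ∧ j = 0 then d else 0, ?_, ?_, ?_⟩
  · split_ifs <;> simp [hc, zero_mem]
  · split_ifs <;> simp [hd, zero_mem]
  · rw [h1]; fin_cases i <;> fin_cases j <;> simp [e1]
  · rw [h2]; fin_cases i <;> fin_cases j <;> simp [e2]

/-- The diagonal matrix of an integral unit is integral invertible. -/
theorem intGL_dia {a : (FinAdele F)ˣ} (ha : (a : FinAdele F) ∈ integralAdele F)
    (ha' : ((a⁻¹ : (FinAdele F)ˣ) : FinAdele F) ∈ integralAdele F) :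
    Reduction.IntGL (dia a : GLFin F) := by
  constructor <;> intro i j
  · rw [dia_entries]; fin_cases i <;> fin_cases j <;> simp [ha, zero_mem, one_mem]
  · rw [dia_inv_entries]; fin_cases i <;> fin_cases j <;> simp [ha', zero_mem, one_mem]

/-- Integral invertible matrices normalise the principal level. -/
theorem conjugates_intGL {g : GLFin F} (hg : Reduction.IntGL g) :
    Conjugates (Level.principal F L hL) (Level.principal F L hL) g :=
  conjugates_of_denominator (d := 1) hL hL (fun i j => by simpa using hg.1 i j)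
    (fun i j => by simpa using hg.2 i j) (by simp)

/-- A relation between diagonal cosets may be multiplied by a unit idele. -/
theorem mk_mul_dia_eq {x : GLFin F} {a b w : (FinAdele F)ˣ}
    (hw : (w : FinAdele F) ∈ integralAdele F)
    (hw' : ((w⁻¹ : (FinAdele F)ˣ) : FinAdele F) ∈ integralAdele F)
    (h : (QuotientGroup.mk (x * dia a) : GLFin F ⧸ (Level.principal F L hL).toSubgroup) =
      QuotientGroup.mk (dia b)) :
    (QuotientGroup.mk (x * dia (a * w)) : GLFin F ⧸ (Level.principal F L hL).toSubgroup) =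
      QuotientGroup.mk (dia (b * w)) := by
  refine QuotientGroup.eq.mpr ?_
  have h' := conjugates_intGL (hL := hL) (intGL_dia hw hw') _ (QuotientGroup.eq.mp h)
  rw [Whittaker.dia_mul, Whittaker.dia_mul]
  convert h' using 1
  group

theorem congMod_hatUnit_mul (R : ℕ) [NeZero R] (u v : (ZMod R)ˣ) :
    CongMod R ((hatUnit F R (u * v) : FinAdele F) - (hatUnit F R u : FinAdele F) *
      (hatUnit F R v : FinAdele F)) := by
  rw [hatUnit_val, hatUnit_val, hatUnit_val, ← map_mul]
  refine congMod_hatAdele_sub ?_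
  push_cast
  simp

theorem mk_dia_hatUnit_mul [NeZero (L ^ 2)] (u v : (ZMod (L ^ 2))ˣ) :
    (QuotientGroup.mk (dia (hatUnit F (L ^ 2) u * hatUnit F (L ^ 2) v)) :
        GLFin F ⧸ (Level.principal F L hL).toSubgroup) =
      QuotientGroup.mk (dia (hatUnit F (L ^ 2) (u * v))) := by
  refine mk_dia_eq_of_congMod ?_ (hatUnit_inv_mem _ _) ?_
  · rw [_root_.mul_inv_rev, Units.val_mul]
    exact mul_mem (hatUnit_inv_mem _ v) (hatUnit_inv_mem _ u)
  · have h := ((congMod_hatUnit_mul (F := F) (L ^ 2) u v).of_dvd (dvd_pow_self L two_ne_zero)).neg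
    rwa [neg_sub, ← Units.val_mul] at h

end Ideles

/-- `J` as a Hermitian matrix. -/
def stdHerm : eisFrame.toHermFrame.Herm :=
  ⟨stdForm EisField, by rw [stdForm_map, stdForm_transpose]⟩

variable {L : ℕ} (hL : 0 < L)

/-- An integral invertible matrix has scale one. -/
theorem scale_intGL {k : GLFin EisField} (hk : Reduction.IntGL k) :
    (eisFrame.principalScale L hL).c k = 1 := by
  rw [QuadFrame.scale_apply]
  refine eisFrame.idNorm_eq_one (QuadFrame.det_mem_integralAdele hk.1) ?_
  rw [← map_inv]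
  exact QuadFrame.det_mem_integralAdele hk.2

theorem intGL_glIncl {γ : GL (Fin 2) EisField} (h : ∀ i j, IsIntegral ℤ (γ.val i j))
    (h' : ∀ i j, IsIntegral ℤ ((γ⁻¹).val i j)) : Reduction.IntGL (glIncl EisField γ) := by
  constructor <;> intro i j
  · exact Reduction.finIncl_mem_of_isIntegral ⟨_, h i j⟩
  · rw [← map_inv]; exact Reduction.finIncl_mem_of_isIntegral ⟨_, h' i j⟩

theorem stdHerm_map : stdHerm.1.map (finIncl EisField) = stdForm (FinAdele EisField) :=
  stdForm_map _

theorem normVec_stdHerm : eisFrame.toHermFrame.normVec 1 stdHerm = stdForm ℂ := by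
  rw [HermFrame.normVec]
  show (((√((1 : ℚ) : ℝ))⁻¹ : ℝ) : ℂ) • (stdForm EisField).map _ = _
  rw [stdForm_map]
  simp

/-- A unitary matrix has scale one. -/
theorem scale_glIncl_of_unitary {Γ : GL (Fin 2) EisField}
    (hΓ : hermAct eisConj Γ.val (stdForm EisField) = stdForm EisField) :
    (eisFrame.principalScale L hL).c (glIncl EisField Γ) = 1 := by
  have h := congrArg Matrix.det hΓ
  rw [det_hermAct, show (stdForm EisField).det = -1 by simp [stdForm, Matrix.det_fin_two]] at h
  have h1 : Γ.val.det * eisConj Γ.val.det = 1 := by linear_combination -h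
  have h2 := congrArg eisEmb h1
  rw [map_mul, eisEmb_conj, Complex.mul_conj', map_one] at h2
  have h3 : ‖eisEmb Γ.val.det‖ ^ 2 = 1 := by exact_mod_cast h2
  have h4 := (eisFrame.principalScale L hL).incl Γ
  rw [show eisFrame.toHermFrame.e = eisEmb from rfl, h3] at h4
  exact_mod_cast h4

variable [NeZero (L ^ 2)]

/-- The index `(dia û, J)`. -/
def unitIndex (u : (ZMod (L ^ 2))ˣ) : AdelicJ (eisFrame.principalScale L hL) :=
  indexOf _ (dia (hatUnit EisField (L ^ 2) u)) stdHerm

theorem unitIndex_coset (u : (ZMod (L ^ 2))ˣ) :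
    (unitIndex hL u).coset = QuotientGroup.mk (dia (hatUnit EisField (L ^ 2) u)) := rfl

theorem unitIndex_vec (u : (ZMod (L ^ 2))ˣ) : (unitIndex hL u).vec = stdForm ℂ := by
  rw [unitIndex, indexOf_vec, scale_intGL hL (intGL_dia (hatUnit_mem _ u) (hatUnit_inv_mem _ u)),
    normVec_stdHerm]

theorem unitIndex_weight (u : (ZMod (L ^ 2))ˣ) :
    (stdWeight L hL).Φ
      (ThetaWeight.arg (unitIndex hL u).coset.out (unitIndex hL u).mat) = 1 := by
  rw [unitIndex, indexOf_weight, stdWeight_Φ, stdPhi, if_pos]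
  set z : Zhat := hatZ (L ^ 2) ((u : ZMod (L ^ 2)).val : ℤ)
  have hz : IsUnit z := isUnit_hatZ (Nat.isCoprime_iff_coprime.mpr (ZMod.val_coe_unit_coprime u))
  have hinv : (((hatUnit EisField (L ^ 2) u)⁻¹ : (FinAdele EisField)ˣ) : FinAdele EisField) =
      QuadFrame.zhatIncl (K := EisField) (↑(hz.unit⁻¹) : Zhat) := by
    refine Units.inv_eq_of_mul_eq_one_right ?_
    show QuadFrame.zhatIncl (K := EisField) z * _ = 1
    rw [← map_mul, IsUnit.mul_val_inv, map_one]
  refine ⟨_, Units.isUnit hz.unit⁻¹, 0, isHermInt_zero, ?_⟩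
  rw [smul_zero, add_zero]
  show hermAct adConj _ (stdHerm.1.map (finIncl EisField)) = _
  rw [stdHerm_map, hermAct, dia_inv_entries, hinv]
  ext i j
  fin_cases i <;> fin_cases j <;>
    simp [stdForm, Matrix.mul_apply, Fin.sum_univ_two]
  all_goals exact adConj_zhatIncl _

/-- When a matrix carries one unit index to another. -/
theorem smul_unitIndex_iff (γ : GL (Fin 2) EisField) (u v : (ZMod (L ^ 2))ˣ) :
    transport γ (unitIndex hL u) = unitIndex hL v ↔
      (QuotientGroup.mk (glIncl EisField γ * dia (hatUnit EisField (L ^ 2) u)) :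
          GLFin EisField ⧸ (Level.principal EisField L hL).toSubgroup) =
        QuotientGroup.mk (dia (hatUnit EisField (L ^ 2) v)) ∧
      pullMat (Matrix.GeneralLinearGroup.map eisEmb γ) (stdForm ℂ) = stdForm ℂ := by
  have hp := pullMat_vec_transport (C := eisFrame.principalScale L hL) γ (unitIndex hL u)
  rw [show eisFrame.toHermFrame.e = eisEmb from rfl, unitIndex_vec] at hp
  constructor
  · intro h
    refine ⟨congrArg AdelicJ.coset h, ?_⟩
    rwa [h, unitIndex_vec] at hp
  · rintro ⟨h1, h2⟩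
    refine AdelicJ.ext' h1 (pullMat_injective (Matrix.GeneralLinearGroup.map eisEmb γ) ?_)
    rw [hp, unitIndex_vec, h2]

/-- The action commutes with the translations by units. -/
theorem smul_unitIndex_mul {g : AdelicG eisFrame.toHermFrame} {u v : (ZMod (L ^ 2))ˣ}
    (h : g • unitIndex hL u = unitIndex hL v) (w : (ZMod (L ^ 2))ˣ) :
    g • unitIndex hL (u * w) = unitIndex hL (v * w) := by
  obtain ⟨γ, rfl⟩ := AdelicG.exists_mk g
  rw [adelicIndex_mk_smul, smul_unitIndex_iff] at h ⊢
  refine ⟨?_, h.2⟩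
  rw [← mk_dia_hatUnit_mul (F := EisField) (hL := hL) v w, ← smul_eq_mul,
    ← MulAction.Quotient.smul_mk, ← mk_dia_hatUnit_mul (F := EisField) (hL := hL) u w,
    MulAction.Quotient.smul_mk, smul_eq_mul]
  exact mk_mul_dia_eq (hatUnit_mem _ w) (hatUnit_inv_mem _ w) h.1

/-- The classes of units whose index is in the orbit of the first one. -/
def unitOrbit : Subgroup (ZMod (L ^ 2))ˣ where
  carrier := {s | ∃ g : AdelicG eisFrame.toHermFrame, g • unitIndex hL 1 = unitIndex hL s}
  one_mem' := ⟨1, one_smul _ _⟩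
  mul_mem' := by
    rintro s s' ⟨g, hg⟩ ⟨g', hg'⟩
    refine ⟨g * g', ?_⟩
    rw [mul_smul, hg']
    simpa using smul_unitIndex_mul hL hg s'
  inv_mem' := by
    rintro s ⟨g, hg⟩
    refine ⟨g⁻¹, ?_⟩
    rw [inv_smul_eq_iff]
    simpa using (smul_unitIndex_mul hL hg s⁻¹).symm

theorem mem_unitOrbit_iff (u v : (ZMod (L ^ 2))ˣ) :
    (∃ g : AdelicG eisFrame.toHermFrame, g • unitIndex hL u = unitIndex hL v) ↔
      u⁻¹ * v ∈ unitOrbit hL := by
  constructor
  · rintro ⟨g, hg⟩
    refine ⟨g, ?_⟩
    have := smul_unitIndex_mul hL hg u⁻¹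
    rwa [mul_inv_cancel, mul_comm v] at this
  · rintro ⟨g, hg⟩
    refine ⟨g, ?_⟩
    have := smul_unitIndex_mul hL hg u
    rwa [one_mul, mul_comm (u⁻¹ * v), mul_inv_cancel_left] at this

/-- **Every orbit of indices of norm one in the support passes through a `unitIndex`.** -/
theorem exists_smul_unitIndex (h3 : 3 ∣ L) (j : AdelicJ (eisFrame.principalScale L hL))
    (hΦ : (stdWeight L hL).Φ (ThetaWeight.arg j.coset.out j.mat) ≠ 0) (hn : nForm j.vec = 1) :
    ∃ (g : AdelicG eisFrame.toHermFrame) (u : (ZMod (L ^ 2))ˣ), g • unitIndex hL u = j := by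
  obtain ⟨γ, k, hk, hb⟩ := exists_glIncl_mul_intGL j.coset.out
  set X₁ := (eisFrame.toHermFrame.hermEquiv γ).symm j.mat with hX₁
  have hj : transport γ (indexOf (eisFrame.principalScale L hL) k X₁) = j := by
    rw [transport_indexOf, hX₁, Equiv.apply_symm_apply, ← hb, indexOf_out]
  have hcl : InClass L (ThetaWeight.arg k X₁) := by
    refine inClass_of_stdPhi_ne_zero ?_
    rw [← stdWeight_Φ hL, ← indexOf_weight (stdWeight L hL), ← weight_transport _ γ, hj]
    exact hΦ
  have hback : X₁.1.map (finIncl EisField) = hermAct adConj k.val (ThetaWeight.arg k X₁) := by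
    show _ = hermAct adConj k.val (hermAct adConj (k⁻¹).val (X₁.1.map (finIncl EisField)))
    rw [← hermAct_mul, ← Units.val_mul, mul_inv_cancel, Units.val_one, hermAct_one]
  have hint : ∀ a b, IsIntegral ℤ (X₁.1 a b) := fun a b => by
    have h := (hcl.isHermInt.hermAct hk.1).integral a b
    rw [← hback] at h
    obtain ⟨o, ho⟩ := Reduction.exists_integer_of_finIncl_mem (a := X₁.1 a b) h
    rw [← ho]
    exact o.isIntegral_coe
  have hnk : nForm (eisFrame.toHermFrame.normVec ((eisFrame.principalScale L hL).c k) X₁) = ((1 : ℚ) : ℝ) := by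
    rw [Rat.cast_one, ← indexOf_vec, ← pullMat_vec_transport γ (indexOf (eisFrame.principalScale L hL) k X₁), hj, nForm_pullMat, hn]
  have hdet : X₁.1.det = -1 := by
    rw [ThetaWeight.e_det_real (C := eisFrame.principalScale L hL) k X₁ hnk, scale_intGL hL hk]
    simp
  obtain ⟨γ₁, hγ₁, hγ₁', hX⟩ := exists_conj_stdForm X₁.1 X₁.2 hint hdet
  set k' := (glIncl EisField γ₁)⁻¹ * k with hk'
  have hk'int : Reduction.IntGL k' := (intGL_glIncl hγ₁ hγ₁').inv.mul hk
  have hX₁eq : eisFrame.toHermFrame.hermEquiv γ₁ stdHerm = X₁ := Subtype.ext hX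
  have hkk : glIncl EisField γ₁ * k' = k := by rw [hk', mul_inv_cancel_left]
  have hcl' : InClass L (hermAct adConj (k'⁻¹).val (stdForm (FinAdele EisField))) := by
    rw [← hkk, ← hX₁eq, arg_hermEquiv] at hcl
    rwa [← stdHerm_map]
  obtain ⟨Γ, hΓ, u, hu⟩ := exists_unitary_mk_eq_dia hL h3 hk'int hcl'
  have hΓJ : eisFrame.toHermFrame.hermEquiv Γ stdHerm = stdHerm := Subtype.ext hΓ
  have hlast : transport Γ (indexOf (eisFrame.principalScale L hL) k' stdHerm) = unitIndex hL u := by
    rw [transport_indexOf, hΓJ]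
    refine AdelicJ.ext' hu ?_
    rw [indexOf_vec, unitIndex_vec, map_mul, scale_glIncl_of_unitary hL hΓ,
      scale_intGL hL hk'int, one_mul, normVec_stdHerm]
  refine ⟨(AdelicG.mk γ * AdelicG.mk γ₁) * (AdelicG.mk Γ)⁻¹, u, ?_⟩
  rw [mul_smul, ← hlast, ← adelicIndex_mk_smul, inv_smul_smul, mul_smul, adelicIndex_mk_smul,
    adelicIndex_mk_smul, transport_indexOf, hkk, hX₁eq, hj]

section Reps

variable {π : PartitionOfUnity (Level.principal EisField L hL)}
  {φ : Y (Level.principal EisField L hL) → ℂ}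
  (h : AdelicInput (stdWeight L hL) π φ)

/-- The vector of a unit index is the standard form. -/
theorem adelicData_X_unitIndex (u : (ZMod (L ^ 2))ˣ) :
    (adelicData h).X (unitIndex hL u) = stdForm ℂ := by
  rw [adelicData_X, unitIndex_weight, if_neg one_ne_zero, unitIndex_vec]

/-- The value of the form at a unit index. -/
theorem adelicData_ψ_unitIndex (u : (ZMod (L ^ 2))ˣ) (P : H3) :
    (adelicData h).ψ (unitIndex hL u) P =
      φ (constY P (QuotientGroup.mk (dia (hatUnit EisField (L ^ 2) u)))) := by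
  show (stdWeight L hL).Φ _ * φ _ = _
  rw [unitIndex_weight, one_mul, unitIndex_coset]

/-- Representatives of the orbits of norm one: the indices of a coset space translated by `s`. -/
def unitReps (h3 : 3 ∣ L) (s : unitOrbit hL) :
    OrbitReps (adelicData h) 1 ((ZMod (L ^ 2))ˣ ⧸ unitOrbit hL) where
  rep q := unitIndex hL (q.out * s)
  norm_eq q := by
    rw [adelicData_X_unitIndex]
    simp [nForm, stdForm, Matrix.det_fin_two]
  ne_zero q := by
    rw [adelicData_X_unitIndex]
    intro h0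
    have := congrFun (congrFun h0 0) 1
    simp [stdForm] at this
  inj q q' g hg := by
    have hm := (mem_unitOrbit_iff hL _ _).mp ⟨g, hg⟩
    rw [← QuotientGroup.out_eq' q, ← QuotientGroup.out_eq' q']
    refine QuotientGroup.eq.mpr ?_
    have e : ∀ a b c : (ZMod (L ^ 2))ˣ, (a * c)⁻¹ * (b * c) = a⁻¹ * b := fun a b c => by
      rw [_root_.mul_inv_rev, mul_comm b c, mul_assoc, mul_left_comm a⁻¹, ← mul_assoc,
        inv_mul_cancel, one_mul]
    rwa [e] at hm
  surj j hn hj := by
    have hΦ : (stdWeight L hL).Φ (ThetaWeight.arg j.coset.out j.mat) ≠ 0 := fun h0 => hj (by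
      rw [adelicData_X, if_pos h0])
    rw [adelicData_X, if_neg hΦ] at hn
    obtain ⟨g, u, hg⟩ := exists_smul_unitIndex hL h3 j hΦ hn
    obtain ⟨g', hg'⟩ := (mem_unitOrbit_iff hL
      ((QuotientGroup.mk u : (ZMod (L ^ 2))ˣ ⧸ unitOrbit hL).out * s) u).mpr (by
        rw [_root_.mul_inv_rev, mul_assoc]
        exact mul_mem (inv_mem s.2) (QuotientGroup.eq.mp (QuotientGroup.out_eq' _)))
    exact ⟨QuotientGroup.mk u, g * g', by rw [mul_smul, hg', hg]⟩

end Reps

end Fermat.Agent.LT.Lift

end
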