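import Fermat.Agent.LT.Lift.FundStokes
import Mathlib.Analysis.Complex.CauchyIntegral
import Mathlib.Analysis.Complex.Conformal
import Mathlib.Analysis.Calculus.Deriv.Inv
import Mathlib.Analysis.Calculus.FDeriv.Mul

/-!
# Nice functions

`∂/∂τ̄` and the operator `ξ f = y conj (∂f/∂τ̄)` on functions of weight one, the class of nice
functions, and the laws of `ξ` under the two generators of `SL₂(ℤ)`.
-/

set_option autoImplicit false

noncomputable section

open Filter Topology Set Complex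
open scoped ComplexConjugate

namespace Fermat.Agent.LT.Lift

/-- The upper half plane, as a set. -/
abbrev upperSet : Set ℂ := {z : ℂ | 0 < z.im}

/-- A `C¹` function on the upper half plane is differentiable at its points. -/
theorem differentiableAt_of_contDiffOn {f : ℂ → ℂ} (hf : ContDiffOn ℝ 1 f upperSet) {z : ℂ}
    (hz : 0 < z.im) : DifferentiableAt ℝ f z :=
  (hf.contDiffAt (isOpen_upperHalf.mem_nhds hz)).differentiableAt one_ne_zero

theorem dbar_congr {f g : ℂ → ℂ} {z : ℂ} (h : f =ᶠ[𝓝 z] g) : dbar f z = dbar g z := by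
  rw [dbar, dbar, h.fderiv_eq]

/-- Complex differentiability kills `∂/∂τ̄`. -/
theorem dbar_eq_zero {f : ℂ → ℂ} {z : ℂ} (hf : DifferentiableAt ℂ f z) : dbar f z = 0 := by
  obtain ⟨-, h⟩ := differentiableAt_complex_iff_differentiableAt_real.mp hf
  rw [dbar, h, smul_eq_mul, ← mul_assoc, I_mul_I]
  ring

/-- The Cauchy–Riemann criterion for complex differentiability. -/
theorem differentiableAt_of_dbar {f : ℂ → ℂ} {z : ℂ} (hf : DifferentiableAt ℝ f z)
    (h : dbar f z = 0) : DifferentiableAt ℂ f z := by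
  refine differentiableAt_complex_iff_differentiableAt_real.mpr ⟨hf, ?_⟩
  have h2 : fderiv ℝ f z 1 + I * fderiv ℝ f z I = 0 :=
    (mul_eq_zero.mp h).resolve_left (inv_ne_zero two_ne_zero)
  rw [smul_eq_mul]
  linear_combination (-I) * h2 + (fderiv ℝ f z I) * I_sq

theorem dbar_add {f g : ℂ → ℂ} {z : ℂ} (hf : DifferentiableAt ℝ f z)
    (hg : DifferentiableAt ℝ g z) : dbar (fun w => f w + g w) z = dbar f z + dbar g z := by
  simp only [dbar, fderiv_fun_add hf hg, add_apply]
  ring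

/-- The Leibniz rule for `∂/∂τ̄`. -/
theorem dbar_mul {f g : ℂ → ℂ} {z : ℂ} (hf : DifferentiableAt ℝ f z)
    (hg : DifferentiableAt ℝ g z) :
    dbar (fun w => f w * g w) z = dbar f z * g z + f z * dbar g z := by
  simp only [dbar, fderiv_fun_mul hf hg, add_apply,
    smul_apply, smul_eq_mul]
  ring

theorem dbar_const_mul {f : ℂ → ℂ} {z : ℂ} (c : ℂ) (hf : DifferentiableAt ℝ f z) :
    dbar (fun w => c * f w) z = c * dbar f z := by
  rw [dbar_mul (differentiableAt_const c) hf, dbar_eq_zero (differentiableAt_const c)]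
  ring

/-- Additivity of `∂/∂τ̄` on finite sums. -/
theorem dbar_sum {ι : Type*} (s : Finset ι) {f : ι → ℂ → ℂ} {z : ℂ}
    (hf : ∀ i ∈ s, DifferentiableAt ℝ (f i) z) :
    dbar (fun w => ∑ i ∈ s, f i w) z = ∑ i ∈ s, dbar (f i) z := by
  simp only [dbar, fderiv_fun_sum hf, sum_apply, Finset.mul_sum,
    ← Finset.sum_add_distrib]

/-- The real derivative of an inner holomorphic map is multiplication. -/
theorem dbar_comp {f φ : ℂ → ℂ} {z φ' : ℂ} (hφ : HasDerivAt φ φ' z)
    (hf : DifferentiableAt ℝ f (φ z)) :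
    dbar (fun w => f (φ w)) z = dbar f (φ z) * conj φ' := by
  have h1 : HasFDerivAt φ ((φ' • (1 : ℂ →L[ℂ] ℂ)).restrictScalars ℝ) z := by
    have h := hφ.hasFDerivAt.restrictScalars ℝ
    refine h.congr_fderiv ?_
    ext x
    simp [mul_comm]
  have h2 : HasFDerivAt (fun w => f (φ w))
      ((fderiv ℝ f (φ z)).comp ((φ' • (1 : ℂ →L[ℂ] ℂ)).restrictScalars ℝ)) z :=
    hf.hasFDerivAt.comp z h1
  rw [dbar, dbar, h2.fderiv]
  set A := fderiv ℝ f (φ z)
  simp only [ContinuousLinearMap.comp_apply, ContinuousLinearMap.coe_restrictScalars',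
    smul_apply, one_apply_eq_self, smul_eq_mul, mul_one]
  have hA : ∀ w : ℂ, A w = (w.re : ℂ) * A 1 + (w.im : ℂ) * A I := fun w => by
    conv_lhs => rw [← re_add_im w, show (w.re : ℂ) = w.re • (1 : ℂ) by simp,
      show (w.im : ℂ) * I = w.im • I by simp, map_add, map_smul, map_smul]
    simp [Complex.real_smul]
  rw [hA φ', hA (φ' * I)]
  conv_rhs => rw [show conj φ' = (φ'.re : ℂ) - (φ'.im : ℂ) * I by
    apply Complex.ext <;> simp]
  simp only [mul_re, mul_im, I_re, I_im, mul_zero, mul_one, zero_sub, add_zero,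
    ofReal_neg]
  linear_combination ((2 : ℂ)⁻¹ * (φ'.im : ℂ) * A I) * I_sq

/-- `y · conj (∂f/∂τ̄)`. -/
def xiFun (f : ℂ → ℂ) (z : ℂ) : ℂ := (z.im : ℂ) * conj (dbar f z)

/-- A continuously differentiable function with holomorphic `ξ`, exponentially small at infinity
together with its derivative. -/
def IsNice (f : ℂ → ℂ) : Prop :=
  ContDiffOn ℝ 1 f upperSet ∧ DifferentiableOn ℂ (xiFun f) upperSet ∧
    ∃ C δ : ℝ, 0 < δ ∧ ∀ z : ℂ, 1 ≤ z.im →
      ‖f z‖ ≤ C * Real.exp (-(δ * z.im)) ∧ ‖dbar f z‖ ≤ C * Real.exp (-(δ * z.im))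

/-- `ξ` depends only on the values on the upper half plane. -/
theorem xiFun_congr {f g : ℂ → ℂ} (h : EqOn f g upperSet) {z : ℂ} (hz : 0 < z.im) :
    xiFun f z = xiFun g z := by
  rw [xiFun, xiFun, dbar_congr (h.eventuallyEq_of_mem (isOpen_upperHalf.mem_nhds hz))]

/-- Niceness depends only on the values on the upper half plane. -/
theorem IsNice.congr {f g : ℂ → ℂ} (hf : IsNice f) (h : EqOn g f upperSet) : IsNice g := by
  obtain ⟨h1, h2, C, δ, hδ, hC⟩ := hf
  refine ⟨h1.congr h, h2.congr fun z hz => xiFun_congr h hz, C, δ, hδ, fun z hz => ?_⟩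
  have hz' : 0 < z.im := one_pos.trans_le hz
  rw [h hz', dbar_congr (h.eventuallyEq_of_mem (isOpen_upperHalf.mem_nhds hz'))]
  exact hC z hz

theorem isNice_zero : IsNice fun _ => 0 := by
  have h : ∀ z : ℂ, dbar (fun _ => (0 : ℂ)) z = 0 := fun z =>
    dbar_eq_zero (differentiableAt_const 0)
  refine ⟨contDiffOn_const, (differentiableOn_const 0).congr fun z _ => ?_, 0, 1,
    one_pos, fun z _ => ?_⟩
  · simp [xiFun, h]
  · simp [h]

theorem IsNice.add {f g : ℂ → ℂ} (hf : IsNice f) (hg : IsNice g) :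
    IsNice fun z => f z + g z := by
  obtain ⟨h1, h2, C, δ, hδ, hC⟩ := hf
  obtain ⟨k1, k2, D, ε, hε, hD⟩ := hg
  have hd : ∀ z : ℂ, 0 < z.im → dbar (fun w => f w + g w) z = dbar f z + dbar g z :=
    fun z hz => dbar_add (differentiableAt_of_contDiffOn h1 hz)
      (differentiableAt_of_contDiffOn k1 hz)
  refine ⟨h1.add k1, (h2.add k2).congr fun z hz => ?_, C + D, min δ ε, lt_min hδ hε,
    fun z hz => ?_⟩
  · simp only [xiFun, hd z hz, map_add, Pi.add_apply]; ring
  · have key : ∀ a b : ℂ, ‖a‖ ≤ C * Real.exp (-(δ * z.im)) → ‖b‖ ≤ D * Real.exp (-(ε * z.im)) →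
        ‖a + b‖ ≤ (C + D) * Real.exp (-(min δ ε * z.im)) := by
      intro a b ha hb
      have hz0 : 0 ≤ z.im := zero_le_one.trans hz
      have hC0 : 0 ≤ C := nonneg_of_mul_nonneg_left ((norm_nonneg _).trans ha) (Real.exp_pos _)
      have hD0 : 0 ≤ D := nonneg_of_mul_nonneg_left ((norm_nonneg _).trans hb) (Real.exp_pos _)
      rw [add_mul]
      exact (norm_add_le _ _).trans (add_le_add
        (ha.trans (mul_le_mul_of_nonneg_left (Real.exp_le_exp.mpr (neg_le_neg
          (mul_le_mul_of_nonneg_right (min_le_left _ _) hz0))) hC0))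
        (hb.trans (mul_le_mul_of_nonneg_left (Real.exp_le_exp.mpr (neg_le_neg
          (mul_le_mul_of_nonneg_right (min_le_right _ _) hz0))) hD0)))
    rw [hd z (one_pos.trans_le hz)]
    exact ⟨key _ _ (hC z hz).1 (hD z hz).1, key _ _ (hC z hz).2 (hD z hz).2⟩

theorem IsNice.const_mul {f : ℂ → ℂ} (hf : IsNice f) (c : ℂ) : IsNice fun z => c * f z := by
  obtain ⟨h1, h2, C, δ, hδ, hC⟩ := hf
  have hd : ∀ z : ℂ, 0 < z.im → dbar (fun w => c * f w) z = c * dbar f z :=
    fun z hz => dbar_const_mul c (differentiableAt_of_contDiffOn h1 hz)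
  refine ⟨contDiffOn_const.mul h1, (h2.const_mul (conj c)).congr fun z hz => ?_, ‖c‖ * C,
    δ, hδ, fun z hz => ?_⟩
  · simp only [xiFun, hd z hz, map_mul]; ring
  · rw [hd z (one_pos.trans_le hz), norm_mul, norm_mul, mul_assoc]
    exact ⟨mul_le_mul_of_nonneg_left (hC z hz).1 (norm_nonneg c),
      mul_le_mul_of_nonneg_left (hC z hz).2 (norm_nonneg c)⟩

theorem IsNice.sum {ι : Type*} (s : Finset ι) {f : ι → ℂ → ℂ}
    (hf : ∀ i ∈ s, IsNice (f i)) : IsNice fun z => ∑ i ∈ s, f i z := by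
  classical
  induction s using Finset.induction_on with
  | empty => simpa using isNice_zero
  | @insert a s ha ih =>
    simp only [Finset.sum_insert ha]
    exact (hf a (Finset.mem_insert_self a s)).add
      (ih fun i hi => hf i (Finset.mem_insert_of_mem hi))

/-! ### The laws for the two generators -/

/-- `τ ↦ τ⁻¹ f (-1/τ)`. -/
def invertFun (f : ℂ → ℂ) (z : ℂ) : ℂ := z⁻¹ * f (-z⁻¹)

/-- The inversion preserves the upper half plane. -/
theorem im_neg_inv {z : ℂ} (hz : 0 < z.im) : 0 < (-z⁻¹).im := by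
  rw [neg_im, inv_im, neg_div, neg_neg]
  exact div_pos hz (normSq_pos.mpr fun h => by simp [h] at hz)

/-- `ξ` commutes with the inversion. -/
theorem xiFun_invertFun {f : ℂ → ℂ} (hf : ContDiffOn ℝ 1 f upperSet) {z : ℂ} (hz : 0 < z.im) :
    xiFun (invertFun f) z = invertFun (xiFun f) z := by
  have hz0 : z ≠ 0 := fun h => by simp [h] at hz
  have hd : HasDerivAt (fun w : ℂ => -w⁻¹) (z ^ 2)⁻¹ z :=
    ((hasDerivAt_inv hz0).neg).congr_deriv (neg_neg _)
  have hf' := differentiableAt_of_contDiffOn hf (im_neg_inv hz)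
  have hg : DifferentiableAt ℝ (fun w : ℂ => f (-w⁻¹)) z :=
    hf'.comp z (hd.differentiableAt.restrictScalars ℝ)
  have hi : DifferentiableAt ℂ (fun w : ℂ => w⁻¹) z := (hasDerivAt_inv hz0).differentiableAt
  unfold xiFun invertFun
  rw [dbar_mul (hi.restrictScalars ℝ) hg, dbar_eq_zero hi, dbar_comp hd hf', zero_mul, zero_add,
    map_mul, map_mul, map_inv₀, Complex.conj_conj]
  simp only [neg_im, inv_im, neg_div, neg_neg]
  have hc : conj z ≠ 0 := by simpa using hz0
  have hn : ((z.im / normSq z : ℝ) : ℂ) = (z.im : ℂ) / (z * conj z) := by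
    rw [mul_conj]; push_cast; rfl
  rw [hn]
  field_simp

/-- `ξ` commutes with translation by one. -/
theorem xiFun_translate {f : ℂ → ℂ} (hf : ContDiffOn ℝ 1 f upperSet) {z : ℂ} (hz : 0 < z.im) :
    xiFun (fun w => f (w + 1)) z = xiFun f (z + 1) := by
  have hd : HasDerivAt (fun w : ℂ => w + 1) 1 z := (hasDerivAt_id z).add_const 1
  rw [xiFun, xiFun, dbar_comp hd (differentiableAt_of_contDiffOn hf (by simpa using hz)), map_one,
    mul_one]
  simp

end Fermat.Agent.LT.Lift
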