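import Fermat.Agent.LT.Lift.Coefficient
import Fermat.Agent.LT.Lift.Nice
import Mathlib.Analysis.Calculus.ParametricIntegral
import Mathlib.Analysis.SpecialFunctions.Sqrt

/-!
# The lift as a function on the upper half plane

Its derivative under the integral sign, and its parts of constant norm, whose images under `ξ`
are entire.
-/

set_option autoImplicit false

noncomputable section

open MeasureTheory Real Filter Topology Set Complex
open scoped ENNReal Matrix ComplexConjugate

namespace Fermat.Agent.LT.Lift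

/-- The elementary bound `x e^{-ax} ≤ 1/a`. -/
theorem mul_exp_neg_le {a x : ℝ} (ha : 0 < a) :
    x * Real.exp (-(a * x)) ≤ 1 / a := by
  rw [Real.exp_neg, ← div_eq_mul_inv, div_le_div_iff₀ (Real.exp_pos _) ha, one_mul]
  nlinarith [Real.add_one_le_exp (a * x)]

/-- Real part followed by the inclusion. -/
def reMap : ℂ →L[ℝ] ℂ := ofRealCLM.comp reCLM

/-- Imaginary part followed by the inclusion. -/
def imMap : ℂ →L[ℝ] ℂ := ofRealCLM.comp imCLM

/-- `√y` as a complex valued function. -/
def sqrtIm (τ : ℂ) : ℂ := ((√τ.im : ℝ) : ℂ)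

theorem contDiffOn_sqrtIm : ContDiffOn ℝ 1 sqrtIm upperSet := by
  intro z hz
  exact (ofRealCLM.contDiff.contDiffAt.comp z
    ((Real.contDiffAt_sqrt (ne_of_gt hz)).comp z imCLM.contDiff.contDiffAt)).contDiffWithinAt

theorem dbar_comp_im {a : ℝ → ℂ} {a' : ℂ} {τ : ℂ} (ha : HasDerivAt a a' τ.im) :
    dbar (fun w => a w.im) τ = Complex.I / 2 * a' := by
  have h : HasFDerivAt (fun w : ℂ => a w.im)
      ((ContinuousLinearMap.toSpanSingleton ℝ a').comp imCLM) τ :=
    ha.hasFDerivAt.comp τ imCLM.hasFDerivAt
  rw [dbar, h.fderiv]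
  simp
  ring

theorem dbar_sqrtIm {τ : ℂ} (hτ : 0 < τ.im) :
    dbar sqrtIm τ = Complex.I / (4 * sqrtIm τ) := by
  rw [show sqrtIm = fun w => ((fun y : ℝ => ((√y : ℝ) : ℂ)) w.im) from rfl,
    dbar_comp_im (Real.hasDerivAt_sqrt hτ.ne').ofReal_comp]
  have : ((√τ.im : ℝ) : ℂ) ≠ 0 := ofReal_ne_zero.mpr (Real.sqrt_pos.mpr hτ).ne'
  push_cast
  field_simp
  ring

variable [MeasurableSpace H3] [BorelSpace H3]
variable {G J : Type*} [Group G] [MulAction G J] [MulAction G H3]
  [Countable J] [MeasurableSpace J] [MeasurableSingletonClass J]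
  {μ : Measure H3} {c : ℝ≥0∞}

namespace LiftData

variable (D : LiftData G J μ c)

/-- The norm of the vector. -/
def normZ (z : J × H3) : ℝ := nForm (D.X z.1)

/-- The majorant `n + 2 m²`. -/
def majZ (z : J × H3) : ℝ := nForm (D.X z.1) + 2 * mTrace (D.X z.1) z.2 ^ 2

/-- The majorant of the weight. -/
def majorant (t : ℝ) (z : J × H3) : ℝ :=
  D.ω z.1 z.2 * ‖D.ψ z.1 z.2‖ * Real.exp (-(t * D.majZ z))

/-- Absolute convergence of the lift at every height. -/
def ConvergesAll : Prop := ∀ t : ℝ, 0 < t → Integrable (D.majorant t) (jointMeasure J μ)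

/-- `e (n x) exp (-2π y maj)`. -/
def kern (z : J × H3) (τ : ℂ) : ℂ :=
  Complex.exp (2 * π * (Complex.I * D.normZ z * τ.re - D.majZ z * τ.im))

/-- The integrand of the lift. -/
def weightFun (τ : ℂ) (z : J × H3) : ℂ := D.ω z.1 z.2 • (D.kern z τ * D.ψ z.1 z.2)

/-- The derivative of the integrand in the real direction. -/
def weightRe (τ : ℂ) (z : J × H3) : ℂ := (2 * π * (Complex.I * D.normZ z)) * D.weightFun τ z

/-- The derivative of the integrand in the imaginary direction. -/
def weightIm (τ : ℂ) (z : J × H3) : ℂ := (-(2 * π * (D.majZ z : ℂ))) * D.weightFun τ z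

/-- The integral over a set of indices. -/
def partInt (s : Set (J × H3)) (τ : ℂ) : ℂ := ∫ z in s, D.weightFun τ z ∂jointMeasure J μ

/-- The part of the lift on a set of indices. -/
def liftPart (s : Set (J × H3)) (τ : ℂ) : ℂ := sqrtIm τ * D.partInt s τ

/-- **The lift.** -/
def lift (τ : ℂ) : ℂ := D.liftPart univ τ

omit [BorelSpace H3] [Countable J] [MeasurableSpace J] [MeasurableSingletonClass J] in
/-- The majorant is nonnegative. -/
theorem majorant_nonneg (t : ℝ) (z : J × H3) : 0 ≤ D.majorant t z :=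
  mul_nonneg (mul_nonneg (D.ω_nonneg _ _) (norm_nonneg _)) (Real.exp_pos _).le

omit [Countable J] [MeasurableSpace J] [MeasurableSingletonClass J] in
/-- The majorant `n + 2 m²` is nonnegative. -/
theorem majZ_nonneg (hμ : IsH3Measure μ c) (z : J × H3) : 0 ≤ D.majZ z := by
  have := mTrace_sq_add_nForm_nonneg hμ (D.hermitian z.1) z.2
  unfold majZ
  nlinarith [sq_nonneg (mTrace (D.X z.1) z.2)]

omit [Countable J] [MeasurableSpace J] [MeasurableSingletonClass J] in
/-- The norm is bounded by its majorant. -/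
theorem abs_normZ_le (hμ : IsH3Measure μ c) (z : J × H3) : |D.normZ z| ≤ D.majZ z := by
  have := mTrace_sq_add_nForm_nonneg hμ (D.hermitian z.1) z.2
  unfold majZ normZ
  rw [abs_le]
  constructor <;> nlinarith [sq_nonneg (mTrace (D.X z.1) z.2)]

omit [BorelSpace H3] in
/-- The norm is measurable in both variables. -/
theorem measurable_normZ : Measurable D.normZ :=
  (measurable_of_countable fun j => nForm (D.X j)).comp measurable_fst

/-- The majorant `n + 2 m²` is measurable. -/
theorem measurable_majZ : Measurable D.majZ :=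
  D.measurable_normZ.add ((D.measurable_mTrace.pow_const 2).const_mul 2)

omit [BorelSpace H3] [Countable J] [MeasurableSpace J] [MeasurableSingletonClass J] in
theorem norm_kern (z : J × H3) (τ : ℂ) :
    ‖D.kern z τ‖ = Real.exp (-(2 * π * τ.im * D.majZ z)) := by
  rw [kern, Complex.norm_exp]
  congr 1
  simp
  ring

omit [BorelSpace H3] [Countable J] [MeasurableSpace J] [MeasurableSingletonClass J] in
/-- The absolute value of the summand is the majorant. -/
theorem norm_weightFun (τ : ℂ) (z : J × H3) :
    ‖D.weightFun τ z‖ = D.majorant (2 * π * τ.im) z := by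
  rw [weightFun, norm_smul, norm_mul, D.norm_kern, Real.norm_eq_abs,
    abs_of_nonneg (D.ω_nonneg _ _), majorant]
  ring

/-- The summand of the lift is measurable. -/
theorem measurable_weightFun (τ : ℂ) : Measurable (D.weightFun τ) := by
  refine D.measurable_part.smul (Measurable.mul ?_ D.measurable_weight)
  exact Complex.measurable_exp.comp ((((measurable_const.mul
    (Complex.measurable_ofReal.comp D.measurable_normZ)).mul_const _).sub
      ((Complex.measurable_ofReal.comp D.measurable_majZ).mul_const _)).const_mul _)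

theorem measurable_weightRe (τ : ℂ) : Measurable (D.weightRe τ) :=
  (((Complex.measurable_ofReal.comp D.measurable_normZ).const_mul _).const_mul _).mul
    (D.measurable_weightFun τ)

theorem measurable_weightIm (τ : ℂ) : Measurable (D.weightIm τ) :=
  (((Complex.measurable_ofReal.comp D.measurable_majZ).const_mul _).neg).mul
    (D.measurable_weightFun τ)

/-- The summand of a convergent lift is integrable. -/
theorem integrable_weightFun (hconv : D.ConvergesAll) {τ : ℂ} (hτ : 0 < τ.im) :
    Integrable (D.weightFun τ) (jointMeasure J μ) :=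
  (hconv _ (by positivity)).mono' (D.measurable_weightFun τ).aestronglyMeasurable
    (Eventually.of_forall fun z => (D.norm_weightFun τ z).le)

omit [Countable J] [MeasurableSpace J] [MeasurableSingletonClass J] in
/-- The derivatives of the summand are bounded by the majorant. -/
theorem norm_weight_deriv_le (hμ : IsH3Measure μ c) {τ : ℂ} {y₀ : ℝ} (hy : 0 < y₀)
    (hτ : y₀ ≤ τ.im) (z : J × H3) :
    ‖D.weightRe τ z‖ ≤ 2 / y₀ * D.majorant (π * y₀) z ∧
      ‖D.weightIm τ z‖ ≤ 2 / y₀ * D.majorant (π * y₀) z := by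
  have hm := D.majZ_nonneg hμ z
  have hn := D.abs_normZ_le hμ z
  have key : 2 * π * D.majZ z * D.majorant (2 * π * τ.im) z
      ≤ 2 / y₀ * D.majorant (π * y₀) z := by
    rw [majorant, majorant]
    have h0 : 0 ≤ D.ω z.1 z.2 * ‖D.ψ z.1 z.2‖ := mul_nonneg (D.ω_nonneg _ _) (norm_nonneg _)
    have h1 : Real.exp (-(2 * π * τ.im * D.majZ z))
        ≤ Real.exp (-(π * y₀ * D.majZ z)) * Real.exp (-(π * y₀ * D.majZ z)) := by
      rw [← Real.exp_add, Real.exp_le_exp]
      nlinarith [mul_le_mul_of_nonneg_left hτ (mul_nonneg Real.pi_pos.le hm)]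
    calc 2 * π * D.majZ z * (D.ω z.1 z.2 * ‖D.ψ z.1 z.2‖ * Real.exp (-(2 * π * τ.im * D.majZ z)))
        ≤ 2 * π * D.majZ z * (D.ω z.1 z.2 * ‖D.ψ z.1 z.2‖
            * (Real.exp (-(π * y₀ * D.majZ z)) * Real.exp (-(π * y₀ * D.majZ z)))) := by gcongr
      _ = 2 * π * (D.majZ z * Real.exp (-(π * y₀ * D.majZ z)))
            * (D.ω z.1 z.2 * ‖D.ψ z.1 z.2‖ * Real.exp (-(π * y₀ * D.majZ z))) := by ring
      _ ≤ 2 * π * (1 / (π * y₀))
            * (D.ω z.1 z.2 * ‖D.ψ z.1 z.2‖ * Real.exp (-(π * y₀ * D.majZ z))) :=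
          mul_le_mul_of_nonneg_right (mul_le_mul_of_nonneg_left
            (mul_exp_neg_le (mul_pos Real.pi_pos hy)) Real.two_pi_pos.le)
            (mul_nonneg h0 (Real.exp_pos _).le)
      _ = _ := by field_simp
  constructor
  · rw [weightRe, norm_mul, D.norm_weightFun]
    refine le_trans (mul_le_mul_of_nonneg_right ?_ (D.majorant_nonneg _ _)) key
    simp only [norm_mul, Complex.norm_I, one_mul, Complex.norm_real, Real.norm_eq_abs,
      Complex.norm_two, abs_of_pos Real.pi_pos]
    exact mul_le_mul_of_nonneg_left hn Real.two_pi_pos.le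
  · rw [weightIm, norm_mul, D.norm_weightFun]
    refine le_trans (mul_le_mul_of_nonneg_right (le_of_eq ?_) (D.majorant_nonneg _ _)) key
    simp only [norm_neg, norm_mul, Complex.norm_real, Real.norm_eq_abs, Complex.norm_two,
      abs_of_pos Real.pi_pos, abs_of_nonneg hm]

theorem integrable_weight_deriv (hμ : IsH3Measure μ c) (hconv : D.ConvergesAll) {τ : ℂ}
    (hτ : 0 < τ.im) :
    Integrable (D.weightRe τ) (jointMeasure J μ) ∧ Integrable (D.weightIm τ) (jointMeasure J μ) := by
  have hb := (hconv (π * τ.im) (by positivity)).const_mul (2 / τ.im)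
  exact ⟨hb.mono' (D.measurable_weightRe τ).aestronglyMeasurable
      (Eventually.of_forall fun z => (D.norm_weight_deriv_le hμ hτ le_rfl z).1),
    hb.mono' (D.measurable_weightIm τ).aestronglyMeasurable
      (Eventually.of_forall fun z => (D.norm_weight_deriv_le hμ hτ le_rfl z).2)⟩

omit [BorelSpace H3] [Countable J] [MeasurableSpace J] [MeasurableSingletonClass J] in
theorem hasFDerivAt_weightFun (z : J × H3) (τ : ℂ) :
    HasFDerivAt (fun w => D.weightFun w z) (D.weightRe τ z • reMap + D.weightIm τ z • imMap) τ := by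
  have h1 : HasFDerivAt (fun w : ℂ =>
      2 * (π : ℂ) * (Complex.I * D.normZ z * (w.re : ℂ) - D.majZ z * (w.im : ℂ)))
      ((2 * (π : ℂ)) • ((Complex.I * D.normZ z) • reMap - (D.majZ z : ℂ) • imMap)) τ :=
    (((reMap.hasFDerivAt).const_mul (Complex.I * D.normZ z)).sub
      ((imMap.hasFDerivAt).const_mul (D.majZ z : ℂ))).const_mul (2 * (π : ℂ))
  have h2 := (h1.cexp.mul_const (D.ψ z.1 z.2)).const_smul (D.ω z.1 z.2)
  refine h2.congr_fderiv ?_
  ext w
  simp [weightRe, weightIm, weightFun, kern, reMap, imMap]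
  ring

/-- Differentiation under the integral sign. -/
theorem hasFDerivAt_partInt (hμ : IsH3Measure μ c) (hconv : D.ConvergesAll) (s : Set (J × H3))
    {τ : ℂ} (hτ : 0 < τ.im) :
    HasFDerivAt (D.partInt s)
      ((∫ z in s, D.weightRe τ z ∂jointMeasure J μ) • reMap
        + (∫ z in s, D.weightIm τ z ∂jointMeasure J μ) • imMap) τ := by
  have hy2 : 0 < τ.im / 2 := half_pos hτ
  have hU : {w : ℂ | τ.im / 2 < w.im} ∈ 𝓝 τ :=
    (isOpen_lt continuous_const Complex.continuous_im).mem_nhds (half_lt_self hτ)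
  have h := hasFDerivAt_integral_of_dominated_of_fderiv_le (𝕜 := ℝ)
    (μ := (jointMeasure J μ).restrict s) (F := fun w z => D.weightFun w z)
    (F' := fun w z => D.weightRe w z • reMap + D.weightIm w z • imMap)
    (bound := fun z =>
      2 / (τ.im / 2) * D.majorant (π * (τ.im / 2)) z * (‖reMap‖ + ‖imMap‖))
    hU (Eventually.of_forall fun w => (D.measurable_weightFun w).aestronglyMeasurable)
    (D.integrable_weightFun hconv hτ).restrict
    (((D.measurable_weightRe τ).aestronglyMeasurable.smul_const reMap).add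
      ((D.measurable_weightIm τ).aestronglyMeasurable.smul_const imMap))
    (Eventually.of_forall fun z w hw => by
      obtain ⟨b1, b2⟩ := D.norm_weight_deriv_le hμ hy2 (le_of_lt hw) z
      refine (norm_add_le _ _).trans ?_
      rw [norm_smul, norm_smul, mul_add]
      exact add_le_add (mul_le_mul_of_nonneg_right b1 (norm_nonneg reMap))
        (mul_le_mul_of_nonneg_right b2 (norm_nonneg imMap)))
    (((hconv _ (by positivity)).restrict.const_mul _).mul_const _)
    (Eventually.of_forall fun z w _ => D.hasFDerivAt_weightFun z w)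
  refine h.congr_fderiv ?_
  obtain ⟨i1, i2⟩ := D.integrable_weight_deriv hμ hconv hτ
  rw [integral_add (i1.restrict.smul_const reMap) (i2.restrict.smul_const imMap),
    integral_smul_const, integral_smul_const]

omit [BorelSpace H3] [Countable J] [MeasurableSpace J] [MeasurableSingletonClass J] in
theorem continuous_weightFun_left (z : J × H3) : Continuous fun w => D.weightFun w z := by
  unfold weightFun kern
  fun_prop

theorem continuousOn_setIntegral_deriv (hμ : IsH3Measure μ c) (hconv : D.ConvergesAll)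
    (s : Set (J × H3)) :
    ContinuousOn (fun w => ∫ z in s, D.weightRe w z ∂jointMeasure J μ) upperSet ∧
      ContinuousOn (fun w => ∫ z in s, D.weightIm w z ∂jointMeasure J μ) upperSet := by
  have hcts : ∀ {F : ℂ → J × H3 → ℂ}, (∀ w, Measurable (F w)) →
      (∀ z, Continuous fun w => F w z) →
      (∀ y₀ : ℝ, 0 < y₀ → ∀ w : ℂ, y₀ ≤ w.im → ∀ z,
        ‖F w z‖ ≤ 2 / y₀ * D.majorant (π * y₀) z) →
      ContinuousOn (fun w => ∫ z in s, F w z ∂jointMeasure J μ) upperSet := by
    intro F hm hc hb τ hτ
    have hy2 : 0 < τ.im / 2 := half_pos (show 0 < τ.im from hτ)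
    refine (continuousAt_of_dominated (Eventually.of_forall fun w => (hm w).aestronglyMeasurable)
      ?_ ((hconv _ (mul_pos Real.pi_pos hy2)).restrict.const_mul (2 / (τ.im / 2)))
      (Eventually.of_forall fun z => (hc z).continuousAt)).continuousWithinAt
    filter_upwards [(isOpen_lt continuous_const Complex.continuous_im).mem_nhds
      (show τ.im / 2 < τ.im by linarith)] with w hw
    exact Eventually.of_forall (hb _ hy2 w (le_of_lt hw))
  exact ⟨hcts D.measurable_weightRe
      (fun z => (D.continuous_weightFun_left z).const_mul _)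
      fun y₀ hy w hw z => (D.norm_weight_deriv_le hμ hy hw z).1,
    hcts D.measurable_weightIm (fun z => (D.continuous_weightFun_left z).const_mul _)
      fun y₀ hy w hw z => (D.norm_weight_deriv_le hμ hy hw z).2⟩

theorem contDiffOn_partInt (hμ : IsH3Measure μ c) (hconv : D.ConvergesAll) (s : Set (J × H3)) :
    ContDiffOn ℝ 1 (D.partInt s) upperSet := by
  rw [show (1 : WithTop ℕ∞) = 0 + 1 from (zero_add 1).symm,
    contDiffOn_succ_iff_fderiv_of_isOpen isOpen_upperHalf]
  refine ⟨fun w hw => (D.hasFDerivAt_partInt hμ hconv s hw).differentiableAt.differentiableWithinAt,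
    fun h => absurd h (by simp), contDiffOn_zero.mpr ?_⟩
  obtain ⟨c1, c2⟩ := D.continuousOn_setIntegral_deriv hμ hconv s
  exact ((c1.smul continuousOn_const).add (c2.smul continuousOn_const)).congr
    fun w hw => (D.hasFDerivAt_partInt hμ hconv s hw).fderiv

/-- The parts of the lift are continuously differentiable. -/
theorem contDiffOn_liftPart (hμ : IsH3Measure μ c) (hconv : D.ConvergesAll) (s : Set (J × H3)) :
    ContDiffOn ℝ 1 (D.liftPart s) upperSet :=
  contDiffOn_sqrtIm.mul (D.contDiffOn_partInt hμ hconv s)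

/-- The density of `∂/∂τ̄` of the lift. -/
def dbarWeight (τ : ℂ) (z : J × H3) : ℂ :=
  Complex.I / (4 * sqrtIm τ) * D.weightFun τ z
    + sqrtIm τ * ((2 : ℂ)⁻¹ * (D.weightRe τ z + Complex.I * D.weightIm τ z))

/-- The antiholomorphic derivative of the summand is integrable. -/
theorem integrable_dbarWeight (hμ : IsH3Measure μ c) (hconv : D.ConvergesAll) {τ : ℂ}
    (hτ : 0 < τ.im) : Integrable (D.dbarWeight τ) (jointMeasure J μ) := by
  obtain ⟨i1, i2⟩ := D.integrable_weight_deriv hμ hconv hτ
  exact ((D.integrable_weightFun hconv hτ).const_mul _).add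
    (((i1.add (i2.const_mul _)).const_mul _).const_mul _)

/-- `∂/∂τ̄` of a part of the lift is the integral of `dbarWeight`. -/
theorem dbar_liftPart (hμ : IsH3Measure μ c) (hconv : D.ConvergesAll) (s : Set (J × H3))
    {τ : ℂ} (hτ : 0 < τ.im) :
    dbar (D.liftPart s) τ = ∫ z in s, D.dbarWeight τ z ∂jointMeasure J μ := by
  obtain ⟨i1, i2⟩ := D.integrable_weight_deriv hμ hconv hτ
  unfold liftPart
  rw [dbar_mul (differentiableAt_of_contDiffOn contDiffOn_sqrtIm hτ)
    (D.hasFDerivAt_partInt hμ hconv s hτ).differentiableAt, dbar_sqrtIm hτ]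
  have e : dbar (D.partInt s) τ = (2 : ℂ)⁻¹ * ((∫ z in s, D.weightRe τ z ∂jointMeasure J μ)
      + Complex.I * ∫ z in s, D.weightIm τ z ∂jointMeasure J μ) := by
    rw [dbar, (D.hasFDerivAt_partInt hμ hconv s hτ).fderiv]
    simp [reMap, imMap]
  have hA : Integrable (fun z => Complex.I / (4 * sqrtIm τ) * D.weightFun τ z)
      ((jointMeasure J μ).restrict s) := ((D.integrable_weightFun hconv hτ).const_mul _).restrict
  have hI : Integrable (fun z => Complex.I * D.weightIm τ z) ((jointMeasure J μ).restrict s) :=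
    (i2.const_mul _).restrict
  have hS : Integrable (fun z => D.weightRe τ z + Complex.I * D.weightIm τ z)
      ((jointMeasure J μ).restrict s) := i1.restrict.add hI
  rw [e, partInt]
  simp only [dbarWeight]
  rw [integral_add hA ((hS.const_mul _).const_mul _), integral_const_mul, integral_const_mul,
    integral_const_mul, integral_add i1.restrict hI, integral_const_mul]

/-! ### Parts of constant norm -/

/-- The indices of norm `q`. -/
def normSet (q : ℝ) : Set (J × H3) := D.normZ ⁻¹' {q}

omit [BorelSpace H3] in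
/-- The set of a given norm is measurable. -/
theorem measurableSet_normSet (q : ℝ) : MeasurableSet (D.normSet q) :=
  D.measurable_normZ (measurableSet_singleton q)

omit [BorelSpace H3] [Countable J] [MeasurableSpace J] [MeasurableSingletonClass J] in
/-- For nonzero `q` the set of norm `q` is `condSet q`. -/
theorem normSet_eq_condSet {q : ℝ} (hq : q ≠ 0) : D.normSet q = D.condSet q := by
  ext z
  refine ⟨fun h => ⟨h, fun h0 => hq ?_⟩, fun h => h.1⟩
  rw [← show nForm (D.X z.1) = q from h, h0]
  simp [nForm]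

omit [BorelSpace H3] [Countable J] [MeasurableSpace J] [MeasurableSingletonClass J] in
/-- The summand at a given norm, split into exponential and Gaussian factor. -/
theorem weightFun_of_normZ {q : ℝ} (τ : ℂ) {z : J × H3} (hz : D.normZ z = q) :
    D.weightFun τ z = Complex.exp (2 * π * Complex.I * q * τ) *
      ((D.ω z.1 z.2 * Real.exp (-(4 * π * τ.im * mTrace (D.X z.1) z.2 ^ 2))) • D.ψ z.1 z.2) := by
  have hk : D.kern z τ = Complex.exp (2 * π * Complex.I * q * τ) *
      ((Real.exp (-(4 * π * τ.im * mTrace (D.X z.1) z.2 ^ 2)) : ℝ) : ℂ) := by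
    rw [kern, majZ, show nForm (D.X z.1) = q from hz, hz, Complex.ofReal_exp, ← Complex.exp_add]
    congr 1
    conv_rhs => rw [← Complex.re_add_im τ]
    push_cast
    simp only [I_re, I_im, ofReal_re, ofReal_im, add_im, mul_im, mul_zero, mul_one, add_zero,
      zero_add]
    linear_combination (-(2 * (π : ℂ) * q * τ.im)) * I_sq
  rw [weightFun, hk]
  simp only [Complex.real_smul]
  push_cast
  ring

omit [BorelSpace H3] in
/-- A part of constant nonzero norm is `qⁿ` times the coefficient. -/
theorem liftPart_normSet {q : ℝ} (hq : q ≠ 0) (τ : ℂ) :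
    D.liftPart (D.normSet q) τ = Complex.exp (2 * π * Complex.I * q * τ) * D.coeff q τ.im := by
  have h : D.partInt (D.normSet q) τ = Complex.exp (2 * π * Complex.I * q * τ)
      * D.pairing q fun x => Real.exp (-(4 * π * τ.im * x ^ 2)) := by
    rw [partInt, setIntegral_congr_fun (D.measurableSet_normSet q)
      (fun z hz => D.weightFun_of_normZ τ hz), integral_const_mul, pairing,
      D.normSet_eq_condSet hq, integral_indicator (D.measurableSet_condSet q)]
  rw [liftPart, h, coeff, Complex.real_smul, sqrtIm]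
  ring

/-- Absolute convergence of the lift gives convergence at each norm. -/
theorem Converges.of_convergesAll (hconv : D.ConvergesAll) (q : ℝ) :
    D.Converges q := by
  intro t ht
  have hm : Measurable fun z : J × H3 =>
      D.ω z.1 z.2 * ‖D.ψ z.1 z.2‖ * Real.exp (-(t * mTrace (D.X z.1) z.2 ^ 2)) :=
    (D.measurable_part.mul D.measurable_weight.norm).mul
      ((D.measurable_mTrace.pow_const 2).const_mul t).neg.exp
  refine ((hconv (t / 2) (half_pos ht)).const_mul (Real.exp (t / 2 * q))).mono'
    (hm.indicator (D.measurableSet_condSet q)).aestronglyMeasurable (Eventually.of_forall fun z => ?_)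
  by_cases hz : z ∈ D.condSet q
  · rw [indicator_of_mem hz, Real.norm_eq_abs, abs_of_nonneg (mul_nonneg (mul_nonneg
      (D.ω_nonneg _ _) (norm_nonneg _)) (Real.exp_pos _).le), majorant, majZ,
      show nForm (D.X z.1) = q from hz.1]
    refine le_of_eq ?_
    rw [← mul_assoc, mul_comm (Real.exp _) (D.ω _ _ * _), mul_assoc (D.ω _ _ * _), ← Real.exp_add]
    ring_nf
  · rw [indicator_of_notMem hz, norm_zero]
    exact mul_nonneg (Real.exp_pos _).le (D.majorant_nonneg _ _)

omit [MeasurableSpace H3] [BorelSpace H3] in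
theorem dbar_cexp_mul_comp_im {q : ℝ} {a : ℝ → ℂ} {a' : ℂ} {τ : ℂ} (ha : HasDerivAt a a' τ.im) :
    dbar (fun w => Complex.exp (2 * π * Complex.I * q * w) * a w.im) τ
      = Complex.exp (2 * π * Complex.I * q * τ) * (Complex.I / 2 * a') := by
  have he : DifferentiableAt ℂ (fun w : ℂ => Complex.exp (2 * π * Complex.I * q * w)) τ := by fun_prop
  have ha2 : DifferentiableAt ℝ (fun w : ℂ => a w.im) τ :=
    (ha.hasFDerivAt.comp τ imCLM.hasFDerivAt).differentiableAt
  rw [dbar_mul (he.restrictScalars ℝ) ha2, dbar_eq_zero he, zero_mul, zero_add, dbar_comp_im ha]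

variable [Countable G] [SigmaFinite μ] in
/-- `ξ` of a part of constant norm is entire. -/
theorem exists_xiFun_liftPart (hμ : IsH3Measure μ c) (hc : c ≠ 0) (hconv : D.ConvergesAll)
    {q : ℝ} (hq : q ≠ 0) :
    ∃ K : ℂ, ∀ τ : ℂ, 0 < τ.im →
      xiFun (D.liftPart (D.normSet q)) τ = K * Complex.exp (-(2 * π * Complex.I * q * τ)) := by
  have hfun : D.liftPart (D.normSet q)
      = fun w => Complex.exp (2 * π * Complex.I * q * w) * D.coeff q w.im :=
    funext (D.liftPart_normSet hq)
  have hc' := Converges.of_convergesAll D hconv q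
  rcases lt_or_gt_of_ne hq with hneg | hpos
  · obtain ⟨B, hB, -⟩ := D.coeff_neg hμ hc hneg hc'
    refine ⟨-(Complex.I / 2) * conj B, fun τ hτ => ?_⟩
    rw [xiFun, hfun, dbar_cexp_mul_comp_im (hB τ.im hτ), Complex.real_smul]
    simp only [map_mul, map_div₀, Complex.conj_I, Complex.conj_ofReal, map_ofNat,
      ← Complex.exp_conj]
    have hy : (τ.im : ℂ) ≠ 0 := ofReal_ne_zero.mpr hτ.ne'
    have e : Complex.exp (2 * π * -Complex.I * q * conj τ)
        * ((Real.exp (4 * π * q * τ.im) : ℝ) : ℂ)
        = Complex.exp (-(2 * π * Complex.I * q * τ)) := by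
      rw [Complex.ofReal_exp, ← Complex.exp_add]
      congr 1
      have hc2 : conj τ = (τ.re : ℂ) - τ.im * Complex.I := by
        apply Complex.ext <;> simp
      rw [hc2]
      conv_rhs => rw [← Complex.re_add_im τ]
      push_cast
      linear_combination (4 * (π : ℂ) * q * τ.im) * I_sq
    rw [← e]
    push_cast
    field_simp
  · refine ⟨0, fun τ hτ => ?_⟩
    have hd : HasDerivAt (D.coeff q) 0 τ.im :=
      (hasDerivAt_const τ.im (D.coeff q 1)).congr_of_eventuallyEq
        (eventually_of_mem (Ioi_mem_nhds hτ) fun u hu => D.coeff_pos hμ hc hpos hc' hu)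
    rw [xiFun, hfun, dbar_cexp_mul_comp_im hd]
    simp

end LiftData

end Fermat.Agent.LT.Lift
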