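import Fermat.Agent.LT.Lift.Step
import Fermat.Agent.LT.Asai.Period
import Fermat.Agent.LT.TestVector.Main

/-!
# The lift step from test vectors

`LiftStep` follows once every test vector with a nonzero period yields a lifted form.
-/

set_option autoImplicit false

noncomputable section

open scoped NumberField

namespace Fermat.Agent.LT.Lift

open Asai Places

/-- **`LiftStep` from the lift of a test vector with a nonzero period.** -/
theorem liftStep_of_period
    (H : ∀ (N : ℕ) (lam : Ideal (𝓞 EisField) → ℂ) (M : ℕ) (hM : 0 < M)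
      (φ : Y (Level.principal EisField M hM) → ℂ) (t : (FinAdele EisField)ˣ) (e j : ℕ),
      haveI : NeZero M := ⟨hM.ne'⟩
      IsTestVector N ∅ lam hM φ t e → j < 3 ^ e * M →
        period ((3 ^ e * M) ^ 2) (unitSum φ
          ((dia t : GLFin EisField) : GLFin EisField ⧸ (Level.principal EisField M hM).toSubgroup)
          (3 ^ e * M) j) ≠ 0 →
      HasLiftedForm lam) :
    LiftStep :=
  liftStep_of_forms fun ρ hρ Ψ hΨ N hN ι φ lam T hsq hcusp hne hsys hreal hval => by
    obtain ⟨M, hM, φ', t, e, j, htv, hj, hper⟩ :=
      exists_testVector_period hρ hΨ hN ι T hcusp hne hsys hreal hval fun P hP => by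
        obtain ⟨M, hM, e, φ', t, hNM, h3, hPM, -, hsqM, hc, he, hbad, hgood, hcoef⟩ :=
          TestVector.exists_testVector hN hsq P hcusp hne hsys
        exact ⟨M, hM, φ', t, e, hNM, h3, hsqM, fun p hp => hPM p hp (hP p hp), hc, he, hbad,
          hgood, hcoef⟩
    exact H N lam M hM φ' t e j htv hj hper

end Fermat.Agent.LT.Lift

end
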