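import Fermat.Agent.LT.Lift.FormPackage
import Fermat.Agent.LT.Setup.Contracts
import Fermat.Agent.LT.LiftHecke.Eigenvector
import Fermat.Agent.LT.Final.Galois

/-!
# From forms of weight one to the lift step

`LiftStep` holds if every descended cusp form has a lifted form: weight one, character `χ₋₃`,
nonzero first coefficient and the Hecke relations at the split primes.  The data of a theta lift
give such a form.
-/

set_option autoImplicit false

noncomputable section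

open CongruenceSubgroup UpperHalfPlane
open scoped NumberField MatrixGroups
open NumberField (InfinitePlace)

namespace Fermat.Agent.LT.Lift

open LiftHecke (chiHeckeSeq)
open Final (IsChiInvariant)

local notation "Γℚ" => (AlgebraicClosure ℚ ≃ₐ[ℚ] AlgebraicClosure ℚ)

/-- What the lift gives for a cusp form on `ℚ(ζ₃)` with eigenvalues `lam`: a form of weight one
and character `χ₋₃` whose first coefficient is nonzero and which satisfies the Hecke relation at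
every split prime, with eigenvalue `lam 𝔭 / √p`. -/
def HasLiftedForm (lam : Ideal (𝓞 EisField) → ℂ) : Prop :=
  ∃ (M : ℕ) (f : CuspForm (Gamma1 M) 1),
    0 < M ∧ (∀ q : ℕ, q.Prime → q ≠ 3 → ¬ q ^ 3 ∣ M) ∧ IsChiInvariant M f ∧
    ModularFormClass.qCoeff f 1 ≠ 0 ∧
    ∀ p : ℕ, p.Prime → p % 3 = 1 → ¬ p ∣ 3 * M →
      ∃ 𝔭 : Ideal (𝓞 EisField), 𝔭.IsPrime ∧ Ideal.absNorm 𝔭 = p ∧
        ∀ n : ℕ, chiHeckeSeq p (ModularFormClass.qCoeff f) n =
          lam 𝔭 / (Real.sqrt p : ℂ) * ModularFormClass.qCoeff f n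

theorem mod_three_of_inQuaternion {ρ : Γℚ →* GL (Fin 2) (ZMod 3)}
    (hdet : ∀ σ, Matrix.GeneralLinearGroup.det (ρ σ) =
      WeierstrassCurve.modThreeCyclotomicChar σ) {p : ℕ} (hp : p.Prime) (h3 : ¬ p ∣ 3)
    {A : ValuationSubring (AlgebraicClosure ℚ)} (hA : A.LiesOverPrime p) {σ : Γℚ}
    (hσ : A.IsFrobeniusAt σ p) (hQ : Final.InQuaternion (ρ σ)) : p % 3 = 1 := by
  have h := Final.det_frobenius hdet hp h3 hA hσ
  rw [if_pos hQ.1, EisensteinWeightOne.chiNegThree] at h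
  by_contra h1
  rw [if_neg h1] at h
  split_ifs at h
  all_goals omega

/-- **`LiftStep` from lifted forms.** -/
theorem liftStep_of_forms
    (H : ∀ (ρ : Γℚ →* GL (Fin 2) (ZMod 3)), IsSupersingularRep ρ →
      ∀ Ψ : GL (Fin 2) (ZMod 3) →* GL (Fin 2) (ℤ√(-2)),
        (∀ g, Matrix.GeneralLinearGroup.map FLT.ExplicitLift.red (Ψ g) = g) →
      ∀ (N : ℕ) (hN : 0 < N) (ι : ℤ√(-2) →+* ℂ) (φ : Y (Level.principal EisField N hN) → ℂ)
        (lam : Ideal (𝓞 EisField) → ℂ) (T : Finset ℕ),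
        (∀ q : ℕ, q.Prime → q ≠ 3 → ¬ q ^ 2 ∣ N) →
        IsSphericalCuspForm φ → (∃ y, φ y ≠ 0) → IsHeckeEigenSystem N φ lam →
        (∀ 𝔭 : Ideal (𝓞 EisField), 𝔭.IsPrime → 𝔭 ≠ ⊥ → (N : 𝓞 EisField) ∉ 𝔭 →
          (lam 𝔭).im = 0) →
        (∀ p : ℕ, p.Prime → p ∉ T → ¬ p ∣ 3 * N →
          ∀ A : ValuationSubring (AlgebraicClosure ℚ), A.LiesOverPrime p →
            (∀ τ ∈ A.inertiaSubgroupIn ℚ, ρ τ = 1) →
            ∀ σ : Γℚ, A.IsFrobeniusAt σ p →
              ∀ (𝔭 : Ideal (𝓞 EisField)) (f : ℕ), 𝔭.IsPrime → Ideal.absNorm 𝔭 = p ^ f →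
                Final.InQuaternion (ρ σ ^ f) →
                lam 𝔭 = (Real.sqrt p : ℂ) ^ f *
                  ι ((Ψ (ρ σ ^ f) : GL (Fin 2) (ℤ√(-2))) :
                    Matrix (Fin 2) (Fin 2) (ℤ√(-2))).trace) →
        HasLiftedForm lam) :
    LiftStep := by
  classical
  intro ρ hρ Ψ hΨ N hform
  obtain ⟨hsq, hN, ι, φ, lam, T, hcusp, hne, hsys, hreal, hval⟩ := hform
  obtain ⟨M, f, hM, hcube, hchi, h1, hrel⟩ :=
    H ρ hρ Ψ hΨ N hN ι φ lam T hsq hcusp hne hsys hreal hval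
  have : NeZero M := ⟨hM.ne'⟩
  -- the primes split in the cubic field
  let Pr : Set ℕ := {p | p.Prime ∧ p ∉ T ∧ ¬ p ∣ 3 * N ∧ ¬ p ∣ 3 * M ∧
    ∃ (A : ValuationSubring (AlgebraicClosure ℚ)) (σ : Γℚ), A.LiesOverPrime p ∧
      (∀ τ ∈ A.inertiaSubgroupIn ℚ, ρ τ = 1) ∧ A.IsFrobeniusAt σ p ∧
      Final.InQuaternion (ρ σ)}
  let a : ℕ → ℂ := fun p =>
    if h : p.Prime ∧ p % 3 = 1 ∧ ¬ p ∣ 3 * M then
      lam (hrel p h.1 h.2.1 h.2.2).choose / (Real.sqrt p : ℂ)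
    else 0
  have hmod : ∀ p ∈ Pr, p.Prime ∧ p % 3 = 1 ∧ ¬ p ∣ 3 * M := by
    rintro p ⟨hp, -, -, hpM, A, σ, hA, -, hσ, hQ⟩
    exact ⟨hp, mod_three_of_inQuaternion hρ.det hp
      (fun h => hpM (h.trans (dvd_mul_right 3 M))) hA hσ hQ, hpM⟩
  obtain ⟨ε, g, hg1, hgrel, hga⟩ := LiftHecke.exists_eigen_of_split_relations f hchi h1 Pr a
    (fun p hp => ⟨(hmod p hp).1, (hmod p hp).2.2⟩) fun p hp n => by
      have h := hmod p hp
      simp only [a, dif_pos h]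
      exact (hrel p h.1 h.2.1 h.2.2).choose_spec.2.2 n
  refine ⟨Final.finalLevel M, ⟨Final.finalLevel_pos hM, ι, ε, g,
    T ∪ (3 * N).primeFactors ∪ (3 * M).primeFactors, hg1, hgrel, ?_⟩,
    fun q hq hq3 => Final.finalLevel_not_cube_dvd hq hq3 (hcube q hq hq3)⟩
  intro p hp hpT _ A hA hI σ hσ hQ
  simp only [Finset.mem_union, not_or] at hpT
  have hpN : ¬ p ∣ 3 * N := fun h =>
    hpT.1.2 (Nat.mem_primeFactors.mpr ⟨hp, h, by positivity⟩)
  have hpM : ¬ p ∣ 3 * M := fun h =>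
    hpT.2 (Nat.mem_primeFactors.mpr ⟨hp, h, by positivity⟩)
  have hmem : p ∈ Pr := ⟨hp, hpT.1.1, hpN, hpM, A, σ, hA, hI, hσ, hQ⟩
  have h := hmod p hmem
  obtain ⟨hprime, hnorm, -⟩ := (hrel p h.1 h.2.1 h.2.2).choose_spec
  rw [hga p hmem]
  simp only [a, dif_pos h]
  rw [hval p hp hpT.1.1 hpN A hA hI σ hσ _ 1 hprime (by rw [pow_one]; exact hnorm)
    (by rw [pow_one]; exact hQ), pow_one, pow_one, mul_div_cancel_left₀]
  exact_mod_cast (Real.sqrt_pos.mpr (Nat.cast_pos.mpr hp.pos)).ne'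

open LiftHecke in
/-- What the split prime `p` must provide for the weight `W`. -/
def HasSplitRelation {U : Level EisField} {Fr : HermFrame EisField} {C : NormScale Fr U}
    (W : ThetaWeight Fr C) (φ : Y U → ℂ) (lam : Ideal (𝓞 EisField) → ℂ) (p : ℕ) : Prop :=
  ∃ (v : SplitPlace EisField) (h : HeckeFn U) (𝔭 : Ideal (𝓞 EisField)),
    (v.p : ℕ) = p ∧ 𝔭.IsPrime ∧ Ideal.absNorm 𝔭 = p ∧ W.IsSplitFor v 1 ∧
    (∀ i, C.c (ThetaWeight.nbr v i) = (v.p : ℕ)) ∧ (∀ a b, h.kernel a b = h.kernel b a) ∧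
    (∀ (u : Y U → ℂ) (P : InfinitePlace EisField → H3) (g : GLFin EisField),
      h.op u (P, QuotientGroup.mk g) =
        ∑ i, u (P, QuotientGroup.mk (g * ThetaWeight.nbr v i))) ∧
    h.IsEigen φ (lam 𝔭)

open LiftHecke in
/-- **The lifted form from the data of the theta lift.** -/
theorem hasLiftedForm_of_weight [Unique (InfinitePlace EisField)] {U : Level EisField}
    {Fr : HermFrame EisField} {C : NormScale Fr U} {W : ThetaWeight Fr C}
    {π : PartitionOfUnity U} {φ : Y U → ℂ} {lam : Ideal (𝓞 EisField) → ℂ} {M : ℕ}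
    (hM : 0 < M) (h3 : 3 ∣ M) (hcube : ∀ q : ℕ, q.Prime → q ≠ 3 → ¬ q ^ 3 ∣ M)
    (h : AdelicInput W π φ) (hin : LiftFormInput W π φ M)
    (hone : (adelicData h).coeff 1 1 ≠ 0)
    (hsplit : ∀ p : ℕ, p.Prime → p % 3 = 1 → ¬ p ∣ 3 * M → HasSplitRelation W φ lam p) :
    HasLiftedForm lam := by
  classical
  have : NeZero M := ⟨hM.ne'⟩
  obtain ⟨f, -, hchi, hcoeff⟩ := exists_liftForm h3 h hin
  refine ⟨M, f, hM, hcube, hchi, by rw [hcoeff 1 one_pos, Nat.cast_one]; exact hone,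
    fun p hp hp3 hpM => ?_⟩
  obtain ⟨v, T, 𝔭, hvp, hprime, hnorm, hv, hc, hsymm, hop, heig⟩ := hsplit p hp hp3 hpM
  refine ⟨𝔭, hprime, hnorm, fun n => ?_⟩
  have hchi3 : EisensteinWeightOne.chiNegThree p = 1 := by
    rw [EisensteinWeightOne.chiNegThree, if_pos hp3]
  rcases Nat.eq_zero_or_pos n with rfl | hn
  · simp [chiHeckeSeq, Final.qCoeff_zero_Gamma1]
  have hA : ∀ m : ℕ, 0 < m →
      W.IsCoefficient default π φ m (2 * (adelicData h).coeff m 1) := fun m hm =>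
    isCoefficient_coeff h hin.good.bound (Nat.cast_pos.mpr hm)
  have hφm : Measurable φ := measurable_from_prod_countable_left fun c =>
    (h.cusp.cuspEigen.continuous c).measurable
  have key := W.coefficient_relation (h.embedding default) hv hc hsymm hop h.measurable_weight
    hφm h.cusp.cuspEigen.automorphic h.cusp.cuspEigen.bounded heig hA hn
  simp only [hvp, one_mul] at key
  simp only [chiHeckeSeq, hchi3, Int.cast_one, one_mul]
  rw [hcoeff (p * n) (Nat.mul_pos hp.pos hn), hcoeff n hn]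
  split_ifs at key ⊢ with hd
  · rw [hcoeff (n / p) (Nat.div_pos (Nat.le_of_dvd hn hd) hp.pos)]
    linear_combination key / 2
  · linear_combination key / 2

end Fermat.Agent.LT.Lift

end
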